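import Mathlib
import Fermat.Agent.S20.Rank

set_option autoImplicit false

/-!
# The `SL(2,ℤ)`-conjugates of `j_N = J(N z)`

`J : ℍ → ℂ` is any function with
* `hinv : ∀ γ : SL(2, ℤ), ∀ z, J (γ • z) = J z` and
* `hq : Tendsto (fun z => J z * 𝕢 1 z) atImInfty (𝓝 1)`
(e.g. the modular invariant `E₄³ / Δ`).  We show

* `comp_smul_eq_of_mem_Gamma0`: `z ↦ J (N z)` is `Γ₀(N)`-invariant,
* `exists_hermite`: `J (N (δ z)) = J ((a z + b) / d)` with `a d = N`, `a ∣ δ₁₀`,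
* `mem_Gamma0_of_comp_eq`: if `J (N (δ z)) = J (N z)` for all `z` then `δ ∈ Γ₀(N)`,
* `conjFn_injective`: the `ψ(N)` conjugates indexed by `SL(2,ℤ) ⧸ Γ₀(N)` are pairwise distinct.
-/

namespace Fermat.Agent.S24.JConj

open UpperHalfPlane CongruenceSubgroup Matrix.SpecialLinearGroup Filter Topology
open Fermat.Agent.S20 Fermat.Agent.S20.Rank
open scoped MatrixGroups ModularForm Manifold Real

noncomputable section

/-- the point `N z` of the upper half plane -/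
def mulN (N : ℕ) [NeZero N] (z : ℍ) : ℍ := affH N 0 1 (natCast_pos' N) one_pos z

theorem coe_mulN (N : ℕ) [NeZero N] (z : ℍ) : (mulN N z : ℂ) = (N : ℂ) * z := by
  unfold mulN
  rw [coe_affH]
  push_cast
  ring

/-- `N (δ z) = γ ((a z + b) / d)` when `diag(N,1) δ = γ (a b; 0 d)`. -/
theorem mulN_smul_of_decomp (N : ℕ) [NeZero N] (δ γ : SL(2, ℤ)) (a b d : ℤ) (ha : 0 < a)
    (hd : 0 < d)
    (h1 : (N : ℤ) * δ 0 0 = γ 0 0 * a) (h2 : (N : ℤ) * δ 0 1 = γ 0 0 * b + γ 0 1 * d)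
    (h3 : δ 1 0 = γ 1 0 * a) (h4 : δ 1 1 = γ 1 0 * b + γ 1 1 * d) (z : ℍ) :
    mulN N (δ • z) = γ • affH a b d (intCast_pos' ha) (intCast_pos' hd) z := by
  have hdC : (d : ℂ) ≠ 0 := by exact_mod_cast hd.ne'
  have c1 : (N : ℂ) * (δ 0 0 : ℤ) = (γ 0 0 : ℤ) * a := by exact_mod_cast h1
  have c2 : (N : ℂ) * (δ 0 1 : ℤ) = (γ 0 0 : ℤ) * b + (γ 0 1 : ℤ) * d := by exact_mod_cast h2
  have c3 : ((δ 1 0 : ℤ) : ℂ) = (γ 1 0 : ℤ) * a := by exact_mod_cast h3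
  have c4 : ((δ 1 1 : ℤ) : ℂ) = (γ 1 0 : ℤ) * b + (γ 1 1 : ℤ) * d := by exact_mod_cast h4
  set w := affH a b d (intCast_pos' ha) (intCast_pos' hd) z with hw
  have hwc : (w : ℂ) = ((a : ℂ) * z + b) / d := by
    rw [hw, coe_affH]; push_cast; rfl
  have hden0 : denom δ z ≠ 0 := denom_ne_zero _ z
  have hden1 : denom γ w ≠ 0 := denom_ne_zero _ w
  apply UpperHalfPlane.ext
  rw [coe_mulN, coe_specialLinearGroup_apply, coe_specialLinearGroup_apply]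
  simp only [algebraMap_int_eq, eq_intCast, Complex.ofReal_intCast]
  rw [ModularGroup.denom_apply] at hden0 hden1
  rw [mul_div_assoc', div_eq_div_iff hden0 hden1, hwc]
  field_simp
  linear_combination (((γ 1 0 : ℤ) : ℂ) * a * z + (γ 1 0 : ℤ) * b + (γ 1 1 : ℤ) * d) * z * c1 +
    (((γ 1 0 : ℤ) : ℂ) * a * z + (γ 1 0 : ℤ) * b + (γ 1 1 : ℤ) * d) * c2
    - (((γ 0 0 : ℤ) : ℂ) * a * z + (γ 0 0 : ℤ) * b + (γ 0 1 : ℤ) * d) * z * c3
    - (((γ 0 0 : ℤ) : ℂ) * a * z + (γ 0 0 : ℤ) * b + (γ 0 1 : ℤ) * d) * c4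

/-- Hermite form: `N (δ z) = γ ((a z + b) / d)` with `a d = N`, `a ∣ δ₁₀`. -/
theorem exists_hermite_point (N : ℕ) [NeZero N] (δ : SL(2, ℤ)) :
    ∃ (γ : SL(2, ℤ)) (a b d : ℤ) (ha : 0 < a) (hd : 0 < d), a * d = N ∧ a ∣ δ 1 0 ∧
      ∀ z : ℍ, mulN N (δ • z) = γ • affH a b d (intCast_pos' ha) (intCast_pos' hd) z := by
  obtain ⟨γ, a, b, d, ha, hd, had, h1, h2, h3, h4⟩ := hermite_decomp N δ
  exact ⟨γ, a, b, d, ha, hd, had, ⟨γ 1 0, by rw [h3]; ring⟩,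
    mulN_smul_of_decomp N δ γ a b d ha hd h1 h2 h3 h4⟩

/-- For `γ ∈ Γ₀(N)`: `N (γ z) = γ' (N z)` for some `γ' ∈ SL(2,ℤ)`. -/
theorem exists_mulN_smul_of_mem_Gamma0 (N : ℕ) [NeZero N] (γ : SL(2, ℤ)) (hγ : γ ∈ Gamma0 N) :
    ∃ γ' : SL(2, ℤ), ∀ z : ℍ, mulN N (γ • z) = γ' • mulN N z := by
  rw [Gamma0_mem] at hγ
  have hdvd : (N : ℤ) ∣ γ 1 0 := (ZMod.intCast_zmod_eq_zero_iff_dvd _ _).mp hγ
  obtain ⟨c', hc'⟩ := hdvd
  have hdet : γ 0 0 * γ 1 1 - γ 0 1 * γ 1 0 = 1 := by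
    have := γ.det_coe
    rwa [Matrix.det_fin_two] at this
  have hN : (0 : ℤ) < N := by exact_mod_cast Nat.pos_of_ne_zero (NeZero.ne N)
  let γ' : SL(2, ℤ) := ⟨!![γ 0 0, N * γ 0 1; c', γ 1 1], by
    rw [Matrix.det_fin_two_of]; rw [hc'] at hdet; linarith⟩
  refine ⟨γ', fun z => ?_⟩
  have := mulN_smul_of_decomp N γ γ' N 0 1 hN one_pos (by simp [γ', mul_comm]) (by simp [γ'])
    (by simp [γ', hc', mul_comm]) (by simp [γ']) z
  rw [this]
  congr 1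
  apply UpperHalfPlane.ext
  rw [coe_mulN, coe_affH]
  push_cast
  ring

section J

variable {J : ℍ → ℂ}

/-- `z ↦ J (N z)` is invariant under `Γ₀(N)`. -/
theorem comp_smul_eq_of_mem_Gamma0 (hinv : ∀ (γ : SL(2, ℤ)) (z : ℍ), J (γ • z) = J z)
    (N : ℕ) [NeZero N] (γ : SL(2, ℤ)) (hγ : γ ∈ Gamma0 N) (z : ℍ) :
    J (mulN N (γ • z)) = J (mulN N z) := by
  obtain ⟨γ', h⟩ := exists_mulN_smul_of_mem_Gamma0 N γ hγ
  rw [h z, hinv]

/-- `J (N (δ z)) = J ((a z + b) / d)` with `a d = N`, `a ∣ δ₁₀`. -/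
theorem exists_hermite (hinv : ∀ (γ : SL(2, ℤ)) (z : ℍ), J (γ • z) = J z)
    (N : ℕ) [NeZero N] (δ : SL(2, ℤ)) :
    ∃ (a b d : ℤ) (ha : 0 < a) (hd : 0 < d), a * d = N ∧ a ∣ δ 1 0 ∧
      ∀ z : ℍ, J (mulN N (δ • z)) = J (affH a b d (intCast_pos' ha) (intCast_pos' hd) z) := by
  obtain ⟨γ, a, b, d, ha, hd, had, hdvd, h⟩ := exists_hermite_point N δ
  exact ⟨a, b, d, ha, hd, had, hdvd, fun z => by rw [h z, hinv]⟩

/-- the normalised function `J * q` -/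
def normFactor (J : ℍ → ℂ) (τ : ℍ) : ℂ := J τ * Function.Periodic.qParam 1 (τ : ℂ)

theorem norm_J (J : ℍ → ℂ) (τ : ℍ) :
    ‖J τ‖ = Real.exp (2 * π * τ.im) * ‖normFactor J τ‖ := by
  unfold normFactor
  rw [norm_mul]
  have hq : ‖Function.Periodic.qParam 1 (τ : ℂ)‖ = Real.exp (-2 * π * τ.im) := by
    simp [Function.Periodic.qParam, Complex.norm_exp]
  rw [hq, mul_comm (Real.exp _), mul_assoc, ← Real.exp_add]
  have : -2 * π * τ.im + 2 * π * τ.im = 0 := by ring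
  rw [this, Real.exp_zero, mul_one]

theorem not_lt_of_norm_eq (hq : Tendsto (normFactor J) atImInfty (𝓝 1))
    {a b d a' b' d' : ℝ} (ha : 0 < a) (hd : 0 < d) (ha' : 0 < a') (hd' : 0 < d')
    (h : ∀ z, ‖J (affH a b d ha hd z)‖ = ‖J (affH a' b' d' ha' hd' z)‖) :
    ¬ (a / d < a' / d') := by
  intro hlt
  have e1 : ∀ᶠ z in atImInfty, ‖normFactor J (affH a b d ha hd z)‖ ≤ 2 := by
    have := (hq.comp (tendsto_affH a b d ha hd)).eventually
      (Metric.ball_mem_nhds 1 (by norm_num : (0 : ℝ) < 1 / 2))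
    filter_upwards [this] with z hz
    simp only [Function.comp, Complex.dist_eq] at hz
    have h1 := norm_sub_norm_le (normFactor J (affH a b d ha hd z)) (1 : ℂ)
    rw [norm_one] at h1
    linarith
  have e2 : ∀ᶠ z in atImInfty, 1 / 2 ≤ ‖normFactor J (affH a' b' d' ha' hd' z)‖ := by
    have := (hq.comp (tendsto_affH a' b' d' ha' hd')).eventually
      (Metric.ball_mem_nhds 1 (by norm_num : (0 : ℝ) < 1 / 2))
    filter_upwards [this] with z hz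
    simp only [Function.comp, Complex.dist_eq] at hz
    have h1 := norm_sub_norm_le (1 : ℂ) (normFactor J (affH a' b' d' ha' hd' z))
    rw [norm_one, norm_sub_rev] at h1
    linarith
  have e3 : Tendsto (fun z : ℍ => Real.exp (2 * π * (a' / d' - a / d) * z.im)) atImInfty atTop := by
    refine Real.tendsto_exp_atTop.comp ?_
    refine Tendsto.const_mul_atTop ?_ tendsto_comap
    have : 0 < a' / d' - a / d := sub_pos.mpr hlt
    positivity
  have e4 := e3.eventually_gt_atTop 4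
  obtain ⟨z, hz1, hz2, hz3⟩ := (e1.and (e2.and e4)).exists
  have hz := h z
  rw [norm_J J (affH a b d ha hd z), norm_J J (affH a' b' d' ha' hd' z), im_affH, im_affH] at hz
  have hexp : Real.exp (2 * π * (a' / d' - a / d) * z.im) =
      Real.exp (2 * π * (a' / d' * z.im)) / Real.exp (2 * π * (a / d * z.im)) := by
    rw [← Real.exp_sub]; congr 1; ring
  rw [hexp, lt_div_iff₀ (Real.exp_pos _)] at hz3
  have p1 := Real.exp_pos (2 * π * (a / d * z.im))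
  have p2 := Real.exp_pos (2 * π * (a' / d' * z.im))
  nlinarith [mul_le_mul_of_nonneg_left hz1 p1.le, mul_le_mul_of_nonneg_left hz2 p2.le]

theorem ratio_eq_of_norm_eq (hq : Tendsto (normFactor J) atImInfty (𝓝 1))
    {a b d a' b' d' : ℝ} (ha : 0 < a) (hd : 0 < d) (ha' : 0 < a') (hd' : 0 < d')
    (h : ∀ z, ‖J (affH a b d ha hd z)‖ = ‖J (affH a' b' d' ha' hd' z)‖) :
    a / d = a' / d' :=
  le_antisymm (not_lt.mp (not_lt_of_norm_eq hq ha' hd' ha hd (fun z => (h z).symm)))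
    (not_lt.mp (not_lt_of_norm_eq hq ha hd ha' hd' h))

/-- **Stabiliser of `j_N`**: if `J (N (δ z)) = J (N z)` for all `z`, then `δ ∈ Γ₀(N)`. -/
theorem mem_Gamma0_of_comp_eq (hinv : ∀ (γ : SL(2, ℤ)) (z : ℍ), J (γ • z) = J z)
    (hq : Tendsto (fun z : ℍ => J z * Function.Periodic.qParam 1 (z : ℂ)) atImInfty (𝓝 1))
    (N : ℕ) [NeZero N] (δ : SL(2, ℤ))
    (h : ∀ z : ℍ, J (mulN N (δ • z)) = J (mulN N z)) : δ ∈ Gamma0 N := by
  obtain ⟨a, b, d, ha, hd, had, hdvd, hf⟩ := exists_hermite hinv N δ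
  have hdR : (0 : ℝ) < d := intCast_pos' hd
  have key : ∀ z : ℍ, ‖J (affH a b d (intCast_pos' ha) hdR z)‖ =
      ‖J (affH N 0 1 (natCast_pos' N) one_pos z)‖ := by
    intro z
    rw [← hf z, h z]
    rfl
  have hr := ratio_eq_of_norm_eq (J := J) hq (intCast_pos' ha) hdR (natCast_pos' N) one_pos key
  rw [div_one, div_eq_iff hdR.ne'] at hr
  have hr' : a = N * d := by exact_mod_cast hr
  have hN : (N : ℤ) ≠ 0 := by exact_mod_cast NeZero.ne N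
  have hdd : d * d = 1 := by
    have : (N : ℤ) * (d * d) = N * 1 := by
      calc (N : ℤ) * (d * d) = (N * d) * d := by ring
        _ = N * 1 := by rw [← hr', had, mul_one]
    exact mul_left_cancel₀ hN this
  have hd1 : d = 1 := by nlinarith
  rw [hd1, mul_one] at hr'
  rw [hr'] at hdvd
  rw [Gamma0_mem]
  exact (ZMod.intCast_zmod_eq_zero_iff_dvd _ _).mpr hdvd

/-- the conjugate of `z ↦ J (N z)` attached to `g : SL(2,ℤ)` -/
def conjG (J : ℍ → ℂ) (N : ℕ) [NeZero N] (g : SL(2, ℤ)) : ℍ → ℂ :=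
  fun z => J (mulN N (g⁻¹ • z))

/-- the conjugate of `z ↦ J (N z)` attached to a coset `q = g Γ₀(N)` -/
def conjFn (J : ℍ → ℂ) (N : ℕ) [NeZero N] (q : Q N) : ℍ → ℂ := conjG J N q.out

theorem conjG_mul_of_mem_Gamma0 (hinv : ∀ (γ : SL(2, ℤ)) (z : ℍ), J (γ • z) = J z)
    (N : ℕ) [NeZero N] (g γ : SL(2, ℤ)) (hγ : γ ∈ Gamma0 N) :
    conjG J N (g * γ) = conjG J N g := by
  funext z
  unfold conjG
  rw [mul_inv_rev, mul_smul]
  exact comp_smul_eq_of_mem_Gamma0 hinv N γ⁻¹ (inv_mem hγ) _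

theorem conjFn_mk (hinv : ∀ (γ : SL(2, ℤ)) (z : ℍ), J (γ • z) = J z)
    (N : ℕ) [NeZero N] (g : SL(2, ℤ)) :
    conjFn J N (QuotientGroup.mk g) = conjG J N g := by
  unfold conjFn
  obtain ⟨h, hh⟩ := QuotientGroup.mk_out_eq_mul (Gamma0 N) g
  rw [hh]
  exact conjG_mul_of_mem_Gamma0 hinv N g h h.2

/-- translation law: `conjFn q (δ z) = conjFn (δ⁻¹ q) z` -/
theorem conjFn_smul (hinv : ∀ (γ : SL(2, ℤ)) (z : ℍ), J (γ • z) = J z)
    (N : ℕ) [NeZero N] (q : Q N) (δ : SL(2, ℤ)) (z : ℍ) :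
    conjFn J N q (δ • z) = conjFn J N (δ⁻¹ • q) z := by
  induction q using QuotientGroup.induction_on with
  | H g =>
    have : δ⁻¹ • (QuotientGroup.mk g : Q N) = QuotientGroup.mk (δ⁻¹ * g) := rfl
    rw [this, conjFn_mk hinv, conjFn_mk hinv]
    unfold conjG
    rw [mul_inv_rev, inv_inv, mul_smul]

/-- **The `ψ(N)` conjugates of `j_N` are pairwise distinct.** -/
theorem conjFn_injective (hinv : ∀ (γ : SL(2, ℤ)) (z : ℍ), J (γ • z) = J z)
    (hq : Tendsto (fun z : ℍ => J z * Function.Periodic.qParam 1 (z : ℂ)) atImInfty (𝓝 1))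
    (N : ℕ) [NeZero N] : Function.Injective (conjFn J N) := by
  intro q q' h
  induction q using QuotientGroup.induction_on with
  | H g =>
    induction q' using QuotientGroup.induction_on with
    | H g' =>
      rw [conjFn_mk hinv, conjFn_mk hinv] at h
      refine QuotientGroup.eq.mpr (mem_Gamma0_of_comp_eq hinv hq N _ fun z => ?_)
      have h1 := congrFun h (g' • z)
      unfold conjG at h1
      rw [← mul_smul, ← mul_smul, inv_mul_cancel, one_smul] at h1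
      exact h1


/-! ### all divisors `d ∣ N` at once -/

theorem Gamma0_le_of_dvd {d N : ℕ} (h : d ∣ N) : Gamma0 N ≤ Gamma0 d := by
  intro γ hγ
  rw [Gamma0_mem] at hγ ⊢
  have h1 : ((N : ℤ)) ∣ γ 1 0 := (CharP.intCast_eq_zero_iff (ZMod N) N _).mp hγ
  have h2 : ((d : ℤ)) ∣ γ 1 0 := (Int.natCast_dvd_natCast.mpr h).trans h1
  exact (CharP.intCast_eq_zero_iff (ZMod d) d _).mpr h2

/-- for `d ∣ N`, `z ↦ J (d z)` is invariant under `Γ₀(N)` -/
theorem comp_smul_eq_of_mem_Gamma0_of_dvd (hinv : ∀ (γ : SL(2, ℤ)) (z : ℍ), J (γ • z) = J z)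
    {d N : ℕ} [NeZero d] (hdN : d ∣ N) (γ : SL(2, ℤ)) (hγ : γ ∈ Gamma0 N) (z : ℍ) :
    J (mulN d (γ • z)) = J (mulN d z) :=
  comp_smul_eq_of_mem_Gamma0 hinv d γ (Gamma0_le_of_dvd hdN hγ) z

/-- for `d ∣ N`, the conjugate of `J (d z)` by `g` only depends on the coset `g Γ₀(N)` -/
theorem conjG_mul_of_mem_Gamma0_of_dvd (hinv : ∀ (γ : SL(2, ℤ)) (z : ℍ), J (γ • z) = J z)
    {d N : ℕ} [NeZero d] (hdN : d ∣ N) (g γ : SL(2, ℤ)) (hγ : γ ∈ Gamma0 N) :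
    conjG J d (g * γ) = conjG J d g :=
  conjG_mul_of_mem_Gamma0 hinv d g γ (Gamma0_le_of_dvd hdN hγ)

theorem conjG_smul (J : ℍ → ℂ) (d : ℕ) [NeZero d] (g δ : SL(2, ℤ)) (z : ℍ) :
    conjG J d g (δ • z) = conjG J d (δ⁻¹ * g) z := by
  unfold conjG
  rw [mul_inv_rev, inv_inv, mul_smul]

theorem conjG_one (J : ℍ → ℂ) (d : ℕ) [NeZero d] (z : ℍ) : conjG J d 1 z = J (mulN d z) := by
  unfold conjG
  rw [inv_one, one_smul]

/-- explicit Hermite shape of every conjugate -/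
theorem conjG_eq_affH (hinv : ∀ (γ : SL(2, ℤ)) (z : ℍ), J (γ • z) = J z)
    (d : ℕ) [NeZero d] (g : SL(2, ℤ)) :
    ∃ (a b e : ℤ) (ha : 0 < a) (he : 0 < e), a * e = d ∧
      ∀ z : ℍ, conjG J d g z = J (affH a b e (intCast_pos' ha) (intCast_pos' he) z) := by
  obtain ⟨a, b, e, ha, he, hae, -, h⟩ := exists_hermite hinv d g⁻¹
  exact ⟨a, b, e, ha, he, hae, h⟩

end J

end

end Fermat.Agent.S24.JConj
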