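import Mathlib
import Fermat.Agent.S20.LevelOne
import Fermat.Agent.S20.TwistedPeriodic
import Fermat.Agent.S20.Dual

set_option autoImplicit false

/-!
# S24 / J1: the analytic `j`-function on the upper half-plane

`jFun = E₄³ / Δ`, holomorphic, `SL(2, ℤ)`-invariant, `jFun · q → 1` at `i∞`, surjective onto `ℂ`.
-/

namespace Fermat.Agent.S24

open UpperHalfPlane Filter Topology CongruenceSubgroup
open scoped MatrixGroups ModularForm Manifold
open Fermat.Agent.S20

noncomputable section

set_option quotPrecheck false in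
local notation "E4" => (⇑ModularForm.E₄ : ℍ → ℂ)
set_option quotPrecheck false in
local notation "E6" => (⇑ModularForm.E₆ : ℍ → ℂ)
local notation "Δ" => ModularForm.discriminant

/-- The analytic `j`-function `E₄³ / Δ`. -/
def jFun (z : ℍ) : ℂ := E4 z ^ 3 / Δ z

theorem jFun_apply (z : ℍ) : jFun z = E4 z ^ 3 / Δ z := rfl

theorem isMF_disc : IsMF 1 12 Δ := isCF_delta.isMF

theorem mdiff_delta : MDiff Δ := isMF_disc.1

theorem mdiff_E4 : MDiff E4 := isMF_E4.1

theorem mdiff_E6 : MDiff E6 := isMF_E6.1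

theorem mdiff_jFun : MDiff jFun :=
  (mdiff_E4.pow 3).div mdiff_delta ModularForm.discriminant_ne_zero

/-- Transformation law of a level-one form, pointwise. -/
theorem levelOne_smul_apply {k : ℤ} {f : ℍ → ℂ} (hf : IsMF 1 k f) (γ : SL(2, ℤ)) (z : ℍ) :
    f (γ • z) = denom γ z ^ k * f z := by
  have h := congrFun (hf.slash_levelOne γ) z
  rw [ModularForm.SL_slash_apply] at h
  rw [← h, mul_comm, mul_assoc, ← zpow_add₀ (denom_ne_zero _ z)]
  simp

theorem jFun_smul (γ : SL(2, ℤ)) (z : ℍ) : jFun (γ • z) = jFun z := by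
  have hd := denom_ne_zero γ z
  rw [jFun, jFun, levelOne_smul_apply isMF_E4 γ z, levelOne_smul_apply isMF_disc γ z, mul_pow,
    ← zpow_natCast (denom γ z ^ (4 : ℤ)) 3, ← zpow_mul]
  have : ((4 : ℤ) * ((3 : ℕ) : ℤ)) = 12 := by norm_num
  rw [this, mul_div_mul_left _ _ (zpow_ne_zero 12 hd)]

theorem tendsto_delta_mul_expFn_neg_one :
    Tendsto (fun z : ℍ => Δ z * expFn (-1) z) atImInfty (𝓝 1) := by
  refine ModularForm.tendsto_atImInfty_tprod_one_sub_eta_q_pow.congr ?_
  intro z
  rw [ModularForm.discriminant_eq_q_prod, ← expFn_one]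
  have := expFn_neg_mul 1 z
  linear_combination (-(∏' n, (1 - ModularForm.eta_q n z) ^ 24)) * this

/-- `j · q → 1` at `i∞`. -/
theorem tendsto_jFun_mul_expFn_one :
    Tendsto (fun z : ℍ => jFun z * expFn 1 z) atImInfty (𝓝 1) := by
  have h4 : Tendsto (fun z : ℍ => E4 z ^ 3) atImInfty (𝓝 1) := by
    simpa using tendsto_E4.pow 3
  have h := h4.div tendsto_delta_mul_expFn_neg_one one_ne_zero
  rw [div_one] at h
  refine h.congr fun z => ?_
  have h1 : expFn 1 z * expFn (-1) z = 1 := by
    rw [← expFn_add]; simp [expFn_zero]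
  have hne : expFn (-1) z ≠ 0 := expFn_ne_zero _ _
  have hΔ := ModularForm.discriminant_ne_zero z
  simp only [Pi.div_apply]
  rw [jFun]
  field_simp
  linear_combination (-(E4 z ^ 3)) * h1

/-- The `j`-function is surjective: otherwise `Δ / (E₄³ - cΔ)` would be a nonzero cusp form of
weight `0`. -/
theorem jFun_surjective (c : ℂ) : ∃ z : ℍ, jFun z = c := by
  by_contra hne
  rw [not_exists] at hne
  set g : ℍ → ℂ := E4 ^ 3 - c • Δ with hg
  have hgMF : IsMF 1 12 g := by
    have h1 : IsMF 1 12 (E4 ^ 3) := (isMF_E4.pow 3).cast (by norm_num)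
    exact h1.sub (isMF_disc.smul c)
  have hg0 : ∀ z, g z ≠ 0 := by
    intro z hz
    apply hne z
    have hΔ := ModularForm.discriminant_ne_zero z
    rw [jFun, div_eq_iff hΔ]
    have : E4 z ^ 3 - c * Δ z = 0 := by simpa [hg] using hz
    linear_combination this
  set h : ℍ → ℂ := fun z => Δ z / g z with hh
  have hinv : ∀ (γ : SL(2, ℤ)) (z : ℍ), h (γ • z) = h z := by
    intro γ z
    have hd := denom_ne_zero γ z
    simp only [hh]
    rw [levelOne_smul_apply isMF_disc γ z, levelOne_smul_apply hgMF γ z,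
      mul_div_mul_left _ _ (zpow_ne_zero 12 hd)]
  have hslash : ∀ γ : SL(2, ℤ), h ∣[(0 : ℤ)] γ = h := by
    intro γ
    funext z
    rw [ModularForm.SL_slash_apply, hinv]
    simp
  have hlim : Tendsto h atImInfty (𝓝 0) := by
    have hΔ0 : Tendsto Δ atImInfty (𝓝 0) := ModularForm.discriminant_isZeroAtImInfty
    have hg1 : Tendsto g atImInfty (𝓝 1) := by
      have h4 : Tendsto (fun z : ℍ => E4 z ^ 3) atImInfty (𝓝 1) := by
        simpa using tendsto_E4.pow 3
      have := h4.sub (hΔ0.const_mul c)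
      rw [mul_zero, sub_zero] at this
      refine this.congr fun z => ?_
      simp [hg]
    have := hΔ0.div hg1 one_ne_zero
    rw [zero_div] at this
    exact this
  have hCF : IsCF 1 0 h := by
    refine ⟨mdiff_delta.div hgMF.1 hg0, fun γ _ => hslash γ, fun δ => ?_⟩
    rw [hslash δ]
    exact hlim
  have h0 : h = 0 := du_cusp_zero hCF
  have := congrFun h0 I
  simp only [hh, Pi.zero_apply, div_eq_zero_iff] at this
  rcases this with h1 | h1
  · exact ModularForm.discriminant_ne_zero _ h1
  · exact hg0 _ h1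

end

end Fermat.Agent.S24
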