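import Mathlib
import Fermat.Prelude.Def_ModularCurve_X0
import Fermat.Agent.S24.JFun

set_option autoImplicit false

namespace Fermat.Agent.S24.JExp

open Filter Topology Complex UpperHalfPlane
open scoped Real

noncomputable section

/-! ### Taylor coefficients under locally uniform limits -/

theorem tendstoLocallyUniformlyOn_iteratedDeriv {F : ℕ → ℂ → ℂ} {f : ℂ → ℂ} {U : Set ℂ}
    (hf : TendstoLocallyUniformlyOn F f atTop U) (hF : ∀ n, DifferentiableOn ℂ (F n) U)
    (hU : IsOpen U) (k : ℕ) :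
    TendstoLocallyUniformlyOn (fun n => iteratedDeriv k (F n)) (iteratedDeriv k f) atTop U ∧
      ∀ n, DifferentiableOn ℂ (iteratedDeriv k (F n)) U := by
  induction k with
  | zero =>
    simp only [iteratedDeriv_zero]
    exact ⟨hf, hF⟩
  | succ k ih =>
    obtain ⟨h1, h2⟩ := ih
    refine ⟨?_, fun n => ?_⟩
    · have := h1.deriv (Eventually.of_forall h2) hU
      simpa only [iteratedDeriv_succ, Function.comp_def] using this
    · rw [iteratedDeriv_succ]
      exact (h2 n).deriv hU

theorem iteratedDeriv_polynomial_eval_zero (p : Polynomial ℂ) (k : ℕ) :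
    iteratedDeriv k (fun x => p.eval x) 0 = (k.factorial : ℂ) * p.coeff k := by
  have h : ∀ k : ℕ, ∀ p : Polynomial ℂ,
      iteratedDeriv k (fun x => p.eval x) = fun x => ((Polynomial.derivative^[k]) p).eval x := by
    intro k
    induction k with
    | zero => intro p; simp
    | succ k ih =>
      intro p
      rw [iteratedDeriv_succ, ih p]
      funext x
      rw [Polynomial.deriv, Function.iterate_succ_apply']
  rw [h k p]
  simp only
  rw [← Polynomial.coeff_zero_eq_eval_zero, Polynomial.coeff_iterate_derivative]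
  simp [Nat.descFactorial_self]

/-! ### The eta product: formal versus analytic -/

/-- The analytic Euler product `∏ (1 - q^(n+1))`. -/
def etaFun (q : ℂ) : ℂ := ∏' n : ℕ, (1 - q ^ (n + 1))

/-- The partial products as integer polynomials. -/
def etaPolyZ (M : ℕ) : Polynomial ℤ := ∏ n ∈ Finset.range M, (1 - Polynomial.X ^ (n + 1))

/-- The partial products as complex polynomials. -/
def etaPoly (M : ℕ) : Polynomial ℂ := (etaPolyZ M).map (Int.castRingHom ℂ)

theorem etaPoly_eval (M : ℕ) (q : ℂ) :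
    (etaPoly M).eval q = ∏ n ∈ Finset.range M, (1 - q ^ (n + 1)) := by
  simp [etaPoly, etaPolyZ, Polynomial.map_prod, Polynomial.eval_prod]

theorem etaPolyZ_coe (M : ℕ) :
    ((etaPolyZ M : Polynomial ℤ) : PowerSeries ℤ) =
      ∏ n ∈ Finset.range M, ((1 : PowerSeries ℤ) - PowerSeries.X ^ (n + 1)) := by
  rw [etaPolyZ]
  have := map_prod (Polynomial.coeToPowerSeries.ringHom (R := ℤ))
    (fun n : ℕ => (1 - Polynomial.X ^ (n + 1) : Polynomial ℤ)) (Finset.range M)
  simp only [Polynomial.coeToPowerSeries.ringHom_apply] at this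
  rw [this]
  refine Finset.prod_congr rfl fun n _ => ?_
  simp

open PowerSeries.WithPiTopology in
theorem tendsto_coeff_etaPoly (k : ℕ) :
    Tendsto (fun M => (etaPoly M).coeff k) atTop
      (𝓝 ((PowerSeries.coeff k ModularCurve.etaProd : ℤ) : ℂ)) := by
  have h1 : Tendsto (fun M => ∏ n ∈ Finset.range M, ((1 : PowerSeries ℤ) - PowerSeries.X ^ (n + 1)))
      atTop (𝓝 ModularCurve.etaProd) :=
    (PowerSeries.WithPiTopology.multipliable_one_sub_X_pow ℤ).hasProd.tendsto_prod_nat
  have h2 := ((PowerSeries.WithPiTopology.continuous_coeff ℤ k).tendsto _).comp h1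
  have h3 : Continuous (fun n : ℤ => (n : ℂ)) := continuous_of_discreteTopology
  have h4 := (h3.tendsto _).comp h2
  refine h4.congr fun M => ?_
  simp only [Function.comp_def, etaPoly, Polynomial.coeff_map, eq_intCast]
  rw [← etaPolyZ_coe, Polynomial.coeff_coe]

theorem differentiableOn_etaFun : DifferentiableOn ℂ etaFun (Metric.ball (0 : ℂ) 1) :=
  ModularForm.differentiableOn_tprod_one_sub_pow

theorem iteratedDeriv_etaFun_zero (k : ℕ) :
    iteratedDeriv k etaFun 0 =
      (k.factorial : ℂ) * ((PowerSeries.coeff k ModularCurve.etaProd : ℤ) : ℂ) := by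
  have hloc : TendstoLocallyUniformlyOn (fun M q => (etaPoly M).eval q) etaFun atTop
      (Metric.ball (0 : ℂ) 1) := by
    have := ModularForm.multipliableLocallyUniformlyOn_one_sub_pow.hasProdLocallyUniformlyOn
      |>.tendstoLocallyUniformlyOn_finsetRange
    refine this.congr fun M q _ => ?_
    rw [etaPoly_eval]
  have hdiff : ∀ M, DifferentiableOn ℂ (fun q => (etaPoly M).eval q) (Metric.ball (0 : ℂ) 1) :=
    fun M => (Polynomial.differentiable _).differentiableOn
  have h1 := (tendstoLocallyUniformlyOn_iteratedDeriv hloc hdiff Metric.isOpen_ball k).1.tendsto_at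
    (Metric.mem_ball_self one_pos)
  have h2 : Tendsto (fun M => iteratedDeriv k (fun q => (etaPoly M).eval q) 0) atTop
      (𝓝 ((k.factorial : ℂ) * ((PowerSeries.coeff k ModularCurve.etaProd : ℤ) : ℂ))) := by
    simp only [iteratedDeriv_polynomial_eval_zero]
    exact (tendsto_coeff_etaPoly k).const_mul _
  exact tendsto_nhds_unique h1 h2

theorem hasSum_etaFun {q : ℂ} (hq : ‖q‖ < 1) :
    HasSum (fun k : ℕ => ((PowerSeries.coeff k ModularCurve.etaProd : ℤ) : ℂ) * q ^ k)
      (etaFun q) := by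
  have h := Complex.hasSum_taylorSeries_on_ball differentiableOn_etaFun
    (show q ∈ Metric.ball (0 : ℂ) 1 by simpa using hq)
  refine h.congr_fun fun k => ?_
  rw [iteratedDeriv_etaFun_zero]
  have : (k.factorial : ℂ) ≠ 0 := by exact_mod_cast k.factorial_ne_zero
  simp only [sub_zero, smul_eq_mul]
  field_simp

/-! ### One-periodic holomorphic functions bounded at infinity -/

open scoped Manifold

local notation "𝕢" => Function.Periodic.qParam

/-- One-periodic, holomorphic and bounded at infinity. -/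
structure Nice (f : ℍ → ℂ) : Prop where
  per : Function.Periodic (f ∘ ofComplex) (1 : ℝ)
  hol : MDiff f
  bdd : IsBoundedAtImInfty f

theorem periodic_of_forall {f : ℍ → ℂ}
    (h : ∀ τ τ' : ℍ, (τ' : ℂ) = (τ : ℂ) + 1 → f τ' = f τ) :
    Function.Periodic (f ∘ ofComplex) (1 : ℝ) := by
  intro w
  by_cases! hw : 0 < im w
  · have hw' : 0 < im (w + (1 : ℝ)) := by simp [hw]
    simp only [Function.comp_apply, ofComplex_apply_of_im_pos hw', ofComplex_apply_of_im_pos hw]
    exact h _ _ (by simp)
  · have hw' : im (w + (1 : ℝ)) ≤ 0 := by simpa using hw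
    simp only [Function.comp_apply]
    rw [ofComplex_apply_eq_of_im_nonpos hw' hw]

theorem mdiff_of_differentiableOn {g : ℂ → ℂ} (hg : DifferentiableOn ℂ g upperHalfPlaneSet) :
    MDiff (fun τ : ℍ => g (τ : ℂ)) := by
  rw [UpperHalfPlane.mdifferentiable_iff]
  refine hg.congr fun z hz => ?_
  simp [Function.comp_apply, ofComplex_apply_of_im_pos hz]

namespace Nice

variable {f g : ℍ → ℂ}

theorem analyticAt (hf : Nice f) : AnalyticAt ℂ (cuspFunction 1 f) 0 :=
  analyticAt_cuspFunction_zero one_pos hf.per hf.hol hf.bdd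

theorem hasSum (hf : Nice f) (τ : ℍ) :
    HasSum (fun m : ℕ => (PowerSeries.coeff m (qExpansion 1 f)) * 𝕢 1 τ ^ m) (f τ) := by
  simpa [smul_eq_mul] using hasSum_qExpansion one_pos hf.per hf.hol hf.bdd τ

theorem mul (hf : Nice f) (hg : Nice g) : Nice (f * g) where
  per := by
    intro w
    have h1 := hf.per w
    have h2 := hg.per w
    simp only [Function.comp_apply, Pi.mul_apply] at h1 h2 ⊢
    rw [h1, h2]
  hol := hf.hol.mul hg.hol
  bdd := hf.bdd.mul hg.bdd

theorem add (hf : Nice f) (hg : Nice g) : Nice (f + g) where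
  per := by
    intro w
    have h1 := hf.per w
    have h2 := hg.per w
    simp only [Function.comp_apply, Pi.add_apply] at h1 h2 ⊢
    rw [h1, h2]
  hol := hf.hol.add hg.hol
  bdd := hf.bdd.add hg.bdd

theorem const (c : ℂ) : Nice (fun _ : ℍ => c) where
  per := fun _ => rfl
  hol := mdifferentiable_const
  bdd := Filter.const_boundedAtFilter _ c

theorem qExpansion_mul (hf : Nice f) (hg : Nice g) :
    qExpansion 1 (f * g) = qExpansion 1 f * qExpansion 1 g :=
  UpperHalfPlane.qExpansion_mul hf.analyticAt hg.analyticAt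

theorem qExpansion_add (hf : Nice f) (hg : Nice g) :
    qExpansion 1 (f + g) = qExpansion 1 f + qExpansion 1 g :=
  UpperHalfPlane.qExpansion_add hf.analyticAt hg.analyticAt

theorem qExpansion_eq (hf : Nice f) {c : ℕ → ℂ}
    (h : ∀ τ : ℍ, HasSum (fun m : ℕ => c m * 𝕢 1 τ ^ m) (f τ)) :
    qExpansion 1 f = PowerSeries.mk c := by
  have h' : ∀ τ : ℍ, HasSum (fun m : ℕ => c m • 𝕢 1 τ ^ m) (f τ) := by
    intro τ
    simpa only [smul_eq_mul] using h τ
  ext m
  rw [PowerSeries.coeff_mk]
  have h1 := (hasFPowerSeriesOnBall_cuspFunction (h := 1) one_pos hf.analyticAt h').hasFPowerSeriesAt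
  have h2 : HasFPowerSeriesAt (cuspFunction 1 f)
      (FormalMultilinearSeries.ofScalars ℂ fun m => PowerSeries.coeff m (qExpansion 1 f)) 0 := by
    simpa [qExpansion_coeff, div_eq_mul_inv, mul_comm]
      using hf.analyticAt.hasFPowerSeriesAt
  have := congr_arg (FormalMultilinearSeries.coeff · m) (h1.eq_formalMultilinearSeries h2)
  simpa [FormalMultilinearSeries.coeff_ofScalars] using this.symm

theorem eq_zero_iff (hf : Nice f) : qExpansion 1 f = 0 ↔ f = 0 :=
  qExpansion_eq_zero_iff one_pos hf.per hf.hol hf.bdd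

theorem tendsto (hf : Nice f) :
    Tendsto f atImInfty (𝓝 (PowerSeries.coeff 0 (qExpansion 1 f))) := by
  have h0 : PowerSeries.coeff 0 (qExpansion 1 f) = cuspFunction 1 f 0 := by
    simp [qExpansion_coeff]
  have h1 : (cuspFunction 1 f ∘ fun τ : ℍ => 𝕢 1 τ) = f :=
    funext fun τ => eq_cuspFunction τ one_ne_zero hf.per
  have h2 := hf.analyticAt.continuousAt.tendsto.comp (qParam_tendsto_atImInfty one_pos)
  rw [h1] at h2
  rwa [h0]

theorem pow (hf : Nice f) (n : ℕ) : Nice (f ^ n) := by
  induction n with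
  | zero => rw [pow_zero]; exact (Nice.const 1)
  | succ n ih => rw [pow_succ]; exact ih.mul hf

theorem qExpansion_pow (hf : Nice f) (n : ℕ) : qExpansion 1 (f ^ n) = qExpansion 1 f ^ n := by
  induction n with
  | zero =>
    rw [pow_zero, pow_zero]
    exact qExpansion_one 1
  | succ n ih => rw [pow_succ, pow_succ, (hf.pow n).qExpansion_mul hf, ih]

end Nice

/-! ### The basic functions -/

/-- The function `q = exp (2 π i τ)` on the upper half plane. -/
def qP : ℍ → ℂ := fun τ => 𝕢 1 τ

theorem qP_ne_zero (τ : ℍ) : qP τ ≠ 0 := Function.Periodic.qParam_ne_zero _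

theorem norm_qP_lt_one (τ : ℍ) : ‖qP τ‖ < 1 :=
  Function.Periodic.norm_qParam_lt_one one_pos τ.im_pos

theorem qParam_mem_ball {z : ℂ} (hz : z ∈ upperHalfPlaneSet) :
    𝕢 1 z ∈ Metric.ball (0 : ℂ) 1 := by
  simpa using Function.Periodic.norm_qParam_lt_one one_pos (show 0 < z.im from hz)

theorem tendsto_qP : Tendsto qP atImInfty (𝓝 0) := qParam_tendsto_atImInfty one_pos

theorem qP_add_one {τ τ' : ℍ} (h : (τ' : ℂ) = (τ : ℂ) + 1) : qP τ' = qP τ := by
  unfold qP
  rw [h]
  simp only [Function.Periodic.qParam, ofReal_one, div_one]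
  rw [mul_add, Complex.exp_add, mul_one, Complex.exp_two_pi_mul_I, mul_one]

theorem nice_comp_qParam {g : ℂ → ℂ} (hg : DifferentiableOn ℂ g (Metric.ball (0 : ℂ) 1)) :
    Nice (fun τ : ℍ => g (𝕢 1 τ)) where
  per := periodic_of_forall fun τ τ' h => by
    have := qP_add_one h
    unfold qP at this
    rw [this]
  hol := by
    refine mdiff_of_differentiableOn (g := fun z => g (𝕢 1 z)) ?_
    exact hg.comp (Function.Periodic.differentiable_qParam (h := 1)).differentiableOn
      (fun z hz => qParam_mem_ball hz)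
  bdd := by
    have h0 : ContinuousAt g 0 :=
      hg.continuousOn.continuousAt (Metric.ball_mem_nhds _ one_pos)
    have : Tendsto (fun τ : ℍ => g (𝕢 1 τ)) atImInfty (𝓝 (g 0)) := h0.tendsto.comp tendsto_qP
    exact this.isBigO_one ℝ

theorem nice_qP : Nice qP := nice_comp_qParam (g := id) differentiableOn_id

theorem qExpansion_qP : qExpansion 1 qP = PowerSeries.X := by
  rw [nice_qP.qExpansion_eq (c := fun m => if m = 1 then 1 else 0)]
  · ext m
    simp [PowerSeries.coeff_X]
  · intro τ
    have := hasSum_ite_eq (1 : ℕ) (qP τ)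
    refine this.congr_fun fun m => ?_
    by_cases hm : m = 1
    · subst hm; simp [qP]
    · simp [hm]

/-- The eta product as a function on the upper half plane. -/
def etaH : ℍ → ℂ := fun τ => etaFun (𝕢 1 τ)

theorem nice_etaH : Nice etaH := nice_comp_qParam differentiableOn_etaFun

/-- The eta product with complex coefficients. -/
def etaC : PowerSeries ℂ := ModularCurve.etaProd.map (Int.castRingHom ℂ)

theorem qExpansion_etaH : qExpansion 1 etaH = etaC := by
  rw [nice_etaH.qExpansion_eq
    (c := fun k => ((PowerSeries.coeff k ModularCurve.etaProd : ℤ) : ℂ))]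
  · ext m
    simp [etaC]
  · intro τ
    exact hasSum_etaFun (norm_qP_lt_one τ)

theorem etaH_eq (τ : ℍ) : etaH τ = ∏' n : ℕ, (1 - ModularForm.eta_q n τ) := rfl

theorem etaH_ne_zero (τ : ℍ) : etaH τ ≠ 0 := ModularForm.eta_tprod_ne_zero τ.2

theorem discriminant_eq (τ : ℍ) : ModularForm.discriminant τ = qP τ * etaH τ ^ 24 := by
  rw [ModularForm.discriminant_eq_q_prod, etaH_eq,
    (ModularForm.multipliableLocallyUniformlyOn_eta.multipliable τ.2).tprod_pow]
  rfl

theorem etaFun_ne_zero {q : ℂ} (hq : ‖q‖ < 1) : etaFun q ≠ 0 := by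
  unfold etaFun
  simp_rw [sub_eq_add_neg]
  refine tprod_one_add_ne_zero_of_summable (f := fun n => -q ^ (n + 1)) (fun n => ?_) ?_
  · intro h
    have h1 : q ^ (n + 1) = 1 := by linear_combination -h
    have h2 : ‖q‖ ^ (n + 1) = 1 := by rw [← norm_pow, h1, norm_one]
    have h3 : ‖q‖ ^ (n + 1) < 1 := pow_lt_one₀ (norm_nonneg _) hq (Nat.succ_ne_zero n)
    linarith
  · simpa using (summable_nat_add_iff 1).mpr (summable_geometric_of_lt_one (norm_nonneg _) hq)

/-- The inverse of the 24-th power of the eta product. -/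
def invEta : ℍ → ℂ := fun τ => (etaFun (𝕢 1 τ) ^ 24)⁻¹

theorem nice_invEta : Nice invEta := by
  refine nice_comp_qParam (g := fun q => (etaFun q ^ 24)⁻¹) ?_
  refine DifferentiableOn.inv (differentiableOn_etaFun.pow 24) fun q hq => ?_
  exact pow_ne_zero _ (etaFun_ne_zero (by simpa using hq))

theorem invEta_mul (τ : ℍ) : invEta τ * etaH τ ^ 24 = 1 :=
  inv_mul_cancel₀ (pow_ne_zero _ (etaH_ne_zero τ))

open ModularForm EisensteinSeries Matrix.SpecialLinearGroup
open scoped MatrixGroups

theorem nice_E4 : Nice (⇑E₄ : ℍ → ℂ) where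
  per := SlashInvariantFormClass.periodic_comp_ofComplex E₄ one_mem_strictPeriods_SL
  hol := ModularFormClass.holo E₄
  bdd := ModularFormClass.bdd_at_infty E₄

/-- The Eisenstein series `E₄` as a formal power series with complex coefficients. -/
def e4C : PowerSeries ℂ := ModularCurve.eisenstein4.map (Int.castRingHom ℂ)

theorem qExpansion_E4 : qExpansion 1 (⇑E₄ : ℍ → ℂ) = e4C := by
  ext m
  rw [E_qExpansion_coeff _ ⟨2, rfl⟩, e4C, PowerSeries.coeff_map, ModularCurve.eisenstein4,
    PowerSeries.coeff_mk]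
  by_cases hm : m = 0
  · simp [hm]
  · simp only [hm, if_false, eq_intCast]
    rw [show bernoulli 4 = -1 / 30 by decide +kernel, ArithmeticFunction.sigma_apply]
    push_cast
    ring

/-- The normalised function `q · j`. -/
def jN : ℍ → ℂ := (⇑E₄ : ℍ → ℂ) ^ 3 * invEta

theorem nice_jN : Nice jN := (nice_E4.pow 3).mul nice_invEta

theorem jN_eq (τ : ℍ) : jN τ = qP τ * jFun τ := by
  unfold jN jFun invEta
  rw [discriminant_eq]
  have h1 := qP_ne_zero τ
  have h2 := etaH_ne_zero τ
  simp only [Pi.mul_apply, Pi.pow_apply]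
  unfold etaH at h2 ⊢
  field_simp

theorem jFun_eq (τ : ℍ) : jFun τ = jN τ / qP τ := by
  rw [jN_eq, mul_div_cancel_left₀ _ (qP_ne_zero τ)]

/-- The formal numerator `q · j` with complex coefficients. -/
def jNumC : PowerSeries ℂ := ModularCurve.jNum.map (Int.castRingHom ℂ)

theorem jNumC_mul : jNumC * etaC ^ 24 = e4C ^ 3 := by
  have h : ModularCurve.jNum * ModularCurve.dedekindEtaUnit = ModularCurve.eisenstein4 ^ 3 := by
    rw [ModularCurve.jNum, mul_assoc, mul_comm ModularCurve.dedekindEtaUnitInv,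
      ModularCurve.dedekindEtaUnit_mul_inv, mul_one]
  have := congrArg (PowerSeries.map (Int.castRingHom ℂ)) h
  rwa [map_mul, ModularCurve.dedekindEtaUnit, map_pow, map_pow] at this

theorem etaC_ne_zero : etaC ≠ 0 := by
  intro h
  have := congrArg (PowerSeries.constantCoeff) h
  rw [etaC, ← PowerSeries.coeff_zero_eq_constantCoeff, PowerSeries.coeff_map,
    PowerSeries.coeff_zero_eq_constantCoeff, ModularCurve.constantCoeff_etaProd] at this
  simp at this

theorem qExpansion_jN : qExpansion 1 jN = jNumC := by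
  have h1 : jN * etaH ^ 24 = (⇑E₄ : ℍ → ℂ) ^ 3 := by
    funext τ
    simp only [jN, Pi.mul_apply, Pi.pow_apply]
    rw [mul_assoc, invEta_mul, mul_one]
  have h2 : qExpansion 1 jN * etaC ^ 24 = e4C ^ 3 := by
    rw [← qExpansion_etaH, ← nice_etaH.qExpansion_pow, ← nice_jN.qExpansion_mul (nice_etaH.pow 24),
      h1, nice_E4.qExpansion_pow, qExpansion_E4]
  exact mul_right_cancel₀ (pow_ne_zero 24 etaC_ne_zero) (h2.trans jNumC_mul.symm)

theorem coeff_jNumC (n : ℕ) :
    PowerSeries.coeff n jNumC = ((PowerSeries.coeff n ModularCurve.jNumQ : ℚ) : ℂ) := by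
  simp [jNumC, ModularCurve.jNumQ]

theorem tendsto_jN : Tendsto jN atImInfty (𝓝 1) := by
  have := nice_jN.tendsto
  rwa [qExpansion_jN, jNumC, PowerSeries.coeff_map, PowerSeries.coeff_zero_eq_constantCoeff,
    ModularCurve.constantCoeff_jNum, map_one] at this

/-- The `j`-function has a pole at infinity. -/
theorem tendsto_norm_jFun : Tendsto (fun τ : ℍ => ‖jFun τ‖) atImInfty atTop := by
  have h1 : Tendsto (fun τ : ℍ => ‖jN τ‖) atImInfty (𝓝 1) := by
    simpa using tendsto_jN.norm
  have h2 : Tendsto (fun τ : ℍ => ‖qP τ‖) atImInfty (𝓝[>] 0) := by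
    rw [tendsto_nhdsWithin_iff]
    refine ⟨by simpa using tendsto_qP.norm, Eventually.of_forall fun τ => ?_⟩
    exact norm_pos_iff.mpr (qP_ne_zero τ)
  have h3 : Tendsto (fun τ : ℍ => ‖qP τ‖⁻¹) atImInfty atTop := tendsto_inv_nhdsGT_zero.comp h2
  have h4 := h1.pos_mul_atTop one_pos h3
  refine h4.congr fun τ => ?_
  rw [jFun_eq, norm_div, div_eq_mul_inv]

/-- The analytic `j`-function has the Laurent expansion given by the formal series `jq`. -/
theorem hasSum_jFun (τ : ℍ) :
    HasSum (fun n : ℕ => ((PowerSeries.coeff n ModularCurve.jNumQ : ℚ) : ℂ) * 𝕢 1 τ ^ n)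
      (𝕢 1 τ * jFun τ) := by
  have := nice_jN.hasSum τ
  rw [qExpansion_jN, jN_eq] at this
  simpa only [coeff_jNumC, qP] using this

end

end Fermat.Agent.S24.JExp
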