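import Mathlib

/-! S24 (Q): the order at `i∞` of periodic holomorphic functions on `ℍ` which are meromorphic at
the cusp. Everything is phrased for plain functions `ℍ → ℂ`. -/

set_option autoImplicit false

namespace Fermat.Agent.S24

open UpperHalfPlane Function Filter Topology Complex
open scoped Manifold Real

noncomputable section

local notation "𝕢" => Function.Periodic.qParam

/-! ## Basic facts about the function of `q` -/

/-- Periodicity in the `+ᵥ` form gives periodicity of `g ∘ ofComplex`. -/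
theorem cuspOrd_periodic_comp_ofComplex {h : ℝ} {g : ℍ → ℂ} (hg : ∀ τ : ℍ, g (h +ᵥ τ) = g τ) :
    Function.Periodic (g ∘ ofComplex) h := by
  intro w
  by_cases hw : 0 < w.im
  · have hw' : 0 < (w + h).im := by simpa using hw
    simp only [comp_apply, ofComplex_apply_of_im_pos hw', ofComplex_apply_of_im_pos hw]
    rw [← hg ⟨w, hw⟩]
    congr 1
    ext
    simp [add_comm]
  · have hw1 : w.im ≤ 0 := not_lt.mp hw
    have hw' : (w + h).im ≤ 0 := by simpa using hw1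
    simp only [comp_apply, ofComplex_apply_of_im_nonpos hw', ofComplex_apply_of_im_nonpos hw1]

theorem cuspFunction_qParam {h : ℝ} (hh : 0 < h) {g : ℍ → ℂ} (hg : ∀ τ : ℍ, g (h +ᵥ τ) = g τ)
    (τ : ℍ) : cuspFunction h g (𝕢 h τ) = g τ :=
  eq_cuspFunction τ hh.ne' (cuspOrd_periodic_comp_ofComplex hg)

/-- On the punctured unit disc every `q` is `𝕢 h τ` for some `τ ∈ ℍ`. -/
theorem exists_qParam_eq {h : ℝ} (hh : 0 < h) {q : ℂ} (hq0 : q ≠ 0) (hq1 : ‖q‖ < 1) :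
    ∃ τ : ℍ, 𝕢 h τ = q :=
  ⟨⟨Function.Periodic.invQParam h q,
    Function.Periodic.im_invQParam_pos_of_norm_lt_one hh hq1 hq0⟩,
    Function.Periodic.qParam_right_inv hh.ne' hq0⟩

theorem eventually_punctured_disc : ∀ᶠ q : ℂ in 𝓝[≠] 0, q ≠ 0 ∧ ‖q‖ < 1 := by
  have h1 : ∀ᶠ q : ℂ in 𝓝[≠] 0, q ≠ 0 := eventually_mem_nhdsWithin
  have h2 : ∀ᶠ q : ℂ in 𝓝[≠] 0, ‖q‖ < 1 := by
    apply eventually_nhdsWithin_of_eventually_nhds
    have : Metric.ball (0 : ℂ) 1 ∈ 𝓝 (0 : ℂ) := Metric.ball_mem_nhds 0 one_pos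
    filter_upwards [this] with q hq
    simpa using hq
  exact h1.and h2

/-- Two functions of `q` which agree on all `𝕢 h τ` agree near `0` (punctured). -/
theorem eventuallyEq_of_forall_qParam {h : ℝ} (hh : 0 < h) {F G : ℂ → ℂ}
    (hFG : ∀ τ : ℍ, F (𝕢 h τ) = G (𝕢 h τ)) : F =ᶠ[𝓝[≠] 0] G := by
  filter_upwards [eventually_punctured_disc] with q hq
  obtain ⟨τ, rfl⟩ := exists_qParam_eq hh hq.1 hq.2
  exact hFG τ

/-- Holomorphic, `h`-periodic, meromorphic at `i∞`. -/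
structure IsMeroCusp (h : ℝ) (g : ℍ → ℂ) : Prop where
  mdiff : MDiff g
  periodic : ∀ τ : ℍ, g (h +ᵥ τ) = g τ
  mero : MeromorphicAt (cuspFunction h g) 0

/-- The order at `i∞` in the parameter `𝕢 h` (junk value `0` for the zero function). -/
def ordCusp (h : ℝ) (g : ℍ → ℂ) : ℤ := (meromorphicOrderAt (cuspFunction h g) 0).untop₀

/-! ## Identity theorem -/

/-- A holomorphic function on `ℍ` vanishing for large imaginary part is zero. -/
theorem eq_zero_of_eventually_atImInfty {g : ℍ → ℂ} (hg : MDiff g)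
    (h0 : ∀ᶠ τ in atImInfty, g τ = 0) : g = 0 := by
  have hdiff : DifferentiableOn ℂ (g ∘ ofComplex) {z : ℂ | 0 < z.im} :=
    UpperHalfPlane.mdifferentiable_iff.mp hg
  have hopen : IsOpen {z : ℂ | 0 < z.im} := isOpen_lt continuous_const Complex.continuous_im
  have han : AnalyticOnNhd ℂ (g ∘ ofComplex) {z : ℂ | 0 < z.im} := hdiff.analyticOnNhd hopen
  have hconn : IsPreconnected {z : ℂ | 0 < z.im} := (convex_halfSpace_im_gt 0).isPreconnected
  obtain ⟨A, hA⟩ := (atImInfty_mem _).mp h0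
  set A' : ℝ := max A 0 + 1 with hA'
  have hA'pos : 0 < A' := by positivity
  have hA'A : A < A' := lt_of_le_of_lt (le_max_left A 0) (lt_add_one _)
  set z₀ : ℂ := A' * Complex.I with hz₀
  have hz₀im : z₀.im = A' := by simp [hz₀]
  have hz₀mem : z₀ ∈ {z : ℂ | 0 < z.im} := by
    show 0 < z₀.im
    rw [hz₀im]; exact hA'pos
  have hev : (g ∘ ofComplex) =ᶠ[𝓝 z₀] 0 := by
    have hopen2 : IsOpen {z : ℂ | A < z.im} := isOpen_lt continuous_const Complex.continuous_im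
    have hmem : {z : ℂ | A < z.im} ∈ 𝓝 z₀ := hopen2.mem_nhds (by show A < z₀.im; rw [hz₀im]; exact hA'A)
    have hmem2 : {z : ℂ | 0 < z.im} ∈ 𝓝 z₀ := hopen.mem_nhds hz₀mem
    filter_upwards [hmem, hmem2] with z hz hz2
    simp only [comp_apply, Pi.zero_apply]
    rw [ofComplex_apply_of_im_pos hz2]
    exact hA ⟨z, hz2⟩ (le_of_lt hz)
  have := han.eqOn_zero_of_preconnected_of_eventuallyEq_zero hconn hz₀mem hev
  funext τ
  have h1 := this τ.im_pos
  simpa using h1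

theorem tendsto_qParam_nhdsNE {h : ℝ} (hh : 0 < h) :
    Tendsto (fun τ : ℍ => 𝕢 h τ) atImInfty (𝓝[≠] 0) :=
  (Function.Periodic.qParam_tendsto hh).comp tendsto_coe_atImInfty

/-- The meromorphic order is not `⊤` for a nonzero function. -/
theorem IsMeroCusp.order_ne_top {h : ℝ} (hh : 0 < h) {g : ℍ → ℂ} (hg : IsMeroCusp h g)
    (hg0 : g ≠ 0) : meromorphicOrderAt (cuspFunction h g) 0 ≠ ⊤ := by
  intro htop
  rw [meromorphicOrderAt_eq_top_iff] at htop
  apply hg0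
  apply eq_zero_of_eventually_atImInfty hg.mdiff
  have := (tendsto_qParam_nhdsNE hh).eventually htop
  filter_upwards [this] with τ hτ
  rwa [cuspFunction_qParam hh hg.periodic] at hτ

theorem IsMeroCusp.coe_ordCusp {h : ℝ} (hh : 0 < h) {g : ℍ → ℂ} (hg : IsMeroCusp h g)
    (hg0 : g ≠ 0) : ((ordCusp h g : ℤ) : WithTop ℤ) = meromorphicOrderAt (cuspFunction h g) 0 :=
  WithTop.coe_untop₀_of_ne_top (hg.order_ne_top hh hg0)

/-! ## Algebraic operations -/

theorem cuspFunction_mul_eventuallyEq {h : ℝ} (hh : 0 < h) {g₁ g₂ : ℍ → ℂ}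
    (h₁ : ∀ τ : ℍ, g₁ (h +ᵥ τ) = g₁ τ) (h₂ : ∀ τ : ℍ, g₂ (h +ᵥ τ) = g₂ τ) :
    cuspFunction h (g₁ * g₂) =ᶠ[𝓝[≠] 0] cuspFunction h g₁ * cuspFunction h g₂ := by
  apply eventuallyEq_of_forall_qParam hh
  intro τ
  have h12 : ∀ τ : ℍ, (g₁ * g₂) (h +ᵥ τ) = (g₁ * g₂) τ := fun τ => by
    simp only [Pi.mul_apply, h₁ τ, h₂ τ]
  rw [Pi.mul_apply, cuspFunction_qParam hh h12, cuspFunction_qParam hh h₁,
    cuspFunction_qParam hh h₂, Pi.mul_apply]

theorem cuspFunction_add_eventuallyEq {h : ℝ} (hh : 0 < h) {g₁ g₂ : ℍ → ℂ}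
    (h₁ : ∀ τ : ℍ, g₁ (h +ᵥ τ) = g₁ τ) (h₂ : ∀ τ : ℍ, g₂ (h +ᵥ τ) = g₂ τ) :
    cuspFunction h (g₁ + g₂) =ᶠ[𝓝[≠] 0] cuspFunction h g₁ + cuspFunction h g₂ := by
  apply eventuallyEq_of_forall_qParam hh
  intro τ
  have h12 : ∀ τ : ℍ, (g₁ + g₂) (h +ᵥ τ) = (g₁ + g₂) τ := fun τ => by
    simp only [Pi.add_apply, h₁ τ, h₂ τ]
  rw [Pi.add_apply, cuspFunction_qParam hh h12, cuspFunction_qParam hh h₁,
    cuspFunction_qParam hh h₂, Pi.add_apply]

theorem cuspFunction_const_eventuallyEq {h : ℝ} (hh : 0 < h) (c : ℂ) :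
    cuspFunction h (fun _ : ℍ => c) =ᶠ[𝓝[≠] 0] fun _ => c := by
  apply eventuallyEq_of_forall_qParam hh
  intro τ
  rw [cuspFunction_qParam hh (fun _ => rfl)]

theorem IsMeroCusp.mul {h : ℝ} (hh : 0 < h) {g₁ g₂ : ℍ → ℂ} (h₁ : IsMeroCusp h g₁)
    (h₂ : IsMeroCusp h g₂) : IsMeroCusp h (g₁ * g₂) where
  mdiff := h₁.mdiff.mul h₂.mdiff
  periodic τ := by simp only [Pi.mul_apply, h₁.periodic τ, h₂.periodic τ]
  mero := (h₁.mero.mul h₂.mero).congr
    (cuspFunction_mul_eventuallyEq hh h₁.periodic h₂.periodic).symm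

theorem IsMeroCusp.add {h : ℝ} (hh : 0 < h) {g₁ g₂ : ℍ → ℂ} (h₁ : IsMeroCusp h g₁)
    (h₂ : IsMeroCusp h g₂) : IsMeroCusp h (g₁ + g₂) where
  mdiff := h₁.mdiff.add h₂.mdiff
  periodic τ := by simp only [Pi.add_apply, h₁.periodic τ, h₂.periodic τ]
  mero := (h₁.mero.add h₂.mero).congr
    (cuspFunction_add_eventuallyEq hh h₁.periodic h₂.periodic).symm

theorem isMeroCusp_const {h : ℝ} (hh : 0 < h) (c : ℂ) : IsMeroCusp h (fun _ : ℍ => c) where
  mdiff := mdifferentiable_const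
  periodic _ := rfl
  mero := (MeromorphicAt.const c 0).congr (cuspFunction_const_eventuallyEq hh c).symm

theorem IsMeroCusp.neg {h : ℝ} (hh : 0 < h) {g : ℍ → ℂ} (hg : IsMeroCusp h g) :
    IsMeroCusp h (-g) := by
  have : -g = (fun _ : ℍ => (-1 : ℂ)) * g := by
    funext τ; simp
  rw [this]
  exact (isMeroCusp_const hh (-1)).mul hh hg

theorem IsMeroCusp.sub {h : ℝ} (hh : 0 < h) {g₁ g₂ : ℍ → ℂ} (h₁ : IsMeroCusp h g₁)
    (h₂ : IsMeroCusp h g₂) : IsMeroCusp h (g₁ - g₂) := by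
  rw [sub_eq_add_neg]
  exact h₁.add hh (h₂.neg hh)

theorem ordCusp_mul {h : ℝ} (hh : 0 < h) {g₁ g₂ : ℍ → ℂ} (h₁ : IsMeroCusp h g₁)
    (h₂ : IsMeroCusp h g₂) (h₁0 : g₁ ≠ 0) (h₂0 : g₂ ≠ 0) :
    ordCusp h (g₁ * g₂) = ordCusp h g₁ + ordCusp h g₂ := by
  have e := meromorphicOrderAt_congr (cuspFunction_mul_eventuallyEq hh h₁.periodic h₂.periodic)
  rw [meromorphicOrderAt_mul h₁.mero h₂.mero, ← h₁.coe_ordCusp hh h₁0,
    ← h₂.coe_ordCusp hh h₂0, ← WithTop.coe_add] at e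
  unfold ordCusp at *
  rw [e]
  rfl

/-- The product of two nonzero holomorphic functions on `ℍ` is nonzero. -/
theorem mul_ne_zero_of_mdiff {g₁ g₂ : ℍ → ℂ} (h₁ : MDiff g₁) (h₂ : MDiff g₂) (h₁0 : g₁ ≠ 0)
    (h₂0 : g₂ ≠ 0) : g₁ * g₂ ≠ 0 := by
  intro h0
  have hd1 : DifferentiableOn ℂ (g₁ ∘ ofComplex) {z : ℂ | 0 < z.im} :=
    UpperHalfPlane.mdifferentiable_iff.mp h₁
  have hd2 : DifferentiableOn ℂ (g₂ ∘ ofComplex) {z : ℂ | 0 < z.im} :=
    UpperHalfPlane.mdifferentiable_iff.mp h₂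
  have hopen : IsOpen {z : ℂ | 0 < z.im} := isOpen_lt continuous_const Complex.continuous_im
  have hconn : IsPreconnected {z : ℂ | 0 < z.im} := (convex_halfSpace_im_gt 0).isPreconnected
  have han1 := hd1.analyticOnNhd hopen
  have han2 := hd2.analyticOnNhd hopen
  have hprod : ∀ z ∈ {z : ℂ | 0 < z.im}, (g₁ ∘ ofComplex) z * (g₂ ∘ ofComplex) z = 0 := by
    intro z hz
    have := congrFun h0 (ofComplex z)
    simpa using this
  rcases han1.eq_zero_or_eq_zero_of_mul_eq_zero han2 hprod hconn with hz | hz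
  · apply h₁0
    funext τ
    have := hz _ τ.im_pos
    simpa using this
  · apply h₂0
    funext τ
    have := hz _ τ.im_pos
    simpa using this

theorem ordCusp_const {h : ℝ} (hh : 0 < h) {c : ℂ} (hc : c ≠ 0) :
    ordCusp h (fun _ : ℍ => c) = 0 := by
  classical
  unfold ordCusp
  rw [meromorphicOrderAt_congr (cuspFunction_const_eventuallyEq hh c), meromorphicOrderAt_const,
    if_neg hc]
  rfl

/-- ultrametric inequality -/
theorem min_ordCusp_le_add {h : ℝ} (hh : 0 < h) {g₁ g₂ : ℍ → ℂ} (h₁ : IsMeroCusp h g₁)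
    (h₂ : IsMeroCusp h g₂) (h₁0 : g₁ ≠ 0) (h₂0 : g₂ ≠ 0) (h12 : g₁ + g₂ ≠ 0) :
    min (ordCusp h g₁) (ordCusp h g₂) ≤ ordCusp h (g₁ + g₂) := by
  have e := meromorphicOrderAt_congr (cuspFunction_add_eventuallyEq hh h₁.periodic h₂.periodic)
  have hle := meromorphicOrderAt_add h₁.mero h₂.mero
  rw [← e, ← h₁.coe_ordCusp hh h₁0, ← h₂.coe_ordCusp hh h₂0,
    ← (h₁.add hh h₂).coe_ordCusp hh h12] at hle
  exact_mod_cast hle

/-- the dominant term determines the order -/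
theorem ordCusp_add_of_lt {h : ℝ} (hh : 0 < h) {g₁ g₂ : ℍ → ℂ} (h₁ : IsMeroCusp h g₁)
    (h₂ : IsMeroCusp h g₂) (h₁0 : g₁ ≠ 0) (h₂0 : g₂ ≠ 0)
    (hlt : ordCusp h g₁ < ordCusp h g₂) : ordCusp h (g₁ + g₂) = ordCusp h g₁ := by
  have e := meromorphicOrderAt_congr (cuspFunction_add_eventuallyEq hh h₁.periodic h₂.periodic)
  have hlt' : meromorphicOrderAt (cuspFunction h g₁) 0 < meromorphicOrderAt (cuspFunction h g₂) 0 := by
    rw [← h₁.coe_ordCusp hh h₁0, ← h₂.coe_ordCusp hh h₂0]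
    exact_mod_cast hlt
  have := meromorphicOrderAt_add_eq_left_of_lt h₂.mero hlt'
  unfold ordCusp
  rw [e, this]

/-! ## Boundedness and limits -/

theorem isMeroCusp_of_isBounded {h : ℝ} (hh : 0 < h) {g : ℍ → ℂ} (hg : MDiff g)
    (hper : ∀ τ : ℍ, g (h +ᵥ τ) = g τ) (hb : IsBoundedAtImInfty g) : IsMeroCusp h g where
  mdiff := hg
  periodic := hper
  mero := (analyticAt_cuspFunction_zero hh (cuspOrd_periodic_comp_ofComplex hper) hg
    hb).meromorphicAt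

theorem cuspOrd_qParam_add_period {h : ℝ} (hh : h ≠ 0) (w : ℂ) : 𝕢 h (w + h) = 𝕢 h w := by
  unfold Function.Periodic.qParam
  have hh' : (h : ℂ) ≠ 0 := by exact_mod_cast hh
  have : 2 * (π : ℂ) * Complex.I * (w + h) / h = 2 * π * Complex.I * w / h + 2 * π * Complex.I := by
    field_simp
  rw [this, Complex.exp_add, Complex.exp_two_pi_mul_I, mul_one]

theorem qParam_vadd_period {h : ℝ} (hh : 0 < h) (τ : ℍ) :
    𝕢 h ((h +ᵥ τ : ℍ) : ℂ) = 𝕢 h (τ : ℂ) := by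
  rw [UpperHalfPlane.coe_vadd, add_comm]
  exact cuspOrd_qParam_add_period hh.ne' _

theorem cuspFunction_qParam_self_eventuallyEq {h : ℝ} (hh : 0 < h) :
    cuspFunction h (fun τ : ℍ => 𝕢 h τ) =ᶠ[𝓝[≠] 0] id := by
  apply eventuallyEq_of_forall_qParam hh
  intro τ
  rw [cuspFunction_qParam hh (g := fun τ : ℍ => 𝕢 h τ) (qParam_vadd_period hh)]
  rfl

theorem mdiff_qParam (h : ℝ) : MDiff (fun τ : ℍ => 𝕢 h τ) := by
  rw [UpperHalfPlane.mdifferentiable_iff]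
  have : DifferentiableOn ℂ (𝕢 h) {z : ℂ | 0 < z.im} :=
    (Function.Periodic.differentiable_qParam (h := h)).differentiableOn
  refine this.congr ?_
  intro z hz
  simp only [comp_apply, ofComplex_apply_of_im_pos hz, UpperHalfPlane.coe_mk]

theorem isMeroCusp_qParam {h : ℝ} (hh : 0 < h) : IsMeroCusp h (fun τ : ℍ => 𝕢 h τ) where
  mdiff := mdiff_qParam h
  periodic := qParam_vadd_period hh
  mero := (analyticAt_id.meromorphicAt).congr (cuspFunction_qParam_self_eventuallyEq hh).symm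

theorem qParam_fun_ne_zero (h : ℝ) : (fun τ : ℍ => 𝕢 h τ) ≠ 0 := by
  intro h0
  have := congrFun h0 UpperHalfPlane.I
  exact Function.Periodic.qParam_ne_zero _ this

theorem ordCusp_qParam {h : ℝ} (hh : 0 < h) : ordCusp h (fun τ : ℍ => 𝕢 h τ) = 1 := by
  unfold ordCusp
  rw [meromorphicOrderAt_congr (cuspFunction_qParam_self_eventuallyEq hh)]
  have : meromorphicOrderAt (id : ℂ → ℂ) 0 = 1 := meromorphicOrderAt_id
  rw [this]
  rfl

/-! ## Powers of `q`, functions bounded after multiplication by a power of `q` -/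

theorem isMeroCusp_qParam_pow {h : ℝ} (hh : 0 < h) (m : ℕ) :
    IsMeroCusp h (fun τ : ℍ => 𝕢 h τ ^ m) := by
  induction m with
  | zero => simpa using isMeroCusp_const hh 1
  | succ m ih =>
    have : (fun τ : ℍ => 𝕢 h τ ^ (m + 1)) = (fun τ : ℍ => 𝕢 h τ ^ m) * (fun τ : ℍ => 𝕢 h τ) := by
      funext τ; simp [pow_succ]
    rw [this]
    exact ih.mul hh (isMeroCusp_qParam hh)

theorem qParam_pow_fun_ne_zero (h : ℝ) (m : ℕ) : (fun τ : ℍ => 𝕢 h τ ^ m) ≠ 0 := by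
  intro h0
  have := congrFun h0 UpperHalfPlane.I
  exact pow_ne_zero m (Function.Periodic.qParam_ne_zero _) this

theorem ordCusp_qParam_pow {h : ℝ} (hh : 0 < h) (m : ℕ) :
    ordCusp h (fun τ : ℍ => 𝕢 h τ ^ m) = m := by
  induction m with
  | zero => simpa using ordCusp_const hh (one_ne_zero)
  | succ m ih =>
    have : (fun τ : ℍ => 𝕢 h τ ^ (m + 1)) = (fun τ : ℍ => 𝕢 h τ ^ m) * (fun τ : ℍ => 𝕢 h τ) := by
      funext τ; simp [pow_succ]
    rw [this, ordCusp_mul hh (isMeroCusp_qParam_pow hh m) (isMeroCusp_qParam hh)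
      (qParam_pow_fun_ne_zero h m) (qParam_fun_ne_zero h), ih, ordCusp_qParam hh]
    push_cast
    ring

/-- A periodic holomorphic function which becomes bounded after multiplication by a power of
`q` is meromorphic at the cusp. -/
theorem isMeroCusp_of_isBounded_mul_pow {h : ℝ} (hh : 0 < h) {g : ℍ → ℂ} (hg : MDiff g)
    (hper : ∀ τ : ℍ, g (h +ᵥ τ) = g τ) (m : ℕ)
    (hb : IsBoundedAtImInfty (fun τ : ℍ => g τ * 𝕢 h τ ^ m)) : IsMeroCusp h g := by
  refine ⟨hg, hper, ?_⟩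
  have hq := isMeroCusp_qParam_pow hh m
  have hprod : IsMeroCusp h (g * fun τ : ℍ => 𝕢 h τ ^ m) :=
    isMeroCusp_of_isBounded hh (hg.mul hq.mdiff)
      (fun τ => by simp only [Pi.mul_apply, hper τ, qParam_vadd_period hh]) hb
  -- `cuspFunction g = cuspFunction (g q^m) / cuspFunction (q^m)` near `0`
  have hev : cuspFunction h g =ᶠ[𝓝[≠] 0]
      cuspFunction h (g * fun τ : ℍ => 𝕢 h τ ^ m) * (cuspFunction h (fun τ : ℍ => 𝕢 h τ ^ m))⁻¹ := by
    apply eventuallyEq_of_forall_qParam hh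
    intro τ
    rw [Pi.mul_apply, Pi.inv_apply, cuspFunction_qParam hh hprod.periodic,
      cuspFunction_qParam hh hper, cuspFunction_qParam hh hq.periodic, Pi.mul_apply]
    have : 𝕢 h (τ : ℂ) ^ m ≠ 0 := pow_ne_zero m (Function.Periodic.qParam_ne_zero _)
    field_simp
  exact (hprod.mero.mul hq.mero.inv).congr hev.symm

/-- The order is bounded below by `-m` if `g q^m` is bounded. -/
theorem neg_le_ordCusp_of_isBounded_mul_pow {h : ℝ} (hh : 0 < h) {g : ℍ → ℂ} (hg : MDiff g)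
    (hper : ∀ τ : ℍ, g (h +ᵥ τ) = g τ) (hg0 : g ≠ 0) (m : ℕ)
    (hb : IsBoundedAtImInfty (fun τ : ℍ => g τ * 𝕢 h τ ^ m)) : -(m : ℤ) ≤ ordCusp h g := by
  have hgm := isMeroCusp_of_isBounded_mul_pow hh hg hper m hb
  have hq := isMeroCusp_qParam_pow hh m
  have hprod0 : g * (fun τ : ℍ => 𝕢 h τ ^ m) ≠ 0 :=
    mul_ne_zero_of_mdiff hg hq.mdiff hg0 (qParam_pow_fun_ne_zero h m)
  have hprod : IsMeroCusp h (g * fun τ : ℍ => 𝕢 h τ ^ m) := hgm.mul hh hq
  have han : AnalyticAt ℂ (cuspFunction h (g * fun τ : ℍ => 𝕢 h τ ^ m)) 0 :=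
    analyticAt_cuspFunction_zero hh (cuspOrd_periodic_comp_ofComplex hprod.periodic)
      hprod.mdiff hb
  have h0 : (0 : WithTop ℤ) ≤ meromorphicOrderAt (cuspFunction h (g * fun τ : ℍ => 𝕢 h τ ^ m)) 0 :=
    han.meromorphicOrderAt_nonneg
  rw [← hprod.coe_ordCusp hh hprod0] at h0
  have h1 : (0 : ℤ) ≤ ordCusp h (g * fun τ : ℍ => 𝕢 h τ ^ m) := by exact_mod_cast h0
  rw [ordCusp_mul hh hgm hq hg0 (qParam_pow_fun_ne_zero h m), ordCusp_qParam_pow hh m] at h1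
  linarith

/-- nonnegative order means bounded (indeed convergent) at `i∞` -/
theorem IsMeroCusp.tendsto_of_ordCusp_nonneg {h : ℝ} (hh : 0 < h) {g : ℍ → ℂ}
    (hg : IsMeroCusp h g) (hg0 : g ≠ 0) (hord : 0 ≤ ordCusp h g) :
    ∃ c : ℂ, Tendsto g atImInfty (𝓝 c) := by
  have h0 : (0 : WithTop ℤ) ≤ meromorphicOrderAt (cuspFunction h g) 0 := by
    rw [← hg.coe_ordCusp hh hg0]
    exact_mod_cast hord
  obtain ⟨c, hc⟩ := (tendsto_nhds_iff_meromorphicOrderAt_nonneg hg.mero).mpr h0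
  refine ⟨c, ?_⟩
  have := hc.comp (tendsto_qParam_nhdsNE hh)
  refine this.congr fun τ => ?_
  simp only [comp_apply]
  exact cuspFunction_qParam hh hg.periodic τ

theorem IsMeroCusp.ordCusp_nonneg_of_tendsto {h : ℝ} (hh : 0 < h) {g : ℍ → ℂ}
    (hg : IsMeroCusp h g) (hg0 : g ≠ 0) {c : ℂ} (hc : Tendsto g atImInfty (𝓝 c)) :
    0 ≤ ordCusp h g := by
  have hb : IsBoundedAtImInfty g := by
    have : IsBoundedAtImInfty (fun τ : ℍ => g τ * 𝕢 h τ ^ 0) := by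
      simp only [pow_zero, mul_one]
      exact hc.isBigO_one ℝ
    simpa using this
  have := neg_le_ordCusp_of_isBounded_mul_pow hh hg.mdiff hg.periodic hg0 0 (by simpa using hb)
  simpa using this

/-- positive order means zero at `i∞` -/
theorem IsMeroCusp.ordCusp_pos_iff {h : ℝ} (hh : 0 < h) {g : ℍ → ℂ}
    (hg : IsMeroCusp h g) (hg0 : g ≠ 0) : 0 < ordCusp h g ↔ Tendsto g atImInfty (𝓝 0) := by
  have key : (0 : WithTop ℤ) < meromorphicOrderAt (cuspFunction h g) 0 ↔ 0 < ordCusp h g := by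
    rw [← hg.coe_ordCusp hh hg0]
    exact_mod_cast Iff.rfl
  rw [← key, ← tendsto_zero_iff_meromorphicOrderAt_pos hg.mero]
  constructor
  · intro hc
    have := hc.comp (tendsto_qParam_nhdsNE hh)
    refine this.congr fun τ => ?_
    simp only [comp_apply]
    exact cuspFunction_qParam hh hg.periodic τ
  · intro hc
    have h1 : Tendsto (fun q : ℂ => g (ofComplex (Function.Periodic.invQParam h q))) (𝓝[≠] 0)
        (𝓝 0) := by
      have h2 : Tendsto (fun q : ℂ => ofComplex (Function.Periodic.invQParam h q)) (𝓝[≠] 0)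
          atImInfty :=
        tendsto_comap_im_ofComplex.comp (Function.Periodic.invQParam_tendsto hh)
      exact hc.comp h2
    refine h1.congr' ?_
    filter_upwards [eventually_punctured_disc] with q hq
    rw [cuspFunction, Function.Periodic.cuspFunction_eq_of_nonzero _ _ hq.1]
    rfl

/-! ## Translation invariance -/

theorem isMeroCusp_translate_and {h : ℝ} (hh : 0 < h) {g : ℍ → ℂ} (hg : IsMeroCusp h g) (k : ℝ) :
    IsMeroCusp h (fun τ : ℍ => g (k +ᵥ τ)) ∧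
      ordCusp h (fun τ : ℍ => g (k +ᵥ τ)) = ordCusp h g := by
  set ζ : ℂ := 𝕢 h (k : ℂ) with hζ
  have hζ0 : ζ ≠ 0 := Function.Periodic.qParam_ne_zero _
  have hper : ∀ τ : ℍ, (fun τ : ℍ => g (k +ᵥ τ)) (h +ᵥ τ) = (fun τ : ℍ => g (k +ᵥ τ)) τ := by
    intro τ
    show g (k +ᵥ (h +ᵥ τ)) = g (k +ᵥ τ)
    rw [vadd_comm, hg.periodic]
  have hqk : ∀ τ : ℍ, 𝕢 h ((k +ᵥ τ : ℍ) : ℂ) = ζ * 𝕢 h (τ : ℂ) := by
    intro τ
    rw [UpperHalfPlane.coe_vadd, hζ]
    unfold Function.Periodic.qParam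
    rw [← Complex.exp_add]
    congr 1
    ring
  have hev : cuspFunction h (fun τ : ℍ => g (k +ᵥ τ)) =ᶠ[𝓝[≠] 0]
      (cuspFunction h g) ∘ (fun q => ζ * q) := by
    apply eventuallyEq_of_forall_qParam hh
    intro τ
    rw [cuspFunction_qParam hh hper, comp_apply, ← hqk, cuspFunction_qParam hh hg.periodic]
  have han : AnalyticAt ℂ (fun q : ℂ => ζ * q) 0 := by fun_prop
  have hderiv : deriv (fun q : ℂ => ζ * q) 0 ≠ 0 := by
    have : deriv (fun q : ℂ => ζ * q) 0 = ζ := by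
      simp
    rw [this]; exact hζ0
  have hord : meromorphicOrderAt ((cuspFunction h g) ∘ (fun q => ζ * q)) 0 =
      meromorphicOrderAt (cuspFunction h g) 0 := by
    have := meromorphicOrderAt_comp_of_deriv_ne_zero (f := cuspFunction h g) han hderiv
    simpa using this
  have hmero : MeromorphicAt ((cuspFunction h g) ∘ (fun q => ζ * q)) 0 := by
    have h1 : MeromorphicAt (cuspFunction h g) ((fun q : ℂ => ζ * q) 0) := by
      simpa using hg.mero
    exact h1.comp_analyticAt han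
  refine ⟨⟨?_, hper, hmero.congr hev.symm⟩, ?_⟩
  · -- holomorphy of the translate
    rw [UpperHalfPlane.mdifferentiable_iff]
    have hd : DifferentiableOn ℂ (g ∘ ofComplex) {z : ℂ | 0 < z.im} :=
      UpperHalfPlane.mdifferentiable_iff.mp hg.mdiff
    have hd2 : DifferentiableOn ℂ ((g ∘ ofComplex) ∘ fun z : ℂ => z + k) {z : ℂ | 0 < z.im} := by
      apply hd.comp (by fun_prop)
      intro z hz
      show 0 < (z + k).im
      simpa using hz
    refine hd2.congr ?_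
    intro z hz
    have hz' : 0 < (z + k).im := by simpa using hz
    simp only [comp_apply, ofComplex_apply_of_im_pos hz, ofComplex_apply_of_im_pos hz']
    congr 1
    ext
    simp [add_comm]
  · unfold ordCusp
    rw [meromorphicOrderAt_congr hev, hord]

theorem isMeroCusp_translate {h : ℝ} (hh : 0 < h) {g : ℍ → ℂ} (hg : IsMeroCusp h g) (k : ℝ) :
    IsMeroCusp h (fun τ : ℍ => g (k +ᵥ τ)) :=
  (isMeroCusp_translate_and hh hg k).1

theorem ordCusp_translate {h : ℝ} (hh : 0 < h) {g : ℍ → ℂ} (hg : IsMeroCusp h g) (k : ℝ) :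
    ordCusp h (fun τ : ℍ => g (k +ᵥ τ)) = ordCusp h g :=
  (isMeroCusp_translate_and hh hg k).2

/-! ## Change of the period -/

theorem qParam_pow_eq {h' : ℝ} (hh' : 0 < h') {n : ℕ} (hn : 0 < n) (w : ℂ) :
    𝕢 ((n : ℝ) * h') w ^ n = 𝕢 h' w := by
  unfold Function.Periodic.qParam
  rw [← Complex.exp_nat_mul]
  congr 1
  have hn' : (n : ℂ) ≠ 0 := by exact_mod_cast hn.ne'
  have hh'' : (h' : ℂ) ≠ 0 := by exact_mod_cast hh'.ne'
  push_cast
  field_simp

/-- If `g` has period `h'` then with respect to the period `n h'` the order is multiplied by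
`n`. -/
theorem isMeroCusp_nat_mul {h' : ℝ} (hh' : 0 < h') {g : ℍ → ℂ} (hg : IsMeroCusp h' g) {n : ℕ}
    (hn : 0 < n) :
    IsMeroCusp ((n : ℝ) * h') g ∧ ordCusp ((n : ℝ) * h') g = n * ordCusp h' g := by
  have hh : 0 < (n : ℝ) * h' := mul_pos (by exact_mod_cast hn) hh'
  have hper : ∀ τ : ℍ, g (((n : ℝ) * h') +ᵥ τ) = g τ := by
    intro τ
    induction n with
    | zero => simp
    | succ m ih =>
      rcases Nat.eq_zero_or_pos m with rfl | hm
      · simpa using hg.periodic τ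
      · have : (((m + 1 : ℕ) : ℝ) * h') = h' + (m : ℝ) * h' := by push_cast; ring
        rw [this, add_vadd, hg.periodic]
        exact ih hm (mul_pos (by exact_mod_cast hm) hh')
  set φ : ℂ → ℂ := fun q => q ^ n with hφ
  have hφ0 : φ 0 = 0 := by simp [hφ, zero_pow hn.ne']
  have hev : cuspFunction ((n : ℝ) * h') g =ᶠ[𝓝[≠] 0] (cuspFunction h' g) ∘ φ := by
    apply eventuallyEq_of_forall_qParam hh
    intro τ
    rw [cuspFunction_qParam hh hper, comp_apply]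
    show g τ = cuspFunction h' g (𝕢 ((n : ℝ) * h') τ ^ n)
    rw [qParam_pow_eq hh' hn, cuspFunction_qParam hh' hg.periodic]
  have han : AnalyticAt ℂ φ 0 := by
    have : AnalyticAt ℂ (fun q : ℂ => q ^ n) 0 := by fun_prop
    exact this
  have h2 : analyticOrderAt (fun z : ℂ => φ z - φ 0) 0 = n := by
    have : (fun z : ℂ => φ z - φ 0) = fun z => (z - 0) ^ n := by
      funext z; simp [hφ, zero_pow hn.ne']
    rw [this]
    exact analyticOrderAt_centeredMonomial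
  have hnc : ¬ EventuallyConst φ (𝓝 0) := by
    rw [eventuallyConst_iff_analyticOrderAt_sub_eq_top, h2]
    exact ENat.natCast_ne_top n
  have h0 : MeromorphicAt (cuspFunction h' g) (φ 0) := by
    rw [hφ0]; exact hg.mero
  have hord := MeromorphicAt.meromorphicOrderAt_comp (f := cuspFunction h' g) (g := φ)
    (x := (0 : ℂ)) h0 han hnc
  have hmero : MeromorphicAt ((cuspFunction h' g) ∘ φ) 0 :=
    MeromorphicAt.comp_analyticAt (f := cuspFunction h' g) (g := φ) (x := (0 : ℂ)) h0 han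
  refine ⟨⟨hg.mdiff, hper, hmero.congr hev.symm⟩, ?_⟩
  unfold ordCusp
  rw [meromorphicOrderAt_congr hev, hord, h2, hφ0]
  cases hm : meromorphicOrderAt (cuspFunction h' g) 0 with
  | top => simp
  | coe a =>
    have h3 : (((n : ℕ) : ℕ∞).map (Nat.cast : ℕ → ℤ) : WithTop ℤ) = ((n : ℤ) : WithTop ℤ) := rfl
    rw [h3, ← WithTop.coe_mul, WithTop.untop₀_coe, WithTop.untop₀_coe]
    ring

theorem ordCusp_nat_mul {h' : ℝ} (hh' : 0 < h') {g : ℍ → ℂ} (hg : IsMeroCusp h' g) {n : ℕ}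
    (hn : 0 < n) : ordCusp ((n : ℝ) * h') g = n * ordCusp h' g :=
  (isMeroCusp_nat_mul hh' hg hn).2

/-- divisibility of the order by the index of the periods -/
theorem dvd_ordCusp_of_periodic {h' : ℝ} (hh' : 0 < h') {g : ℍ → ℂ} (hg : IsMeroCusp h' g)
    {n : ℕ} (hn : 0 < n) : (n : ℤ) ∣ ordCusp ((n : ℝ) * h') g :=
  ⟨ordCusp h' g, ordCusp_nat_mul hh' hg hn⟩

/-! ## Negative powers of `q` and the limit characterisation of the order -/

theorem cuspOrd_qParam_neg (h : ℝ) (w : ℂ) : 𝕢 (-h) w = (𝕢 h w)⁻¹ := by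
  unfold Function.Periodic.qParam
  rw [← Complex.exp_neg]
  congr 1
  push_cast
  rw [div_neg]

theorem isMeroCusp_qParam_inv_pow {h : ℝ} (hh : 0 < h) (m : ℕ) :
    IsMeroCusp h (fun τ : ℍ => (𝕢 h τ ^ m)⁻¹) := by
  have hper : ∀ τ : ℍ, (𝕢 h ((h +ᵥ τ : ℍ) : ℂ) ^ m)⁻¹ = (𝕢 h (τ : ℂ) ^ m)⁻¹ := fun τ => by
    rw [qParam_vadd_period hh]
  have hmd : MDiff (fun τ : ℍ => (𝕢 h τ ^ m)⁻¹) := by
    have : (fun τ : ℍ => (𝕢 h τ ^ m)⁻¹) = fun τ : ℍ => (𝕢 (-h) τ) ^ m := by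
      funext τ; rw [cuspOrd_qParam_neg, inv_pow]
    rw [this]
    exact (mdiff_qParam (-h)).pow m
  refine ⟨hmd, hper, ?_⟩
  have hq := isMeroCusp_qParam_pow hh m
  have hev : cuspFunction h (fun τ : ℍ => (𝕢 h τ ^ m)⁻¹) =ᶠ[𝓝[≠] 0]
      (cuspFunction h (fun τ : ℍ => 𝕢 h τ ^ m))⁻¹ := by
    apply eventuallyEq_of_forall_qParam hh
    intro τ
    rw [Pi.inv_apply, cuspFunction_qParam hh (g := fun τ : ℍ => (𝕢 h τ ^ m)⁻¹) hper,
      cuspFunction_qParam hh hq.periodic]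
  exact hq.mero.inv.congr hev.symm

theorem qParam_inv_pow_fun_ne_zero (h : ℝ) (m : ℕ) : (fun τ : ℍ => (𝕢 h τ ^ m)⁻¹) ≠ 0 := by
  intro h0
  have := congrFun h0 UpperHalfPlane.I
  exact inv_ne_zero (pow_ne_zero m (Function.Periodic.qParam_ne_zero _)) this

theorem ordCusp_qParam_inv_pow {h : ℝ} (hh : 0 < h) (m : ℕ) :
    ordCusp h (fun τ : ℍ => (𝕢 h τ ^ m)⁻¹) = -(m : ℤ) := by
  have h1 := ordCusp_mul hh (isMeroCusp_qParam_pow hh m) (isMeroCusp_qParam_inv_pow hh m)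
    (qParam_pow_fun_ne_zero h m) (qParam_inv_pow_fun_ne_zero h m)
  have h2 : ((fun τ : ℍ => 𝕢 h τ ^ m) * fun τ : ℍ => (𝕢 h τ ^ m)⁻¹) = fun _ : ℍ => (1 : ℂ) := by
    funext τ
    rw [Pi.mul_apply]
    exact mul_inv_cancel₀ (pow_ne_zero m (Function.Periodic.qParam_ne_zero _))
  rw [h2, ordCusp_const hh one_ne_zero, ordCusp_qParam_pow hh m] at h1
  linarith

/-- A function with a nonzero limit at `i∞` has order `0`. -/
theorem IsMeroCusp.ordCusp_eq_zero_of_tendsto {h : ℝ} (hh : 0 < h) {g : ℍ → ℂ}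
    (hg : IsMeroCusp h g) {c : ℂ} (hc0 : c ≠ 0) (hc : Tendsto g atImInfty (𝓝 c)) :
    ordCusp h g = 0 := by
  have hg0 : g ≠ 0 := by
    rintro rfl
    have h0 : Tendsto (0 : ℍ → ℂ) atImInfty (𝓝 0) := tendsto_const_nhds
    exact hc0 (tendsto_nhds_unique hc h0)
  have h1 := hg.ordCusp_nonneg_of_tendsto hh hg0 hc
  have h2 : ¬ 0 < ordCusp h g := by
    intro hpos
    have h0 := (hg.ordCusp_pos_iff hh hg0).mp hpos
    exact hc0 (tendsto_nhds_unique hc h0)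
  omega

/-- `g q^m → c ≠ 0` means that the order is `-m`. -/
theorem IsMeroCusp.ordCusp_eq_neg_of_tendsto_mul_pow {h : ℝ} (hh : 0 < h) {g : ℍ → ℂ}
    (hg : IsMeroCusp h g) (m : ℕ) {c : ℂ} (hc0 : c ≠ 0)
    (hc : Tendsto (fun τ : ℍ => g τ * 𝕢 h τ ^ m) atImInfty (𝓝 c)) : ordCusp h g = -(m : ℤ) := by
  have hq := isMeroCusp_qParam_pow hh m
  have hprod : IsMeroCusp h (g * fun τ : ℍ => 𝕢 h τ ^ m) := hg.mul hh hq
  have h0 := hprod.ordCusp_eq_zero_of_tendsto hh hc0 hc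
  have hg0 : g ≠ 0 := by
    rintro rfl
    have h1 : Tendsto (fun τ : ℍ => (0 : ℍ → ℂ) τ * 𝕢 h τ ^ m) atImInfty (𝓝 0) := by
      simp only [Pi.zero_apply, zero_mul]
      exact tendsto_const_nhds
    exact hc0 (tendsto_nhds_unique hc h1)
  rw [ordCusp_mul hh hg hq hg0 (qParam_pow_fun_ne_zero h m), ordCusp_qParam_pow hh m] at h0
  linarith

/-- `g / q^m → c ≠ 0` means that the order is `m`. -/
theorem IsMeroCusp.ordCusp_eq_of_tendsto_div_pow {h : ℝ} (hh : 0 < h) {g : ℍ → ℂ}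
    (hg : IsMeroCusp h g) (m : ℕ) {c : ℂ} (hc0 : c ≠ 0)
    (hc : Tendsto (fun τ : ℍ => g τ / 𝕢 h τ ^ m) atImInfty (𝓝 c)) : ordCusp h g = (m : ℤ) := by
  have hq := isMeroCusp_qParam_inv_pow hh m
  have hprod : IsMeroCusp h (g * fun τ : ℍ => (𝕢 h τ ^ m)⁻¹) := hg.mul hh hq
  have hc' : Tendsto (g * fun τ : ℍ => (𝕢 h τ ^ m)⁻¹) atImInfty (𝓝 c) := by
    refine hc.congr fun τ => ?_
    rw [Pi.mul_apply, div_eq_mul_inv]
  have h0 := hprod.ordCusp_eq_zero_of_tendsto hh hc0 hc'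
  have hg0 : g ≠ 0 := by
    rintro rfl
    have h1 : Tendsto (fun τ : ℍ => (0 : ℍ → ℂ) τ / 𝕢 h τ ^ m) atImInfty (𝓝 0) := by
      simp only [Pi.zero_apply, zero_div]
      exact tendsto_const_nhds
    exact hc0 (tendsto_nhds_unique hc h1)
  rw [ordCusp_mul hh hg hq hg0 (qParam_inv_pow_fun_ne_zero h m), ordCusp_qParam_inv_pow hh m] at h0
  linarith

/-- Every function meromorphic at the cusp becomes bounded after multiplication by a power of
`q`. -/
theorem IsMeroCusp.exists_isBounded_mul_pow {h : ℝ} (hh : 0 < h) {g : ℍ → ℂ}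
    (hg : IsMeroCusp h g) : ∃ m : ℕ, IsBoundedAtImInfty (fun τ : ℍ => g τ * 𝕢 h τ ^ m) := by
  by_cases hg0 : g = 0
  · refine ⟨0, ?_⟩
    subst hg0
    have h1 : Tendsto (fun τ : ℍ => (0 : ℍ → ℂ) τ * 𝕢 h τ ^ 0) atImInfty (𝓝 0) := by
      simp only [Pi.zero_apply, zero_mul]
      exact tendsto_const_nhds
    exact h1.isBigO_one ℝ
  · refine ⟨(-ordCusp h g).toNat, ?_⟩
    set m := (-ordCusp h g).toNat with hm
    have hq := isMeroCusp_qParam_pow hh m
    have hprod : IsMeroCusp h (g * fun τ : ℍ => 𝕢 h τ ^ m) := hg.mul hh hq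
    have hprod0 : g * (fun τ : ℍ => 𝕢 h τ ^ m) ≠ 0 :=
      mul_ne_zero_of_mdiff hg.mdiff hq.mdiff hg0 (qParam_pow_fun_ne_zero h m)
    have hord : 0 ≤ ordCusp h (g * fun τ : ℍ => 𝕢 h τ ^ m) := by
      rw [ordCusp_mul hh hg hq hg0 (qParam_pow_fun_ne_zero h m), ordCusp_qParam_pow hh m]
      have : -ordCusp h g ≤ ((-ordCusp h g).toNat : ℤ) := Int.self_le_toNat _
      linarith
    obtain ⟨c, hc⟩ := hprod.tendsto_of_ordCusp_nonneg hh hprod0 hord
    exact hc.isBigO_one ℝ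

theorem isBoundedAtImInfty_qParam_pow {h : ℝ} (hh : 0 < h) (m : ℕ) :
    IsBoundedAtImInfty (fun τ : ℍ => 𝕢 h τ ^ m) := by
  have hq := isMeroCusp_qParam_pow hh m
  obtain ⟨c, hc⟩ := hq.tendsto_of_ordCusp_nonneg hh (qParam_pow_fun_ne_zero h m)
    (by rw [ordCusp_qParam_pow hh m]; positivity)
  exact hc.isBigO_one ℝ

/-- Converse change of period: meromorphic at the cusp for the period `n h'` and `h'`-periodic
implies meromorphic at the cusp for the period `h'`. -/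
theorem isMeroCusp_of_nat_mul {h' : ℝ} (hh' : 0 < h') {g : ℍ → ℂ} {n : ℕ} (hn : 0 < n)
    (hg : IsMeroCusp ((n : ℝ) * h') g) (hper : ∀ τ : ℍ, g (h' +ᵥ τ) = g τ) :
    IsMeroCusp h' g := by
  have hh : 0 < (n : ℝ) * h' := mul_pos (by exact_mod_cast hn) hh'
  obtain ⟨m, hm⟩ := hg.exists_isBounded_mul_pow hh
  apply isMeroCusp_of_isBounded_mul_pow hh' hg.mdiff hper m
  have h1 : (fun τ : ℍ => g τ * 𝕢 h' τ ^ m) =
      (fun τ : ℍ => g τ * 𝕢 ((n : ℝ) * h') τ ^ m) * fun τ : ℍ => 𝕢 ((n : ℝ) * h') τ ^ ((n - 1) * m) := by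
    funext τ
    rw [Pi.mul_apply, mul_assoc, ← pow_add, ← qParam_pow_eq hh' hn, ← pow_mul]
    congr 2
    have : n = (n - 1) + 1 := by omega
    calc n * m = ((n - 1) + 1) * m := by rw [← this]
      _ = m + (n - 1) * m := by ring
  rw [h1]
  exact hm.mul (isBoundedAtImInfty_qParam_pow hh _)

/-- **Periodicity lemma**: if `g` is meromorphic at the cusp for the period `n w` and is
`w`-periodic, then `n` divides the order in `q_{n w}`. -/
theorem dvd_ordCusp_of_periodic' {w : ℝ} (hw : 0 < w) {g : ℍ → ℂ} {n : ℕ} (hn : 0 < n)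
    (hg : IsMeroCusp ((n : ℝ) * w) g) (hper : ∀ τ : ℍ, g (w +ᵥ τ) = g τ) :
    (n : ℤ) ∣ ordCusp ((n : ℝ) * w) g :=
  dvd_ordCusp_of_periodic hw (isMeroCusp_of_nat_mul hw hn hg hper) hn

/-- natural number version of the periodicity lemma: `T^w`-invariance forces `(N / w) ∣ ord`. -/
theorem natDiv_dvd_ordCusp {N w : ℕ} (hw : 0 < w) (hwN : w ∣ N) (hN : 0 < N) {g : ℍ → ℂ}
    (hg : IsMeroCusp (N : ℝ) g) (hper : ∀ τ : ℍ, g (((w : ℕ) : ℝ) +ᵥ τ) = g τ) :
    ((N / w : ℕ) : ℤ) ∣ ordCusp (N : ℝ) g := by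
  obtain ⟨n, rfl⟩ := hwN
  have hn : 0 < n := by
    rcases Nat.eq_zero_or_pos n with rfl | h'
    · simp at hN
    · exact h'
  have e : ((w * n : ℕ) : ℝ) = (n : ℝ) * (w : ℝ) := by push_cast; ring
  rw [Nat.mul_div_cancel_left n hw]
  rw [e] at hg ⊢
  exact dvd_ordCusp_of_periodic' (by exact_mod_cast hw) hn hg hper

/-! ## The `j`-function: any `J` with `J q → 1` -/

section J

variable {J : ℍ → ℂ}

theorem isMeroCusp_one_of_tendsto (hJ : MDiff J) (hper : ∀ τ : ℍ, J ((1 : ℝ) +ᵥ τ) = J τ)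
    (hlim : Tendsto (fun τ : ℍ => J τ * 𝕢 1 τ) atImInfty (𝓝 1)) : IsMeroCusp 1 J := by
  apply isMeroCusp_of_isBounded_mul_pow one_pos hJ hper 1
  simp only [pow_one]
  exact hlim.isBigO_one ℝ

theorem ordCusp_one_of_tendsto (hJ : MDiff J) (hper : ∀ τ : ℍ, J ((1 : ℝ) +ᵥ τ) = J τ)
    (hlim : Tendsto (fun τ : ℍ => J τ * 𝕢 1 τ) atImInfty (𝓝 1)) : ordCusp 1 J = -1 := by
  have h := (isMeroCusp_one_of_tendsto hJ hper hlim).ordCusp_eq_neg_of_tendsto_mul_pow one_pos 1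
    one_ne_zero (by simpa only [pow_one] using hlim)
  simpa using h

theorem isMeroCusp_nat_of_tendsto (hJ : MDiff J) (hper : ∀ τ : ℍ, J ((1 : ℝ) +ᵥ τ) = J τ)
    (hlim : Tendsto (fun τ : ℍ => J τ * 𝕢 1 τ) atImInfty (𝓝 1)) {N : ℕ} (hN : 0 < N) :
    IsMeroCusp (N : ℝ) J := by
  have := (isMeroCusp_nat_mul one_pos (isMeroCusp_one_of_tendsto hJ hper hlim) hN).1
  rwa [mul_one] at this

theorem ordCusp_nat_of_tendsto (hJ : MDiff J) (hper : ∀ τ : ℍ, J ((1 : ℝ) +ᵥ τ) = J τ)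
    (hlim : Tendsto (fun τ : ℍ => J τ * 𝕢 1 τ) atImInfty (𝓝 1)) {N : ℕ} (hN : 0 < N) :
    ordCusp (N : ℝ) J = -(N : ℤ) := by
  have := (isMeroCusp_nat_mul one_pos (isMeroCusp_one_of_tendsto hJ hper hlim) hN).2
  rw [mul_one, ordCusp_one_of_tendsto hJ hper hlim] at this
  rw [this]; ring

end J

/-- Subtracting a constant does not change a negative order. -/
theorem ordCusp_sub_const_of_neg {h : ℝ} (hh : 0 < h) {g : ℍ → ℂ} (hg : IsMeroCusp h g)
    (hneg : ordCusp h g < 0) (c : ℂ) : ordCusp h (fun τ : ℍ => g τ - c) = ordCusp h g := by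
  rcases eq_or_ne c 0 with rfl | hc
  · simp
  · have hc' : IsMeroCusp h (fun _ : ℍ => -c) := isMeroCusp_const hh (-c)
    have e : (fun τ : ℍ => g τ - c) = g + fun _ : ℍ => -c := by
      funext τ; simp [sub_eq_add_neg]
    rw [e]
    have hg0 : g ≠ 0 := by
      rintro rfl
      have : ordCusp h (0 : ℍ → ℂ) = 0 := by
        unfold ordCusp
        have h0 : cuspFunction h (0 : ℍ → ℂ) =ᶠ[𝓝[≠] 0] fun _ => (0 : ℂ) :=
          cuspFunction_const_eventuallyEq hh 0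
        rw [meromorphicOrderAt_congr h0]
        have : meromorphicOrderAt (fun _ : ℂ => (0 : ℂ)) 0 = ⊤ :=
          meromorphicOrderAt_eq_top_iff.mpr (Eventually.of_forall fun _ => rfl)
        rw [this]; rfl
      rw [this] at hneg
      exact lt_irrefl _ hneg
    have hc0 : (fun _ : ℍ => -c) ≠ 0 := by
      intro h0
      exact neg_ne_zero.mpr hc (congrFun h0 UpperHalfPlane.I)
    apply ordCusp_add_of_lt hh hg hc' hg0 hc0
    rw [ordCusp_const hh (neg_ne_zero.mpr hc)]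
    exact hneg

theorem isMeroCusp_sub_const {h : ℝ} (hh : 0 < h) {g : ℍ → ℂ} (hg : IsMeroCusp h g) (c : ℂ) :
    IsMeroCusp h (fun τ : ℍ => g τ - c) := by
  have e : (fun τ : ℍ => g τ - c) = g - fun _ : ℍ => c := by
    funext τ; simp
  rw [e]
  exact hg.sub hh (isMeroCusp_const hh c)

/-! ## `SL(2, ℤ)`-packaging: translations are powers of `T` -/

theorem isMeroCusp_comp_T_zpow {h : ℝ} (hh : 0 < h) {g : ℍ → ℂ} (hg : IsMeroCusp h g) (k : ℤ) :
    IsMeroCusp h (fun τ : ℍ => g (ModularGroup.T ^ k • τ)) := by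
  have : (fun τ : ℍ => g (ModularGroup.T ^ k • τ)) = fun τ : ℍ => g (((k : ℤ) : ℝ) +ᵥ τ) := by
    funext τ; rw [UpperHalfPlane.modular_T_zpow_smul]
  rw [this]
  exact isMeroCusp_translate hh hg _

theorem ordCusp_comp_T_zpow {h : ℝ} (hh : 0 < h) {g : ℍ → ℂ} (hg : IsMeroCusp h g) (k : ℤ) :
    ordCusp h (fun τ : ℍ => g (ModularGroup.T ^ k • τ)) = ordCusp h g := by
  have : (fun τ : ℍ => g (ModularGroup.T ^ k • τ)) = fun τ : ℍ => g (((k : ℤ) : ℝ) +ᵥ τ) := by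
    funext τ; rw [UpperHalfPlane.modular_T_zpow_smul]
  rw [this]
  exact ordCusp_translate hh hg _

/-- the order at the cusp `δ∞` only depends on `δ` up to right multiplication by powers of `T` -/
theorem ordCusp_comp_mul_T_zpow {h : ℝ} (hh : 0 < h) {a : ℍ → ℂ} (δ : Matrix.SpecialLinearGroup (Fin 2) ℤ)
    (hg : IsMeroCusp h (fun τ : ℍ => a (δ • τ))) (k : ℤ) :
    ordCusp h (fun τ : ℍ => a ((δ * ModularGroup.T ^ k) • τ)) = ordCusp h (fun τ : ℍ => a (δ • τ)) := by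
  have := ordCusp_comp_T_zpow hh hg k
  simpa only [mul_smul] using this

/-- **Periodicity lemma**, `T`-version: a function meromorphic at the cusp for the period `N`
which is invariant under `T ^ w`, `w ∣ N`, has order in `q_N` divisible by `N / w`. -/
theorem natDiv_dvd_ordCusp_of_T_pow {N w : ℕ} (hw : 0 < w) (hwN : w ∣ N) (hN : 0 < N) {g : ℍ → ℂ}
    (hg : IsMeroCusp (N : ℝ) g) (hper : ∀ τ : ℍ, g (ModularGroup.T ^ w • τ) = g τ) :
    ((N / w : ℕ) : ℤ) ∣ ordCusp (N : ℝ) g := by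
  apply natDiv_dvd_ordCusp hw hwN hN hg
  intro τ
  have := hper τ
  rwa [← zpow_natCast, UpperHalfPlane.modular_T_zpow_smul, Int.cast_natCast] at this

end

end Fermat.Agent.S24
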