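import Mathlib
import Fermat.Agent.S24.JFun

set_option autoImplicit false

/-!
# S24 / J3 (= M3): invariant holomorphic functions with a finite pole at `i∞` are polynomials in `j`

`Rep p g` says that `g : ℍ → ℂ` is the sum of the power series `p` in `q = exp (2πi z)`.
Main results: `exists_poly_of_rep` (coefficients in a subring), `exists_poly_of_bounded`
(complex form).
-/

namespace Fermat.Agent.S24.JPoly

open UpperHalfPlane Filter Topology Function
open scoped MatrixGroups Manifold ModularForm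

noncomputable section

local notation "𝕢" => Periodic.qParam

/-- The local parameter `q_N = exp (2πi z / N)` at `i∞`, as a function on `ℍ`. -/
def qq (N : ℕ) (z : ℍ) : ℂ := 𝕢 (N : ℝ) (z : ℂ)

theorem qq_def (N : ℕ) (z : ℍ) : qq N z = 𝕢 (N : ℝ) (z : ℂ) := rfl

theorem qq_one (z : ℍ) : qq 1 z = 𝕢 1 (z : ℂ) := by simp [qq]

theorem qq_eq_expFn (N : ℕ) (z : ℍ) : qq N z = Fermat.Agent.S20.expFn (1 / (N : ℝ)) z := by
  unfold qq Periodic.qParam Fermat.Agent.S20.expFn
  congr 1
  push_cast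
  ring

theorem qq_one_eq_expFn (z : ℍ) : qq 1 z = Fermat.Agent.S20.expFn 1 z := by
  rw [qq_eq_expFn]; simp

theorem qq_ne_zero (N : ℕ) (z : ℍ) : qq N z ≠ 0 := Periodic.qParam_ne_zero _

section

variable (N : ℕ) [NeZero N]

theorem natCast_pos' : (0 : ℝ) < (N : ℝ) := Nat.cast_pos.mpr (NeZero.pos N)

theorem norm_qq_lt_one (z : ℍ) : ‖qq N z‖ < 1 :=
  Periodic.norm_qParam_lt_one (natCast_pos' N) z.im_pos

omit [NeZero N] in
theorem norm_qq (z : ℍ) : ‖qq N z‖ = Real.exp (-2 * Real.pi * z.im / N) := by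
  rw [qq, Periodic.norm_qParam]
  rfl

omit [NeZero N] in
theorem mdiff_qq : MDiff (qq N) := by
  have : qq N = Fermat.Agent.S20.expFn (1 / (N : ℝ)) := funext (qq_eq_expFn N)
  rw [this]
  exact Fermat.Agent.S20.mdiff_expFn _

theorem tendsto_norm_qq : Tendsto (fun z : ℍ => ‖qq N z‖) atImInfty (𝓝 0) := by
  have h : Tendsto (Fermat.Agent.S20.expFn (1 / (N : ℝ))) atImInfty (𝓝 0) :=
    Fermat.Agent.S20.isZeroAtImInfty_expFn (one_div_pos.mpr (natCast_pos' N))
  have := h.norm
  rw [norm_zero] at this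
  refine this.congr fun z => ?_
  rw [qq_eq_expFn]

theorem qq_pow_self (z : ℍ) : qq N z ^ N = qq 1 z := by
  rw [qq_eq_expFn, qq_one_eq_expFn]
  unfold Fermat.Agent.S20.expFn
  rw [← Complex.exp_nat_mul]
  congr 1
  have : (N : ℂ) ≠ 0 := Nat.cast_ne_zero.mpr (NeZero.ne N)
  push_cast
  field_simp

end

/-- `g` is represented on all of `ℍ` by the power series `p` in `q_N = exp (2πi z / N)`. -/
def Rep (N : ℕ) (p : PowerSeries ℂ) (g : ℍ → ℂ) : Prop :=
  ∀ z : ℍ, HasSum (fun n : ℕ => PowerSeries.coeff n p * qq N z ^ n) (g z)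

namespace Rep

variable {N : ℕ} {p p' : PowerSeries ℂ} {g g' : ℍ → ℂ}

/-- A point of `ℍ` with half the imaginary part. -/
private def half (z : ℍ) : ℍ := ⟨⟨0, z.im / 2⟩, by simpa using half_pos z.im_pos⟩

private theorem half_im (z : ℍ) : (half z).im = z.im / 2 := rfl

theorem summable_norm [NeZero N] (h : Rep N p g) (z : ℍ) :
    Summable (fun n : ℕ => ‖PowerSeries.coeff n p * qq N z ^ n‖) := by
  set w := qq N (half z) with hw
  have hs : Summable (fun n : ℕ => PowerSeries.coeff n p * w ^ n) := (h (half z)).summable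
  obtain ⟨C, hC⟩ := (Metric.isBounded_range_of_tendsto _ hs.tendsto_atTop_zero).exists_norm_le
  have hwpos : 0 < ‖w‖ := norm_pos_iff.mpr (qq_ne_zero _ _)
  set ρ : ℝ := ‖qq N z‖ / ‖w‖ with hρ
  have hρ0 : 0 ≤ ρ := div_nonneg (norm_nonneg _) hwpos.le
  have hρ1 : ρ < 1 := by
    rw [hρ, div_lt_one hwpos, hw, norm_qq, norm_qq, half_im]
    apply Real.exp_lt_exp.mpr
    have := z.im_pos
    have := Real.pi_pos
    apply div_lt_div_of_pos_right _ (natCast_pos' N)
    nlinarith
  refine Summable.of_norm_bounded (g := fun n => C * ρ ^ n)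
    ((summable_geometric_of_lt_one hρ0 hρ1).mul_left C) fun n => ?_
  have h1 : ‖PowerSeries.coeff n p * w ^ n‖ ≤ C := hC _ ⟨n, rfl⟩
  rw [norm_norm, norm_mul, norm_pow]
  rw [norm_mul, norm_pow] at h1
  have h2 : ‖qq N z‖ ^ n = ‖w‖ ^ n * ρ ^ n := by
    rw [hρ, div_pow, mul_div_cancel₀ _ (pow_ne_zero n hwpos.ne')]
  rw [h2, ← mul_assoc]
  exact mul_le_mul_of_nonneg_right h1 (pow_nonneg hρ0 n)

theorem add (h : Rep N p g) (h' : Rep N p' g') : Rep N (p + p') (g + g') := fun z => by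
  have := (h z).add (h' z)
  simpa [add_mul] using this

theorem sub (h : Rep N p g) (h' : Rep N p' g') : Rep N (p - p') (g - g') := fun z => by
  have := (h z).sub (h' z)
  simpa [sub_mul] using this

theorem const_mul (c : ℂ) (h : Rep N p g) : Rep N (PowerSeries.C c * p) (fun z => c * g z) :=
  fun z => by
    have := (h z).mul_left c
    simpa [PowerSeries.coeff_C_mul, mul_assoc] using this

theorem one : Rep N 1 (fun _ => 1) := fun z => by
  have : (fun n : ℕ => PowerSeries.coeff n (1 : PowerSeries ℂ) * qq N z ^ n)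
      = fun n : ℕ => if n = 0 then (1 : ℂ) else 0 := by
    funext n
    rw [PowerSeries.coeff_one]
    split_ifs with hn
    · simp [hn]
    · simp
  rw [this]
  exact hasSum_ite_eq 0 1

theorem mul [NeZero N] (h : Rep N p g) (h' : Rep N p' g') : Rep N (p * p') (fun z => g z * g' z) := fun z => by
  have hs := h.summable_norm z
  have hs' := h'.summable_norm z
  have hsum := summable_norm_sum_mul_antidiagonal_of_summable_norm hs hs'
  have heq := tsum_mul_tsum_eq_tsum_sum_antidiagonal_of_summable_norm hs hs'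
  rw [(h z).tsum_eq, (h' z).tsum_eq] at heq
  have hterm : (fun n : ℕ => PowerSeries.coeff n (p * p') * qq N z ^ n) =
      fun n : ℕ => ∑ kl ∈ Finset.HasAntidiagonal.antidiagonal n,
        (PowerSeries.coeff kl.1 p * qq N z ^ kl.1) * (PowerSeries.coeff kl.2 p' * qq N z ^ kl.2) := by
    funext n
    rw [PowerSeries.coeff_mul, Finset.sum_mul]
    refine Finset.sum_congr rfl fun kl hkl => ?_
    have hkl' : kl.1 + kl.2 = n := Finset.HasAntidiagonal.mem_antidiagonal.mp hkl
    rw [← hkl', pow_add]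
    ring
  rw [hterm]
  show HasSum _ (g z * g' z)
  rw [heq]
  exact hsum.of_norm.hasSum

theorem pow [NeZero N] (h : Rep N p g) (n : ℕ) : Rep N (p ^ n) (fun z => g z ^ n) := by
  induction n with
  | zero => simpa using one
  | succ n ih =>
    have := ih.mul h
    simpa [pow_succ] using this

theorem congr (h : Rep N p g) (hg : ∀ z, g z = g' z) : Rep N p g' := fun z => by
  rw [← hg z]; exact h z

/-- the shifted power series -/
def shift (p : PowerSeries ℂ) : PowerSeries ℂ := PowerSeries.mk fun n => PowerSeries.coeff (n + 1) p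

@[simp] theorem coeff_shift (p : PowerSeries ℂ) (n : ℕ) :
    PowerSeries.coeff n (shift p) = PowerSeries.coeff (n + 1) p := by
  simp [shift]

theorem shift_rep (h : Rep N p g) (h0 : PowerSeries.coeff 0 p = 0) (hg : ∀ z, g z = g' z * qq N z) :
    Rep N (shift p) g' := fun z => by
  have h1 := (hasSum_nat_add_iff' 1).mpr (h z)
  simp only [Finset.range_one, Finset.sum_singleton, h0, zero_mul, sub_zero] at h1
  have h2 := h1.mul_right (qq N z)⁻¹
  rw [hg z, mul_assoc, mul_inv_cancel₀ (qq_ne_zero N z), mul_one] at h2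
  have hfun : (fun n : ℕ => PowerSeries.coeff n (shift p) * qq N z ^ n) =
      fun i : ℕ => PowerSeries.coeff (i + 1) p * qq N z ^ (i + 1) * (qq N z)⁻¹ := by
    funext n
    rw [coeff_shift, mul_assoc, pow_succ, mul_assoc, mul_inv_cancel₀ (qq_ne_zero N z), mul_one]
  rw [hfun]
  exact h2


/-- The value at `i∞` is the constant coefficient. -/
theorem tendsto [NeZero N] (h : Rep N p g) : Tendsto g atImInfty (𝓝 (PowerSeries.coeff 0 p)) := by
  set z0 : ℍ := UpperHalfPlane.I with hz0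
  set r0 : ℝ := ‖qq N z0‖ with hr0
  have hr0pos : 0 < r0 := norm_pos_iff.mpr (qq_ne_zero _ _)
  -- the majorant
  have hs0 : Summable (fun n : ℕ => ‖PowerSeries.coeff (n + 1) p‖ * r0 ^ n) := by
    have h1 := (summable_nat_add_iff 1).mpr (h.summable_norm z0)
    have h2 := h1.mul_right r0⁻¹
    refine h2.congr fun n => ?_
    rw [norm_mul, norm_pow, pow_succ, ← hr0]
    field_simp
  set M : ℝ := ∑' n : ℕ, ‖PowerSeries.coeff (n + 1) p‖ * r0 ^ n with hM
  have hbound : ∀ z : ℍ, 1 ≤ z.im → ‖g z - PowerSeries.coeff 0 p‖ ≤ ‖qq N z‖ * M := by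
    intro z hz
    have hle : ‖qq N z‖ ≤ r0 := by
      rw [hr0, norm_qq, norm_qq]
      apply Real.exp_le_exp.mpr
      have h1 : z0.im = 1 := UpperHalfPlane.I_im
      rw [h1]
      have := Real.pi_pos
      apply div_le_div_of_nonneg_right _ (natCast_pos' N).le
      nlinarith
    have h1 := (hasSum_nat_add_iff' 1).mpr (h z)
    simp only [Finset.range_one, Finset.sum_singleton, pow_zero, mul_one] at h1
    have h2 : HasSum (fun n : ℕ => ‖qq N z‖ * (‖PowerSeries.coeff (n + 1) p‖ * r0 ^ n))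
        (‖qq N z‖ * M) := hs0.hasSum.mul_left _
    refine h1.norm_le_of_bounded h2 fun n => ?_
    rw [norm_mul, norm_pow, pow_succ]
    have h3 : ‖qq N z‖ ^ n ≤ r0 ^ n := pow_le_pow_left₀ (norm_nonneg _) hle n
    have h4 : 0 ≤ ‖PowerSeries.coeff (n + 1) p‖ := norm_nonneg _
    have h5 : 0 ≤ ‖qq N z‖ := norm_nonneg _
    calc ‖PowerSeries.coeff (n + 1) p‖ * (‖qq N z‖ ^ n * ‖qq N z‖)
        = ‖qq N z‖ * (‖PowerSeries.coeff (n + 1) p‖ * ‖qq N z‖ ^ n) := by ring
      _ ≤ ‖qq N z‖ * (‖PowerSeries.coeff (n + 1) p‖ * r0 ^ n) :=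
          mul_le_mul_of_nonneg_left (mul_le_mul_of_nonneg_left h3 h4) h5
  rw [tendsto_iff_norm_sub_tendsto_zero]
  have hlim : Tendsto (fun z : ℍ => ‖qq N z‖ * M) atImInfty (𝓝 0) := by
    have := (tendsto_norm_qq N).mul_const M
    rwa [zero_mul] at this
  refine squeeze_zero' (Eventually.of_forall fun z => norm_nonneg _) ?_ hlim
  rw [Filter.Eventually, UpperHalfPlane.atImInfty_mem]
  exact ⟨1, fun z hz => hbound z hz⟩


/-- Uniqueness of the coefficients: a power series representing `0` is `0`. -/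
theorem coeff_eq_zero_of_rep_zero [NeZero N] (k : ℕ) :
    ∀ {p : PowerSeries ℂ}, Rep N p (fun _ => 0) → PowerSeries.coeff k p = 0 := by
  induction k with
  | zero =>
    intro p h
    exact (tendsto_nhds_unique h.tendsto tendsto_const_nhds)
  | succ k ih =>
    intro p h
    have h0 : PowerSeries.coeff 0 p = 0 := tendsto_nhds_unique h.tendsto tendsto_const_nhds
    have h1 : Rep N (shift p) (fun _ => 0) := h.shift_rep h0 fun z => by simp
    have := ih h1
    rwa [coeff_shift] at this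

theorem eq_zero_of_rep_zero [NeZero N] (h : Rep N p (fun _ => 0)) : p = 0 := by
  ext k
  rw [coeff_eq_zero_of_rep_zero k h]
  simp

theorem unique [NeZero N] (h : Rep N p g) (h' : Rep N p' g) : p = p' := by
  have h1 : Rep N (p - p') (fun _ => 0) := (h.sub h').congr fun z => by simp
  exact sub_eq_zero.mp (eq_zero_of_rep_zero h1)

end Rep


/-- All coefficients of the power series lie in the subring `A`. -/
def CoeffIn (A : Subring ℂ) (p : PowerSeries ℂ) : Prop := ∀ n, PowerSeries.coeff n p ∈ A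

namespace CoeffIn

variable {A : Subring ℂ} {p p' : PowerSeries ℂ}

theorem add (h : CoeffIn A p) (h' : CoeffIn A p') : CoeffIn A (p + p') := fun n => by
  rw [map_add]; exact A.add_mem (h n) (h' n)

theorem sub (h : CoeffIn A p) (h' : CoeffIn A p') : CoeffIn A (p - p') := fun n => by
  rw [map_sub]; exact A.sub_mem (h n) (h' n)

theorem mul (h : CoeffIn A p) (h' : CoeffIn A p') : CoeffIn A (p * p') := fun n => by
  rw [PowerSeries.coeff_mul]
  exact A.sum_mem fun kl _ => A.mul_mem (h _) (h' _)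

theorem one : CoeffIn A 1 := fun n => by
  rw [PowerSeries.coeff_one]
  split_ifs
  · exact A.one_mem
  · exact A.zero_mem

theorem pow (h : CoeffIn A p) (n : ℕ) : CoeffIn A (p ^ n) := by
  induction n with
  | zero => simpa using one
  | succ n ih => rw [pow_succ]; exact ih.mul h

theorem C_mul {c : ℂ} (hc : c ∈ A) (h : CoeffIn A p) : CoeffIn A (PowerSeries.C c * p) :=
  fun n => by
    rw [PowerSeries.coeff_C_mul]; exact A.mul_mem hc (h n)

theorem shift (h : CoeffIn A p) : CoeffIn A (Rep.shift p) := fun n => by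
  rw [Rep.coeff_shift]; exact h _

theorem top (p : PowerSeries ℂ) : CoeffIn ⊤ p := fun _ => Subring.mem_top _

end CoeffIn

/-- A holomorphic `SL(2,ℤ)`-invariant function with a limit at `i∞` is constant. -/
theorem const_of_invariant_tendsto {f : ℍ → ℂ} (hf : MDiff f)
    (hinv : ∀ (γ : SL(2, ℤ)) (z : ℍ), f (γ • z) = f z) {c : ℂ}
    (hlim : Tendsto f atImInfty (𝓝 c)) (z : ℍ) : f z = c := by
  set h : ℍ → ℂ := fun z => f z - c with hh
  have hslash : ∀ γ : SL(2, ℤ), h ∣[(0 : ℤ)] γ = h := by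
    intro γ
    funext z
    rw [ModularForm.SL_slash_apply]
    simp only [hh]
    rw [hinv]
    simp
  have hlim0 : Tendsto h atImInfty (𝓝 0) := by
    have := hlim.sub_const c
    rwa [sub_self] at this
  have hCF : Fermat.Agent.S20.IsCF 1 0 h := by
    refine ⟨hf.sub mdifferentiable_const, fun γ _ => hslash γ, fun δ => ?_⟩
    rw [hslash δ]
    exact hlim0
  have h0 : h = 0 := Fermat.Agent.S20.du_cusp_zero hCF
  have := congrFun h0 z
  simp only [hh, Pi.zero_apply] at this
  exact sub_eq_zero.mp this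

/-- **Main theorem (subring form).**  `J` is an `SL(2,ℤ)`-invariant holomorphic function whose
`q`-expansion `J q = 1 + …` has coefficients in the subring `A`.  If `f` is holomorphic, invariant,
and `f q ^ m` has a `q`-expansion with coefficients in `A`, then `f` is a polynomial of degree at
most `m` in `J` with coefficients in `A`. -/
theorem exists_poly_of_rep (A : Subring ℂ) {J : ℍ → ℂ} (hJ : MDiff J)
    (hJinv : ∀ (γ : SL(2, ℤ)) (z : ℍ), J (γ • z) = J z)
    {c : PowerSeries ℂ} (hcA : CoeffIn A c) (hc0 : PowerSeries.coeff 0 c = 1)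
    (hJc : Rep 1 c (fun z => J z * qq 1 z))
    (m : ℕ) {f : ℍ → ℂ} (hf : MDiff f) (hfinv : ∀ (γ : SL(2, ℤ)) (z : ℍ), f (γ • z) = f z)
    {a : PowerSeries ℂ} (haA : CoeffIn A a) (hfa : Rep 1 a (fun z => f z * qq 1 z ^ m)) :
    ∃ P : Polynomial ℂ, P.natDegree ≤ m ∧ (∀ n, P.coeff n ∈ A) ∧ ∀ z, f z = P.eval (J z) := by
  induction m generalizing f a with
  | zero =>
    have hfa' : Rep 1 a f := hfa.congr fun z => by simp
    have hconst := const_of_invariant_tendsto hf hfinv hfa'.tendsto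
    refine ⟨Polynomial.C (PowerSeries.coeff 0 a), ?_, fun n => ?_, fun z => ?_⟩
    · simp
    · rw [Polynomial.coeff_C]
      split_ifs
      · exact haA 0
      · exact A.zero_mem
    · rw [hconst z, Polynomial.eval_C]
  | succ m ih =>
    set a0 : ℂ := PowerSeries.coeff 0 a with ha0
    have ha0A : a0 ∈ A := haA 0
    set g : ℍ → ℂ := fun z => f z - a0 * J z ^ (m + 1) with hg
    have hgm : MDiff g := hf.sub (mdifferentiable_const.mul (hJ.pow (m + 1)))
    have hginv : ∀ (γ : SL(2, ℤ)) (z : ℍ), g (γ • z) = g z := fun γ z => by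
      simp only [hg, hfinv, hJinv]
    set a' : PowerSeries ℂ := a - PowerSeries.C a0 * c ^ (m + 1) with ha'
    have ha'A : CoeffIn A a' := haA.sub (CoeffIn.C_mul ha0A (hcA.pow _))
    have hrep' : Rep 1 a' (fun z => g z * qq 1 z ^ (m + 1)) := by
      have h1 := hfa.sub ((hJc.pow (m + 1)).const_mul a0)
      refine h1.congr fun z => ?_
      simp only [hg, Pi.sub_apply]
      ring
    have ha'0 : PowerSeries.coeff 0 a' = 0 := by
      rw [ha', map_sub, PowerSeries.coeff_C_mul, PowerSeries.coeff_zero_eq_constantCoeff_apply,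
        PowerSeries.coeff_zero_eq_constantCoeff_apply, map_pow,
        ← PowerSeries.coeff_zero_eq_constantCoeff_apply, ← PowerSeries.coeff_zero_eq_constantCoeff_apply,
        hc0, one_pow, mul_one, ← ha0, sub_self]
    have hrep'' : Rep 1 (Rep.shift a') (fun z => g z * qq 1 z ^ m) :=
      hrep'.shift_rep ha'0 fun z => by ring
    obtain ⟨P', hdeg, hcoef, heval⟩ := ih hgm hginv ha'A.shift hrep''
    refine ⟨P' + Polynomial.C a0 * Polynomial.X ^ (m + 1), ?_, fun n => ?_, fun z => ?_⟩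
    · refine (Polynomial.natDegree_add_le _ _).trans (max_le (hdeg.trans (Nat.le_succ m)) ?_)
      exact Polynomial.natDegree_C_mul_X_pow_le _ _
    · rw [Polynomial.coeff_add, Polynomial.coeff_C_mul, Polynomial.coeff_X_pow]
      refine A.add_mem (hcoef n) (A.mul_mem ha0A ?_)
      split_ifs
      · exact A.one_mem
      · exact A.zero_mem
    · have := heval z
      simp only [hg] at this
      rw [Polynomial.eval_add, Polynomial.eval_mul, Polynomial.eval_C, Polynomial.eval_pow,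
        Polynomial.eval_X, ← this]
      ring


/-- Field-embedding form of the main theorem: coefficients in the range of `ι : K →+* ℂ`. -/
theorem exists_poly_map_of_rep {K : Type*} [Field K] (ι : K →+* ℂ) {J : ℍ → ℂ} (hJ : MDiff J)
    (hJinv : ∀ (γ : SL(2, ℤ)) (z : ℍ), J (γ • z) = J z)
    {c : PowerSeries ℂ} (hcA : ∀ n, PowerSeries.coeff n c ∈ Set.range ι)
    (hc0 : PowerSeries.coeff 0 c = 1) (hJc : Rep 1 c (fun z => J z * qq 1 z))
    (m : ℕ) {f : ℍ → ℂ} (hf : MDiff f) (hfinv : ∀ (γ : SL(2, ℤ)) (z : ℍ), f (γ • z) = f z)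
    {a : PowerSeries ℂ} (haA : ∀ n, PowerSeries.coeff n a ∈ Set.range ι)
    (hfa : Rep 1 a (fun z => f z * qq 1 z ^ m)) :
    ∃ P : Polynomial K, P.natDegree ≤ m ∧ ∀ z, f z = (P.map ι).eval (J z) := by
  obtain ⟨P, hdeg, hcoef, heval⟩ :=
    exists_poly_of_rep ι.range hJ hJinv (c := c) (fun n => hcA n) hc0 hJc m hf hfinv
      (a := a) (fun n => haA n) hfa
  have hlift : P ∈ Polynomial.lifts ι := by
    rw [Polynomial.lifts_iff_coeff_lifts]
    intro n
    exact hcoef n
  obtain ⟨Q, hQ, hQdeg⟩ := Polynomial.exists_natDegree_eq_of_mem_lifts hlift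
  refine ⟨Q, ?_, fun z => ?_⟩
  · rw [hQdeg]; exact hdeg
  · rw [hQ]; exact heval z

/-- An `SL(2,ℤ)`-invariant function is `1`-periodic. -/
theorem periodic_of_invariant {f : ℍ → ℂ}
    (hinv : ∀ (γ : SL(2, ℤ)) (z : ℍ), f (γ • z) = f z) :
    Periodic (f ∘ ofComplex) ((1 : ℝ) : ℂ) := by
  intro w
  by_cases hw : 0 < Complex.im w
  · have hw1 : 0 < Complex.im (w + ((1 : ℝ) : ℂ)) := by simpa using hw
    simp only [comp_apply, ofComplex_apply_of_im_pos hw1, ofComplex_apply_of_im_pos hw]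
    have e : (⟨w + ((1 : ℝ) : ℂ), hw1⟩ : ℍ) = ModularGroup.T • (⟨w, hw⟩ : ℍ) := by
      rw [UpperHalfPlane.modular_T_smul]
      ext
      simp [add_comm]
    rw [e, hinv]
  · have hw' : Complex.im w ≤ 0 := not_lt.mp hw
    have hw1 : Complex.im (w + ((1 : ℝ) : ℂ)) ≤ 0 := by simpa using hw'
    show f (ofComplex (w + ((1 : ℝ) : ℂ))) = f (ofComplex w)
    rw [ofComplex_apply_of_im_nonpos hw1, ofComplex_apply_of_im_nonpos hw']

theorem periodic_qq_one : Periodic (qq 1 ∘ ofComplex) ((1 : ℝ) : ℂ) := by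
  intro w
  by_cases hw : 0 < Complex.im w
  · have hw1 : 0 < Complex.im (w + ((1 : ℝ) : ℂ)) := by simpa using hw
    simp only [comp_apply, ofComplex_apply_of_im_pos hw1, ofComplex_apply_of_im_pos hw, qq_one]
    unfold Periodic.qParam
    have : 2 * (Real.pi : ℂ) * Complex.I * (w + ((1 : ℝ) : ℂ)) / ((1 : ℝ) : ℂ)
        = 2 * (Real.pi : ℂ) * Complex.I * w / ((1 : ℝ) : ℂ) + 2 * Real.pi * Complex.I := by
      push_cast; ring
    rw [this, Complex.exp_add, Complex.exp_two_pi_mul_I, mul_one]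
  · have hw' : Complex.im w ≤ 0 := not_lt.mp hw
    have hw1 : Complex.im (w + ((1 : ℝ) : ℂ)) ≤ 0 := by simpa using hw'
    show qq 1 (ofComplex (w + ((1 : ℝ) : ℂ))) = qq 1 (ofComplex w)
    rw [ofComplex_apply_of_im_nonpos hw1, ofComplex_apply_of_im_nonpos hw']

/-- A holomorphic `1`-periodic function bounded at `i∞` has a `q`-expansion. -/
theorem rep_of_bounded {g : ℍ → ℂ} (hg : MDiff g) (hper : Periodic (g ∘ ofComplex) ((1 : ℝ) : ℂ))
    (hbd : IsBoundedAtImInfty g) : Rep 1 (UpperHalfPlane.qExpansion 1 g) g := fun z => by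
  have := UpperHalfPlane.hasSum_qExpansion one_pos hper hg hbd z
  simpa [qq_one, smul_eq_mul] using this

/-- **Main theorem (complex form).** -/
theorem exists_poly_of_bounded {J : ℍ → ℂ} (hJ : MDiff J)
    (hJinv : ∀ (γ : SL(2, ℤ)) (z : ℍ), J (γ • z) = J z)
    (hJlim : Tendsto (fun z => J z * qq 1 z) atImInfty (𝓝 1))
    (m : ℕ) {f : ℍ → ℂ} (hf : MDiff f) (hfinv : ∀ (γ : SL(2, ℤ)) (z : ℍ), f (γ • z) = f z)
    (hbd : IsBoundedAtImInfty (fun z => f z * qq 1 z ^ m)) :
    ∃ P : Polynomial ℂ, P.natDegree ≤ m ∧ ∀ z, f z = P.eval (J z) := by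
  have hperJ : Periodic ((fun z => J z * qq 1 z) ∘ ofComplex) ((1 : ℝ) : ℂ) := fun w => by
    have h1 := periodic_of_invariant hJinv w
    have h2 := periodic_qq_one w
    simp only [comp_apply] at h1 h2 ⊢
    rw [h1, h2]
  have hperf : Periodic ((fun z => f z * qq 1 z ^ m) ∘ ofComplex) ((1 : ℝ) : ℂ) := fun w => by
    have h1 := periodic_of_invariant hfinv w
    have h2 := periodic_qq_one w
    simp only [comp_apply] at h1 h2 ⊢
    rw [h1, h2]
  have hJq : MDiff (fun z => J z * qq 1 z) := hJ.mul (mdiff_qq 1)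
  have hfq : MDiff (fun z => f z * qq 1 z ^ m) := hf.mul ((mdiff_qq 1).pow m)
  have hJbd : IsBoundedAtImInfty (fun z => J z * qq 1 z) := by
    have : Tendsto (fun z => J z * qq 1 z - 1) atImInfty (𝓝 0) := by
      have := hJlim.sub_const 1
      rwa [sub_self] at this
    have h0 : IsZeroAtImInfty (fun z => J z * qq 1 z - 1) := this
    have h1 : IsBoundedAtImInfty (fun z => J z * qq 1 z - 1) := h0.isBoundedAtImInfty
    have h2 : IsBoundedAtImInfty (fun _ : ℍ => (1 : ℂ)) := Filter.const_boundedAtFilter _ _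
    have := h1.add h2
    have e : ((fun z : ℍ => J z * qq 1 z - 1) + fun _ : ℍ => (1 : ℂ)) = fun z => J z * qq 1 z := by
      funext z; simp
    rw [e] at this
    exact this
  have hrepJ := rep_of_bounded hJq hperJ hJbd
  have hrepf := rep_of_bounded hfq hperf hbd
  have hc0 : PowerSeries.coeff 0 (UpperHalfPlane.qExpansion 1 fun z => J z * qq 1 z) = 1 :=
    tendsto_nhds_unique hrepJ.tendsto hJlim
  obtain ⟨P, hdeg, -, heval⟩ := exists_poly_of_rep ⊤ hJ hJinv (CoeffIn.top _) hc0 hrepJ m hf hfinv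
    (CoeffIn.top _) hrepf
  exact ⟨P, hdeg, heval⟩


/-! ### Specialisation to `jFun` -/

theorem tendsto_jFun_mul_qq : Tendsto (fun z => jFun z * qq 1 z) atImInfty (𝓝 1) := by
  refine tendsto_jFun_mul_expFn_one.congr fun z => ?_
  rw [qq_one_eq_expFn]

/-- An `SL(2,ℤ)`-invariant holomorphic function with a pole of order at most `m` at `i∞` is a
polynomial of degree at most `m` in `jFun`. -/
theorem exists_poly_jFun_of_bounded (m : ℕ) {f : ℍ → ℂ} (hf : MDiff f)
    (hfinv : ∀ (γ : SL(2, ℤ)) (z : ℍ), f (γ • z) = f z)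
    (hbd : IsBoundedAtImInfty (fun z => f z * qq 1 z ^ m)) :
    ∃ P : Polynomial ℂ, P.natDegree ≤ m ∧ ∀ z, f z = P.eval (jFun z) :=
  exists_poly_of_bounded mdiff_jFun jFun_smul tendsto_jFun_mul_qq m hf hfinv hbd

/-- Rational form for `jFun`, given its `q`-expansion with coefficients in `A`. -/
theorem exists_poly_jFun_of_rep (A : Subring ℂ) {c : PowerSeries ℂ} (hcA : CoeffIn A c)
    (hJc : Rep 1 c (fun z => jFun z * qq 1 z))
    (m : ℕ) {f : ℍ → ℂ} (hf : MDiff f) (hfinv : ∀ (γ : SL(2, ℤ)) (z : ℍ), f (γ • z) = f z)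
    {a : PowerSeries ℂ} (haA : CoeffIn A a) (hfa : Rep 1 a (fun z => f z * qq 1 z ^ m)) :
    ∃ P : Polynomial ℂ, P.natDegree ≤ m ∧ (∀ n, P.coeff n ∈ A) ∧ ∀ z, f z = P.eval (jFun z) :=
  exists_poly_of_rep A mdiff_jFun jFun_smul hcA
    (tendsto_nhds_unique hJc.tendsto tendsto_jFun_mul_qq) hJc m hf hfinv haA hfa

/-- Field-embedding form for `jFun`. -/
theorem exists_poly_map_jFun_of_rep {K : Type*} [Field K] (ι : K →+* ℂ)
    {c : PowerSeries ℂ} (hcA : ∀ n, PowerSeries.coeff n c ∈ Set.range ι)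
    (hJc : Rep 1 c (fun z => jFun z * qq 1 z))
    (m : ℕ) {f : ℍ → ℂ} (hf : MDiff f) (hfinv : ∀ (γ : SL(2, ℤ)) (z : ℍ), f (γ • z) = f z)
    {a : PowerSeries ℂ} (haA : ∀ n, PowerSeries.coeff n a ∈ Set.range ι)
    (hfa : Rep 1 a (fun z => f z * qq 1 z ^ m)) :
    ∃ P : Polynomial K, P.natDegree ≤ m ∧ ∀ z, f z = (P.map ι).eval (jFun z) :=
  exists_poly_map_of_rep ι mdiff_jFun jFun_smul hcA
    (tendsto_nhds_unique hJc.tendsto tendsto_jFun_mul_qq) hJc m hf hfinv haA hfa

/-! ### From `q_N`-expansions to `q`-expansions -/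

theorem Rep.X {N : ℕ} : Rep N PowerSeries.X (qq N) := fun z => by
  have : (fun n : ℕ => PowerSeries.coeff n (PowerSeries.X : PowerSeries ℂ) * qq N z ^ n)
      = fun n : ℕ => if n = 1 then qq N z else 0 := by
    funext n
    rw [PowerSeries.coeff_X]
    split_ifs with hn
    · simp [hn]
    · simp
  rw [this]
  exact hasSum_ite_eq 1 _

theorem CoeffIn.X {A : Subring ℂ} : CoeffIn A PowerSeries.X := fun n => by
  rw [PowerSeries.coeff_X]
  split_ifs
  · exact A.one_mem
  · exact A.zero_mem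

/-- The effect of `z ↦ z + 1` on `q_N`. -/
theorem qq_vadd_one (N : ℕ) (z : ℍ) :
    qq N ((1 : ℝ) +ᵥ z) = Complex.exp (2 * Real.pi * Complex.I / N) * qq N z := by
  unfold qq Periodic.qParam
  rw [← Complex.exp_add]
  congr 1
  simp only [coe_vadd]
  push_cast
  ring

/-- **`q_N → q` conversion.**  A `1`-periodic function with a `q_N`-expansion (after multiplying by
`q_N ^ m`) with coefficients in `A` has a `q`-expansion (after multiplying by `q ^ m`) with
coefficients in `A`. -/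
theorem rep_one_of_rep_of_periodic {N : ℕ} [NeZero N] (A : Subring ℂ) {h : ℍ → ℂ}
    (hper : ∀ z : ℍ, h ((1 : ℝ) +ᵥ z) = h z) {m : ℕ} {p : PowerSeries ℂ} (hpA : CoeffIn A p)
    (hrep : Rep N p (fun z => h z * qq N z ^ m)) :
    ∃ p' : PowerSeries ℂ, CoeffIn A p' ∧ Rep 1 p' (fun z => h z * qq 1 z ^ m) := by
  have hN : N ≠ 0 := NeZero.ne N
  set g : ℍ → ℂ := fun z => h z * qq 1 z ^ m with hg
  set p₁ : PowerSeries ℂ := p * PowerSeries.X ^ ((N - 1) * m) with hp₁
  have hp₁A : CoeffIn A p₁ := hpA.mul (CoeffIn.X.pow _)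
  have hrep₁ : Rep N p₁ g := by
    refine (hrep.mul (Rep.X.pow ((N - 1) * m))).congr fun z => ?_
    simp only [hg]
    rw [← qq_pow_self N z, mul_assoc, ← pow_mul, ← pow_add]
    congr 2
    obtain ⟨k, rfl⟩ : ∃ k, N = k + 1 := Nat.exists_eq_succ_of_ne_zero hN
    simp only [Nat.add_sub_cancel]
    ring
  -- periodicity of `g`
  have hgper : ∀ z : ℍ, g ((1 : ℝ) +ᵥ z) = g z := fun z => by
    simp only [hg]
    rw [hper, qq_vadd_one 1 z]
    simp [Complex.exp_two_pi_mul_I]
  set ζ : ℂ := Complex.exp (2 * Real.pi * Complex.I / N) with hζ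
  have hζprim : IsPrimitiveRoot ζ N := Complex.isPrimitiveRoot_exp N hN
  set p₂ : PowerSeries ℂ := PowerSeries.mk fun n => PowerSeries.coeff n p₁ * ζ ^ n with hp₂
  have hrep₂ : Rep N p₂ g := fun z => by
    have := hrep₁ ((1 : ℝ) +ᵥ z)
    rw [hgper z] at this
    convert this using 2 with n
    rw [hp₂, PowerSeries.coeff_mk, qq_vadd_one, mul_pow, mul_assoc]
  have heq : p₂ = p₁ := hrep₂.unique hrep₁
  have hvan : ∀ n : ℕ, ¬ N ∣ n → PowerSeries.coeff n p₁ = 0 := fun n hn => by
    have h1 : PowerSeries.coeff n p₂ = PowerSeries.coeff n p₁ := by rw [heq]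
    rw [hp₂, PowerSeries.coeff_mk] at h1
    have h2 : ζ ^ n ≠ 1 := fun h => hn ((hζprim.pow_eq_one_iff_dvd n).mp h)
    have h3 : PowerSeries.coeff n p₁ * (ζ ^ n - 1) = 0 := by linear_combination h1
    rcases mul_eq_zero.mp h3 with h4 | h4
    · exact h4
    · exact absurd (sub_eq_zero.mp h4) h2
  refine ⟨PowerSeries.mk fun k => PowerSeries.coeff (N * k) p₁, fun k => ?_, fun z => ?_⟩
  · rw [PowerSeries.coeff_mk]; exact hp₁A _
  · have hinj : Function.Injective (fun k : ℕ => N * k) := fun a b hab =>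
      Nat.eq_of_mul_eq_mul_left (Nat.pos_of_ne_zero hN) hab
    have hout : ∀ n ∉ Set.range (fun k : ℕ => N * k),
        PowerSeries.coeff n p₁ * qq N z ^ n = 0 := fun n hn => by
      have : ¬ N ∣ n := fun ⟨k, hk⟩ => hn ⟨k, hk.symm⟩
      rw [hvan n this, zero_mul]
    have := (hinj.hasSum_iff hout).mpr (hrep₁ z)
    convert this using 2 with k
    simp only [comp_apply, PowerSeries.coeff_mk]
    rw [pow_mul, qq_pow_self]


/-! ### The predicate "has a finite-pole `q_N`-expansion with coefficients in `A`" -/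

/-- `h` has a `q_N`-expansion with finite pole order and coefficients in the subring `A`:
for some `m`, `h · q_N ^ m` is represented on all of `ℍ` by a power series in `q_N` over `A`. -/
def HasRatExp (N : ℕ) (A : Subring ℂ) (h : ℍ → ℂ) : Prop :=
  ∃ (m : ℕ) (p : PowerSeries ℂ), CoeffIn A p ∧ Rep N p (fun z => h z * qq N z ^ m)

namespace HasRatExp

variable {N : ℕ} [NeZero N] {A : Subring ℂ} {h h' : ℍ → ℂ}

omit [NeZero N] in
theorem congr (hh : HasRatExp N A h) (he : ∀ z, h z = h' z) : HasRatExp N A h' := by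
  obtain ⟨m, p, hp, hr⟩ := hh
  exact ⟨m, p, hp, hr.congr fun z => by rw [he]⟩

/-- raising the pole-order bound -/
theorem raise (hh : HasRatExp N A h) (k : ℕ) :
    ∃ (m : ℕ) (p : PowerSeries ℂ), k ≤ m ∧ CoeffIn A p ∧ Rep N p (fun z => h z * qq N z ^ m) := by
  obtain ⟨m, p, hp, hr⟩ := hh
  refine ⟨m + k, p * PowerSeries.X ^ k, Nat.le_add_left _ _, hp.mul (CoeffIn.X.pow k), ?_⟩
  refine (hr.mul (Rep.X.pow k)).congr fun z => ?_
  rw [pow_add, mul_assoc]

theorem exists_rep_of_le (hh : HasRatExp N A h) :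
    ∃ m₀ : ℕ, ∀ m, m₀ ≤ m →
      ∃ p : PowerSeries ℂ, CoeffIn A p ∧ Rep N p (fun z => h z * qq N z ^ m) := by
  obtain ⟨m₀, p, hp, hr⟩ := hh
  refine ⟨m₀, fun m hm => ⟨p * PowerSeries.X ^ (m - m₀), hp.mul (CoeffIn.X.pow _), ?_⟩⟩
  refine (hr.mul (Rep.X.pow (m - m₀))).congr fun z => ?_
  rw [mul_assoc, ← pow_add, Nat.add_sub_cancel' hm]

omit [NeZero N] in
theorem const {c : ℂ} (hc : c ∈ A) : HasRatExp N A (fun _ => c) := by
  refine ⟨0, PowerSeries.C c * 1, CoeffIn.C_mul hc CoeffIn.one, ?_⟩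
  refine (Rep.one.const_mul c).congr fun z => ?_
  simp

omit [NeZero N] in
theorem zero : HasRatExp N A (fun _ => 0) := const A.zero_mem

omit [NeZero N] in
theorem one : HasRatExp N A (fun _ => 1) := const A.one_mem

theorem add (hh : HasRatExp N A h) (hh' : HasRatExp N A h') :
    HasRatExp N A (fun z => h z + h' z) := by
  obtain ⟨m₀, H⟩ := hh.exists_rep_of_le
  obtain ⟨m₁, H'⟩ := hh'.exists_rep_of_le
  obtain ⟨p, hp, hr⟩ := H (max m₀ m₁) (le_max_left _ _)
  obtain ⟨p', hp', hr'⟩ := H' (max m₀ m₁) (le_max_right _ _)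
  refine ⟨max m₀ m₁, p + p', hp.add hp', (hr.add hr').congr fun z => ?_⟩
  simp only [Pi.add_apply]
  ring

theorem mul (hh : HasRatExp N A h) (hh' : HasRatExp N A h') :
    HasRatExp N A (fun z => h z * h' z) := by
  obtain ⟨m, p, hp, hr⟩ := hh
  obtain ⟨m', p', hp', hr'⟩ := hh'
  refine ⟨m + m', p * p', hp.mul hp', (hr.mul hr').congr fun z => ?_⟩
  rw [pow_add]
  ring

theorem neg (hh : HasRatExp N A h) : HasRatExp N A (fun z => -h z) := by
  have := (const (N := N) (A := A) (c := -1) (A.neg_mem A.one_mem)).mul hh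
  exact this.congr fun z => by ring

theorem sub (hh : HasRatExp N A h) (hh' : HasRatExp N A h') :
    HasRatExp N A (fun z => h z - h' z) :=
  (hh.add hh'.neg).congr fun z => by ring

theorem pow (hh : HasRatExp N A h) (n : ℕ) : HasRatExp N A (fun z => h z ^ n) := by
  induction n with
  | zero => exact one.congr fun z => by simp
  | succ n ih => exact (ih.mul hh).congr fun z => by rw [pow_succ]

theorem finset_sum {ι : Type*} (s : Finset ι) {F : ι → ℍ → ℂ}
    (hF : ∀ i ∈ s, HasRatExp N A (F i)) : HasRatExp N A (fun z => ∑ i ∈ s, F i z) := by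
  classical
  induction s using Finset.induction_on with
  | empty => exact zero.congr fun z => by simp
  | insert a s ha ih =>
    have h1 := hF a (Finset.mem_insert_self a s)
    have h2 := ih fun i hi => hF i (Finset.mem_insert_of_mem hi)
    exact (h1.add h2).congr fun z => by rw [Finset.sum_insert ha]

theorem finset_prod {ι : Type*} (s : Finset ι) {F : ι → ℍ → ℂ}
    (hF : ∀ i ∈ s, HasRatExp N A (F i)) : HasRatExp N A (fun z => ∏ i ∈ s, F i z) := by
  classical
  induction s using Finset.induction_on with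
  | empty => exact one.congr fun z => by simp
  | insert a s ha ih =>
    have h1 := hF a (Finset.mem_insert_self a s)
    have h2 := ih fun i hi => hF i (Finset.mem_insert_of_mem hi)
    exact (h1.mul h2).congr fun z => by rw [Finset.prod_insert ha]

/-- A `1`-periodic function with a rational `q_N`-expansion has a rational `q`-expansion. -/
theorem to_one (hh : HasRatExp N A h) (hper : ∀ z : ℍ, h ((1 : ℝ) +ᵥ z) = h z) :
    HasRatExp 1 A h := by
  obtain ⟨m, p, hp, hr⟩ := hh
  obtain ⟨p', hp', hr'⟩ := rep_one_of_rep_of_periodic A hper hp hr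
  exact ⟨m, p', hp', hr'⟩

end HasRatExp

/-- **Interface theorem.**  If `jFun` has a `q`-expansion over the subring `A`, then every
holomorphic `SL(2,ℤ)`-invariant function with a finite-pole `q_N`-expansion over `A` is a polynomial
in `jFun` with coefficients in `A`. -/
theorem exists_poly_jFun_of_hasRatExp {N : ℕ} [NeZero N] (A : Subring ℂ)
    {c : PowerSeries ℂ} (hcA : CoeffIn A c) (hJc : Rep 1 c (fun z => jFun z * qq 1 z))
    {f : ℍ → ℂ} (hf : MDiff f) (hfinv : ∀ (γ : SL(2, ℤ)) (z : ℍ), f (γ • z) = f z)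
    (hrat : HasRatExp N A f) :
    ∃ P : Polynomial ℂ, (∀ n, P.coeff n ∈ A) ∧ ∀ z, f z = P.eval (jFun z) := by
  have hper : ∀ z : ℍ, f ((1 : ℝ) +ᵥ z) = f z := fun z => by
    rw [← UpperHalfPlane.modular_T_smul, hfinv]
  obtain ⟨m, a, haA, hfa⟩ := hrat.to_one hper
  obtain ⟨P, -, hcoef, heval⟩ := exists_poly_jFun_of_rep A hcA hJc m hf hfinv haA hfa
  exact ⟨P, hcoef, heval⟩

/-- Field-embedding form of the interface theorem. -/
theorem exists_poly_map_jFun_of_hasRatExp {N : ℕ} [NeZero N] {K : Type*} [Field K] (ι : K →+* ℂ)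
    {c : PowerSeries ℂ} (hcA : CoeffIn ι.range c) (hJc : Rep 1 c (fun z => jFun z * qq 1 z))
    {f : ℍ → ℂ} (hf : MDiff f) (hfinv : ∀ (γ : SL(2, ℤ)) (z : ℍ), f (γ • z) = f z)
    (hrat : HasRatExp N ι.range f) :
    ∃ P : Polynomial K, ∀ z, f z = (P.map ι).eval (jFun z) := by
  obtain ⟨P, hcoef, heval⟩ := exists_poly_jFun_of_hasRatExp ι.range hcA hJc hf hfinv hrat
  have hlift : P ∈ Polynomial.lifts ι := by
    rw [Polynomial.lifts_iff_coeff_lifts]
    intro n
    exact hcoef n
  obtain ⟨Q, hQ, -⟩ := Polynomial.exists_natDegree_eq_of_mem_lifts hlift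
  exact ⟨Q, fun z => by rw [hQ]; exact heval z⟩

end

end Fermat.Agent.S24.JPoly
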