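import Mathlib
import Fermat.Agent.S20.RegSeq

set_option autoImplicit false

/-!
# S24 analytic carrier: the domain `Hol` of holomorphic functions on `ℍ` and its fraction field `Mer`
-/

namespace Fermat.Agent.S24

open UpperHalfPlane
open scoped Manifold

noncomputable section

/-- Holomorphic functions on the upper half plane, as a `ℂ`-subalgebra of `ℍ → ℂ`. -/
def Hol : Subalgebra ℂ (ℍ → ℂ) where
  carrier := {f | MDiff f}
  mul_mem' hf hg := hf.mul hg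
  add_mem' hf hg := hf.add hg
  algebraMap_mem' c := by
    show MDiff (algebraMap ℂ (ℍ → ℂ) c)
    exact mdifferentiable_const

theorem mem_Hol {f : ℍ → ℂ} : f ∈ Hol ↔ MDiff f := Iff.rfl

theorem Hol.mdiff (f : Hol) : MDiff (f : ℍ → ℂ) := f.2

/-- Build an element of `Hol`. -/
def Hol.mk (f : ℍ → ℂ) (hf : MDiff f) : Hol := ⟨f, hf⟩

@[simp] theorem Hol.coe_mk (f : ℍ → ℂ) (hf : MDiff f) : ((Hol.mk f hf : Hol) : ℍ → ℂ) = f := rfl

@[simp] theorem Hol.coe_mul (f g : Hol) : ((f * g : Hol) : ℍ → ℂ) = (f : ℍ → ℂ) * g := rfl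
@[simp] theorem Hol.coe_add (f g : Hol) : ((f + g : Hol) : ℍ → ℂ) = (f : ℍ → ℂ) + g := rfl
@[simp] theorem Hol.coe_sub (f g : Hol) : ((f - g : Hol) : ℍ → ℂ) = (f : ℍ → ℂ) - g := rfl
@[simp] theorem Hol.coe_neg (f : Hol) : ((-f : Hol) : ℍ → ℂ) = -(f : ℍ → ℂ) := rfl
@[simp] theorem Hol.coe_zero : ((0 : Hol) : ℍ → ℂ) = 0 := rfl
@[simp] theorem Hol.coe_one : ((1 : Hol) : ℍ → ℂ) = 1 := rfl
@[simp] theorem Hol.coe_pow (f : Hol) (n : ℕ) : ((f ^ n : Hol) : ℍ → ℂ) = (f : ℍ → ℂ) ^ n := rfl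
@[simp] theorem Hol.coe_algebraMap (c : ℂ) (z : ℍ) :
    ((algebraMap ℂ Hol c : Hol) : ℍ → ℂ) z = c := rfl
@[simp] theorem Hol.coe_smul (c : ℂ) (f : Hol) : ((c • f : Hol) : ℍ → ℂ) = c • (f : ℍ → ℂ) := rfl

@[ext] theorem Hol.ext {f g : Hol} (h : ∀ z, (f : ℍ → ℂ) z = (g : ℍ → ℂ) z) : f = g :=
  Subtype.ext (funext h)

instance : Nontrivial Hol :=
  ⟨⟨0, 1, fun h => by
    have := congrFun (congrArg Subtype.val h) UpperHalfPlane.I
    simp at this⟩⟩

instance : NoZeroDivisors Hol where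
  eq_zero_or_eq_zero_of_mul_eq_zero {f g} h := by
    have h' : (f : ℍ → ℂ) * (g : ℍ → ℂ) = 0 := congrArg Subtype.val h
    rcases Fermat.Agent.S20.eq_zero_or_eq_zero_of_mul_eq_zero_of_mdiff f.2 g.2 h' with h0 | h0
    · exact Or.inl (Subtype.ext h0)
    · exact Or.inr (Subtype.ext h0)

instance : IsDomain Hol := NoZeroDivisors.to_isDomain Hol

/-- The field of meromorphic functions on `ℍ` (fractions of holomorphic functions). -/
abbrev Mer : Type := FractionRing Hol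

end

end Fermat.Agent.S24
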