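import Mathlib
import Fermat.Prelude.Def_ModularCurve_ArithmeticGalois
import Fermat.Agent.S20.Psi
import Fermat.Agent.S24.JConj
import Fermat.Agent.S24.Hol
import Fermat.Agent.S24.JFun

set_option autoImplicit false

/-!
# S24 (D2): the degree lower bound `ψ(N) ≤ [F : K(j)]`

Abstract part (Mathlib only): a finite family of pairwise distinct ring homomorphisms `F →+* Ω` into a
field which agree on `K` and on `j` has at most `[F : K(j)]` members (Dedekind independence of
characters, `card_algHom_le_finrank`).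

Modular part: applied to the `ψ(N)` conjugates `f ↦ Φ(f) ∘ γ_q⁻¹`, `q ∈ SL(2,ℤ)/Γ₀(N)`, which are
distinct on `j_N` by `JConj.conjFn_injective`.
-/

namespace Fermat.Agent.S24.PsiLe

open scoped MatrixGroups
open IntermediateField

noncomputable section

/-! ### abstract Dedekind bound -/

/-- the equaliser of two ring homomorphisms out of a field `F ⊇ K` which agree on `K` -/
def eqField {K F Ω : Type*} [Field K] [Field F] [Algebra K F] [Field Ω] (σ τ : F →+* Ω)
    (hK : ∀ a : K, σ (algebraMap K F a) = τ (algebraMap K F a)) : IntermediateField K F where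
  carrier := {x | σ x = τ x}
  mul_mem' {x y} hx hy := by
    show σ (x * y) = τ (x * y)
    rw [map_mul, map_mul, show σ x = τ x from hx, show σ y = τ y from hy]
  add_mem' {x y} hx hy := by
    show σ (x + y) = τ (x + y)
    rw [map_add, map_add, show σ x = τ x from hx, show σ y = τ y from hy]
  algebraMap_mem' a := hK a
  inv_mem' x hx := by
    show σ x⁻¹ = τ x⁻¹
    rw [map_inv₀, map_inv₀, show σ x = τ x from hx]

theorem eq_on_adjoin {K F Ω : Type*} [Field K] [Field F] [Algebra K F] [Field Ω] (σ τ : F →+* Ω)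
    (hK : ∀ a : K, σ (algebraMap K F a) = τ (algebraMap K F a)) (j : F) (hj : σ j = τ j)
    (x : F) (hx : x ∈ K⟮j⟯) : σ x = τ x := by
  have hle : K⟮j⟯ ≤ eqField σ τ hK := by
    rw [adjoin_le_iff]
    intro y hy
    rw [Set.mem_singleton_iff] at hy
    subst hy
    exact hj
  exact hle hx

/-- **Dedekind bound**: pairwise distinct ring homomorphisms `F →+* Ω` which agree on a subfield `k`
over which `F` is finite are at most `[F : k]` many. -/
theorem card_le_finrank_of_ringHom {k F Ω ι : Type*} [Field k] [Field F] [Algebra k F]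
    [FiniteDimensional k F] [Field Ω] (σ : ι → F →+* Ω)
    (hagree : ∀ (i i' : ι) (a : k), σ i (algebraMap k F a) = σ i' (algebraMap k F a))
    (hinj : Function.Injective σ) : Nat.card ι ≤ Module.finrank k F := by
  classical
  rcases isEmpty_or_nonempty ι with h | ⟨⟨i₀⟩⟩
  · rw [Nat.card_of_isEmpty]
    exact Nat.zero_le _
  · let _ : Algebra k Ω := ((σ i₀).comp (algebraMap k F)).toAlgebra
    have halg : ∀ a : k, algebraMap k Ω a = σ i₀ (algebraMap k F a) := fun a => rfl
    let τ : ι → F →ₐ[k] Ω := fun i =>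
      { (σ i) with
        commutes' := fun a => by
          show σ i (algebraMap k F a) = algebraMap k Ω a
          rw [halg]
          exact hagree i i₀ a }
    have hτ : Function.Injective τ := by
      intro i i' h
      apply hinj
      ext x
      exact congrArg (fun f : F →ₐ[k] Ω => f x) h
    have := Finite.of_injective τ hτ
    calc Nat.card ι ≤ Nat.card (F →ₐ[k] Ω) := Nat.card_le_card_of_injective τ hτ
      _ ≤ Module.finrank k F := card_algHom_le_finrank k F Ω

/-- the form used for function fields: the homomorphisms agree on `K` and on `j`. -/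
theorem card_le_finrank_adjoin_of_ringHom {K F Ω ι : Type*} [Field K] [Field F] [Algebra K F]
    [Field Ω] (j : F) [FiniteDimensional K⟮j⟯ F] (σ : ι → F →+* Ω)
    (hK : ∀ (i i' : ι) (a : K), σ i (algebraMap K F a) = σ i' (algebraMap K F a))
    (hj : ∀ i i' : ι, σ i j = σ i' j)
    (hinj : Function.Injective σ) : Nat.card ι ≤ Module.finrank K⟮j⟯ F := by
  refine card_le_finrank_of_ringHom (k := K⟮j⟯) σ (fun i i' a => ?_) hinj
  exact eq_on_adjoin (σ i) (σ i') (hK i i') j (hj i i') _ a.2

/-! ### the right action of `SL(2,ℤ)` on `Hol` and `Mer` -/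

open UpperHalfPlane Filter Topology CongruenceSubgroup
open scoped Manifold
open Fermat.Agent.S20

theorem mdiff_comp_SL (γ : SL(2, ℤ)) {f : ℍ → ℂ} (hf : MDiff f) :
    MDiff (fun z : ℍ => f (γ • z)) := by
  have hg : 0 < ((γ : GL (Fin 2) ℝ)).det.val := by
    simp
  exact hf.comp (mdifferentiable_smul hg)

/-- `f ↦ f ∘ γ` on `Hol` -/
def compHol (γ : SL(2, ℤ)) : Hol →+* Hol where
  toFun f := ⟨fun z => (f : ℍ → ℂ) (γ • z), mdiff_comp_SL γ f.2⟩
  map_one' := rfl
  map_mul' _ _ := rfl
  map_zero' := rfl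
  map_add' _ _ := rfl

@[simp] theorem compHol_apply (γ : SL(2, ℤ)) (f : Hol) (z : ℍ) :
    ((compHol γ f : Hol) : ℍ → ℂ) z = (f : ℍ → ℂ) (γ • z) := rfl

theorem compHol_injective (γ : SL(2, ℤ)) : Function.Injective (compHol γ) := by
  intro f g h
  refine Hol.ext fun z => ?_
  have := congrFun (congrArg Subtype.val h) (γ⁻¹ • z)
  simpa using this

theorem algebraMap_Hol_Mer_injective : Function.Injective (algebraMap Hol Mer) :=
  IsFractionRing.injective Hol Mer

/-- `m ↦ m ∘ γ` on `Mer` -/
def compMer (γ : SL(2, ℤ)) : Mer →+* Mer :=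
  IsFractionRing.lift (g := (algebraMap Hol Mer).comp (compHol γ))
    (algebraMap_Hol_Mer_injective.comp (compHol_injective γ))

theorem compMer_algebraMap (γ : SL(2, ℤ)) (f : Hol) :
    compMer γ (algebraMap Hol Mer f) = algebraMap Hol Mer (compHol γ f) :=
  IsFractionRing.lift_algebraMap _ f

/-! ### the degree lower bound -/

theorem tendsto_jFun_mul_qParam :
    Tendsto (fun z : ℍ => jFun z * Function.Periodic.qParam 1 (z : ℂ)) atImInfty (𝓝 1) :=
  tendsto_jFun_mul_expFn_one.congr fun z => by rw [expFn_one]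

/-- the `ψ(N)` conjugates of `z ↦ j (N z)` are pairwise distinct -/
theorem conjFn_jFun_injective (N : ℕ) [NeZero N] : Function.Injective (JConj.conjFn jFun N) :=
  JConj.conjFn_injective jFun_smul tendsto_jFun_mul_qParam N

/-- **Degree lower bound**, for an arbitrary field `F ⊇ K` with a "bridge" `Φ : F →+* Mer` sending
`K` to constants, `j` to the analytic `j`-function and `jN` to `z ↦ j (N z)`. -/
theorem psi_le_finrank_of_bridge {K F : Type*} [Field K] [Field F] [Algebra K F]
    (N : ℕ) [NeZero N] (Φ : F →+* Mer) (j jN : F) [FiniteDimensional K⟮j⟯ F]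
    (hK : ∀ a : K, ∃ c : ℂ, Φ (algebraMap K F a) = algebraMap Hol Mer (algebraMap ℂ Hol c))
    (hj : ∃ h : Hol, Φ j = algebraMap Hol Mer h ∧ ∀ z : ℍ, (h : ℍ → ℂ) z = jFun z)
    (hjN : ∃ h : Hol, Φ jN = algebraMap Hol Mer h ∧
      ∀ z w : ℍ, (w : ℂ) = (N : ℂ) * (z : ℂ) → (h : ℍ → ℂ) z = jFun w) :
    ModularCurve.dedekindPsi N ≤ Module.finrank K⟮j⟯ F := by
  obtain ⟨h1, hΦ1, hh1⟩ := hj
  obtain ⟨hN, hΦN, hhN⟩ := hjN
  rw [← card_quotient_Gamma0 N]
  let σ : Q N → F →+* Mer := fun q => (compMer q.out⁻¹).comp Φ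
  refine card_le_finrank_adjoin_of_ringHom (K := K) j σ (fun q q' a => ?_) (fun q q' => ?_) ?_
  · obtain ⟨c, hc⟩ := hK a
    show compMer _ (Φ _) = compMer _ (Φ _)
    rw [hc, compMer_algebraMap, compMer_algebraMap]
    rfl
  · show compMer _ (Φ _) = compMer _ (Φ _)
    rw [hΦ1, compMer_algebraMap, compMer_algebraMap]
    congr 1
    refine Hol.ext fun z => ?_
    rw [compHol_apply, compHol_apply, hh1, hh1, jFun_smul, jFun_smul]
  · intro q q' hqq
    have h2 : compMer q.out⁻¹ (Φ jN) = compMer q'.out⁻¹ (Φ jN) :=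
      congrArg (fun f : F →+* Mer => f jN) hqq
    rw [hΦN, compMer_algebraMap, compMer_algebraMap] at h2
    have h3 := algebraMap_Hol_Mer_injective h2
    apply conjFn_jFun_injective N
    funext z
    have h4 := congrFun (congrArg Subtype.val h3) z
    have e : ∀ (γ : SL(2, ℤ)), ((compHol γ⁻¹ hN : Hol) : ℍ → ℂ) z
        = jFun (JConj.mulN N (γ⁻¹ • z)) := fun γ => by
      rw [compHol_apply]
      exact hhN _ _ (JConj.coe_mulN N _)
    show jFun (JConj.mulN N (q.out⁻¹ • z)) = jFun (JConj.mulN N (q'.out⁻¹ • z))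
    rw [← e, ← e]
    exact h4

end

end Fermat.Agent.S24.PsiLe
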