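/-
S24, formal <-> analytic bridge for the eta product.

* `hasSum_etaProd` : for `‖q‖ < 1`, `∑ (coeff n etaProd) q ^ n = ∏' (1 - q ^ (n + 1))`.
-/
import Mathlib
import Fermat.Prelude.Def_ModularCurve_X0

set_option autoImplicit false

open Filter Topology
open scoped PowerSeries.WithPiTopology

namespace Fermat.Agent.S24.EtaBridge

/-- Iterated derivatives of a polynomial function. -/
theorem iteratedDeriv_polynomial (p : Polynomial ℂ) (n : ℕ) :
    iteratedDeriv n (fun x => Polynomial.eval x p)
      = fun x => Polynomial.eval x ((⇑Polynomial.derivative)^[n] p) := by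
  induction n with
  | zero => simp
  | succ n ih =>
    rw [iteratedDeriv_succ, ih]
    funext x
    rw [Polynomial.deriv, Function.iterate_succ_apply']

/-- The `n`-th derivative at `0` of a polynomial function is `n ! * coeff n`. -/
theorem iteratedDeriv_polynomial_zero (p : Polynomial ℂ) (n : ℕ) :
    iteratedDeriv n (fun x => Polynomial.eval x p) 0 = (n.factorial : ℂ) * p.coeff n := by
  rw [iteratedDeriv_polynomial]
  simp only
  rw [← Polynomial.coeff_zero_eq_eval_zero, Polynomial.coeff_iterate_derivative, zero_add,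
    Nat.descFactorial_self, nsmul_eq_mul]

/-- Iterated derivatives pass to locally uniform limits of polynomial functions. -/
theorem tendsto_iteratedDeriv {ι : Type*} {φ : Filter ι} (P : ι → Polynomial ℂ) (f : ℂ → ℂ)
    {U : Set ℂ} (hU : IsOpen U)
    (h : TendstoLocallyUniformlyOn (fun i x => Polynomial.eval x (P i)) f φ U) (n : ℕ) :
    TendstoLocallyUniformlyOn (fun i => iteratedDeriv n (fun x => Polynomial.eval x (P i)))
      (iteratedDeriv n f) φ U := by
  induction n with
  | zero => simpa using h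
  | succ n ih =>
    have := ih.deriv (Eventually.of_forall fun i => by
      rw [iteratedDeriv_polynomial]
      exact (Polynomial.differentiable _).differentiableOn) hU
    simpa only [iteratedDeriv_succ, Function.comp_def] using this

/-- The finite partial products of the formal eta product, as integer polynomials. -/
noncomputable def etaPoly (s : Finset ℕ) : Polynomial ℤ :=
  ∏ i ∈ s, (1 - Polynomial.X ^ (i + 1))

theorem etaPoly_coe (s : Finset ℕ) :
    ((etaPoly s : Polynomial ℤ) : PowerSeries ℤ) = ∏ i ∈ s, (1 - PowerSeries.X ^ (i + 1)) := by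
  unfold etaPoly
  rw [← Polynomial.coeToPowerSeries.ringHom_apply, map_prod]
  refine Finset.prod_congr rfl fun i _ => ?_
  simp

theorem etaPoly_eval (s : Finset ℕ) (q : ℂ) :
    Polynomial.eval q ((etaPoly s).map (Int.castRingHom ℂ)) = ∏ i ∈ s, (1 - q ^ (i + 1)) := by
  unfold etaPoly
  rw [Polynomial.map_prod, Polynomial.eval_prod]
  refine Finset.prod_congr rfl fun i _ => ?_
  simp

/-- The coefficients of the partial products stabilise to those of `etaProd`. -/
theorem eventually_coeff_etaPoly (n : ℕ) :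
    ∀ᶠ s : Finset ℕ in atTop, (etaPoly s).coeff n = PowerSeries.coeff n ModularCurve.etaProd := by
  have h1 : HasProd (fun i : ℕ => (1 - PowerSeries.X ^ (i + 1) : PowerSeries ℤ))
      ModularCurve.etaProd :=
    (PowerSeries.WithPiTopology.multipliable_one_sub_X_pow ℤ).hasProd
  have h2 : Tendsto (fun s : Finset ℕ => PowerSeries.coeff n
      (∏ i ∈ s, (1 - PowerSeries.X ^ (i + 1) : PowerSeries ℤ))) atTop
      (𝓝 (PowerSeries.coeff n ModularCurve.etaProd)) :=
    ((PowerSeries.WithPiTopology.continuous_coeff ℤ n).tendsto _).comp h1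
  rw [nhds_discrete, tendsto_pure] at h2
  filter_upwards [h2] with s hs
  rw [← hs, ← etaPoly_coe, Polynomial.coeff_coe]

/-- **Formal = analytic eta product.** -/
theorem hasSum_etaProd {q : ℂ} (hq : ‖q‖ < 1) :
    HasSum (fun n : ℕ => ((PowerSeries.coeff n ModularCurve.etaProd : ℤ) : ℂ) * q ^ n)
      (∏' n : ℕ, (1 - q ^ (n + 1))) := by
  set f : ℂ → ℂ := fun q => ∏' n : ℕ, (1 - q ^ (n + 1)) with hf
  have hloc : TendstoLocallyUniformlyOn
      (fun (s : Finset ℕ) x => Polynomial.eval x ((etaPoly s).map (Int.castRingHom ℂ))) f atTop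
      (Metric.ball (0 : ℂ) 1) := by
    have := hasProdLocallyUniformlyOn_iff_tendstoLocallyUniformlyOn.mp
      ModularForm.multipliableLocallyUniformlyOn_one_sub_pow.hasProdLocallyUniformlyOn
    refine this.congr fun s x _ => ?_
    rw [etaPoly_eval]
  have hcoef : ∀ n : ℕ, iteratedDeriv n f 0
      = (n.factorial : ℂ) * ((PowerSeries.coeff n ModularCurve.etaProd : ℤ) : ℂ) := by
    intro n
    have h1 := (tendsto_iteratedDeriv _ f Metric.isOpen_ball hloc n).tendsto_at
      (Metric.mem_ball_self one_pos)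
    have h2 : ∀ᶠ s : Finset ℕ in atTop,
        iteratedDeriv n (fun x => Polynomial.eval x ((etaPoly s).map (Int.castRingHom ℂ))) 0
          = (n.factorial : ℂ) * ((PowerSeries.coeff n ModularCurve.etaProd : ℤ) : ℂ) := by
      filter_upwards [eventually_coeff_etaPoly n] with s hs
      rw [iteratedDeriv_polynomial_zero, Polynomial.coeff_map, hs]
      simp
    exact tendsto_nhds_unique (h1.congr' h2) tendsto_const_nhds
  have hq' : q ∈ Metric.ball (0 : ℂ) 1 := by simpa using hq
  have hT := Complex.hasSum_taylorSeries_on_ball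
    ModularForm.differentiableOn_tprod_one_sub_pow hq'
  refine hT.congr_fun fun n => ?_
  change _ = (n.factorial : ℂ)⁻¹ • (q - 0) ^ n • iteratedDeriv n f 0
  rw [hcoef, sub_zero, smul_eq_mul, smul_eq_mul]
  have : (n.factorial : ℂ) ≠ 0 := by exact_mod_cast n.factorial_ne_zero
  field_simp


/-! ## Power series representing functions on the open unit disc -/

/-- `Rep P f`: the power series `P` converges to `f` on the open unit disc. -/
def Rep (P : PowerSeries ℂ) (f : ℂ → ℂ) : Prop :=
  ∀ q : ℂ, ‖q‖ < 1 → HasSum (fun n : ℕ => PowerSeries.coeff n P * q ^ n) (f q)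

theorem Rep.congr {P : PowerSeries ℂ} {f g : ℂ → ℂ} (h : Rep P f)
    (hfg : ∀ q : ℂ, ‖q‖ < 1 → f q = g q) : Rep P g := fun q hq => hfg q hq ▸ h q hq

theorem Rep.hasFPowerSeriesOnBall {P : PowerSeries ℂ} {f : ℂ → ℂ} (h : Rep P f) :
    HasFPowerSeriesOnBall f
      (FormalMultilinearSeries.ofScalars ℂ (fun n => PowerSeries.coeff n P)) 0 1 := by
  refine ⟨?_, one_pos, ?_⟩
  · apply ENNReal.le_of_forall_nnreal_lt
    intro r hr
    have hr1 : ‖((r : ℝ) : ℂ)‖ < 1 := by
      rw [Complex.norm_real, Real.norm_eq_abs, abs_of_nonneg r.coe_nonneg]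
      exact_mod_cast hr
    have h1 := (h _ hr1).summable.tendsto_atTop_zero
    have h2 := h1.norm
    simp only [norm_zero] at h2
    refine FormalMultilinearSeries.le_radius_of_tendsto _ (l := 0) ?_
    refine h2.congr fun n => ?_
    rw [FormalMultilinearSeries.ofScalars_norm, norm_mul, norm_pow, Complex.norm_real,
      Real.norm_eq_abs, abs_of_nonneg r.coe_nonneg]
  · intro y hy
    have hy1 : ‖y‖ < 1 := by
      have : y ∈ Metric.ball (0 : ℂ) 1 := by
        rw [← Metric.eball_ofReal] 
        simpa using hy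
      simpa using this
    have := h y hy1
    rw [zero_add]
    refine this.congr_fun fun n => ?_
    rw [FormalMultilinearSeries.ofScalars_apply_eq, smul_eq_mul]

theorem Rep.differentiableOn {P : PowerSeries ℂ} {f : ℂ → ℂ} (h : Rep P f) :
    DifferentiableOn ℂ f (Metric.ball (0 : ℂ) 1) := by
  have := h.hasFPowerSeriesOnBall.differentiableOn
  rwa [← Metric.eball_ofReal, ENNReal.ofReal_one]

theorem Rep.summable_norm {P : PowerSeries ℂ} {f : ℂ → ℂ} (h : Rep P f) {q : ℂ} (hq : ‖q‖ < 1) :
    Summable fun n : ℕ => ‖PowerSeries.coeff n P * q ^ n‖ := by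
  have h1 := h.hasFPowerSeriesOnBall
  have hq' : q ∈ Metric.eball (0 : ℂ)
      (FormalMultilinearSeries.ofScalars ℂ (fun n => PowerSeries.coeff n P)).radius := by
    refine Metric.eball_subset_eball h1.r_le ?_
    rw [← ENNReal.ofReal_one, Metric.eball_ofReal]
    simpa using hq
  have := FormalMultilinearSeries.summable_norm_apply _ hq'
  refine this.congr fun n => ?_
  rw [FormalMultilinearSeries.ofScalars_apply_eq, smul_eq_mul]

/-- Uniqueness of the representing power series. -/
theorem Rep.unique {P Q : PowerSeries ℂ} {f g : ℂ → ℂ} (hP : Rep P f) (hQ : Rep Q g)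
    (hfg : ∀ q : ℂ, ‖q‖ < 1 → f q = g q) : P = Q := by
  have h1 := hP.hasFPowerSeriesOnBall.hasFPowerSeriesAt
  have h2 := (hQ.congr fun q hq => (hfg q hq).symm).hasFPowerSeriesOnBall.hasFPowerSeriesAt
  have h3 := h1.eq_formalMultilinearSeries h2
  have h4 := FormalMultilinearSeries.ofScalars_series_injective ℂ ℂ h3
  ext n
  exact congrFun h4 n

theorem Rep.one : Rep 1 (fun _ => 1) := by
  intro q _
  have : (fun n : ℕ => PowerSeries.coeff n (1 : PowerSeries ℂ) * q ^ n)
      = fun n => if n = 0 then 1 else 0 := by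
    funext n
    rw [PowerSeries.coeff_one]
    split_ifs with hn
    · simp [hn]
    · simp
  rw [this]
  exact hasSum_ite_eq 0 1

theorem Rep.mul {P Q : PowerSeries ℂ} {f g : ℂ → ℂ} (hP : Rep P f) (hQ : Rep Q g) :
    Rep (P * Q) (fun q => f q * g q) := by
  intro q hq
  have h1 := hP.summable_norm hq
  have h2 := hQ.summable_norm hq
  have h3 := tsum_mul_tsum_eq_tsum_sum_antidiagonal_of_summable_norm h1 h2
  have h4 := (summable_norm_sum_mul_antidiagonal_of_summable_norm h1 h2).of_norm
  rw [(hP q hq).tsum_eq, (hQ q hq).tsum_eq] at h3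
  have h5 : ∀ n : ℕ, ∑ kl ∈ Finset.HasAntidiagonal.antidiagonal n,
      (PowerSeries.coeff kl.1 P * q ^ kl.1) * (PowerSeries.coeff kl.2 Q * q ^ kl.2)
      = PowerSeries.coeff n (P * Q) * q ^ n := by
    intro n
    rw [PowerSeries.coeff_mul, Finset.sum_mul]
    refine Finset.sum_congr rfl fun kl hkl => ?_
    rw [← Finset.HasAntidiagonal.mem_antidiagonal.mp hkl, pow_add]
    ring
  simp only [h5] at h3 h4
  show HasSum _ (f q * g q)
  rw [h3]
  exact h4.hasSum

theorem Rep.pow {P : PowerSeries ℂ} {f : ℂ → ℂ} (hP : Rep P f) (k : ℕ) :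
    Rep (P ^ k) (fun q => f q ^ k) := by
  induction k with
  | zero => simpa using Rep.one
  | succ k ih =>
    have := ih.mul hP
    simpa only [pow_succ] using this

/-- Taylor expansion: a function differentiable on the open unit disc is represented by a power
series. -/
theorem exists_rep {f : ℂ → ℂ} (hf : DifferentiableOn ℂ f (Metric.ball (0 : ℂ) 1)) :
    ∃ P : PowerSeries ℂ, Rep P f := by
  refine ⟨PowerSeries.mk fun n => (n.factorial : ℂ)⁻¹ * iteratedDeriv n f 0, fun q hq => ?_⟩
  have hq' : q ∈ Metric.ball (0 : ℂ) 1 := by simpa using hq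
  have := Complex.hasSum_taylorSeries_on_ball hf hq'
  refine this.congr_fun fun n => ?_
  rw [PowerSeries.coeff_mk, sub_zero, smul_eq_mul, smul_eq_mul]
  ring

/-- Inverse: if `P` represents the nowhere vanishing `f` and `P * Q = 1`, then `Q` represents
`1 / f`. -/
theorem Rep.inv {P Q : PowerSeries ℂ} {f : ℂ → ℂ} (hP : Rep P f)
    (hf : ∀ q : ℂ, ‖q‖ < 1 → f q ≠ 0) (hPQ : P * Q = 1) : Rep Q (fun q => (f q)⁻¹) := by
  have hdiff : DifferentiableOn ℂ (fun q => (f q)⁻¹) (Metric.ball (0 : ℂ) 1) :=
    hP.differentiableOn.inv fun q hq => hf q (by simpa using hq)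
  obtain ⟨R, hR⟩ := exists_rep hdiff
  have h1 : P * R = 1 :=
    (hP.mul hR).unique Rep.one fun q hq => mul_inv_cancel₀ (hf q hq)
  have h2 : Q = R := by
    calc Q = Q * (P * R) := by rw [h1, mul_one]
      _ = (P * Q) * R := by ring
      _ = R := by rw [hPQ, one_mul]
  rw [h2]
  exact hR


/-! ## The eta product and its inverse -/

open ModularCurve in
/-- The analytic eta product on the disc. -/
noncomputable def etaFun (q : ℂ) : ℂ := ∏' n : ℕ, (1 - q ^ (n + 1))

theorem etaFun_ne_zero {q : ℂ} (hq : ‖q‖ < 1) : etaFun q ≠ 0 := by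
  unfold etaFun
  refine tprod_one_add_ne_zero_of_summable (f := fun n => -q ^ (n + 1)) ?_ ?_ |> fun h => by
    simpa [sub_eq_add_neg] using h
  · intro i h
    have h1 : q ^ (i + 1) = 1 := by
      have := eq_neg_of_add_eq_zero_right h
      simpa using this
    have h2 := congrArg norm h1
    rw [norm_pow, norm_one] at h2
    have h3 : ‖q‖ ^ (i + 1) < 1 := pow_lt_one₀ (norm_nonneg _) hq (Nat.succ_ne_zero i)
    linarith
  · have := (summable_nat_add_iff 1).mpr (summable_geometric_of_lt_one (norm_nonneg q) hq)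
    simpa [norm_pow] using this

/-- Cast of an integral power series to `ℂ`. -/
noncomputable abbrev toC (P : PowerSeries ℤ) : PowerSeries ℂ := P.map (Int.castRingHom ℂ)

theorem rep_etaProd : Rep (toC ModularCurve.etaProd) etaFun := by
  intro q hq
  have := hasSum_etaProd hq
  refine this.congr_fun fun n => ?_
  simp [toC]

theorem rep_dedekindEtaUnit : Rep (toC ModularCurve.dedekindEtaUnit) (fun q => etaFun q ^ 24) := by
  have := rep_etaProd.pow 24
  rwa [toC, ← map_pow] at this

theorem rep_dedekindEtaUnitInv :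
    Rep (toC ModularCurve.dedekindEtaUnitInv) (fun q => (etaFun q ^ 24)⁻¹) := by
  refine rep_dedekindEtaUnit.inv (fun q hq => pow_ne_zero _ (etaFun_ne_zero hq)) ?_
  rw [toC, toC, ← map_mul, ModularCurve.dedekindEtaUnit_mul_inv, map_one]


/-! ## The Eisenstein series `E₄` and the `j`-numerator -/

open UpperHalfPlane ModularForm EisensteinSeries

theorem qExpansion_E4 : qExpansion 1 E₄ = toC ModularCurve.eisenstein4 := by
  ext m
  rw [E_qExpansion_coeff (by norm_num : 3 ≤ 4) ⟨2, rfl⟩ m, toC, PowerSeries.coeff_map,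
    ModularCurve.eisenstein4, PowerSeries.coeff_mk]
  by_cases hm : m = 0
  · simp [hm]
  · rw [if_neg hm, if_neg hm, show bernoulli 4 = -1 / 30 by decide +kernel,
      ArithmeticFunction.sigma_apply]
    simp only [eq_intCast]
    push_cast
    ring

theorem rep_eisenstein4 : Rep (toC ModularCurve.eisenstein4) (cuspFunction 1 E₄) := by
  intro q hq
  have := UpperHalfPlane.hasSum_qExpansion_of_norm_lt (f := E₄) one_pos
    (SlashInvariantFormClass.periodic_comp_ofComplex E₄ (by simp))
    (ModularFormClass.holo E₄) (ModularFormClass.bdd_at_infty E₄) hq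
  rw [qExpansion_E4] at this
  simpa [smul_eq_mul] using this

/-- The `j`-numerator `q * j = E₄³ / ∏ (1 - qⁿ)²⁴` on the disc. -/
noncomputable def jNumFun (q : ℂ) : ℂ := cuspFunction 1 E₄ q ^ 3 * (etaFun q ^ 24)⁻¹

theorem rep_jNum : Rep (toC ModularCurve.jNum) jNumFun := by
  have := (rep_eisenstein4.pow 3).mul rep_dedekindEtaUnitInv
  rw [toC, toC, ← map_pow, ← map_mul] at this
  exact this

theorem jNumFun_qParam (z : ℍ) :
    jNumFun (Function.Periodic.qParam 1 z) = Function.Periodic.qParam 1 z * (E₄ z ^ 3 / ModularForm.discriminant z) := by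
  have h1 : cuspFunction 1 E₄ (Function.Periodic.qParam 1 z) = E₄ z :=
    SlashInvariantFormClass.eq_cuspFunction E₄ z (by simp) one_ne_zero
  have h2 := discriminant_eq_q_prod z
  have h3 : ∏' n : ℕ, (1 - eta_q n ↑z) ^ 24 = etaFun (Function.Periodic.qParam 1 z) ^ 24 := by
    unfold etaFun
    have hq : ‖Function.Periodic.qParam 1 (z : ℂ)‖ < 1 :=
      Function.Periodic.norm_qParam_lt_one one_pos z.im_pos
    exact (ModularForm.multipliable_one_sub_pow hq).tprod_pow 24
  have hq0 : Function.Periodic.qParam 1 (z : ℂ) ≠ 0 := Function.Periodic.qParam_ne_zero _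
  have he : etaFun (Function.Periodic.qParam 1 z) ^ 24 ≠ 0 :=
    pow_ne_zero _ (etaFun_ne_zero (Function.Periodic.norm_qParam_lt_one one_pos z.im_pos))
  unfold jNumFun
  rw [h1]
  show _ = _ * (_ / ModularForm.discriminant z)
  rw [h2, h3]
  field_simp

/-- **The analytic `j`-function has the formal `q`-expansion `jq`** (numerator form):
`q · j(z) = ∑ (coeff n jNumQ) qⁿ` with `q = 𝕢 1 z`. -/
theorem hasSum_jNumQ (z : ℍ) :
    HasSum (fun n : ℕ => ((PowerSeries.coeff n ModularCurve.jNumQ : ℚ) : ℂ)
        * Function.Periodic.qParam 1 z ^ n)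
      (Function.Periodic.qParam 1 z * (E₄ z ^ 3 / ModularForm.discriminant z)) := by
  have hq : ‖Function.Periodic.qParam 1 (z : ℂ)‖ < 1 :=
    Function.Periodic.norm_qParam_lt_one one_pos z.im_pos
  have := rep_jNum _ hq
  rw [jNumFun_qParam] at this
  refine this.congr_fun fun n => ?_
  simp [toC, ModularCurve.jNumQ]

end Fermat.Agent.S24.EtaBridge
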