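import Mathlib
import Fermat.Agent.S20.TwistedPeriodic
import Fermat.Agent.S20.Rank
import Fermat.Agent.S24.CuspOrd
import Fermat.Agent.S24.EtaBridge
import Fermat.Agent.S24.JConj
import Fermat.Agent.S24.JFun

set_option autoImplicit false

/-!
# S24 (M5): the conjugates `J ((a z + b) / e)` of `j_d` at the cusp `i∞`

`J : ℍ → ℂ` is abstract (`JLike J`: holomorphic, `SL(2, ℤ)`-invariant, `J * q → 1`).

* the functions `z ↦ J ((a z + b) / e)` (`affH` of `S20/Rank.lean`) are meromorphic at `i∞` of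
  width `e` (in the sense of `IsMeroCusp` of `CuspOrd.lean`) with `ordCusp e = -a`; for `e ∣ N`
  they are meromorphic of width `N` with `ordCusp N = -(N / e) a < 0`;
* hence all conjugates `JConj.conjG J d g` (`d ∣ N`) are meromorphic at `i∞` of width `N`;
* **rationality**: `IsRatExp A N f` says that `f * q_N ^ m` is a convergent power series in
  `q_N = exp (2πi z / N)` with coefficients in the subring `A ⊆ ℂ`; this is a subring of
  functions containing the constants of `A` and the conjugates of the `j_d`, as soon as `A`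
  contains the `N`-th roots of unity (and the coefficients of `J * q`).
-/

namespace Fermat.Agent.S24.CuspExp

open Complex Filter Function
open UpperHalfPlane hiding I
open scoped Real Topology Manifold MatrixGroups
open Fermat.Agent.S20 (expFn expFn_add expFn_zero expFn_ne_zero expFn_neg_mul expFn_one norm_expFn
  mdiff_expFn isZeroAtImInfty_expFn isBoundedAtImInfty_expFn)
open Fermat.Agent.S20.Rank (affH coe_affH im_affH tendsto_affH mdiff_comp_affH intCast_pos')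
open Fermat.Agent.S24.EtaBridge (Rep)

noncomputable section

local notation "𝕢" => Periodic.qParam

/-! ### Preliminaries on `expFn` -/

theorem qParam_eq_expFn (h : ℝ) (z : ℍ) : 𝕢 h z = expFn (1 / h) z := by
  unfold Fermat.Agent.S20.expFn Periodic.qParam
  congr 1
  push_cast
  ring

theorem expFn_nat_mul (c : ℝ) (n : ℕ) (z : ℍ) : expFn (n * c) z = expFn c z ^ n := by
  unfold Fermat.Agent.S20.expFn
  rw [← Complex.exp_nat_mul]
  congr 1
  push_cast
  ring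

theorem qParam_pow_eq_expFn (h : ℝ) (n : ℕ) (z : ℍ) : 𝕢 h z ^ n = expFn (n / h) z := by
  rw [qParam_eq_expFn, ← expFn_nat_mul]
  congr 1
  ring

/-! ### Functions of `j`-type composed with `z ↦ (a z + b) / e` -/

/-- the hypotheses on the analytic `j`-function used in this file -/
structure JLike (J : ℍ → ℂ) : Prop where
  mdiff : MDiff J
  inv : ∀ (γ : SL(2, ℤ)) (z : ℍ), J (γ • z) = J z
  lim : Tendsto (fun z : ℍ => J z * expFn 1 z) atImInfty (𝓝 1)

theorem JLike.of_qParam {J : ℍ → ℂ} (h1 : MDiff J)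
    (h2 : ∀ (γ : SL(2, ℤ)) (z : ℍ), J (γ • z) = J z)
    (h3 : Tendsto (fun z : ℍ => J z * 𝕢 1 (z : ℂ)) atImInfty (𝓝 1)) : JLike J :=
  ⟨h1, h2, h3.congr fun z => by rw [expFn_one]⟩

namespace JLike

variable {J : ℍ → ℂ} (hJ : JLike J)
include hJ

theorem lim_qParam : Tendsto (fun z : ℍ => J z * 𝕢 1 (z : ℂ)) atImInfty (𝓝 1) :=
  hJ.lim.congr fun z => by rw [expFn_one]

theorem vadd_int (n : ℤ) (z : ℍ) : J ((n : ℝ) +ᵥ z) = J z := by
  rw [← UpperHalfPlane.modular_T_zpow_smul, hJ.inv]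

variable (a b e : ℤ) (ha : 0 < a) (he : 0 < e)

omit hJ in
theorem affH_vadd (z : ℍ) :
    affH a b e (intCast_pos' ha) (intCast_pos' he) (((e : ℤ) : ℝ) +ᵥ z) =
      ((a : ℤ) : ℝ) +ᵥ affH a b e (intCast_pos' ha) (intCast_pos' he) z := by
  apply UpperHalfPlane.ext
  rw [coe_affH, coe_vadd, coe_vadd, coe_affH]
  have he' : ((e : ℝ) : ℂ) ≠ 0 := by
    have : (e : ℝ) ≠ 0 := (intCast_pos' he).ne'
    exact_mod_cast this
  field_simp
  ring

theorem comp_affH_periodic (z : ℍ) :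
    J (affH a b e (intCast_pos' ha) (intCast_pos' he) (((e : ℤ) : ℝ) +ᵥ z)) =
      J (affH a b e (intCast_pos' ha) (intCast_pos' he) z) := by
  rw [affH_vadd a b e ha he, hJ.vadd_int]

/-- `J ((a z + b) / e) * exp (2πi (a / e) z) → exp (-2πi b / e)` -/
theorem tendsto_comp_affH :
    Tendsto (fun z : ℍ => J (affH a b e (intCast_pos' ha) (intCast_pos' he) z) *
      expFn ((a : ℝ) / e) z) atImInfty (𝓝 (cexp (-(2 * π * I * ((b : ℂ) / e))))) := by
  have h1 := hJ.lim.comp (tendsto_affH a b e (intCast_pos' ha) (intCast_pos' he))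
  have h2 := h1.mul_const (cexp (-(2 * π * I * ((b : ℂ) / e))))
  rw [one_mul] at h2
  refine h2.congr fun z => ?_
  simp only [comp_apply]
  rw [mul_assoc]
  congr 1
  unfold Fermat.Agent.S20.expFn
  rw [coe_affH, ← Complex.exp_add]
  congr 1
  have he' : (e : ℂ) ≠ 0 := by exact_mod_cast he.ne'
  push_cast
  field_simp
  ring

theorem tendsto_comp_affH_qParam :
    Tendsto (fun z : ℍ => J (affH a b e (intCast_pos' ha) (intCast_pos' he) z) *
      𝕢 ((e : ℤ) : ℝ) z ^ a.toNat) atImInfty (𝓝 (cexp (-(2 * π * I * ((b : ℂ) / e))))) := by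
  refine (hJ.tendsto_comp_affH a b e ha he).congr fun z => ?_
  rw [qParam_pow_eq_expFn]
  congr 3
  have : ((a.toNat : ℕ) : ℤ) = a := Int.toNat_of_nonneg ha.le
  exact_mod_cast congrArg (fun x : ℤ => (x : ℝ)) this.symm

/-- `z ↦ J ((a z + b) / e)` is meromorphic at `i∞` of width `e`. -/
theorem isMeroCusp_comp_affH :
    IsMeroCusp ((e : ℤ) : ℝ) (fun z : ℍ => J (affH a b e (intCast_pos' ha) (intCast_pos' he) z)) :=
  isMeroCusp_of_isBounded_mul_pow (intCast_pos' he)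
    (mdiff_comp_affH _ _ _ _ _ hJ.mdiff) (hJ.comp_affH_periodic a b e ha he) a.toNat
    ((hJ.tendsto_comp_affH_qParam a b e ha he).isBigO_one ℝ)

/-- the order of `z ↦ J ((a z + b) / e)` at `i∞` in `q_e` is `-a`. -/
theorem ordCusp_comp_affH :
    ordCusp ((e : ℤ) : ℝ) (fun z : ℍ => J (affH a b e (intCast_pos' ha) (intCast_pos' he) z)) =
      -a := by
  have := (hJ.isMeroCusp_comp_affH a b e ha he).ordCusp_eq_neg_of_tendsto_mul_pow
    (intCast_pos' he) a.toNat (Complex.exp_ne_zero _) (hJ.tendsto_comp_affH_qParam a b e ha he)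
  rw [this, Int.toNat_of_nonneg ha.le]

/-- for `e ∣ N`: `z ↦ J ((a z + b) / e)` is meromorphic at `i∞` of width `N`, of order
`-(N / e) a`. -/
theorem isMeroCusp_comp_affH_of_dvd {N : ℕ} (hN : 0 < N) (heN : e ∣ (N : ℤ)) :
    IsMeroCusp (N : ℝ) (fun z : ℍ => J (affH a b e (intCast_pos' ha) (intCast_pos' he) z)) ∧
    ordCusp (N : ℝ) (fun z : ℍ => J (affH a b e (intCast_pos' ha) (intCast_pos' he) z)) =
      -(((N : ℤ) / e) * a) := by
  obtain ⟨t, ht⟩ := heN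
  have htpos : 0 < t := by
    have h1 : (0 : ℤ) < e * t := by rw [← ht]; exact_mod_cast hN
    exact (mul_pos_iff_of_pos_left he).mp h1
  have h := isMeroCusp_nat_mul (intCast_pos' he) (hJ.isMeroCusp_comp_affH a b e ha he)
    (n := t.toNat) (Int.pos_iff_toNat_pos.mp htpos)
  have e1 : ((t.toNat : ℕ) : ℝ) * ((e : ℤ) : ℝ) = (N : ℝ) := by
    have h2 : ((t.toNat : ℕ) : ℤ) = t := Int.toNat_of_nonneg htpos.le
    have h3 : ((t.toNat : ℕ) : ℤ) * e = (N : ℤ) := by rw [h2, ht]; ring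
    exact_mod_cast congrArg (fun x : ℤ => (x : ℝ)) h3
  rw [e1] at h
  refine ⟨h.1, ?_⟩
  rw [h.2, hJ.ordCusp_comp_affH a b e ha he, ht, Int.mul_ediv_cancel_left _ he.ne',
    Int.toNat_of_nonneg htpos.le]
  ring

theorem ordCusp_comp_affH_neg {N : ℕ} (hN : 0 < N) (heN : e ∣ (N : ℤ)) :
    ordCusp (N : ℝ) (fun z : ℍ => J (affH a b e (intCast_pos' ha) (intCast_pos' he) z)) < 0 := by
  rw [(hJ.isMeroCusp_comp_affH_of_dvd a b e ha he hN heN).2]
  obtain ⟨t, ht⟩ := heN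
  have htpos : 0 < t := by
    have h1 : (0 : ℤ) < e * t := by rw [← ht]; exact_mod_cast hN
    exact (mul_pos_iff_of_pos_left he).mp h1
  rw [ht, Int.mul_ediv_cancel_left _ he.ne']
  have : 0 < t * a := mul_pos htpos ha
  linarith

end JLike

/-! ### The conjugates `conjG J d g` of `j_d` -/

section conj

variable {J : ℍ → ℂ} (hJ : JLike J)
include hJ

/-- every conjugate `z ↦ J (d (g⁻¹ z))` of `j_d`, `d ∣ N`, is meromorphic at `i∞` of width `N`,
of negative order. -/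
theorem isMeroCusp_conjG {N : ℕ} (hN : 0 < N) (d : ℕ) [NeZero d] (hd : d ∣ N) (g : SL(2, ℤ)) :
    IsMeroCusp (N : ℝ) (JConj.conjG J d g) ∧ ordCusp (N : ℝ) (JConj.conjG J d g) < 0 := by
  obtain ⟨a, b, e, ha, he, hae, h⟩ := JConj.conjG_eq_affH hJ.inv d g
  have hfun : JConj.conjG J d g =
      fun z : ℍ => J (affH a b e (intCast_pos' ha) (intCast_pos' he) z) := funext h
  have heN : e ∣ (N : ℤ) := by
    have h1 : e ∣ (d : ℤ) := Dvd.intro_left a hae
    exact h1.trans (by exact_mod_cast hd)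
  rw [hfun]
  exact ⟨(hJ.isMeroCusp_comp_affH_of_dvd a b e ha he hN heN).1,
    hJ.ordCusp_comp_affH_neg a b e ha he hN heN⟩

end conj

/-! ### More on `Rep` (power series representing functions on the unit disc) -/

theorem rep_const (c : ℂ) : Rep (PowerSeries.C c) (fun _ => c) := by
  intro q _
  have : (fun n : ℕ => PowerSeries.coeff n (PowerSeries.C c : PowerSeries ℂ) * q ^ n)
      = fun n => if n = 0 then c else 0 := by
    funext n
    rw [PowerSeries.coeff_C]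
    split_ifs with hn
    · simp [hn]
    · simp
  rw [this]
  exact hasSum_ite_eq 0 c

theorem rep_add {P Q : PowerSeries ℂ} {f g : ℂ → ℂ} (hP : Rep P f) (hQ : Rep Q g) :
    Rep (P + Q) (fun q => f q + g q) := by
  intro q hq
  have := (hP q hq).add (hQ q hq)
  refine this.congr_fun fun n => ?_
  rw [map_add, add_mul]

theorem rep_X : Rep (PowerSeries.X : PowerSeries ℂ) (fun q => q) := by
  intro q _
  have : (fun n : ℕ => PowerSeries.coeff n (PowerSeries.X : PowerSeries ℂ) * q ^ n)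
      = fun n => if n = 1 then q else 0 := by
    funext n
    rw [PowerSeries.coeff_X]
    split_ifs with hn
    · simp [hn]
    · simp
  rw [this]
  exact hasSum_ite_eq 1 q

theorem rep_X_pow (k : ℕ) : Rep ((PowerSeries.X : PowerSeries ℂ) ^ k) (fun q => q ^ k) :=
  rep_X.pow k

/-- the power series `P (ζ X ^ m)` -/
def substMulPow (P : PowerSeries ℂ) (ζ : ℂ) (m : ℕ) : PowerSeries ℂ :=
  PowerSeries.mk fun k => if m ∣ k then PowerSeries.coeff (k / m) P * ζ ^ (k / m) else 0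

theorem coeff_substMulPow (P : PowerSeries ℂ) (ζ : ℂ) (m : ℕ) (k : ℕ) :
    PowerSeries.coeff k (substMulPow P ζ m) =
      if m ∣ k then PowerSeries.coeff (k / m) P * ζ ^ (k / m) else 0 := by
  rw [substMulPow, PowerSeries.coeff_mk]

theorem rep_substMulPow {P : PowerSeries ℂ} {G : ℂ → ℂ} (hP : Rep P G) {ζ : ℂ} (hζ : ‖ζ‖ ≤ 1)
    {m : ℕ} (hm : 0 < m) : Rep (substMulPow P ζ m) (fun q => G (ζ * q ^ m)) := by
  intro q hq
  have hq' : ‖ζ * q ^ m‖ < 1 := by
    rw [norm_mul, norm_pow]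
    have h1 : ‖q‖ ^ m < 1 := pow_lt_one₀ (norm_nonneg q) hq hm.ne'
    calc ‖ζ‖ * ‖q‖ ^ m ≤ 1 * ‖q‖ ^ m := by gcongr
      _ < 1 := by rwa [one_mul]
  have h := hP _ hq'
  have hinj : Function.Injective fun n : ℕ => m * n := fun x y hxy =>
    Nat.eq_of_mul_eq_mul_left hm hxy
  rw [← hinj.hasSum_iff]
  · refine h.congr_fun fun n => ?_
    simp only [comp_apply, coeff_substMulPow, dvd_mul_right, if_true,
      Nat.mul_div_cancel_left n hm]
    rw [mul_pow, ← pow_mul]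
    ring
  · intro k hk
    rw [coeff_substMulPow, if_neg, zero_mul]
    rintro ⟨n, rfl⟩
    exact hk ⟨n, rfl⟩

/-! ### Rational `q_N`-expansions -/

/-- `f * q_N ^ m` is a convergent power series in `q_N = exp (2πi z / N)` with coefficients in the
subring `A` of `ℂ`, for some `m`. -/
def IsRatExp (A : Subring ℂ) (N : ℕ) (f : ℍ → ℂ) : Prop :=
  ∃ (m : ℕ) (P : PowerSeries ℂ) (G : ℂ → ℂ), (∀ n, PowerSeries.coeff n P ∈ A) ∧ Rep P G ∧
    ∀ z : ℍ, f z * 𝕢 (N : ℝ) z ^ m = G (𝕢 (N : ℝ) z)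

theorem norm_qParam_lt_one {N : ℕ} (hN : 0 < N) (z : ℍ) : ‖𝕢 (N : ℝ) z‖ < 1 :=
  Periodic.norm_qParam_lt_one (by exact_mod_cast hN) z.im_pos

/-- the expansion, in the shape `HasSum` for all `z : ℍ` -/
theorem IsRatExp.exists_hasSum {A : Subring ℂ} {N : ℕ} (hN : 0 < N) {f : ℍ → ℂ}
    (hf : IsRatExp A N f) :
    ∃ (m : ℕ) (c : ℕ → ℂ), (∀ n, c n ∈ A) ∧
      ∀ z : ℍ, HasSum (fun n : ℕ => c n * 𝕢 (N : ℝ) z ^ n) (f z * 𝕢 (N : ℝ) z ^ m) := by
  obtain ⟨m, P, G, hA, hP, hG⟩ := hf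
  refine ⟨m, fun n => PowerSeries.coeff n P, hA, fun z => ?_⟩
  rw [hG z]
  exact hP _ (norm_qParam_lt_one hN z)

theorem isRatExp_const {A : Subring ℂ} (N : ℕ) {c : ℂ} (hc : c ∈ A) :
    IsRatExp A N (fun _ => c) := by
  refine ⟨0, PowerSeries.C c, fun _ => c, fun n => ?_, rep_const c, fun z => by simp⟩
  rw [PowerSeries.coeff_C]
  split_ifs
  · exact hc
  · exact A.zero_mem

/-- raising the pole order bound -/
theorem IsRatExp.exists_of_le {A : Subring ℂ} {N : ℕ} {f : ℍ → ℂ}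
    {m : ℕ} {P : PowerSeries ℂ} {G : ℂ → ℂ} (hA : ∀ n, PowerSeries.coeff n P ∈ A)
    (hP : Rep P G) (hG : ∀ z : ℍ, f z * 𝕢 (N : ℝ) z ^ m = G (𝕢 (N : ℝ) z)) (k : ℕ) :
    ∃ (P' : PowerSeries ℂ) (G' : ℂ → ℂ), (∀ n, PowerSeries.coeff n P' ∈ A) ∧ Rep P' G' ∧
      ∀ z : ℍ, f z * 𝕢 (N : ℝ) z ^ (m + k) = G' (𝕢 (N : ℝ) z) := by
  refine ⟨PowerSeries.X ^ k * P, fun q => q ^ k * G q, fun n => ?_, (rep_X_pow k).mul hP,
    fun z => ?_⟩
  · rw [PowerSeries.coeff_X_pow_mul']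
    split_ifs
    · exact hA _
    · exact A.zero_mem
  · rw [pow_add, ← mul_assoc, hG z]
    ring

theorem IsRatExp.add {A : Subring ℂ} {N : ℕ} {f g : ℍ → ℂ} (hf : IsRatExp A N f)
    (hg : IsRatExp A N g) : IsRatExp A N (f + g) := by
  obtain ⟨m, P, G, hA, hP, hG⟩ := hf
  obtain ⟨m', P', G', hA', hP', hG'⟩ := hg
  obtain ⟨P₁, G₁, hA₁, hP₁, hG₁⟩ := IsRatExp.exists_of_le hA hP hG m'
  obtain ⟨P₂, G₂, hA₂, hP₂, hG₂⟩ := IsRatExp.exists_of_le hA' hP' hG' m
  refine ⟨m + m', P₁ + P₂, fun q => G₁ q + G₂ q, fun n => ?_, rep_add hP₁ hP₂, fun z => ?_⟩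
  · rw [map_add]
    exact A.add_mem (hA₁ n) (hA₂ n)
  · show (f z + g z) * 𝕢 (N : ℝ) z ^ (m + m') = G₁ (𝕢 (N : ℝ) z) + G₂ (𝕢 (N : ℝ) z)
    rw [add_mul, hG₁ z, add_comm m m', hG₂ z]

theorem IsRatExp.mul {A : Subring ℂ} {N : ℕ} {f g : ℍ → ℂ} (hf : IsRatExp A N f)
    (hg : IsRatExp A N g) : IsRatExp A N (f * g) := by
  obtain ⟨m, P, G, hA, hP, hG⟩ := hf
  obtain ⟨m', P', G', hA', hP', hG'⟩ := hg
  refine ⟨m + m', P * P', fun q => G q * G' q, fun n => ?_, hP.mul hP', fun z => ?_⟩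
  · rw [PowerSeries.coeff_mul]
    exact A.sum_mem fun kl _ => A.mul_mem (hA _) (hA' _)
  · show f z * g z * 𝕢 (N : ℝ) z ^ (m + m') = G (𝕢 (N : ℝ) z) * G' (𝕢 (N : ℝ) z)
    rw [pow_add, ← hG z, ← hG' z]
    ring

theorem IsRatExp.neg {A : Subring ℂ} {N : ℕ} {f : ℍ → ℂ} (hf : IsRatExp A N f) :
    IsRatExp A N (-f) := by
  have := (isRatExp_const N (A.neg_mem A.one_mem)).mul hf
  convert this using 1
  ext z
  simp

/-- the subring of functions with an `A`-rational `q_N`-expansion of finite pole order -/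
def ratExpSubring (A : Subring ℂ) (N : ℕ) : Subring (ℍ → ℂ) where
  carrier := {f | IsRatExp A N f}
  mul_mem' := fun hf hg => hf.mul hg
  one_mem' := isRatExp_const N A.one_mem
  add_mem' := fun hf hg => hf.add hg
  zero_mem' := isRatExp_const N A.zero_mem
  neg_mem' := fun hf => hf.neg

theorem mem_ratExpSubring {A : Subring ℂ} {N : ℕ} {f : ℍ → ℂ} :
    f ∈ ratExpSubring A N ↔ IsRatExp A N f := Iff.rfl

/-! ### Rationality of the conjugates -/

/-- `J * q` is a power series in `q = exp (2πi z)` with coefficients in `A`. -/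
def JRat (A : Subring ℂ) (J : ℍ → ℂ) : Prop :=
  ∃ (P : PowerSeries ℂ) (G : ℂ → ℂ), (∀ n, PowerSeries.coeff n P ∈ A) ∧ Rep P G ∧
    ∀ w : ℍ, J w * 𝕢 1 (w : ℂ) = G (𝕢 1 (w : ℂ))

theorem qParam_one_affH (a b e : ℤ) (ha : 0 < a) (he : 0 < e) {N : ℕ} (hN : 0 < N) {t : ℤ}
    (ht : (N : ℤ) = e * t) (z : ℍ) :
    𝕢 1 (affH a b e (intCast_pos' ha) (intCast_pos' he) z : ℂ) =
      cexp (2 * π * I * ((b : ℂ) / e)) * 𝕢 (N : ℝ) z ^ (a * t).toNat := by
  have htpos : 0 < t := by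
    have h1 : (0 : ℤ) < e * t := by rw [← ht]; exact_mod_cast hN
    exact (mul_pos_iff_of_pos_left he).mp h1
  have hm : (((a * t).toNat : ℕ) : ℤ) = a * t := Int.toNat_of_nonneg (mul_pos ha htpos).le
  have hmC : (((a * t).toNat : ℕ) : ℂ) = (a : ℂ) * t := by
    exact_mod_cast congrArg (fun x : ℤ => (x : ℂ)) hm
  have hNC : (N : ℂ) = (e : ℂ) * t := by exact_mod_cast congrArg (fun x : ℤ => (x : ℂ)) ht
  have he' : (e : ℂ) ≠ 0 := by exact_mod_cast he.ne'
  have ht' : (t : ℂ) ≠ 0 := by exact_mod_cast htpos.ne'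
  unfold Periodic.qParam
  rw [← Complex.exp_nat_mul, ← Complex.exp_add, coe_affH]
  congr 1
  push_cast
  rw [hmC, hNC]
  field_simp
  ring

theorem norm_exp_two_pi_I_mul_ratio (b e : ℤ) : ‖cexp (2 * π * I * ((b : ℂ) / e))‖ = 1 := by
  rw [Complex.norm_exp]
  have : (2 * (π : ℂ) * I * ((b : ℂ) / e)).re = 0 := by
    have h1 : ((b : ℂ) / e) = (((b : ℝ) / e : ℝ) : ℂ) := by push_cast; rfl
    rw [h1]
    simp [Complex.mul_re, Complex.mul_im]
  rw [this, Real.exp_zero]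

theorem exp_ratio_pow_eq_one (b e : ℤ) (he : 0 < e) {N : ℕ} {t : ℤ} (ht : (N : ℤ) = e * t) :
    cexp (2 * π * I * ((b : ℂ) / e)) ^ N = 1 := by
  rw [← Complex.exp_nat_mul]
  have he' : (e : ℂ) ≠ 0 := by exact_mod_cast he.ne'
  have hNC : (N : ℂ) = (e : ℂ) * t := by exact_mod_cast congrArg (fun x : ℤ => (x : ℂ)) ht
  have : (N : ℂ) * (2 * π * I * ((b : ℂ) / e)) = ((b * t : ℤ) : ℂ) * (2 * π * I) := by
    rw [hNC]
    push_cast
    field_simp
  rw [this]
  exact Complex.exp_int_mul_two_pi_mul_I _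

/-- **Rationality of the conjugates**: if `A` contains the `N`-th roots of unity and `J * q` has
coefficients in `A`, then `z ↦ J ((a z + b) / e)`, `e ∣ N`, has an `A`-rational `q_N`-expansion. -/
theorem isRatExp_comp_affH {A : Subring ℂ} {J : ℍ → ℂ} (hJA : JRat A J) {N : ℕ} (hN : 0 < N)
    (hroots : ∀ ζ : ℂ, ζ ^ N = 1 → ζ ∈ A) (a b e : ℤ) (ha : 0 < a) (he : 0 < e)
    (heN : e ∣ (N : ℤ)) :
    IsRatExp A N (fun z : ℍ => J (affH a b e (intCast_pos' ha) (intCast_pos' he) z)) := by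
  obtain ⟨PJ, GJ, hPA, hPJ, hGJ⟩ := hJA
  obtain ⟨t, ht⟩ := heN
  have htpos : 0 < t := by
    have h1 : (0 : ℤ) < e * t := by rw [← ht]; exact_mod_cast hN
    exact (mul_pos_iff_of_pos_left he).mp h1
  set m : ℕ := (a * t).toNat with hm
  have hmpos : 0 < m := Int.pos_iff_toNat_pos.mp (mul_pos ha htpos)
  set ζ : ℂ := cexp (2 * π * I * ((b : ℂ) / e)) with hζ
  have hζ0 : ζ ≠ 0 := Complex.exp_ne_zero _
  have hζN : ζ ^ N = 1 := exp_ratio_pow_eq_one b e he ht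
  have hζA : ζ ∈ A := hroots ζ hζN
  have hζ'A : ζ⁻¹ ∈ A := hroots ζ⁻¹ (by rw [inv_pow, hζN, inv_one])
  have hζnorm : ‖ζ‖ ≤ 1 := (norm_exp_two_pi_I_mul_ratio b e).le
  refine ⟨m, PowerSeries.C ζ⁻¹ * substMulPow PJ ζ m, fun q => ζ⁻¹ * GJ (ζ * q ^ m), fun n => ?_,
    (rep_const ζ⁻¹).mul (rep_substMulPow hPJ hζnorm hmpos), fun z => ?_⟩
  · rw [PowerSeries.coeff_C_mul, coeff_substMulPow]
    refine A.mul_mem hζ'A ?_
    split_ifs
    · exact A.mul_mem (hPA _) (A.pow_mem hζA _)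
    · exact A.zero_mem
  · have h1 := hGJ (affH a b e (intCast_pos' ha) (intCast_pos' he) z)
    rw [qParam_one_affH a b e ha he hN ht z, ← hζ, ← hm] at h1
    show J (affH a b e (intCast_pos' ha) (intCast_pos' he) z) * 𝕢 (N : ℝ) z ^ m =
      ζ⁻¹ * GJ (ζ * 𝕢 (N : ℝ) z ^ m)
    rw [← h1]
    field_simp

/-- all conjugates `conjG J d g`, `d ∣ N`, of the `j_d` have `A`-rational `q_N`-expansions. -/
theorem isRatExp_conjG {A : Subring ℂ} {J : ℍ → ℂ} (hJ : JLike J) (hJA : JRat A J) {N : ℕ}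
    (hN : 0 < N) (hroots : ∀ ζ : ℂ, ζ ^ N = 1 → ζ ∈ A) (d : ℕ) [NeZero d] (hd : d ∣ N)
    (g : SL(2, ℤ)) : IsRatExp A N (JConj.conjG J d g) := by
  obtain ⟨a, b, e, ha, he, hae, h⟩ := JConj.conjG_eq_affH hJ.inv d g
  have hfun : JConj.conjG J d g =
      fun z : ℍ => J (affH a b e (intCast_pos' ha) (intCast_pos' he) z) := funext h
  have heN : e ∣ (N : ℤ) := by
    have h1 : e ∣ (d : ℤ) := Dvd.intro_left a hae
    exact h1.trans (by exact_mod_cast hd)
  rw [hfun]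
  exact isRatExp_comp_affH hJA hN hroots a b e ha he heN

/-- the roots of unity of `ℂ` lie in the image of any algebraically closed field. -/
theorem root_of_unity_mem_range {K : Type*} [Field K] [IsAlgClosed K] (ι : K →+* ℂ) {N : ℕ}
    (hN : 0 < N) (ζ : ℂ) (hζ : ζ ^ N = 1) : ζ ∈ ι.range := by
  have : NeZero N := ⟨hN.ne'⟩
  have : CharZero K := ι.charZero
  have : NeZero (N : K) := ⟨Nat.cast_ne_zero.mpr hN.ne'⟩
  obtain ⟨μ, hμ⟩ := HasEnoughRootsOfUnity.exists_primitiveRoot K N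
  have hμ' : IsPrimitiveRoot (ι μ) N := hμ.map_of_injective ι.injective
  obtain ⟨k, -, hk⟩ := hμ'.eq_pow_of_pow_eq_one hζ
  exact ⟨μ ^ k, by rw [map_pow, hk]⟩

/-! ### Specialisation to the analytic `j`-function -/

theorem jLike_jFun : JLike jFun :=
  ⟨mdiff_jFun, jFun_smul, tendsto_jFun_mul_expFn_one⟩

/-- `jFun * q` is a power series in `q` with integer coefficients. -/
theorem jRat_jFun (A : Subring ℂ) : JRat A jFun := by
  refine ⟨EtaBridge.toC ModularCurve.jNum, EtaBridge.jNumFun, fun n => ?_, EtaBridge.rep_jNum,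
    fun w => ?_⟩
  · rw [EtaBridge.toC, PowerSeries.coeff_map]
    exact intCast_mem A _
  · rw [EtaBridge.jNumFun_qParam, mul_comm]
    rfl

/-- the conjugates of `j_d` (`d ∣ N`) have `ι(K)`-rational `q_N`-expansions, for every
algebraically closed `K` and `ι : K →+* ℂ`. -/
theorem isRatExp_conjG_jFun {K : Type*} [Field K] [IsAlgClosed K] (ι : K →+* ℂ) {N : ℕ}
    (hN : 0 < N) (d : ℕ) [NeZero d] (hd : d ∣ N) (g : SL(2, ℤ)) :
    IsRatExp ι.range N (JConj.conjG jFun d g) :=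
  isRatExp_conjG jLike_jFun (jRat_jFun _) hN (fun ζ hζ => root_of_unity_mem_range ι hN ζ hζ) d hd g

theorem isRatExp_const_range {K : Type*} [Field K] (ι : K →+* ℂ) (N : ℕ) (a : K) :
    IsRatExp ι.range N (fun _ => ι a) :=
  isRatExp_const N ⟨a, rfl⟩

end

end Fermat.Agent.S24.CuspExp
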