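import Mathlib
import Fermat.Prelude.Def_ModularCurve_ArithmeticGalois
import Fermat.Agent.S24.PsiLe

set_option autoImplicit false

/-!
# S24 (R2): ring homomorphisms out of `F = K(j_d : d ∣ N)` are determined by generators;
`Γ₀(N)`-invariance of `Φ f` for every `f ∈ F`
-/

namespace Fermat.Agent.S24.BridgeInv

open scoped MatrixGroups
open IntermediateField UpperHalfPlane CongruenceSubgroup
open Fermat.Agent.S20 Fermat.Agent.S24.PsiLe

noncomputable section

/-! ### extensionality for ring homomorphisms out of an adjoin -/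

/-- two ring homomorphisms out of `adjoin k S` into a field which agree on `k` and on `S` are
equal. -/
theorem adjoin_ringHom_ext {k L Ω : Type*} [Field k] [Field L] [Algebra k L] [Field Ω]
    {S : Set L} (σ τ : ↥(adjoin k S) →+* Ω)
    (hk : ∀ a : k, σ (algebraMap k ↥(adjoin k S) a) = τ (algebraMap k ↥(adjoin k S) a))
    (hS : ∀ x (hx : x ∈ S), σ ⟨x, subset_adjoin k S hx⟩ = τ ⟨x, subset_adjoin k S hx⟩) :
    σ = τ := by
  refine RingHom.ext fun ⟨x, hx⟩ => ?_
  induction hx using adjoin_induction with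
  | mem x hx => exact hS x hx
  | algebraMap a => exact hk a
  | add x y hx hy h₁ h₂ =>
    have : (⟨x + y, add_mem hx hy⟩ : ↥(adjoin k S)) = ⟨x, hx⟩ + ⟨y, hy⟩ := rfl
    rw [this, map_add, map_add, h₁, h₂]
  | inv x hx h =>
    have : (⟨x⁻¹, inv_mem hx⟩ : ↥(adjoin k S)) = (⟨x, hx⟩ : ↥(adjoin k S))⁻¹ := rfl
    rw [this, map_inv₀, map_inv₀, h]
  | mul x y hx hy h₁ h₂ =>
    have : (⟨x * y, mul_mem hx hy⟩ : ↥(adjoin k S)) = ⟨x, hx⟩ * ⟨y, hy⟩ := rfl
    rw [this, map_mul, map_mul, h₁, h₂]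

/-! ### the function field and its generators -/

/-- `K = ℚ̄` -/
abbrev Kbar : Type := AlgebraicClosure ℚ

/-- `F = K(j_d : d ∣ N) ⊆ K((q))` -/
abbrev FF (N : ℕ) : Type := ↥(ModularCurve.modularFunctionFieldBar N)

/-- the generator `j_d = j(q^d)` of `F`, `d ∣ N`. -/
def Jd (N d : ℕ) [NeZero d] (hd : d ∣ N) : FF N :=
  ⟨ModularCurve.coeffEmb Kbar (ModularCurve.qExpand ℚ d ModularCurve.jq),
    ModularCurve.coeffEmb_mem_laurentBaseChange Kbar (ModularCurve.jqd_mem_full N hd)⟩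

@[simp] theorem coe_Jd (N d : ℕ) [NeZero d] (hd : d ∣ N) :
    ((Jd N d hd : FF N) : LaurentSeries Kbar)
      = ModularCurve.coeffEmb Kbar (ModularCurve.qExpand ℚ d ModularCurve.jq) := rfl

/-- the embedding of the rational function field `ℚ(j_d : d ∣ N)` into `F`. -/
def ratEmb (N : ℕ) : ↥(ModularCurve.modularFunctionFieldFull N) →+* FF N where
  toFun x := ⟨ModularCurve.coeffEmb Kbar (x : LaurentSeries ℚ),
    ModularCurve.coeffEmb_mem_laurentBaseChange Kbar x.2⟩
  map_one' := Subtype.ext (map_one _)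
  map_mul' _ _ := Subtype.ext (map_mul _ _ _)
  map_zero' := Subtype.ext (map_zero _)
  map_add' _ _ := Subtype.ext (map_add _ _ _)

/-- **Extensionality**: a ring homomorphism from `F` to a field is determined by its values on the
constants `K` and on the generators `j_d`, `d ∣ N`. -/
theorem ringHom_ext_FF (N : ℕ) {Ω : Type*} [Field Ω] (σ τ : FF N →+* Ω)
    (hK : ∀ a : Kbar, σ (algebraMap Kbar (FF N) a) = τ (algebraMap Kbar (FF N) a))
    (hgen : ∀ (d : ℕ) (_ : NeZero d) (hd : d ∣ N), σ (Jd N d hd) = τ (Jd N d hd)) :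
    σ = τ := by
  -- first on the rational subfield
  have hrat : σ.comp (ratEmb N) = τ.comp (ratEmb N) := by
    refine adjoin_ringHom_ext (k := ℚ) (S := ModularCurve.divisorExpansions N) _ _
      (fun a => ?_) (fun x hx => ?_)
    · rw [eq_ratCast]
      exact (map_ratCast (σ.comp (ratEmb N)) a).trans (map_ratCast (τ.comp (ratEmb N)) a).symm
    · obtain ⟨d, hne, hd, rfl⟩ := hx
      exact hgen d hne hd
  refine adjoin_ringHom_ext (k := Kbar) _ _ hK (fun x hx => ?_)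
  obtain ⟨y, hy, rfl⟩ := hx
  exact congrArg (fun f : ↥(ModularCurve.modularFunctionFieldFull N) →+* Ω => f ⟨y, hy⟩) hrat

/-! ### bridges -/

/-- the properties of the formal-to-analytic bridge `Φ : F →+* Mer` that the modular part uses. -/
structure IsBridge (N : ℕ) (Φ : FF N →+* Mer) : Prop where
  const : ∀ a : Kbar, ∃ c : ℂ, Φ (algebraMap Kbar (FF N) a) = algebraMap Hol Mer (algebraMap ℂ Hol c)
  gen : ∀ (d : ℕ) (_ : NeZero d) (hd : d ∣ N), ∃ h : Hol, Φ (Jd N d hd) = algebraMap Hol Mer h ∧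
    ∀ z w : ℍ, (w : ℂ) = (d : ℂ) * (z : ℂ) → (h : ℍ → ℂ) z = jFun w

variable {N : ℕ} {Φ : FF N →+* Mer}

/-- `SL(2,ℤ)` fixes the image of the constants. -/
theorem IsBridge.compMer_const (hΦ : IsBridge N Φ) (γ : SL(2, ℤ)) (a : Kbar) :
    compMer γ (Φ (algebraMap Kbar (FF N) a)) = Φ (algebraMap Kbar (FF N) a) := by
  obtain ⟨c, hc⟩ := hΦ.const a
  rw [hc, compMer_algebraMap]
  rfl

/-- `Γ₀(N)` fixes the image of every generator. -/
theorem IsBridge.compMer_Jd (hΦ : IsBridge N Φ) (γ : SL(2, ℤ)) (hγ : γ ∈ Gamma0 N)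
    (d : ℕ) [NeZero d] (hd : d ∣ N) :
    compMer γ (Φ (Jd N d hd)) = Φ (Jd N d hd) := by
  obtain ⟨h, hh, hpt⟩ := hΦ.gen d inferInstance hd
  rw [hh, compMer_algebraMap]
  congr 1
  refine Hol.ext fun z => ?_
  rw [compHol_apply, hpt _ _ (JConj.coe_mulN d (γ • z)), hpt _ _ (JConj.coe_mulN d z)]
  exact JConj.comp_smul_eq_of_mem_Gamma0_of_dvd jFun_smul hd γ hγ z

/-- **`Φ f` is `Γ₀(N)`-invariant for every `f ∈ F`.** -/
theorem IsBridge.compMer_eq_of_mem_Gamma0 (hΦ : IsBridge N Φ) (γ : SL(2, ℤ)) (hγ : γ ∈ Gamma0 N)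
    (f : FF N) : compMer γ (Φ f) = Φ f := by
  have h : (compMer γ).comp Φ = Φ :=
    ringHom_ext_FF N _ _ (fun a => hΦ.compMer_const γ a)
      (fun d hne hd => by have := hne; exact hΦ.compMer_Jd γ hγ d hd)
  exact congrArg (fun g : FF N →+* Mer => g f) h

/-- `SL(2,ℤ)` fixes the image of `j = j_1`. -/
theorem IsBridge.compMer_J (hΦ : IsBridge N Φ) (γ : SL(2, ℤ)) :
    compMer γ (Φ (Jd N 1 (one_dvd N))) = Φ (Jd N 1 (one_dvd N)) := by
  obtain ⟨h, hh, hpt⟩ := hΦ.gen 1 inferInstance (one_dvd N)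
  rw [hh, compMer_algebraMap]
  congr 1
  refine Hol.ext fun z => ?_
  have e : ∀ z : ℍ, (h : ℍ → ℂ) z = jFun z := fun z => hpt z z (by simp)
  rw [compHol_apply, e, e, jFun_smul]

theorem compMer_mul (γ δ : SL(2, ℤ)) (m : Mer) :
    compMer (γ * δ) m = compMer δ (compMer γ m) := by
  have h : compMer (γ * δ) = (compMer δ).comp (compMer γ) := by
    refine IsLocalization.ringHom_ext (nonZeroDivisors Hol) ?_
    refine RingHom.ext fun f => ?_
    show compMer (γ * δ) (algebraMap Hol Mer f) = compMer δ (compMer γ (algebraMap Hol Mer f))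
    rw [compMer_algebraMap, compMer_algebraMap, compMer_algebraMap]
    congr 1
    refine Hol.ext fun z => ?_
    rw [compHol_apply, compHol_apply, compHol_apply, mul_smul]
  exact congrArg (fun g : Mer →+* Mer => g m) h

theorem compMer_one (m : Mer) : compMer 1 m = m := by
  have h : compMer 1 = RingHom.id Mer := by
    refine IsLocalization.ringHom_ext (nonZeroDivisors Hol) ?_
    refine RingHom.ext fun f => ?_
    show compMer 1 (algebraMap Hol Mer f) = algebraMap Hol Mer f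
    rw [compMer_algebraMap]
    congr 1
    refine Hol.ext fun z => ?_
    rw [compHol_apply, one_smul]
  exact congrArg (fun g : Mer →+* Mer => g m) h

/-- the conjugate `(Φ f) ∘ g⁻¹` only depends on the left coset `g Γ₀(N)`. -/
theorem IsBridge.compMer_inv_mul (hΦ : IsBridge N Φ) (g γ : SL(2, ℤ)) (hγ : γ ∈ Gamma0 N)
    (f : FF N) : compMer (g * γ)⁻¹ (Φ f) = compMer g⁻¹ (Φ f) := by
  rw [mul_inv_rev, compMer_mul, hΦ.compMer_eq_of_mem_Gamma0 γ⁻¹ (inv_mem hγ)]

/-- the conjugate of `Φ f` attached to the coset `q = g Γ₀(N)`: `(Φ f) ∘ g⁻¹`. -/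
def conjMer (Φ : FF N →+* Mer) (q : Q N) : FF N →+* Mer := (compMer q.out⁻¹).comp Φ

theorem IsBridge.conjMer_mk (hΦ : IsBridge N Φ) (g : SL(2, ℤ)) (f : FF N) :
    conjMer Φ (QuotientGroup.mk g : Q N) f = compMer g⁻¹ (Φ f) := by
  obtain ⟨h, hh⟩ := QuotientGroup.mk_out_eq_mul (Gamma0 N) g
  show compMer (QuotientGroup.mk g : Q N).out⁻¹ (Φ f) = _
  rw [hh]
  exact hΦ.compMer_inv_mul g h h.2 f

/-- translation law: `(conjMer q f) ∘ δ⁻¹ = conjMer (δ • q) f`. -/
theorem IsBridge.compMer_conjMer (hΦ : IsBridge N Φ) (δ : SL(2, ℤ)) (q : Q N) (f : FF N) :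
    compMer δ⁻¹ (conjMer Φ q f) = conjMer Φ (δ • q) f := by
  induction q using QuotientGroup.induction_on with
  | H g =>
    have : δ • (QuotientGroup.mk g : Q N) = QuotientGroup.mk (δ * g) := rfl
    rw [this, hΦ.conjMer_mk, hΦ.conjMer_mk, mul_inv_rev, compMer_mul]

/-- the degree lower bound for a bridge -/
theorem IsBridge.psi_le_finrank [NeZero N] (hΦ : IsBridge N Φ)
    [FiniteDimensional Kbar⟮Jd N 1 (one_dvd N)⟯ (FF N)] :
    ModularCurve.dedekindPsi N ≤ Module.finrank Kbar⟮Jd N 1 (one_dvd N)⟯ (FF N) := by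
  refine psi_le_finrank_of_bridge N Φ (Jd N 1 (one_dvd N)) (Jd N N dvd_rfl) hΦ.const ?_ ?_
  · obtain ⟨h, hh, hpt⟩ := hΦ.gen 1 inferInstance (one_dvd N)
    exact ⟨h, hh, fun z => hpt z z (by simp)⟩
  · exact hΦ.gen N inferInstance dvd_rfl

end

end Fermat.Agent.S24.BridgeInv
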