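import Mathlib
import Fermat.Prelude.Def_ModularCurve_ArithmeticGalois
import Fermat.Agent.S24.JExp
import Fermat.Agent.S24.Hol

set_option autoImplicit false

/-!
# S24 / M4: the bridge between the formal function field and meromorphic functions on `ℍ`
-/

namespace Fermat.Agent.S24.JBridge

open Filter Topology Complex UpperHalfPlane ModularCurve
open scoped Real Manifold
open Fermat.Agent.S24.JExp

noncomputable section

local notation "𝕢" => Function.Periodic.qParam

/-! ### Functions with a Laurent expansion at infinity -/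

/-- `f` has the Laurent `q`-expansion `s` at infinity, with pole order at most `m`. -/
def HasLaurentAt (m : ℕ) (f : ℍ → ℂ) (s : LaurentSeries ℂ) : Prop :=
  Nice (qP ^ m * f) ∧
    HahnSeries.ofPowerSeries ℤ ℂ (qExpansion 1 (qP ^ m * f)) = HahnSeries.single (m : ℤ) 1 * s

/-- `f` has the Laurent `q`-expansion `s` at infinity. -/
def HasLaurent (f : ℍ → ℂ) (s : LaurentSeries ℂ) : Prop := ∃ m : ℕ, HasLaurentAt m f s

theorem ofPowerSeries_X_pow_mul (k : ℕ) (p : PowerSeries ℂ) :
    HahnSeries.ofPowerSeries ℤ ℂ (PowerSeries.X ^ k * p) =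
      HahnSeries.single (k : ℤ) 1 * HahnSeries.ofPowerSeries ℤ ℂ p := by
  rw [map_mul, HahnSeries.ofPowerSeries_X_pow]

theorem nice_shift {g : ℍ → ℂ} (hg : Nice g) (k : ℕ) :
    Nice (qP ^ k * g) ∧ qExpansion 1 (qP ^ k * g) = PowerSeries.X ^ k * qExpansion 1 g := by
  refine ⟨(nice_qP.pow k).mul hg, ?_⟩
  rw [(nice_qP.pow k).qExpansion_mul hg, nice_qP.qExpansion_pow, qExpansion_qP]

theorem single_mul_single_one (a b : ℤ) :
    (HahnSeries.single a (1 : ℂ)) * HahnSeries.single b 1 = HahnSeries.single (a + b) 1 := by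
  rw [HahnSeries.single_mul_single, mul_one]

namespace HasLaurentAt

variable {f g : ℍ → ℂ} {s t : LaurentSeries ℂ} {m n : ℕ}

theorem raise (h : HasLaurentAt m f s) (k : ℕ) : HasLaurentAt (k + m) f s := by
  obtain ⟨h1, h2⟩ := h
  have h3 := nice_shift h1 k
  rw [← mul_assoc, ← pow_add] at h3
  refine ⟨h3.1, ?_⟩
  rw [h3.2, ofPowerSeries_X_pow_mul, h2, ← mul_assoc, single_mul_single_one]
  push_cast
  rfl

theorem add (hf : HasLaurentAt m f s) (hg : HasLaurentAt m g t) :
    HasLaurentAt m (f + g) (s + t) := by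
  obtain ⟨h1, h2⟩ := hf
  obtain ⟨h3, h4⟩ := hg
  have h5 : qP ^ m * (f + g) = qP ^ m * f + qP ^ m * g := mul_add _ _ _
  refine ⟨h5 ▸ h1.add h3, ?_⟩
  rw [h5, h1.qExpansion_add h3, map_add, h2, h4, mul_add]

theorem mul (hf : HasLaurentAt m f s) (hg : HasLaurentAt n g t) :
    HasLaurentAt (m + n) (f * g) (s * t) := by
  obtain ⟨h1, h2⟩ := hf
  obtain ⟨h3, h4⟩ := hg
  have h5 : qP ^ (m + n) * (f * g) = (qP ^ m * f) * (qP ^ n * g) := by
    rw [pow_add]; ring
  refine ⟨h5 ▸ h1.mul h3, ?_⟩
  rw [h5, h1.qExpansion_mul h3, map_mul, h2, h4]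
  push_cast
  rw [← single_mul_single_one]
  ring

end HasLaurentAt

namespace HasLaurent

variable {f g : ℍ → ℂ} {s t : LaurentSeries ℂ}

theorem add (hf : HasLaurent f s) (hg : HasLaurent g t) : HasLaurent (f + g) (s + t) := by
  obtain ⟨m, hm⟩ := hf
  obtain ⟨n, hn⟩ := hg
  refine ⟨n + m, (hm.raise n).add ?_⟩
  have := hn.raise m
  rwa [add_comm] at this

theorem mul (hf : HasLaurent f s) (hg : HasLaurent g t) : HasLaurent (f * g) (s * t) := by
  obtain ⟨m, hm⟩ := hf
  obtain ⟨n, hn⟩ := hg
  exact ⟨m + n, hm.mul hn⟩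

theorem const (c : ℂ) : HasLaurent (fun _ => c) (HahnSeries.single 0 c) := by
  refine ⟨0, ?_, ?_⟩
  · simpa using Nice.const c
  · have h0 : (qP ^ 0 * fun _ : ℍ => c) = fun _ => c := by simp
    rw [h0, (Nice.const c).qExpansion_eq (c := fun n => if n = 0 then c else 0)]
    · have h1 : PowerSeries.mk (fun n => if n = 0 then c else 0) = PowerSeries.C c := by
        ext n
        simp [PowerSeries.coeff_C]
      rw [h1, HahnSeries.ofPowerSeries_C]
      simp [HahnSeries.C_apply]
    · intro τ
      have := hasSum_single (f := fun m : ℕ => (if m = 0 then c else 0) * 𝕢 1 τ ^ m) 0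
        (fun b hb => by simp [hb])
      simpa using this

theorem eq_zero_iff (h : HasLaurent f s) : f = 0 ↔ s = 0 := by
  obtain ⟨m, h1, h2⟩ := h
  have hne : (HahnSeries.single (m : ℤ) (1 : ℂ)) ≠ 0 := by
    simp
  constructor
  · intro hf
    subst hf
    rw [mul_zero, qExpansion_zero, map_zero] at h2
    exact (mul_eq_zero.mp h2.symm).resolve_left hne
  · intro hs
    subst hs
    rw [mul_zero] at h2
    have h3 : qExpansion 1 (qP ^ m * f) = 0 :=
      HahnSeries.ofPowerSeries_injective (by rw [h2, map_zero])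
    have h4 := h1.eq_zero_iff.mp h3
    funext τ
    have h5 := congrFun h4 τ
    simp only [Pi.mul_apply, Pi.pow_apply, Pi.zero_apply, mul_eq_zero] at h5
    exact h5.resolve_left (pow_ne_zero _ (qP_ne_zero τ))

end HasLaurent

/-! ### The generators `j(dτ)` -/

/-- Multiplication by a positive integer on the upper half plane. -/
def mulH (d : ℕ) [NeZero d] (τ : ℍ) : ℍ :=
  ⟨(d : ℂ) * τ, by
    have hd : (0 : ℝ) < d := Nat.cast_pos.mpr (Nat.pos_of_ne_zero (NeZero.ne d))
    simpa using mul_pos hd τ.im_pos⟩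

@[simp] theorem coe_mulH (d : ℕ) [NeZero d] (τ : ℍ) : ((mulH d τ : ℍ) : ℂ) = (d : ℂ) * τ := rfl

theorem qP_mulH (d : ℕ) [NeZero d] (τ : ℍ) : qP (mulH d τ) = qP τ ^ d := by
  unfold qP
  simp only [coe_mulH, Function.Periodic.qParam, ofReal_one, div_one]
  rw [← Complex.exp_nat_mul]
  congr 1
  ring

/-- The analytic generator `τ ↦ j(dτ)`. -/
def jdFun (d : ℕ) [NeZero d] : ℍ → ℂ := fun τ => jFun (mulH d τ)

theorem qP_pow_mul_jdFun (d : ℕ) [NeZero d] :
    qP ^ d * jdFun d = fun τ => jN (mulH d τ) := by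
  funext τ
  simp only [Pi.mul_apply, Pi.pow_apply, jdFun]
  rw [jN_eq, qP_mulH]

theorem jN_eq_cuspFunction (τ : ℍ) : jN τ = cuspFunction 1 jN (𝕢 1 τ) :=
  (eq_cuspFunction τ one_ne_zero nice_jN.per).symm

theorem nice_jN_mulH (d : ℕ) [NeZero d] : Nice (fun τ => jN (mulH d τ)) := by
  have hG : DifferentiableOn ℂ (cuspFunction 1 jN) (Metric.ball (0 : ℂ) 1) :=
    differentiableOn_cuspFunction_ball one_pos nice_jN.per nice_jN.hol nice_jN.bdd
  have hd : d ≠ 0 := NeZero.ne d
  have h1 : DifferentiableOn ℂ (fun q : ℂ => cuspFunction 1 jN (q ^ d)) (Metric.ball (0 : ℂ) 1) := by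
    refine hG.comp (differentiable_pow d).differentiableOn fun q hq => ?_
    simp only [Metric.mem_ball, dist_zero_right, norm_pow] at hq ⊢
    exact pow_lt_one₀ (norm_nonneg _) hq hd
  have h2 := nice_comp_qParam h1
  have h3 : (fun τ : ℍ => cuspFunction 1 jN (𝕢 1 τ ^ d)) = fun τ => jN (mulH d τ) := by
    funext τ
    rw [jN_eq_cuspFunction (mulH d τ)]
    have := qP_mulH d τ
    unfold qP at this
    rw [this]
  rwa [h3] at h2

/-- The coefficients of the expansion of `q^d j(dτ)`. -/
def genCoeff (d : ℕ) (k : ℕ) : ℂ :=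
  if d ∣ k then PowerSeries.coeff (k / d) jNumC else 0

theorem hasSum_jN_mulH (d : ℕ) [NeZero d] (τ : ℍ) :
    HasSum (fun k : ℕ => genCoeff d k * 𝕢 1 τ ^ k) (jN (mulH d τ)) := by
  have hd : 0 < d := Nat.pos_of_ne_zero (NeZero.ne d)
  have h1 := nice_jN.hasSum (mulH d τ)
  rw [qExpansion_jN] at h1
  have hq := qP_mulH d τ
  unfold qP at hq
  rw [hq] at h1
  have hinj : Function.Injective (fun n : ℕ => d * n) := fun a b h =>
    Nat.eq_of_mul_eq_mul_left hd h
  rw [← hinj.hasSum_iff]
  · refine h1.congr_fun fun n => ?_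
    simp only [Function.comp_apply, genCoeff, dvd_mul_right, if_true, Nat.mul_div_cancel_left _ hd,
      pow_mul]
  · intro k hk
    have : ¬ d ∣ k := fun ⟨n, hn⟩ => hk ⟨n, hn.symm⟩
    simp [genCoeff, this]

theorem qExpansion_jN_mulH (d : ℕ) [NeZero d] :
    qExpansion 1 (fun τ => jN (mulH d τ)) = PowerSeries.mk (genCoeff d) :=
  (nice_jN_mulH d).qExpansion_eq (hasSum_jN_mulH d)

theorem ofPowerSeries_genCoeff (d : ℕ) [NeZero d] :
    HahnSeries.ofPowerSeries ℤ ℂ (PowerSeries.mk (genCoeff d)) =
      coeffMap (algebraMap ℚ ℂ) (qExpand ℚ d (HahnSeries.ofPowerSeries ℤ ℚ jNumQ)) := by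
  have hd : 0 < d := Nat.pos_of_ne_zero (NeZero.ne d)
  ext k
  rw [coeffMap_coeff]
  by_cases hk : (d : ℤ) ∣ k
  · obtain ⟨l, rfl⟩ := hk
    rw [qExpand_coeff_mul]
    rcases lt_or_ge l 0 with hl | hl
    · rw [ofPowerSeries_coeff_of_neg _ hl, map_zero]
      exact ofPowerSeries_coeff_of_neg _ (mul_neg_of_pos_of_neg (by exact_mod_cast hd) hl)
    · obtain ⟨n, rfl⟩ := Int.eq_ofNat_of_zero_le hl
      rw [HahnSeries.ofPowerSeries_apply_coeff, show (d : ℤ) * (n : ℤ) = ((d * n : ℕ) : ℤ) by
        push_cast; rfl, HahnSeries.ofPowerSeries_apply_coeff, PowerSeries.coeff_mk, genCoeff,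
        if_pos (dvd_mul_right d n), Nat.mul_div_cancel_left _ hd, coeff_jNumC]
      rfl
  · rw [qExpand_coeff_of_not_dvd d _ hk, map_zero]
    rcases lt_or_ge k 0 with hk0 | hk0
    · exact ofPowerSeries_coeff_of_neg _ hk0
    · obtain ⟨n, rfl⟩ := Int.eq_ofNat_of_zero_le hk0
      have : ¬ d ∣ n := fun h => hk (Int.natCast_dvd_natCast.mpr h)
      rw [HahnSeries.ofPowerSeries_apply_coeff, PowerSeries.coeff_mk, genCoeff, if_neg this]

theorem hasLaurent_jdFun (d : ℕ) [NeZero d] :
    HasLaurent (jdFun d) (coeffMap (algebraMap ℚ ℂ) (qExpand ℚ d jq)) := by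
  refine ⟨d, ?_, ?_⟩
  · rw [qP_pow_mul_jdFun]
    exact nice_jN_mulH d
  · rw [qP_pow_mul_jdFun, qExpansion_jN_mulH, ofPowerSeries_genCoeff, jq, map_mul, map_mul,
      qExpand_single, coeffMap_single, (algebraMap ℚ ℂ).map_one, ← mul_assoc,
      single_mul_single_one]
    simp

theorem mdiff_jdFun (d : ℕ) [NeZero d] : MDiff (jdFun d) := by
  have h : jdFun d = (fun τ => jN (mulH d τ)) / (qP ^ d) := by
    funext τ
    have := congrFun (qP_pow_mul_jdFun d) τ
    simp only [Pi.mul_apply, Pi.pow_apply] at this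
    simp only [Pi.div_apply, Pi.pow_apply]
    rw [← this, mul_div_cancel_left₀ _ (pow_ne_zero d (qP_ne_zero τ))]
  rw [h]
  exact (nice_jN_mulH d).hol.div (nice_qP.pow d).hol (fun τ => pow_ne_zero d (qP_ne_zero τ))

/-! ### The transfer between formal and analytic identities -/

theorem coeffMap_injective {R S : Type*} [CommRing R] [CommRing S] {f : R →+* S}
    (hf : Function.Injective f) : Function.Injective (coeffMap f) := by
  intro x y h
  ext k
  have := congrArg (fun z => HahnSeries.coeff z k) h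
  simp only [coeffMap_coeff] at this
  exact hf this

section Transfer

variable (N : ℕ) [NeZero N]

local notation "K" => AlgebraicClosure ℚ

/-- The divisors of `N` as an index type. -/
abbrev Idx : Type := {d : ℕ // d ∣ N}

instance Idx.neZero (d : Idx N) : NeZero (d : ℕ) :=
  ⟨ne_zero_of_dvd_ne_zero (NeZero.ne N) d.2⟩

/-- The formal generators `j(q^d)` with coefficients in `K`. -/
def genF (d : Idx N) : LaurentSeries K := coeffEmb K (qExpand ℚ d jq)

/-- The analytic generators `j(dτ)`. -/
def genHol (d : Idx N) : Hol := Hol.mk (jdFun d) (mdiff_jdFun d)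

variable (ι : K →+* ℂ)

/-- Evaluation of polynomials at the formal generators. -/
def psi : MvPolynomial (Idx N) K →ₐ[K] LaurentSeries K := MvPolynomial.aeval (genF N)

/-- Evaluation of polynomials at the analytic generators. -/
def phi : MvPolynomial (Idx N) K →+* Hol :=
  MvPolynomial.eval₂Hom ((algebraMap ℂ Hol).comp ι) (genHol N)

theorem coeffMap_genF (d : Idx N) :
    coeffMap ι (genF N d) = coeffMap (algebraMap ℚ ℂ) (qExpand ℚ d jq) := by
  rw [genF, coeffEmb, coeffMap_coeffMap]
  exact coeffMap_congr (Subsingleton.elim _ _) _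

theorem hasLaurent_phi (P : MvPolynomial (Idx N) K) :
    HasLaurent ((phi N ι P : Hol) : ℍ → ℂ) (coeffMap ι (psi N P)) := by
  induction P using MvPolynomial.induction_on with
  | C a =>
    have h1 : ((phi N ι (MvPolynomial.C a) : Hol) : ℍ → ℂ) = fun _ => ι a := by
      funext τ
      simp [phi]
    have h2 : coeffMap ι (psi N (MvPolynomial.C a)) = HahnSeries.single 0 (ι a) := by
      simp only [psi, MvPolynomial.aeval_C]
      rw [algebraMap_laurentSeries_eq_single, coeffMap_single]
    rw [h1, h2]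
    exact HasLaurent.const _
  | add p q hp hq =>
    rw [map_add, map_add, map_add, Hol.coe_add]
    exact hp.add hq
  | mul_X p d hp =>
    rw [map_mul, map_mul, map_mul, Hol.coe_mul]
    refine hp.mul ?_
    have h1 : ((phi N ι (MvPolynomial.X d) : Hol) : ℍ → ℂ) = jdFun d := by
      simp [phi, genHol]
    have h2 : coeffMap ι (psi N (MvPolynomial.X d)) =
        coeffMap (algebraMap ℚ ℂ) (qExpand ℚ d jq) := by
      simp only [psi, MvPolynomial.aeval_X]
      exact coeffMap_genF N ι d
    rw [h1, h2]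
    exact hasLaurent_jdFun d

/-- The two-way transfer: a polynomial relation between the formal generators holds iff it holds
between the analytic generators. -/
theorem psi_eq_zero_iff (P : MvPolynomial (Idx N) K) : psi N P = 0 ↔ phi N ι P = 0 := by
  have h := (hasLaurent_phi N ι P).eq_zero_iff
  have h1 : coeffMap ι (psi N P) = 0 ↔ psi N P = 0 := by
    constructor
    · intro h0
      exact coeffMap_injective ι.injective (by rw [h0, map_zero])
    · intro h0
      rw [h0, map_zero]
  have h2 : ((phi N ι P : Hol) : ℍ → ℂ) = 0 ↔ phi N ι P = 0 := by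
    constructor
    · intro h0
      exact Subtype.ext h0
    · intro h0
      rw [h0]
      rfl
  rw [← h1, ← h, h2]

end Transfer

/-! ### The embedding -/

section Embedding

open IntermediateField.algebraAdjoinAdjoin

variable (N : ℕ) [NeZero N]

local notation "K" => AlgebraicClosure ℚ

/-- The function field is generated over `K` by the formal generators `j(q^d)`, `d ∣ N`. -/
theorem modularFunctionFieldBar_eq :
    modularFunctionFieldBar N = IntermediateField.adjoin K (Set.range (genF N)) := by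
  apply le_antisymm
  · unfold modularFunctionFieldBar laurentBaseChange
    rw [IntermediateField.adjoin_le_iff]
    rintro _ ⟨x, hx, rfl⟩
    have hx' : x ∈ IntermediateField.adjoin ℚ (divisorExpansions N) := hx
    induction hx' using IntermediateField.adjoin_induction with
    | mem y hy =>
      obtain ⟨d, hne, hd, rfl⟩ := hy
      exact IntermediateField.subset_adjoin K _ ⟨⟨d, hd⟩, rfl⟩
    | algebraMap c =>
      rw [algebraMap_laurentSeries_eq_single, coeffEmb, coeffMap_single,
        ← algebraMap_laurentSeries_eq_single]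
      exact IntermediateField.algebraMap_mem _ _
    | add y z _ _ hy hz => rw [map_add]; exact add_mem (hy ‹_›) (hz ‹_›)
    | inv y _ hy => rw [map_inv₀]; exact inv_mem (hy ‹_›)
    | mul y z _ _ hy hz => rw [map_mul]; exact mul_mem (hy ‹_›) (hz ‹_›)
  · rw [IntermediateField.adjoin_le_iff]
    rintro _ ⟨d, rfl⟩
    exact coeffEmb_mem_laurentBaseChange K (jqd_mem_full N d.2)

variable (ι : K →+* ℂ)

/-- The subalgebra generated by the formal generators. -/
abbrev genAlg : Subalgebra K (LaurentSeries K) := Algebra.adjoin K (Set.range (genF N))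

theorem exists_psi_eq (a : genAlg N) : ∃ P, psi N P = (a : LaurentSeries K) := by
  have h : (a : LaurentSeries K) ∈ Algebra.adjoin K (Set.range (genF N)) := a.2
  rw [Algebra.adjoin_range_eq_range_aeval] at h
  exact h

/-- The underlying function of `theta`. -/
def thetaFun (a : genAlg N) : Hol := phi N ι (Classical.choose (exists_psi_eq N a))

theorem thetaFun_eq (a : genAlg N) (P : MvPolynomial (Idx N) K)
    (h : psi N P = (a : LaurentSeries K)) : thetaFun N ι a = phi N ι P := by
  have h0 := Classical.choose_spec (exists_psi_eq N a)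
  have h1 : psi N (Classical.choose (exists_psi_eq N a) - P) = 0 := by
    rw [map_sub, h0, h, sub_self]
  have h2 := (psi_eq_zero_iff N ι _).mp h1
  rw [map_sub, sub_eq_zero] at h2
  exact h2

theorem psi_mem (P : MvPolynomial (Idx N) K) : psi N P ∈ genAlg N := by
  show psi N P ∈ Algebra.adjoin K (Set.range (genF N))
  rw [Algebra.adjoin_range_eq_range_aeval]
  exact ⟨P, rfl⟩

/-- The ring homomorphism from the algebra of formal generators to holomorphic functions. -/
def theta : genAlg N →+* Hol where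
  toFun := thetaFun N ι
  map_one' := by
    rw [thetaFun_eq N ι 1 1 (by simp), map_one]
  map_mul' a b := by
    obtain ⟨P, hP⟩ := exists_psi_eq N a
    obtain ⟨Q, hQ⟩ := exists_psi_eq N b
    rw [thetaFun_eq N ι a P hP, thetaFun_eq N ι b Q hQ,
      thetaFun_eq N ι (a * b) (P * Q) (by rw [map_mul, hP, hQ]; rfl), map_mul]
  map_zero' := by
    rw [thetaFun_eq N ι 0 0 (by simp), map_zero]
  map_add' a b := by
    obtain ⟨P, hP⟩ := exists_psi_eq N a
    obtain ⟨Q, hQ⟩ := exists_psi_eq N b
    rw [thetaFun_eq N ι a P hP, thetaFun_eq N ι b Q hQ,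
      thetaFun_eq N ι (a + b) (P + Q) (by rw [map_add, hP, hQ]; rfl), map_add]

theorem theta_psi (P : MvPolynomial (Idx N) K) :
    theta N ι ⟨psi N P, psi_mem N P⟩ = phi N ι P :=
  thetaFun_eq N ι _ P rfl

theorem theta_injective : Function.Injective (theta N ι) := by
  rw [injective_iff_map_eq_zero]
  intro a ha
  obtain ⟨P, hP⟩ := exists_psi_eq N a
  have h1 : theta N ι a = phi N ι P := thetaFun_eq N ι a P hP
  rw [h1] at ha
  have h2 := (psi_eq_zero_iff N ι P).mpr ha
  exact Subtype.ext (by rw [← hP, h2]; rfl)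

/-- The embedding on the field generated by the formal generators. -/
def PhiGen : ↥(IntermediateField.adjoin K (Set.range (genF N))) →+* Mer :=
  IsFractionRing.lift (A := genAlg N)
    (g := (algebraMap Hol Mer).comp (theta N ι))
    ((IsFractionRing.injective Hol Mer).comp (theta_injective N ι))

/-- **The bridge**: the embedding of the function field of `X₀(N)` over `ℚ̄` into the field of
meromorphic functions on the upper half plane. -/
def Phi : ↥(modularFunctionFieldBar N) →+* Mer :=
  (PhiGen N ι).comp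
    (IntermediateField.inclusion (le_of_eq (modularFunctionFieldBar_eq N))).toRingHom

theorem psi_mem_field (P : MvPolynomial (Idx N) K) : psi N P ∈ modularFunctionFieldBar N := by
  rw [modularFunctionFieldBar_eq]
  exact IntermediateField.algebra_adjoin_le_adjoin K _ (psi_mem N P)

/-- The value of the bridge on polynomial expressions in the generators. -/
theorem Phi_psi (P : MvPolynomial (Idx N) K) :
    Phi N ι ⟨psi N P, psi_mem_field N P⟩ = algebraMap Hol Mer (phi N ι P) := by
  have h1 : (IntermediateField.inclusion (le_of_eq (modularFunctionFieldBar_eq N))).toRingHom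
      ⟨psi N P, psi_mem_field N P⟩ =
      algebraMap (genAlg N) ↥(IntermediateField.adjoin K (Set.range (genF N)))
        ⟨psi N P, psi_mem N P⟩ := rfl
  rw [Phi, RingHom.comp_apply, h1, PhiGen, IsFractionRing.lift_algebraMap, RingHom.comp_apply,
    theta_psi]

theorem Phi_algebraMap (a : K) :
    Phi N ι (algebraMap K ↥(modularFunctionFieldBar N) a) =
      algebraMap Hol Mer (algebraMap ℂ Hol (ι a)) := by
  have h1 : algebraMap K ↥(modularFunctionFieldBar N) a =
      ⟨psi N (MvPolynomial.C a), psi_mem_field N _⟩ := by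
    apply Subtype.ext
    simp [psi]
  rw [h1, Phi_psi]
  simp [phi]

/-- The formal generator `j(q^d)` as an element of the function field. -/
def Jd (d : ℕ) [NeZero d] (hd : d ∣ N) : ↥(modularFunctionFieldBar N) :=
  ⟨coeffEmb K (qExpand ℚ d jq), coeffEmb_mem_laurentBaseChange K (jqd_mem_full N hd)⟩

/-- The analytic generator `j(dτ)` as a holomorphic function. -/
def jdHol (d : ℕ) [NeZero d] : Hol := Hol.mk (jdFun d) (mdiff_jdFun d)

@[simp] theorem jdHol_apply (d : ℕ) [NeZero d] (τ : ℍ) :
    (jdHol d : ℍ → ℂ) τ = jFun (mulH d τ) := rfl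

theorem jdHol_apply_of_eq (d : ℕ) [NeZero d] (τ w : ℍ) (h : (w : ℂ) = (d : ℂ) * τ) :
    (jdHol d : ℍ → ℂ) τ = jFun w := by
  rw [jdHol_apply]
  congr 1
  exact UpperHalfPlane.ext (by rw [h]; rfl)

theorem Phi_Jd (d : ℕ) [NeZero d] (hd : d ∣ N) :
    Phi N ι (Jd N d hd) = algebraMap Hol Mer (jdHol d) := by
  have h1 : Jd N d hd = ⟨psi N (MvPolynomial.X ⟨d, hd⟩), psi_mem_field N _⟩ := by
    apply Subtype.ext
    simp [psi, Jd, genF]
  rw [h1, Phi_psi]
  congr 1
  simp [phi, genHol, jdHol]

/-- Variant of `Phi_Jd` for an arbitrary element with the right underlying series. -/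
theorem Phi_eq_of_coe_eq (d : ℕ) [NeZero d] (hd : d ∣ N) (x : ↥(modularFunctionFieldBar N))
    (hx : (x : LaurentSeries K) = coeffEmb K (qExpand ℚ d jq)) :
    Phi N ι x = algebraMap Hol Mer (jdHol d) := by
  have : x = Jd N d hd := Subtype.ext hx
  rw [this, Phi_Jd]

theorem mulH_one (τ : ℍ) : mulH 1 τ = τ := UpperHalfPlane.ext (by simp)

/-- The formal `j` as an element of the function field. -/
def J : ↥(modularFunctionFieldBar N) := Jd N 1 (one_dvd N)

omit [NeZero N] in
theorem coe_J : ((J N : ↥(modularFunctionFieldBar N)) : LaurentSeries K) = coeffEmb K jq := by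
  simp [J, Jd, qExpand_one_apply]

/-- The analytic `j` as a holomorphic function. -/
def jHol : Hol := Hol.mk jFun mdiff_jFun

@[simp] theorem jHol_apply (τ : ℍ) : (jHol : ℍ → ℂ) τ = jFun τ := rfl

theorem jdHol_one : jdHol 1 = jHol := by
  apply Hol.ext
  intro τ
  rw [jdHol_apply, mulH_one, jHol_apply]

theorem Phi_J : Phi N ι (J N) = algebraMap Hol Mer jHol := by
  rw [J, Phi_Jd, jdHol_one]

theorem Phi_injective : Function.Injective (Phi N ι) := (Phi N ι).injective

end Embedding

/-- A fixed embedding of `ℚ̄` into `ℂ`. -/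
def iota : AlgebraicClosure ℚ →+* ℂ :=
  letI : Algebra ℚ (AlgebraicClosure ℚ) := AlgebraicClosure.instAlgebra ℚ
  haveI : Algebra.IsAlgebraic ℚ (AlgebraicClosure ℚ) := AlgebraicClosure.isAlgebraic ℚ
  (IsAlgClosed.lift : AlgebraicClosure ℚ →ₐ[ℚ] ℂ).toRingHom

end

end Fermat.Agent.S24.JBridge
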