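import Mathlib
import Fermat.Prelude.Def_ModularCurve_ArithmeticGalois
import Fermat.Agent.S24.JBridge
import Fermat.Agent.S24.BridgeInv

set_option autoImplicit false

/-!
# S24: the bridge `JBridge.Phi N ι` satisfies `BridgeInv.IsBridge`
-/

namespace Fermat.Agent.S24.BridgePhi

open scoped MatrixGroups
open UpperHalfPlane
open Fermat.Agent.S24.BridgeInv

noncomputable section

/-- helper4's generator `BridgeInv.Jd` is the generator `JBridge.Jd`. -/
theorem Jd_eq (N d : ℕ) [NeZero d] (hd : d ∣ N) : BridgeInv.Jd N d hd = JBridge.Jd N d hd :=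
  Subtype.ext rfl

/-- **The formal-to-analytic bridge `Φ = JBridge.Phi N ι` is a bridge in the sense of
`BridgeInv.IsBridge`.** -/
theorem isBridge_Phi (N : ℕ) [NeZero N] (ι : Kbar →+* ℂ) :
    IsBridge N (JBridge.Phi N ι) where
  const a := ⟨ι a, JBridge.Phi_algebraMap N ι a⟩
  gen d hne hd := by
    haveI := hne
    refine ⟨JBridge.jdHol d, ?_, fun z w h => JBridge.jdHol_apply_of_eq d z w h⟩
    rw [Jd_eq]
    exact JBridge.Phi_Jd N ι d hd

/-- the bridge, with `ι` the fixed embedding `JBridge.iota`. -/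
def PhiBar (N : ℕ) [NeZero N] : FF N →+* Mer := JBridge.Phi N JBridge.iota

theorem isBridge_PhiBar (N : ℕ) [NeZero N] : IsBridge N (PhiBar N) :=
  isBridge_Phi N JBridge.iota

theorem PhiBar_injective (N : ℕ) [NeZero N] : Function.Injective (PhiBar N) :=
  (PhiBar N).injective

end

end Fermat.Agent.S24.BridgePhi
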