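import Mathlib
import Fermat.Prelude.Def_AlgebraicCurve_CanonicalDivisor

set_option autoImplicit false

/-!
S24, package A4: the order of a differential `dx` at a place of a function field, in terms of the
ramification of `x`.  Everything is relative to abstract hypotheses (residue field `= K`, a
uniform bound for the derivation on the valuation ring, `Ω[F/K]` spanned by `dt`) which are
supplied by the other packages.
-/

open KaehlerDifferential AlgebraicCurve

namespace Fermat.Agent.S24.FFDeriv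

variable {K F : Type*} [Field K] [Field F] [Algebra K F]

/-! ### basic valuation API for `Place.ord` -/

section basic

variable (v : Place K F)

/-- (D0) the coordinate differential is `dt` for a uniformizer `t` -/
theorem exists_uniformizer_dCoord :
    ∃ t : F, v.ord t = 1 ∧ v.dCoord = KaehlerDifferential.D K F t := by
  have hirr := (IsDiscreteValuationRing.exists_irreducible v.toValuationSubring).choose_spec
  exact ⟨_, v.ord_coe_irreducible hirr, rfl⟩

theorem mem_of_ord_nonneg {y : F} (hy : 0 ≤ v.ord y) : y ∈ v.toValuationSubring := by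
  rcases eq_or_ne y 0 with rfl | hy0
  · exact v.toValuationSubring.zero_mem
  obtain ⟨π, hπ⟩ := IsDiscreteValuationRing.exists_irreducible v.toValuationSubring
  obtain ⟨u, hu⟩ := v.exists_unit_mul_zpow hy0 hπ
  rw [hu]
  refine v.toValuationSubring.mul_mem _ _ (u : v.toValuationSubring).2 ?_
  obtain ⟨n, hn⟩ := Int.eq_ofNat_of_zero_le hy
  rw [hn, zpow_natCast]
  exact v.toValuationSubring.pow_mem π.2 n

theorem ord_nonneg_of_mem {y : F} (hy : y ∈ v.toValuationSubring) : 0 ≤ v.ord y := by
  rcases eq_or_ne y 0 with rfl | hy0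
  · simp
  by_contra hneg
  rw [not_le] at hneg
  obtain ⟨π, hπ⟩ := IsDiscreteValuationRing.exists_irreducible v.toValuationSubring
  -- `y⁻¹` lies in the maximal ideal
  have hinv : 0 ≤ v.ord y⁻¹ := by rw [v.ord_inv]; omega
  have hinv_mem := mem_of_ord_nonneg v hinv
  -- so `y` is a unit of the valuation ring, of order zero
  have hunit : IsUnit (⟨y, hy⟩ : v.toValuationSubring) := by
    refine isUnit_iff_exists_inv.mpr ⟨⟨y⁻¹, hinv_mem⟩, ?_⟩
    ext
    simp [hy0]
  have := v.ord_coe_unit hunit.unit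
  rw [IsUnit.unit_spec] at this
  simp only at this
  omega

theorem mem_iff_ord_nonneg {y : F} : y ∈ v.toValuationSubring ↔ 0 ≤ v.ord y :=
  ⟨ord_nonneg_of_mem v, mem_of_ord_nonneg v⟩

theorem ord_algebraMap (a : K) : v.ord (algebraMap K F a) = 0 := by
  rcases eq_or_ne a 0 with rfl | ha
  · simp
  have h1 : 0 ≤ v.ord (algebraMap K F a) := ord_nonneg_of_mem v (v.algebraMap_mem' a)
  have h2 : 0 ≤ v.ord (algebraMap K F a⁻¹) := ord_nonneg_of_mem v (v.algebraMap_mem' a⁻¹)
  rw [map_inv₀, v.ord_inv] at h2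
  omega

theorem ord_neg (y : F) : v.ord (-y) = v.ord y := by
  rcases eq_or_ne y 0 with rfl | hy
  · simp
  have h : -y = algebraMap K F (-1) * y := by simp
  rw [h, v.ord_mul (by simp) hy, ord_algebraMap]
  simp

theorem ord_pow (y : F) (n : ℕ) : v.ord (y ^ n) = n * v.ord y := by
  have := v.ord_zpow y n
  rwa [zpow_natCast] at this

theorem min_le_ord_add {x y : F} (hxy : x + y ≠ 0) :
    min (v.ord x) (v.ord y) ≤ v.ord (x + y) := by
  rcases eq_or_ne x 0 with rfl | hx
  · simp
  rcases eq_or_ne y 0 with rfl | hy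
  · simp
  -- reduce to membership in the valuation ring after scaling
  obtain ⟨π, hπ⟩ := IsDiscreteValuationRing.exists_irreducible v.toValuationSubring
  have hπ0 : (π : F) ≠ 0 := by
    simpa [ne_eq, ZeroMemClass.coe_eq_zero] using hπ.ne_zero
  set m := min (v.ord x) (v.ord y) with hm
  have hsc : ∀ z : F, z ≠ 0 → m ≤ v.ord z → z * (π : F) ^ (-m) ∈ v.toValuationSubring := by
    intro z hz hmz
    apply mem_of_ord_nonneg
    rw [v.ord_mul hz (zpow_ne_zero _ hπ0), v.ord_zpow, v.ord_coe_irreducible hπ]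
    omega
  have h1 := hsc x hx (min_le_left _ _)
  have h2 := hsc y hy (min_le_right _ _)
  have h3 : (x + y) * (π : F) ^ (-m) ∈ v.toValuationSubring := by
    rw [add_mul]; exact v.toValuationSubring.add_mem _ _ h1 h2
  have h4 := ord_nonneg_of_mem v h3
  rw [v.ord_mul hxy (zpow_ne_zero _ hπ0), v.ord_zpow, v.ord_coe_irreducible hπ] at h4
  omega

end basic

/-! ### `ord ≥ c` with the convention `ord 0 = ∞` -/

section ge

variable {v : Place K F}

/-- `x = 0` or `c ≤ ord x` -/
def GeZ (v : Place K F) (x : F) (c : ℤ) : Prop := x = 0 ∨ c ≤ v.ord x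

lemma geZ_zero (c : ℤ) : GeZ v 0 c := Or.inl rfl

lemma GeZ.mono {x : F} {c c' : ℤ} (h : GeZ v x c) (hc : c' ≤ c) : GeZ v x c' :=
  h.imp id (le_trans hc)

lemma GeZ.le_ord {x : F} {c : ℤ} (h : GeZ v x c) (hx : x ≠ 0) : c ≤ v.ord x :=
  h.resolve_left hx

lemma geZ_of_mem {x : F} (h : x ∈ v.toValuationSubring) : GeZ v x 0 :=
  Or.inr (ord_nonneg_of_mem v h)

lemma GeZ.mem {x : F} (h : GeZ v x 0) : x ∈ v.toValuationSubring := by
  rcases h with rfl | h
  · exact v.toValuationSubring.zero_mem
  · exact mem_of_ord_nonneg v h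

lemma geZ_self (x : F) : GeZ v x (v.ord x) := Or.inr le_rfl

lemma GeZ.add {x y : F} {c : ℤ} (hx : GeZ v x c) (hy : GeZ v y c) : GeZ v (x + y) c := by
  by_cases hx0 : x = 0
  · simpa [hx0] using hy
  by_cases hy0 : y = 0
  · simpa [hy0] using hx
  by_cases hxy : x + y = 0
  · exact Or.inl hxy
  · exact Or.inr (le_trans (le_min (hx.le_ord hx0) (hy.le_ord hy0)) (min_le_ord_add v hxy))

lemma GeZ.neg {x : F} {c : ℤ} (hx : GeZ v x c) : GeZ v (-x) c := by
  rcases hx with h | h
  · exact Or.inl (by simp [h])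
  · exact Or.inr (by rwa [ord_neg])

lemma GeZ.sub {x y : F} {c : ℤ} (hx : GeZ v x c) (hy : GeZ v y c) : GeZ v (x - y) c := by
  rw [sub_eq_add_neg]; exact hx.add hy.neg

lemma GeZ.mul {x y : F} {a b : ℤ} (hx : GeZ v x a) (hy : GeZ v y b) : GeZ v (x * y) (a + b) := by
  by_cases hx0 : x = 0
  · exact Or.inl (by simp [hx0])
  by_cases hy0 : y = 0
  · exact Or.inl (by simp [hy0])
  · right
    rw [v.ord_mul hx0 hy0]
    have := hx.le_ord hx0
    have := hy.le_ord hy0
    omega

lemma GeZ.sum {ι : Type*} (s : Finset ι) (f : ι → F) {c : ℤ} (h : ∀ i ∈ s, GeZ v (f i) c) :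
    GeZ v (∑ i ∈ s, f i) c := by
  classical
  induction s using Finset.induction_on with
  | empty => simpa using geZ_zero c
  | insert a s ha ih =>
    rw [Finset.sum_insert ha]
    exact (h a (Finset.mem_insert_self a s)).add
      (ih fun i hi => h i (Finset.mem_insert_of_mem hi))

/-- the dominant term wins -/
lemma ord_add_of_geZ {x y : F} {c : ℤ} (hx : x ≠ 0) (hy : GeZ v y c) (h : v.ord x < c) :
    x + y ≠ 0 ∧ v.ord (x + y) = v.ord x := by
  by_cases hy0 : y = 0
  · simp [hy0, hx]
  have hlt : v.ord x < v.ord y := lt_of_lt_of_le h (hy.le_ord hy0)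
  have hne : x + y ≠ 0 := by
    intro h0
    have : y = -x := by linear_combination h0
    rw [this, ord_neg] at hlt
    exact lt_irrefl _ hlt
  refine ⟨hne, le_antisymm ?_ ?_⟩
  · by_contra hcon
    rw [not_le] at hcon
    have h1 : min (v.ord (x + y)) (v.ord (-y)) ≤ v.ord (x + y + -y) :=
      min_le_ord_add v (by simpa using hx)
    rw [add_neg_cancel_right, ord_neg] at h1
    rcases min_le_iff.mp h1 with h2 | h2 <;> omega
  · have h1 := min_le_ord_add v hne
    rwa [min_eq_left hlt.le] at h1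

end ge

/-! ### (D1) the derivation `d/dt` preserves the valuation ring -/

section keyLemma

variable (v : Place K F)

/-- **Key lemma.** If the residue field is `K`, `t` is a uniformizer, `δ t = 1` and `δ` is
uniformly bounded below on the valuation ring, then `δ` preserves the valuation ring. -/
theorem deriv_mem {t : F} (ht : v.ord t = 1) (δ : Derivation K F F) (hδt : δ t = 1)
    (hres : ∀ y ∈ v.toValuationSubring, ∃ c : K, y = algebraMap K F c ∨
      0 < v.ord (y - algebraMap K F c))
    (hbd : ∃ C : ℤ, ∀ z ∈ v.toValuationSubring, GeZ v (δ z) (-C)) :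
    ∀ y ∈ v.toValuationSubring, δ y ∈ v.toValuationSubring := by
  have ht0 : t ≠ 0 := by
    rintro rfl
    simp at ht
  have htmem : t ∈ v.toValuationSubring := mem_of_ord_nonneg v (by omega)
  -- one step: `y = c + t * y'`
  have hstep : ∀ y ∈ v.toValuationSubring, ∃ y' ∈ v.toValuationSubring, δ y = y' + t * δ y' := by
    intro y hy
    obtain ⟨c, hc⟩ := hres y hy
    refine ⟨(y - algebraMap K F c) / t, ?_, ?_⟩
    · rcases hc with hc | hc
      · rw [hc, sub_self, zero_div]; exact v.toValuationSubring.zero_mem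
      · have hne : y - algebraMap K F c ≠ 0 := by
          intro h0
          rw [h0] at hc
          simp at hc
        apply mem_of_ord_nonneg
        rw [div_eq_mul_inv, v.ord_mul hne (inv_ne_zero ht0), v.ord_inv, ht]
        omega
    · have hy' : y = algebraMap K F c + t * ((y - algebraMap K F c) / t) := by
        field_simp
        ring
      conv_lhs => rw [hy']
      rw [map_add, Derivation.map_algebraMap, zero_add, Derivation.leibniz, hδt]
      simp only [smul_eq_mul, mul_one]
      ring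
  -- iterate
  have hiter : ∀ n : ℕ, ∀ y ∈ v.toValuationSubring,
      ∃ s ∈ v.toValuationSubring, ∃ z ∈ v.toValuationSubring, δ y = s + t ^ n * δ z := by
    intro n
    induction n with
    | zero =>
      intro y hy
      exact ⟨0, v.toValuationSubring.zero_mem, y, hy, by simp⟩
    | succ n ih =>
      intro y hy
      obtain ⟨s, hs, z, hz, h1⟩ := ih y hy
      obtain ⟨z', hz', h2⟩ := hstep z hz
      refine ⟨s + t ^ n * z', ?_, z', hz', ?_⟩
      · exact v.toValuationSubring.add_mem _ _ hs
          (v.toValuationSubring.mul_mem _ _ (v.toValuationSubring.pow_mem htmem n) hz')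
      · rw [h1, h2]; ring
  obtain ⟨C, hC⟩ := hbd
  intro y hy
  obtain ⟨s, hs, z, hz, h1⟩ := hiter C.toNat y hy
  rw [h1]
  refine v.toValuationSubring.add_mem _ _ hs ?_
  apply GeZ.mem
  have h3 : GeZ v (t ^ C.toNat) (C.toNat : ℤ) := by
    right
    rw [ord_pow, ht, mul_one]
  exact (h3.mul (hC z hz)).mono (by omega)

/-- (D1') the uniform bound, from finite generation of the valuation ring as a localisation of a
finite `K[t]`-module. -/
theorem deriv_bounded {t : F} (ht : 0 ≤ v.ord t) (δ : Derivation K F F)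
    (hδt : δ t ∈ v.toValuationSubring) {r : ℕ} (b : Fin r → F)
    (hb : ∀ i, b i ∈ v.toValuationSubring)
    (hgen : ∀ z ∈ v.toValuationSubring, ∃ p q : Fin r → Polynomial K,
      z * (∑ i, Polynomial.aeval t (q i) * b i) = ∑ i, Polynomial.aeval t (p i) * b i ∧
      v.ord (∑ i, Polynomial.aeval t (q i) * b i) = 0 ∧
      (∑ i, Polynomial.aeval t (q i) * b i) ≠ 0) :
    ∃ C : ℤ, ∀ z ∈ v.toValuationSubring, GeZ v (δ z) (-C) := by
  classical
  have htmem : t ∈ v.toValuationSubring := mem_of_ord_nonneg v ht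
  have hpoly : ∀ p : Polynomial K, Polynomial.aeval t p ∈ v.toValuationSubring := by
    intro p
    rw [Polynomial.aeval_def, Polynomial.eval₂_eq_sum_range]
    refine v.toValuationSubring.toSubring.sum_mem fun i _ => ?_
    exact v.toValuationSubring.mul_mem _ _ (v.algebraMap_mem' _)
      (v.toValuationSubring.pow_mem htmem i)
  -- a common lower bound for the `δ (b i)`
  obtain ⟨C, hC0, hC⟩ : ∃ C : ℤ, 0 ≤ C ∧ ∀ i, GeZ v (δ (b i)) (-C) := by
    refine ⟨∑ i, |v.ord (δ (b i))|, Finset.sum_nonneg fun i _ => abs_nonneg _, fun i => ?_⟩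
    right
    have h1 : |v.ord (δ (b i))| ≤ ∑ j, |v.ord (δ (b j))| :=
      Finset.single_le_sum (f := fun j => |v.ord (δ (b j))|) (fun j _ => abs_nonneg _)
        (Finset.mem_univ i)
    have h2 := neg_abs_le (v.ord (δ (b i)))
    omega
  -- elements of the module have `δ` bounded below by `-C`
  have hmod : ∀ p : Fin r → Polynomial K,
      GeZ v (δ (∑ i, Polynomial.aeval t (p i) * b i)) (-C) := by
    intro p
    rw [map_sum]
    refine GeZ.sum _ _ fun i _ => ?_
    rw [Derivation.leibniz, Derivation.map_aeval]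
    simp only [smul_eq_mul]
    refine GeZ.add ?_ ?_
    · exact ((geZ_of_mem (hpoly (p i))).mul (hC i)).mono (by omega)
    · have h1 : GeZ v (Polynomial.aeval t (Polynomial.derivative (p i)) * δ t) 0 :=
        geZ_of_mem (v.toValuationSubring.mul_mem _ _ (hpoly _) hδt)
      exact ((geZ_of_mem (hb i)).mul h1).mono (by omega)
  refine ⟨C, fun z hz => ?_⟩
  obtain ⟨p, q, h1, h2, h3⟩ := hgen z hz
  set S := ∑ i, Polynomial.aeval t (q i) * b i with hS
  set B := ∑ i, Polynomial.aeval t (p i) * b i with hB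
  -- `δ z * S + z * δ S = δ B`
  have hleib : δ z * S = δ B - z * δ S := by
    have := congrArg δ h1
    rw [Derivation.leibniz] at this
    simp only [smul_eq_mul] at this
    linear_combination this
  have hSinv : GeZ v S⁻¹ 0 := Or.inr (by rw [v.ord_inv, h2]; simp)
  have hz' : δ z = (δ B - z * δ S) * S⁻¹ := by
    rw [← hleib, mul_assoc, mul_inv_cancel₀ h3, mul_one]
  rw [hz']
  have h4 : GeZ v (δ B - z * δ S) (-C) :=
    (hmod p).sub (((geZ_of_mem hz).mul (hmod q)).mono (by omega))
  exact (h4.mul hSinv).mono (by omega)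

end keyLemma

/-! ### (D2) the order of `dx` -/

section ordDx

variable (v : Place K F)

/-- the coefficient of a differential with respect to a generator `dt` -/
noncomputable def coeffOf {t : F} (hspan : ∀ ω : Ω[F⁄K], ∃ f : F, ω = f • D K F t)
    (ω : Ω[F⁄K]) : F := (hspan ω).choose

lemma coeffOf_spec {t : F} (hspan : ∀ ω : Ω[F⁄K], ∃ f : F, ω = f • D K F t) (ω : Ω[F⁄K]) :
    ω = coeffOf hspan ω • D K F t := (hspan ω).choose_spec

lemma coeffOf_unique {t : F} (hspan : ∀ ω : Ω[F⁄K], ∃ f : F, ω = f • D K F t)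
    (hDt : D K F t ≠ 0) {ω : Ω[F⁄K]} {f : F} (h : ω = f • D K F t) : coeffOf hspan ω = f := by
  have h1 : coeffOf hspan ω • D K F t = f • D K F t := (coeffOf_spec hspan ω).symm.trans h
  exact smul_left_injective F hDt h1

/-- the linear form "coefficient of `dt`" -/
noncomputable def coeffLin {t : F} (hspan : ∀ ω : Ω[F⁄K], ∃ f : F, ω = f • D K F t)
    (hDt : D K F t ≠ 0) : Ω[F⁄K] →ₗ[F] F where
  toFun := coeffOf hspan
  map_add' ω₁ ω₂ := by
    apply coeffOf_unique hspan hDt
    rw [add_smul, ← coeffOf_spec, ← coeffOf_spec]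
  map_smul' c ω := by
    apply coeffOf_unique hspan hDt
    rw [RingHom.id_apply, smul_eq_mul, mul_smul, ← coeffOf_spec]

/-- the derivation `d/dt` -/
noncomputable def derivOf {t : F} (hspan : ∀ ω : Ω[F⁄K], ∃ f : F, ω = f • D K F t)
    (hDt : D K F t ≠ 0) : Derivation K F F :=
  (coeffLin hspan hDt).compDer (KaehlerDifferential.D K F)

lemma derivOf_apply {t : F} (hspan : ∀ ω : Ω[F⁄K], ∃ f : F, ω = f • D K F t)
    (hDt : D K F t ≠ 0) (x : F) : derivOf hspan hDt x = coeffOf hspan (D K F x) := rfl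

lemma D_eq_derivOf_smul {t : F} (hspan : ∀ ω : Ω[F⁄K], ∃ f : F, ω = f • D K F t)
    (hDt : D K F t ≠ 0) (x : F) : D K F x = derivOf hspan hDt x • D K F t :=
  coeffOf_spec hspan _

lemma derivOf_self {t : F} (hspan : ∀ ω : Ω[F⁄K], ∃ f : F, ω = f • D K F t)
    (hDt : D K F t ≠ 0) : derivOf hspan hDt t = 1 :=
  coeffOf_unique hspan hDt (one_smul F _).symm

/-- the hypotheses on a place under which the order of `dx` can be computed -/
structure GoodPlace (v : Place K F) : Prop where
  /-- `Ω[F/K]` is one-dimensional, spanned by `dt` for every uniformizer `t` -/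
  span : ∀ t : F, v.ord t = 1 → D K F t ≠ 0 ∧ ∀ ω : Ω[F⁄K], ∃ f : F, ω = f • D K F t
  /-- the residue field is `K` -/
  res : ∀ y ∈ v.toValuationSubring, ∃ c : K, y = algebraMap K F c ∨
      0 < v.ord (y - algebraMap K F c)
  /-- every derivation normalised at a uniformizer is bounded below on the valuation ring -/
  bd : ∀ t : F, v.ord t = 1 → ∀ δ : Derivation K F F, δ t = 1 →
      ∃ C : ℤ, ∀ z ∈ v.toValuationSubring, GeZ v (δ z) (-C)

variable {v}

lemma GoodPlace.dCoordGenerates (h : GoodPlace v) : v.DCoordGenerates := by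
  obtain ⟨t, ht, hdc⟩ := exists_uniformizer_dCoord v
  refine ⟨?_⟩
  rw [eq_top_iff]
  intro ω _
  obtain ⟨f, hf⟩ := (h.span t ht).2 ω
  rw [Submodule.mem_span_singleton]
  exact ⟨f, by rw [hdc, hf]⟩

lemma GoodPlace.nontrivial (h : GoodPlace v) : Nontrivial Ω[F⁄K] := by
  obtain ⟨t, ht, _⟩ := exists_uniformizer_dCoord v
  exact ⟨⟨_, _, (h.span t ht).1⟩⟩

/-- the order of any differential `dx`, through the derivation `d/dt` at the chosen
uniformizer -/
lemma GoodPlace.exists_deriv (h : GoodPlace v) :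
    ∃ (t : F) (δ : Derivation K F F), v.ord t = 1 ∧ δ t = 1 ∧
      (∀ y ∈ v.toValuationSubring, δ y ∈ v.toValuationSubring) ∧
      ∀ x : F, v.ordDifferential (D K F x) = v.ord (δ x) := by
  obtain ⟨t, ht, hdc⟩ := exists_uniformizer_dCoord v
  obtain ⟨hDt, hspan⟩ := h.span t ht
  have := h.dCoordGenerates
  have := h.nontrivial
  refine ⟨t, derivOf hspan hDt, ht, derivOf_self hspan hDt, ?_, fun x => ?_⟩
  · exact deriv_mem v ht _ (derivOf_self hspan hDt) h.res (h.bd t ht _ (derivOf_self hspan hDt))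
  · rw [Place.ordDifferential]
    congr 1
    apply v.differentialCoeff_unique
    rw [hdc]
    exact D_eq_derivOf_smul hspan hDt x

variable [CharZero K]

lemma ord_natCast (v : Place K F) {n : ℕ} (hn : n ≠ 0) : (n : F) ≠ 0 ∧ v.ord (n : F) = 0 := by
  have h1 : (n : F) = algebraMap K F (n : K) := by simp
  refine ⟨?_, by rw [h1, ord_algebraMap]⟩
  rw [h1]
  have : (n : K) ≠ 0 := by exact_mod_cast hn
  exact (map_ne_zero (algebraMap K F)).mpr this

/-- **(A4), zeros.** At a zero of `x - a` of order `e`, the differential `dx` has order `e - 1`. -/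
theorem GoodPlace.ordDifferential_of_zero (h : GoodPlace v) {x : F} {a : K}
    (hx : 0 < v.ord (x - algebraMap K F a)) :
    v.ordDifferential (D K F x) = v.ord (x - algebraMap K F a) - 1 := by
  obtain ⟨t, δ, ht, hδt, hmem, hord⟩ := h.exists_deriv
  rw [hord]
  have ht0 : t ≠ 0 := by
    rintro rfl
    simp at ht
  set w := x - algebraMap K F a with hw
  have hw0 : w ≠ 0 := by
    intro h0
    rw [h0] at hx
    simp at hx
  obtain ⟨n, hn⟩ := Int.eq_ofNat_of_zero_le hx.le
  have hn1 : 1 ≤ n := by omega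
  have hn0 : n ≠ 0 := by omega
  -- `w = u * t ^ n` with `u` a unit
  set u := w / t ^ n with hu
  have htn0 : t ^ n ≠ 0 := pow_ne_zero n ht0
  have hu0 : u ≠ 0 := div_ne_zero hw0 htn0
  have hordu : v.ord u = 0 := by
    rw [hu, div_eq_mul_inv, v.ord_mul hw0 (inv_ne_zero htn0), v.ord_inv, ord_pow, ht, hn]
    ring
  have humem : u ∈ v.toValuationSubring := mem_of_ord_nonneg v (by omega)
  have hδu := geZ_of_mem (hmem u humem)
  have hwu : w = u * t ^ n := by rw [hu]; field_simp
  have hδx : δ x = δ w := by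
    rw [hw, map_sub, Derivation.map_algebraMap, sub_zero]
  have hδw : δ w = u * ((n : F) * t ^ (n - 1)) + t ^ n * δ u := by
    rw [hwu, Derivation.leibniz, Derivation.leibniz_pow, hδt]
    simp only [smul_eq_mul, nsmul_eq_mul, mul_one]
  obtain ⟨hnF0, hnF⟩ := ord_natCast v hn0
  have hmain0 : u * ((n : F) * t ^ (n - 1)) ≠ 0 :=
    mul_ne_zero hu0 (mul_ne_zero hnF0 (pow_ne_zero _ ht0))
  have hmain : v.ord (u * ((n : F) * t ^ (n - 1))) = (n : ℤ) - 1 := by
    rw [v.ord_mul hu0 (mul_ne_zero hnF0 (pow_ne_zero _ ht0)),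
      v.ord_mul hnF0 (pow_ne_zero _ ht0), hordu, hnF, ord_pow, ht]
    push_cast [Nat.cast_sub hn1]
    ring
  have hrest : GeZ v (t ^ n * δ u) (n : ℤ) := by
    have h3 : GeZ v (t ^ n) (n : ℤ) := by
      right
      rw [ord_pow, ht, mul_one]
    exact (h3.mul hδu).mono (by omega)
  have := ord_add_of_geZ hmain0 hrest (by rw [hmain]; omega)
  rw [hδx, hδw, this.2, hmain, hn]

/-- **(A4), poles.** At a pole of `x` of order `e`, the differential `dx` has order `-e - 1`. -/
theorem GoodPlace.ordDifferential_of_pole (h : GoodPlace v) {x : F} (hx : v.ord x < 0) :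
    v.ordDifferential (D K F x) = v.ord x - 1 := by
  obtain ⟨t, δ, ht, hδt, hmem, hord⟩ := h.exists_deriv
  rw [hord]
  have ht0 : t ≠ 0 := by
    rintro rfl
    simp at ht
  have hx0 : x ≠ 0 := by
    rintro rfl
    simp at hx
  obtain ⟨n, hn⟩ := Int.eq_ofNat_of_zero_le (show 0 ≤ -v.ord x by omega)
  have hn1 : 1 ≤ n := by omega
  have hn0 : n ≠ 0 := by omega
  have htn0 : t ^ n ≠ 0 := pow_ne_zero n ht0
  -- `u = x * t ^ n` is a unit
  set u := x * t ^ n with hu
  have hordu : v.ord u = 0 := by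
    rw [hu, v.ord_mul hx0 htn0, ord_pow, ht]
    omega
  have humem : u ∈ v.toValuationSubring := mem_of_ord_nonneg v (by omega)
  have hδu := geZ_of_mem (hmem u humem)
  -- differentiate `u = x * t ^ n`
  have hleib : δ u = x * ((n : F) * t ^ (n - 1)) + t ^ n * δ x := by
    rw [hu, Derivation.leibniz, Derivation.leibniz_pow, hδt]
    simp only [smul_eq_mul, nsmul_eq_mul, mul_one]
  obtain ⟨hnF0, hnF⟩ := ord_natCast v hn0
  have hmain0 : -(x * ((n : F) * t ^ (n - 1))) ≠ 0 :=
    neg_ne_zero.mpr (mul_ne_zero hx0 (mul_ne_zero hnF0 (pow_ne_zero _ ht0)))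
  have hmain : v.ord (-(x * ((n : F) * t ^ (n - 1)))) = -1 := by
    rw [ord_neg, v.ord_mul hx0 (mul_ne_zero hnF0 (pow_ne_zero _ ht0)),
      v.ord_mul hnF0 (pow_ne_zero _ ht0), hnF, ord_pow, ht]
    push_cast [Nat.cast_sub hn1]
    omega
  have hsum := ord_add_of_geZ hmain0 hδu (by rw [hmain]; omega)
  have hprod : t ^ n * δ x = -(x * ((n : F) * t ^ (n - 1))) + δ u := by
    rw [hleib]; ring
  rw [← hprod] at hsum
  have hδx0 : δ x ≠ 0 := right_ne_zero_of_mul hsum.1
  have h5 := hsum.2
  rw [v.ord_mul htn0 hδx0, ord_pow, ht, hmain] at h5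
  omega

omit [CharZero K] in
/-- the order of `f • ω` -/
theorem GoodPlace.ordDifferential_smul (h : GoodPlace v) {f : F} (hf : f ≠ 0) {ω : Ω[F⁄K]}
    (hω : ω ≠ 0) : v.ordDifferential (f • ω) = v.ord f + v.ordDifferential ω := by
  have := h.dCoordGenerates
  have := h.nontrivial
  refine v.ordDifferential_smul hf ?_
  intro h0
  apply hω
  rw [← v.differentialCoeff_smul_dCoord ω, h0, zero_smul]

omit [CharZero K] in
/-- every element of the valuation ring is congruent to a constant -/
theorem GoodPlace.exists_const (h : GoodPlace v) {x : F} (hx : 0 ≤ v.ord x) :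
    ∃ a : K, x = algebraMap K F a ∨ 0 < v.ord (x - algebraMap K F a) :=
  h.res x (mem_of_ord_nonneg v hx)

end ordDx

end Fermat.Agent.S24.FFDeriv
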