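import Mathlib
import Fermat.Agent.S24.FFDeriv

/-!
# S24 (M8): the norm argument — the candidate places exhaust the fibre

Abstract setting.  `F/K` a field extension, `y ∈ F`, `a ∈ K`.  `Φ : F →+* M` an embedding into a
field `M` (meromorphic functions), `g c : M →+* M` (`c` in a finite index type) ring endomorphisms
fixing `Φ y` and `Φ (K)` (composition with coset representatives), one of which is the identity on
`Φ F`,
such that the product of all conjugates of `Φ f` is `Φ` of an element of `K(y)`.  `ord0 : M → ℤ`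
is an order function (`ordAt z0`, or the order at the cusp), multiplicative on a subring `S` of `M`
containing all conjugates `g c (Φ f)` (take `S = ⊤` if `ord0` is defined everywhere), and the
candidate places
`P c` satisfy `ord0 (g c (Φ f)) = m c * (P c).ord f`.

Then every place `v` of `F` with `0 < v.ord (y - a)` which can be separated from all `P c` by an
element integral over `K[y]` ... does not exist: `v = P c` for some `c`.
-/

set_option autoImplicit false
set_option linter.unusedSectionVars false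
set_option linter.unusedVariables false

open AlgebraicCurve Polynomial

namespace Fermat.Agent.S24.Exhaust

open Fermat.Agent.S24.FFDeriv

variable {K F : Type*} [Field K] [Field F] [Algebra K F]

/-! ### places over `y = a` and the subfield `K(y)` -/

section ratfun

variable (v : Place K F) {y : F} {a : K}

lemma ord_sub_ne_zero (hv : 0 < v.ord (y - algebraMap K F a)) : y - algebraMap K F a ≠ 0 := by
  intro h
  rw [h] at hv
  simp at hv

lemma y_mem (hv : 0 < v.ord (y - algebraMap K F a)) : y ∈ v.toValuationSubring := by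
  have h1 : y - algebraMap K F a ∈ v.toValuationSubring := mem_of_ord_nonneg v hv.le
  have h2 : algebraMap K F a ∈ v.toValuationSubring := v.algebraMap_mem' a
  have : y = (y - algebraMap K F a) + algebraMap K F a := by ring
  rw [this]
  exact v.toValuationSubring.add_mem _ _ h1 h2

lemma aeval_mem {y : F} (hy : y ∈ v.toValuationSubring) (p : K[X]) :
    aeval y p ∈ v.toValuationSubring := by
  induction p using Polynomial.induction_on' with
  | add p q hp hq => rw [map_add]; exact v.toValuationSubring.add_mem _ _ hp hq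
  | monomial n c =>
    rw [aeval_monomial]
    exact v.toValuationSubring.mul_mem _ _ (v.algebraMap_mem' c) (v.toValuationSubring.pow_mem hy n)

/-- a polynomial not vanishing at `a` has order `0` at a place over `y = a` -/
lemma ord_aeval_of_eval_ne_zero (hv : 0 < v.ord (y - algebraMap K F a)) {p : K[X]}
    (hp : p.eval a ≠ 0) : aeval y p ≠ 0 ∧ v.ord (aeval y p) = 0 := by
  -- `p = C (p.eval a) + (X - C a) * r`
  obtain ⟨r, hr⟩ := Polynomial.X_sub_C_dvd_sub_C_eval (a := a) (p := p)
  have hdecomp : aeval y p = algebraMap K F (p.eval a) + (y - algebraMap K F a) * aeval y r := by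
    have h1 : p = C (p.eval a) + (X - C a) * r := by rw [← hr]; ring
    conv_lhs => rw [h1]
    simp [aeval_C]
  have hc0 : algebraMap K F (p.eval a) ≠ 0 := by
    rwa [Ne, map_eq_zero]
  have hge : GeZ v ((y - algebraMap K F a) * aeval y r) 1 := by
    have h1 : GeZ v (y - algebraMap K F a) 1 := Or.inr (by omega)
    have h2 : GeZ v (aeval y r) 0 := geZ_of_mem (aeval_mem v (y_mem v hv) r)
    simpa using h1.mul h2
  have := ord_add_of_geZ (v := v) hc0 hge (by rw [ord_algebraMap]; norm_num)
  rw [← hdecomp, ord_algebraMap] at this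
  exact this

/-- the order at a place over `y = a` of a nonzero polynomial in `y` is the root multiplicity
times the order of `y - a` -/
lemma ord_aeval (hv : 0 < v.ord (y - algebraMap K F a)) {p : K[X]} (hp : p ≠ 0) :
    aeval y p ≠ 0 ∧ v.ord (aeval y p) = (p.rootMultiplicity a : ℤ) * v.ord (y - algebraMap K F a) := by
  obtain ⟨q, hq, hndvd⟩ := Polynomial.exists_eq_pow_rootMultiplicity_mul_and_not_dvd p hp a
  have hqa : q.eval a ≠ 0 := by
    intro h
    exact hndvd (Polynomial.dvd_iff_isRoot.mpr h)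
  obtain ⟨hq0, hqord⟩ := ord_aeval_of_eval_ne_zero v hv hqa
  have hya := ord_sub_ne_zero v hv
  have hdecomp : aeval y p = (y - algebraMap K F a) ^ (p.rootMultiplicity a) * aeval y q := by
    conv_lhs => rw [hq]
    simp [aeval_C]
  refine ⟨?_, ?_⟩
  · rw [hdecomp]; exact mul_ne_zero (pow_ne_zero _ hya) hq0
  · rw [hdecomp, v.ord_mul (pow_ne_zero _ hya) hq0, ord_pow, hqord, add_zero]

/-- **`K(y)`-lemma**: on `K(y)` all places over `y = a` are proportional to a fixed integer
multiple of `ord (y - a)` -/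
lemma exists_mult_of_mem_adjoin {n : F} (hn : n ∈ IntermediateField.adjoin K {y}) (hn0 : n ≠ 0)
    (a : K) :
    ∃ k : ℤ, ∀ w : Place K F, 0 < w.ord (y - algebraMap K F a) →
      w.ord n = k * w.ord (y - algebraMap K F a) := by
  rw [IntermediateField.mem_adjoin_simple_iff] at hn
  obtain ⟨p, q, rfl⟩ := hn
  have hp : p ≠ 0 := by
    rintro rfl
    simp at hn0
  have hq : q ≠ 0 := by
    rintro rfl
    simp at hn0
  refine ⟨(p.rootMultiplicity a : ℤ) - (q.rootMultiplicity a : ℤ), fun w hw => ?_⟩
  obtain ⟨hp0, hpo⟩ := ord_aeval w hw hp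
  obtain ⟨hq0, hqo⟩ := ord_aeval w hw hq
  rw [div_eq_mul_inv, w.ord_mul hp0 (inv_ne_zero hq0), w.ord_inv, hpo, hqo]
  ring

/-- positivity on `K(y)` does not depend on the place over `y = a` -/
lemma ord_pos_of_mem_adjoin {n : F} (hn : n ∈ IntermediateField.adjoin K {y})
    {v w : Place K F} (hv : 0 < v.ord (y - algebraMap K F a))
    (hw : 0 < w.ord (y - algebraMap K F a)) (hvn : 0 < v.ord n) : 0 < w.ord n := by
  have hn0 : n ≠ 0 := by
    rintro rfl
    simp at hvn
  obtain ⟨k, hk⟩ := exists_mult_of_mem_adjoin hn hn0 a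
  rw [hk v hv] at hvn
  rw [hk w hw]
  have hkpos : 0 < k := by
    by_contra hk0
    rw [not_lt] at hk0
    have : k * v.ord (y - algebraMap K F a) ≤ 0 := mul_nonpos_of_nonpos_of_nonneg hk0 hv.le
    omega
  positivity

end ratfun

/-! ### integrality -/

section integral

variable (v : Place K F) {y : F}

/-- an element integral over `K[y]` lies in the valuation ring of every place with `0 ≤ ord y` -/
lemma mem_of_isIntegral (hy : y ∈ v.toValuationSubring) {x : F}
    (hx : IsIntegral (Algebra.adjoin K {y}) x) : x ∈ v.toValuationSubring := by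
  -- `Algebra.adjoin K {y} ≤ O_v` as subrings, so `x` is integral over `O_v`
  have hle : ∀ r : Algebra.adjoin K {y}, (r : F) ∈ v.toValuationSubring := by
    intro r
    refine Algebra.adjoin_induction (p := fun x _ => x ∈ v.toValuationSubring) ?_ ?_ ?_ ?_ r.2
    · intro x hx
      rw [Set.mem_singleton_iff] at hx
      rw [hx]; exact hy
    · intro k; exact v.algebraMap_mem' k
    · intro x z _ _ hx hz; exact v.toValuationSubring.add_mem _ _ hx hz
    · intro x z _ _ hx hz; exact v.toValuationSubring.mul_mem _ _ hx hz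
  let φ : Algebra.adjoin K {y} →+* v.toValuationSubring :=
    { toFun := fun r => ⟨(r : F), hle r⟩
      map_one' := rfl
      map_mul' := fun _ _ => rfl
      map_zero' := rfl
      map_add' := fun _ _ => rfl }
  obtain ⟨p, hpm, hp0⟩ := hx
  have hint : IsIntegral v.toValuationSubring x := by
    refine ⟨p.map φ, hpm.map φ, ?_⟩
    rw [eval₂_map]
    have : (algebraMap v.toValuationSubring F).comp φ = algebraMap (Algebra.adjoin K {y}) F := by
      ext r; rfl
    rw [this]; exact hp0
  have hic : IsIntegrallyClosed v.toValuationSubring := inferInstance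
  obtain ⟨z, hz⟩ := (IsIntegrallyClosed.isIntegral_iff (R := v.toValuationSubring) (K := F)).mp hint
  rw [← hz]; exact z.2

end integral

/-! ### the norm argument -/

section norm

variable {M : Type*} [Field M] (Φ : F →+* M) {ι : Type*} [Fintype ι] [DecidableEq ι]
  (g : ι → M →+* M)

/-- conjugates of an element integral over `K[y]` are integral over (the image of) `K[y]` -/
lemma isIntegralElem_conj {y : F} (hfixy : ∀ c, g c (Φ y) = Φ y)
    (hfixK : ∀ c (k : K), g c (Φ (algebraMap K F k)) = Φ (algebraMap K F k))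
    {f : F} (hf : IsIntegral (Algebra.adjoin K {y}) f) (c : ι) :
    (Φ.comp (algebraMap (Algebra.adjoin K {y}) F)).IsIntegralElem (g c (Φ f)) := by
  have hfix : ∀ r : Algebra.adjoin K {y}, g c (Φ (r : F)) = Φ (r : F) := by
    intro r
    refine Algebra.adjoin_induction (p := fun x _ => g c (Φ x) = Φ x) ?_ ?_ ?_ ?_ r.2
    · intro x hx
      rw [Set.mem_singleton_iff] at hx
      rw [hx]; exact hfixy c
    · intro k; exact hfixK c k
    · intro x z _ _ hx hz
      rw [map_add, map_add, hx, hz]
    · intro x z _ _ hx hz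
      rw [map_mul, map_mul, hx, hz]
  obtain ⟨p, hpm, hp0⟩ := hf
  refine ⟨p, hpm, ?_⟩
  have h1 : ((g c).comp Φ).comp (algebraMap (Algebra.adjoin K {y}) F)
      = Φ.comp (algebraMap (Algebra.adjoin K {y}) F) := by
    ext r
    exact hfix r
  have h2 := congrArg ((g c).comp Φ) hp0
  rw [map_zero, Polynomial.hom_eval₂] at h2
  rw [h1] at h2
  exact h2

/-- integrality pulls back along the injective `Φ` -/
lemma isIntegral_of_isIntegralElem {y : F} {x : F}
    (hx : (Φ.comp (algebraMap (Algebra.adjoin K {y}) F)).IsIntegralElem (Φ x)) :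
    IsIntegral (Algebra.adjoin K {y}) x := by
  obtain ⟨p, hpm, hp0⟩ := hx
  refine ⟨p, hpm, ?_⟩
  have : Φ (eval₂ (algebraMap (Algebra.adjoin K {y}) F) x p) = 0 := by
    rw [Polynomial.hom_eval₂]; exact hp0
  exact (map_eq_zero Φ).mp this

/-- **The norm argument.** -/
theorem exists_eq_candidate
    (c0 : ι) (hc0 : ∀ f : F, g c0 (Φ f) = Φ f)
    (y : F) (a : K)
    (hfixy : ∀ c, g c (Φ y) = Φ y)
    (hfixK : ∀ c (k : K), g c (Φ (algebraMap K F k)) = Φ (algebraMap K F k))
    (hinv : ∀ f : F, ∃ n ∈ IntermediateField.adjoin K {y}, Φ n = ∏ c, g c (Φ f))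
    (S : Subring M) (hS : ∀ c (f : F), g c (Φ f) ∈ S)
    (ord0 : M → ℤ)
    (hord0_mul : ∀ x z : M, x ∈ S → z ∈ S → x ≠ 0 → z ≠ 0 → ord0 (x * z) = ord0 x + ord0 z)
    (P : ι → Place K F) (m : ι → ℕ)
    (hP : ∀ c (f : F), f ≠ 0 → ord0 (g c (Φ f)) = m c * (P c).ord f)
    (hya : 0 < ord0 (Φ (y - algebraMap K F a)))
    (v : Place K F) (hv : 0 < v.ord (y - algebraMap K F a))
    (happrox : (∀ c, v ≠ P c) → ∃ f : F, f ≠ 0 ∧ IsIntegral (Algebra.adjoin K {y}) f ∧
      0 < v.ord f ∧ ∀ c, (P c).ord f = 0) :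
    ∃ c, v = P c := by
  classical
  by_contra hne
  rw [not_exists] at hne
  obtain ⟨f, hf0, hfint, hvf, hPf⟩ := happrox hne
  obtain ⟨n, hnmem, hn⟩ := hinv f
  -- all conjugates are nonzero
  have hconj0 : ∀ c, g c (Φ f) ≠ 0 := fun c => by
    rw [Ne, map_eq_zero, map_eq_zero]; exact hf0
  have hn0 : n ≠ 0 := by
    intro h
    rw [h, map_zero] at hn
    exact (Finset.prod_ne_zero_iff.mpr fun c _ => hconj0 c) hn.symm
  -- `ord0 1 = 0`
  have hord0_one : ord0 1 = 0 := by
    have := hord0_mul 1 1 S.one_mem S.one_mem one_ne_zero one_ne_zero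
    rw [mul_one] at this; linarith
  -- `ord0` of a product
  have hord0_prod : ∀ s : Finset ι, ord0 (∏ c ∈ s, g c (Φ f)) = ∑ c ∈ s, ord0 (g c (Φ f)) := by
    intro s
    induction s using Finset.induction_on with
    | empty => simp [hord0_one]
    | insert b s hb ih =>
      rw [Finset.prod_insert hb, Finset.sum_insert hb,
        hord0_mul _ _ (hS b f) (S.prod_mem fun c _ => hS c f) (hconj0 b)
          (Finset.prod_ne_zero_iff.mpr fun c _ => hconj0 c), ih]
  -- step 3: `ord0 (Φ n) = 0`
  have h3 : ord0 (Φ n) = 0 := by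
    rw [hn, hord0_prod]
    apply Finset.sum_eq_zero
    intro c _
    rw [hP c f hf0, hPf c, mul_zero]
  -- step 4: `rest = n / f` is integral over `K[y]`
  have hrest : Φ (n / f) = ∏ c ∈ Finset.univ.erase c0, g c (Φ f) := by
    have hmul : Φ (n / f) * Φ f = Φ n := by rw [← map_mul, div_mul_cancel₀ _ hf0]
    have hsplit : ∏ c, g c (Φ f) = g c0 (Φ f) * ∏ c ∈ Finset.univ.erase c0, g c (Φ f) :=
      (Finset.mul_prod_erase _ _ (Finset.mem_univ c0)).symm
    rw [hn, hsplit, hc0] at hmul
    have hΦf : Φ f ≠ 0 := by rwa [Ne, map_eq_zero]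
    have : Φ (n / f) * Φ f = (∏ c ∈ Finset.univ.erase c0, g c (Φ f)) * Φ f := by
      rw [hmul]; ring
    exact mul_right_cancel₀ hΦf this
  have hrest_int : IsIntegral (Algebra.adjoin K {y}) (n / f) := by
    apply isIntegral_of_isIntegralElem Φ
    rw [hrest]
    have key : ∀ s : Finset ι,
        (Φ.comp (algebraMap (Algebra.adjoin K {y}) F)).IsIntegralElem (∏ c ∈ s, g c (Φ f)) := by
      intro s
      induction s using Finset.induction_on with
      | empty =>
        rw [Finset.prod_empty]
        exact RingHom.isIntegralElem_one _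
      | insert b s hb ih =>
        rw [Finset.prod_insert hb]
        exact RingHom.IsIntegralElem.mul _ (isIntegralElem_conj Φ g hfixy hfixK hfint b) ih
    exact key _
  -- step 5: `0 ≤ v.ord rest`
  have hymem := y_mem v hv
  have hrest_mem : n / f ∈ v.toValuationSubring := mem_of_isIntegral v hymem hrest_int
  have hrest0 : n / f ≠ 0 := div_ne_zero hn0 hf0
  have hrest_ord : 0 ≤ v.ord (n / f) := ord_nonneg_of_mem v hrest_mem
  -- step 6: `0 < v.ord n`
  have hvn : 0 < v.ord n := by
    have : n = (n / f) * f := by rw [div_mul_cancel₀ _ hf0]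
    rw [this, v.ord_mul hrest0 hf0]
    omega
  -- step 7: the candidate `P c0` is over `y = a`
  have hya0 : y - algebraMap K F a ≠ 0 := ord_sub_ne_zero v hv
  have hPc0 : 0 < (P c0).ord (y - algebraMap K F a) := by
    have := hP c0 (y - algebraMap K F a) hya0
    rw [hc0] at this
    rw [this] at hya
    by_contra hle
    rw [not_lt] at hle
    have : (m c0 : ℤ) * (P c0).ord (y - algebraMap K F a) ≤ 0 :=
      mul_nonpos_of_nonneg_of_nonpos (by positivity) hle
    omega
  have hPn : 0 < (P c0).ord n := ord_pos_of_mem_adjoin hnmem hv hPc0 hvn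
  have h7 : 0 < ord0 (Φ n) := by
    have := hP c0 n hn0
    rw [hc0] at this
    rw [this]
    have hm0 : 0 < m c0 := by
      rcases Nat.eq_zero_or_pos (m c0) with h | h
      · exfalso
        have h' := hP c0 (y - algebraMap K F a) hya0
        rw [hc0, h, Nat.cast_zero, zero_mul] at h'
        omega
      · exact h
    positivity
  omega

/-- `K(y⁻¹) = K(y)` -/
lemma adjoin_inv_eq (y : F) :
    IntermediateField.adjoin K {y⁻¹} = IntermediateField.adjoin K {y} := by
  apply le_antisymm
  · rw [IntermediateField.adjoin_simple_le_iff]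
    exact (IntermediateField.adjoin K {y}).inv_mem (IntermediateField.mem_adjoin_simple_self K y)
  · rw [IntermediateField.adjoin_simple_le_iff]
    have := (IntermediateField.adjoin K {y⁻¹}).inv_mem
      (IntermediateField.mem_adjoin_simple_self K y⁻¹)
    rwa [inv_inv] at this

/-- **The norm argument at the poles of `y`** (apply `exists_eq_candidate` to `y⁻¹`, `a = 0`). -/
theorem exists_eq_candidate_pole
    (c0 : ι) (hc0 : ∀ f : F, g c0 (Φ f) = Φ f)
    (y : F)
    (hfixy : ∀ c, g c (Φ y) = Φ y)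
    (hfixK : ∀ c (k : K), g c (Φ (algebraMap K F k)) = Φ (algebraMap K F k))
    (hinv : ∀ f : F, ∃ n ∈ IntermediateField.adjoin K {y}, Φ n = ∏ c, g c (Φ f))
    (S : Subring M) (hS : ∀ c (f : F), g c (Φ f) ∈ S)
    (ord0 : M → ℤ)
    (hord0_mul : ∀ x z : M, x ∈ S → z ∈ S → x ≠ 0 → z ≠ 0 → ord0 (x * z) = ord0 x + ord0 z)
    (P : ι → Place K F) (m : ι → ℕ)
    (hP : ∀ c (f : F), f ≠ 0 → ord0 (g c (Φ f)) = m c * (P c).ord f)
    (hyinf : 0 < ord0 (Φ y⁻¹))
    (v : Place K F) (hv : v.ord y < 0)
    (happrox : (∀ c, v ≠ P c) → ∃ f : F, f ≠ 0 ∧ IsIntegral (Algebra.adjoin K {y⁻¹}) f ∧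
      0 < v.ord f ∧ ∀ c, (P c).ord f = 0) :
    ∃ c, v = P c := by
  have hfixy' : ∀ c, g c (Φ y⁻¹) = Φ y⁻¹ := fun c => by
    rw [map_inv₀, map_inv₀, hfixy c]
  have hinv' : ∀ f : F, ∃ n ∈ IntermediateField.adjoin K {y⁻¹}, Φ n = ∏ c, g c (Φ f) := by
    intro f
    obtain ⟨n, hn, h⟩ := hinv f
    exact ⟨n, by rwa [adjoin_inv_eq], h⟩
  have hsub : y⁻¹ - algebraMap K F 0 = y⁻¹ := by rw [map_zero, sub_zero]
  refine exists_eq_candidate Φ g c0 hc0 y⁻¹ 0 hfixy' hfixK hinv' S hS ord0 hord0_mul P m hP
    (by rw [hsub]; exact hyinf) v (by rw [hsub, v.ord_inv]; omega) happrox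

end norm

end Fermat.Agent.S24.Exhaust
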