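import Mathlib
import Fermat.Prelude.Def_AlgebraicCurve_DivisorClassGroup

/-!
# Places from order functions

An additive, ultrametric, `ℤ`-valued order function `ν` on a field `F` over `K` which is trivial
on `K` and nontrivial on `F` defines a `Place K F` (in the sense of the Prelude) `v`, and
`ν = m * v.ord` where `m > 0` is the positive generator of the value group of `ν`.
-/

set_option autoImplicit false
set_option linter.unusedSectionVars false

namespace Fermat.Agent.S24

open AlgebraicCurve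

noncomputable section

variable {K F : Type*} [Field K] [Field F] [Algebra K F]

/-- An additive ultrametric order function on `F`, trivial on the constants `K`. -/
structure IsOrdFun (K : Type*) {F : Type*} [Field K] [Field F] [Algebra K F] (ν : F → ℤ) :
    Prop where
  mul : ∀ f g : F, f ≠ 0 → g ≠ 0 → ν (f * g) = ν f + ν g
  add : ∀ f g : F, f ≠ 0 → g ≠ 0 → f + g ≠ 0 → min (ν f) (ν g) ≤ ν (f + g)
  const : ∀ a : K, a ≠ 0 → ν (algebraMap K F a) = 0

namespace IsOrdFun

variable {ν : F → ℤ} (h : IsOrdFun K ν)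
include h

theorem one : ν 1 = 0 := by
  have := h.const 1 one_ne_zero
  rwa [map_one] at this

theorem neg_one : ν (-1) = 0 := by
  have := h.const (-1) (neg_ne_zero.mpr one_ne_zero)
  rwa [map_neg, map_one] at this

theorem neg (f : F) (hf : f ≠ 0) : ν (-f) = ν f := by
  have := h.mul (-1) f (neg_ne_zero.mpr one_ne_zero) hf
  rw [neg_one_mul, h.neg_one, zero_add] at this
  exact this

theorem inv (f : F) (hf : f ≠ 0) : ν f⁻¹ = -ν f := by
  have := h.mul f f⁻¹ hf (inv_ne_zero hf)
  rw [mul_inv_cancel₀ hf, h.one] at this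
  omega

theorem pow (f : F) (hf : f ≠ 0) (n : ℕ) : ν (f ^ n) = n * ν f := by
  induction n with
  | zero => simp [h.one]
  | succ n ih =>
    rw [pow_succ, h.mul _ _ (pow_ne_zero n hf) hf, ih]
    push_cast
    ring

theorem zpow (f : F) (hf : f ≠ 0) (n : ℤ) : ν (f ^ n) = n * ν f := by
  obtain ⟨k, rfl | rfl⟩ := n.eq_nat_or_neg
  · rw [zpow_natCast, h.pow f hf]
  · rw [zpow_neg, zpow_natCast, h.inv _ (pow_ne_zero k hf), h.pow f hf]
    ring

/-- the valuation subring `{ν ≥ 0}`. -/
def valuationSubring : ValuationSubring F where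
  carrier := {f | f = 0 ∨ 0 ≤ ν f}
  mul_mem' := by
    rintro f g (rfl | hf) (rfl | hg)
    · left; simp
    · left; simp
    · left; simp
    · by_cases hf0 : f = 0
      · left; simp [hf0]
      by_cases hg0 : g = 0
      · left; simp [hg0]
      right
      rw [h.mul f g hf0 hg0]
      omega
  one_mem' := Or.inr (by rw [h.one])
  add_mem' := by
    rintro f g hf hg
    by_cases hf0 : f = 0
    · simpa [hf0] using hg
    by_cases hg0 : g = 0
    · simpa [hg0] using hf
    by_cases hfg : f + g = 0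
    · left; exact hfg
    right
    have hf' : 0 ≤ ν f := hf.resolve_left hf0
    have hg' : 0 ≤ ν g := hg.resolve_left hg0
    have := h.add f g hf0 hg0 hfg
    exact le_trans (le_min hf' hg') this
  zero_mem' := Or.inl rfl
  neg_mem' := by
    rintro f (rfl | hf)
    · left; simp
    · by_cases hf0 : f = 0
      · left; simp [hf0]
      right
      rw [h.neg f hf0]
      exact hf
  mem_or_inv_mem' := by
    intro f
    by_cases hf0 : f = 0
    · left; left; exact hf0
    by_cases hf : 0 ≤ ν f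
    · left; right; exact hf
    · right; right
      rw [h.inv f hf0]
      omega

theorem mem_valuationSubring (f : F) : f ∈ h.valuationSubring ↔ (f = 0 ∨ 0 ≤ ν f) := Iff.rfl

theorem mem_valuationSubring_of_ne {f : F} (hf : f ≠ 0) : f ∈ h.valuationSubring ↔ 0 ≤ ν f := by
  rw [h.mem_valuationSubring]
  exact ⟨fun h' => h'.resolve_left hf, Or.inr⟩

theorem isUnit_iff (a : h.valuationSubring) : IsUnit a ↔ (a : F) ≠ 0 ∧ ν (a : F) = 0 := by
  constructor
  · intro ha
    obtain ⟨u, rfl⟩ := ha
    have h1 : ((u : h.valuationSubring) : F)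
        * (((u⁻¹ : (h.valuationSubring)ˣ) : h.valuationSubring) : F) = 1 :=
      congrArg Subtype.val u.mul_inv
    have hu0 : ((u : h.valuationSubring) : F) ≠ 0 := by
      intro h0
      rw [h0, zero_mul] at h1
      exact zero_ne_one h1
    refine ⟨hu0, ?_⟩
    have hinv0 : (((u⁻¹ : (h.valuationSubring)ˣ) : h.valuationSubring) : F) ≠ 0 := by
      intro h0
      rw [h0, mul_zero] at h1
      exact zero_ne_one h1
    have h2 := h.mul _ _ hu0 hinv0
    rw [h1, h.one] at h2
    have h3 := (h.mem_valuationSubring_of_ne hu0).mp (u : h.valuationSubring).2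
    have h4 := (h.mem_valuationSubring_of_ne hinv0).mp ((u⁻¹ : (h.valuationSubring)ˣ) :
      h.valuationSubring).2
    omega
  · rintro ⟨ha0, ha⟩
    have hinv : (a : F)⁻¹ ∈ h.valuationSubring := by
      rw [h.mem_valuationSubring_of_ne (inv_ne_zero ha0), h.inv _ ha0, ha]
      simp
    refine ⟨⟨a, ⟨_, hinv⟩, ?_, ?_⟩, rfl⟩
    · apply Subtype.ext
      simp [mul_inv_cancel₀ ha0]
    · apply Subtype.ext
      simp [inv_mul_cancel₀ ha0]

section nontrivial

variable (hnt : ∃ f : F, f ≠ 0 ∧ ν f ≠ 0)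
include hnt

theorem exists_pos : ∃ k : ℕ, 0 < k ∧ ∃ f : F, f ≠ 0 ∧ ν f = k := by
  obtain ⟨f, hf0, hf⟩ := hnt
  rcases lt_or_gt_of_ne hf with hneg | hpos
  · refine ⟨(-ν f).toNat, by omega, f⁻¹, inv_ne_zero hf0, ?_⟩
    rw [h.inv f hf0]
    omega
  · exact ⟨(ν f).toNat, by omega, f, hf0, by omega⟩

open Classical in
/-- the positive generator of the value group. -/
def gen : ℕ := Nat.find (h.exists_pos hnt)

theorem gen_pos : 0 < h.gen hnt := by
  classical
  exact (Nat.find_spec (h.exists_pos hnt)).1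

theorem exists_gen : ∃ f : F, f ≠ 0 ∧ ν f = h.gen hnt := by
  classical
  exact (Nat.find_spec (h.exists_pos hnt)).2

theorem gen_le {f : F} (hf0 : f ≠ 0) (hf : 0 < ν f) : (h.gen hnt : ℤ) ≤ ν f := by
  classical
  have : h.gen hnt ≤ (ν f).toNat :=
    Nat.find_min' (h.exists_pos hnt) ⟨by omega, f, hf0, by omega⟩
  omega

/-- a uniformizer. -/
def unif : F := (h.exists_gen hnt).choose

theorem unif_ne_zero : h.unif hnt ≠ 0 := (h.exists_gen hnt).choose_spec.1

theorem nu_unif : ν (h.unif hnt) = h.gen hnt := (h.exists_gen hnt).choose_spec.2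

theorem gen_dvd {f : F} (hf0 : f ≠ 0) : (h.gen hnt : ℤ) ∣ ν f := by
  have hm : (0 : ℤ) < h.gen hnt := by exact_mod_cast h.gen_pos hnt
  set q := ν f / (h.gen hnt : ℤ) with hq
  set r := ν f % (h.gen hnt : ℤ) with hr
  have hdiv : (h.gen hnt : ℤ) * q + r = ν f := Int.mul_ediv_add_emod _ _
  have hr0 : 0 ≤ r := Int.emod_nonneg _ hm.ne'
  have hrlt : r < h.gen hnt := Int.emod_lt_of_pos _ hm
  have hg0 : f * (h.unif hnt) ^ (-q) ≠ 0 := mul_ne_zero hf0 (zpow_ne_zero _ (h.unif_ne_zero hnt))
  have hν : ν (f * (h.unif hnt) ^ (-q)) = r := by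
    rw [h.mul _ _ hf0 (zpow_ne_zero _ (h.unif_ne_zero hnt)), h.zpow _ (h.unif_ne_zero hnt),
      h.nu_unif hnt]
    linarith
  rcases hr0.lt_or_eq with hpos | hzero
  · have := h.gen_le hnt hg0 (by rw [hν]; exact hpos)
    rw [hν] at this
    omega
  · exact Int.dvd_of_emod_eq_zero hzero.symm

theorem unif_mem : h.unif hnt ∈ h.valuationSubring := by
  rw [h.mem_valuationSubring_of_ne (h.unif_ne_zero hnt), h.nu_unif hnt]
  positivity

/-- the uniformizer as an element of the valuation subring. -/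
def unif' : h.valuationSubring := ⟨h.unif hnt, h.unif_mem hnt⟩

theorem unif'_ne_zero : h.unif' hnt ≠ 0 := by
  intro h0
  exact h.unif_ne_zero hnt (congrArg Subtype.val h0)

theorem irreducible_unif' : Irreducible (h.unif' hnt) := by
  have hm : (0 : ℤ) < h.gen hnt := by exact_mod_cast h.gen_pos hnt
  constructor
  · rw [h.isUnit_iff]
    rintro ⟨-, h0⟩
    have : ν (h.unif hnt) = 0 := h0
    rw [h.nu_unif hnt] at this
    omega
  · intro a b hab
    have hab' : h.unif hnt = (a : F) * (b : F) := congrArg Subtype.val hab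
    have ha0 : (a : F) ≠ 0 := by
      intro h0
      rw [h0, zero_mul] at hab'
      exact h.unif_ne_zero hnt hab'
    have hb0 : (b : F) ≠ 0 := by
      intro h0
      rw [h0, mul_zero] at hab'
      exact h.unif_ne_zero hnt hab'
    have hsum : ν (a : F) + ν (b : F) = h.gen hnt := by
      rw [← h.mul _ _ ha0 hb0, ← hab', h.nu_unif hnt]
    have ha : 0 ≤ ν (a : F) := (h.mem_valuationSubring_of_ne ha0).mp a.2
    have hb : 0 ≤ ν (b : F) := (h.mem_valuationSubring_of_ne hb0).mp b.2
    rcases ha.lt_or_eq with hpos | hzero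
    · right
      have := h.gen_le hnt ha0 hpos
      rw [h.isUnit_iff]
      exact ⟨hb0, by omega⟩
    · left
      rw [h.isUnit_iff]
      exact ⟨ha0, hzero.symm⟩

theorem hasFactorization : IsDiscreteValuationRing.HasUnitMulPowIrreducibleFactorization
    h.valuationSubring := by
  refine ⟨h.unif' hnt, h.irreducible_unif' hnt, ?_⟩
  intro x hx
  have hx0 : (x : F) ≠ 0 := fun h0 => hx (Subtype.ext h0)
  have hxν : 0 ≤ ν (x : F) := (h.mem_valuationSubring_of_ne hx0).mp x.2
  obtain ⟨q, hq⟩ := h.gen_dvd hnt hx0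
  have hm : (0 : ℤ) < h.gen hnt := by exact_mod_cast h.gen_pos hnt
  have hq0 : 0 ≤ q := by
    by_contra hneg
    rw [not_le] at hneg
    have : (h.gen hnt : ℤ) * q < 0 := mul_neg_of_pos_of_neg hm hneg
    omega
  obtain ⟨n, rfl⟩ := Int.eq_ofNat_of_zero_le hq0
  refine ⟨n, ?_⟩
  -- the unit `x / π ^ n`
  have hπ0 := h.unif_ne_zero hnt
  have hu0 : (x : F) * (h.unif hnt ^ n)⁻¹ ≠ 0 := mul_ne_zero hx0 (inv_ne_zero (pow_ne_zero n hπ0))
  have huν : ν ((x : F) * (h.unif hnt ^ n)⁻¹) = 0 := by
    rw [h.mul _ _ hx0 (inv_ne_zero (pow_ne_zero n hπ0)), h.inv _ (pow_ne_zero n hπ0),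
      h.pow _ hπ0, h.nu_unif hnt, hq]
    ring
  have humem : (x : F) * (h.unif hnt ^ n)⁻¹ ∈ h.valuationSubring := by
    rw [h.mem_valuationSubring_of_ne hu0, huν]
  have hunit : IsUnit (⟨_, humem⟩ : h.valuationSubring) := by
    rw [h.isUnit_iff]
    exact ⟨hu0, huν⟩
  obtain ⟨u, hu⟩ := hunit
  refine ⟨u, ?_⟩
  apply Subtype.ext
  have hu' : ((u : h.valuationSubring) : F) = (x : F) * (h.unif hnt ^ n)⁻¹ :=
    congrArg Subtype.val hu
  show ((h.unif' hnt ^ n : h.valuationSubring) : F) * ((u : h.valuationSubring) : F) = (x : F)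
  rw [hu']
  show (h.unif hnt) ^ n * ((x : F) * (h.unif hnt ^ n)⁻¹) = x
  field_simp

theorem valuationSubring_ne_top : h.valuationSubring ≠ ⊤ := by
  intro htop
  have hm : (0 : ℤ) < h.gen hnt := by exact_mod_cast h.gen_pos hnt
  have hmem : (h.unif hnt)⁻¹ ∈ h.valuationSubring := by
    rw [htop]
    exact ValuationSubring.mem_top _
  rw [h.mem_valuationSubring_of_ne (inv_ne_zero (h.unif_ne_zero hnt)), h.inv _ (h.unif_ne_zero hnt),
    h.nu_unif hnt] at hmem
  omega

/-- the place defined by `ν`. -/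
def place : Place K F where
  toValuationSubring := h.valuationSubring
  algebraMap_mem' a := by
    by_cases ha : a = 0
    · left
      rw [ha, map_zero]
    · right
      rw [h.const a ha]
  ne_top' := h.valuationSubring_ne_top hnt
  isPrincipalIdealRing' := by
    have := IsDiscreteValuationRing.ofHasUnitMulPowIrreducibleFactorization
      (h.hasFactorization hnt)
    infer_instance

theorem place_toValuationSubring : (h.place hnt).toValuationSubring = h.valuationSubring := rfl

/-- `ν = m * ord`. -/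
theorem eq_gen_mul_ord {f : F} (hf : f ≠ 0) : ν f = h.gen hnt * (h.place hnt).ord f := by
  have hπ : Irreducible (h.unif' hnt : (h.place hnt).toValuationSubring) := h.irreducible_unif' hnt
  obtain ⟨u, hu⟩ := (h.place hnt).exists_unit_mul_zpow hf hπ
  have hu0 : ((u : (h.place hnt).toValuationSubring) : F) ≠ 0 := by
    have := (h.isUnit_iff ((u : (h.place hnt).toValuationSubring) : h.valuationSubring)).mp
      u.isUnit
    exact this.1
  have huν : ν ((u : (h.place hnt).toValuationSubring) : F) = 0 := by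
    have := (h.isUnit_iff ((u : (h.place hnt).toValuationSubring) : h.valuationSubring)).mp
      u.isUnit
    exact this.2
  have hπ0 := h.unif_ne_zero hnt
  conv_lhs => rw [hu]
  rw [h.mul _ _ hu0 (zpow_ne_zero _ (by exact hπ0)), huν, zero_add]
  have : ((h.unif' hnt : (h.place hnt).toValuationSubring) : F) = h.unif hnt := rfl
  rw [this, h.zpow _ hπ0, h.nu_unif hnt]
  ring

theorem gen_eq_one (h1 : ∃ f : F, f ≠ 0 ∧ ν f = 1) : h.gen hnt = 1 := by
  obtain ⟨f, hf0, hf⟩ := h1
  have := h.gen_le hnt hf0 (by omega)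
  have := h.gen_pos hnt
  omega

theorem ord_place_of_gen_eq_one (h1 : h.gen hnt = 1) {f : F} (hf : f ≠ 0) :
    (h.place hnt).ord f = ν f := by
  rw [h.eq_gen_mul_ord hnt hf, h1]
  simp

end nontrivial

end IsOrdFun

/-- **Places from order functions.** -/
theorem exists_place_of_isOrdFun {ν : F → ℤ} (h : IsOrdFun K ν) (hnt : ∃ f : F, f ≠ 0 ∧ ν f ≠ 0) :
    ∃ (v : Place K F) (m : ℕ), 0 < m ∧ (∀ f : F, f ≠ 0 → ν f = m * v.ord f) ∧
      ∀ f : F, f ∈ v.toValuationSubring ↔ (f = 0 ∨ 0 ≤ ν f) :=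
  ⟨h.place hnt, h.gen hnt, h.gen_pos hnt, fun _ hf => h.eq_gen_mul_ord hnt hf,
    fun f => h.mem_valuationSubring f⟩

end

end Fermat.Agent.S24
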