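import Mathlib
import Fermat.Prelude.Def_AlgebraicCurve_DivisorClassGroup
import Fermat.Agent.S24.PlaceOfOrd
import Fermat.Agent.S24.FFDeriv

set_option autoImplicit false
set_option linter.unusedSectionVars false
set_option linter.style.haveILetI false

namespace Fermat.Agent.S24.FFP18

open AlgebraicCurve IsDedekindDomain WithZero Fermat.Agent.S24

noncomputable section

section bridge

variable {K B F : Type*} [Field K] [Field F] [CommRing B] [IsDedekindDomain B]
  [Algebra K F] [Algebra B F] [IsFractionRing B F] [Algebra K B] [IsScalarTower K B F]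

/-- the `P`-adic exponent. -/
def ordP (P : HeightOneSpectrum B) (f : F) : ℤ := -(WithZero.log (P.valuation F f))

theorem ordP_mul (P : HeightOneSpectrum B) {f g : F} (hf : f ≠ 0) (hg : g ≠ 0) :
    ordP P (f * g) = ordP P f + ordP P g := by
  have h1 : P.valuation F f ≠ 0 := (Valuation.ne_zero_iff _).mpr hf
  have h2 : P.valuation F g ≠ 0 := (Valuation.ne_zero_iff _).mpr hg
  simp only [ordP, map_mul]
  rw [WithZero.log_mul h1 h2]
  ring

theorem ordP_nonneg_iff (P : HeightOneSpectrum B) {f : F} (hf : f ≠ 0) :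
    0 ≤ ordP P f ↔ P.valuation F f ≤ 1 := by
  have h1 : P.valuation F f ≠ 0 := (Valuation.ne_zero_iff _).mpr hf
  rw [ordP, neg_nonneg, WithZero.log_le_iff_le_exp h1, WithZero.exp_zero]

theorem ordP_pos_iff (P : HeightOneSpectrum B) {f : F} (hf : f ≠ 0) :
    0 < ordP P f ↔ P.valuation F f < 1 := by
  have h1 : P.valuation F f ≠ 0 := (Valuation.ne_zero_iff _).mpr hf
  rw [ordP, neg_pos, WithZero.log_lt_iff_lt_exp h1, WithZero.exp_zero]

theorem ordP_add (P : HeightOneSpectrum B) {f g : F} (hf : f ≠ 0) (hg : g ≠ 0)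
    (hfg : f + g ≠ 0) : min (ordP P f) (ordP P g) ≤ ordP P (f + g) := by
  have h1 : P.valuation F f ≠ 0 := (Valuation.ne_zero_iff _).mpr hf
  have h2 : P.valuation F g ≠ 0 := (Valuation.ne_zero_iff _).mpr hg
  have h3 : P.valuation F (f + g) ≠ 0 := (Valuation.ne_zero_iff _).mpr hfg
  have h := (P.valuation F).map_add f g
  simp only [ordP]
  rcases le_max_iff.mp h with h' | h'
  · have := (WithZero.log_le_log h3 h1).mpr h'
    exact le_trans (min_le_left _ _) (by omega)
  · have := (WithZero.log_le_log h3 h2).mpr h'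
    exact le_trans (min_le_right _ _) (by omega)

theorem ordP_algebraMap_nonneg (P : HeightOneSpectrum B) {b : B} (hb : algebraMap B F b ≠ 0) :
    0 ≤ ordP P (algebraMap B F b) :=
  (ordP_nonneg_iff P hb).mpr (P.valuation_le_one b)

theorem ordP_const (P : HeightOneSpectrum B) (a : K) (ha : a ≠ 0) :
    ordP P (algebraMap K F a) = 0 := by
  have e1 : algebraMap K F a = algebraMap B F (algebraMap K B a) :=
    IsScalarTower.algebraMap_apply K B F a
  have e2 : algebraMap K F a⁻¹ = algebraMap B F (algebraMap K B a⁻¹) :=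
    IsScalarTower.algebraMap_apply K B F a⁻¹
  have hne : algebraMap K F a ≠ 0 := (map_ne_zero _).mpr ha
  have hne' : algebraMap K F a⁻¹ ≠ 0 := (map_ne_zero _).mpr (inv_ne_zero ha)
  have h1 : 0 ≤ ordP P (algebraMap K F a) := by
    rw [e1]; exact ordP_algebraMap_nonneg P (by rwa [← e1])
  have h2 : 0 ≤ ordP P (algebraMap K F a⁻¹) := by
    rw [e2]; exact ordP_algebraMap_nonneg P (by rwa [← e2])
  have h3 := ordP_mul P hne hne'
  rw [← map_mul, mul_inv_cancel₀ ha, map_one] at h3
  have h4 : ordP P (1 : F) = 0 := by simp [ordP]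
  rw [h4] at h3
  omega

theorem isOrdFun_ordP (P : HeightOneSpectrum B) : IsOrdFun K (ordP (F := F) P) where
  mul f g hf hg := ordP_mul P hf hg
  add f g hf hg hfg := ordP_add P hf hg hfg
  const a ha := ordP_const P a ha

theorem exists_ordP_eq_one (P : HeightOneSpectrum B) : ∃ f : F, f ≠ 0 ∧ ordP P f = 1 := by
  obtain ⟨π, hπ⟩ := P.valuation_exists_uniformizer F
  refine ⟨π, ?_, ?_⟩
  · intro h
    rw [h, map_zero] at hπ
    exact WithZero.exp_ne_zero.symm hπ
  · rw [ordP, hπ, WithZero.log_exp]; norm_num

theorem ordP_nontrivial (P : HeightOneSpectrum B) : ∃ f : F, f ≠ 0 ∧ ordP P f ≠ 0 := by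
  obtain ⟨f, hf, h1⟩ := exists_ordP_eq_one (F := F) P
  exact ⟨f, hf, by rw [h1]; norm_num⟩

/-- the place of `F` attached to a height one prime of `B`. -/
def placeP (P : HeightOneSpectrum B) : Place K F :=
  (isOrdFun_ordP (K := K) (F := F) P).place (ordP_nontrivial P)

theorem ord_placeP (P : HeightOneSpectrum B) (f : F) :
    (placeP (K := K) P).ord f = ordP P f := by
  rcases eq_or_ne f 0 with rfl | hf
  · simp [ordP]
  · have h1 := (isOrdFun_ordP (K := K) (F := F) P).gen_eq_one (ordP_nontrivial P)
      (exists_ordP_eq_one P)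
    exact ((isOrdFun_ordP (K := K) (F := F) P).ord_place_of_gen_eq_one (ordP_nontrivial P)
      h1 hf)

theorem mem_placeP_iff (P : HeightOneSpectrum B) (f : F) :
    f ∈ (placeP (K := K) P).toValuationSubring ↔ P.valuation F f ≤ 1 := by
  show f ∈ (isOrdFun_ordP (K := K) (F := F) P).valuationSubring ↔ _
  rw [IsOrdFun.mem_valuationSubring]
  rcases eq_or_ne f 0 with rfl | hf
  · simp
  · rw [ordP_nonneg_iff P hf]
    simp [hf]

theorem algebraMap_mem_placeP (P : HeightOneSpectrum B) (b : B) :
    algebraMap B F b ∈ (placeP (K := K) P).toValuationSubring :=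
  (mem_placeP_iff P _).mpr (P.valuation_le_one b)

section center

variable (v : Place K F) (hB : ∀ b : B, algebraMap B F b ∈ v.toValuationSubring)

/-- the ring map `B → O_v`. -/
def toOv : B →+* v.toValuationSubring :=
  (algebraMap B F).codRestrict v.toValuationSubring.toSubring hB

theorem coe_toOv (b : B) : ((toOv v hB b : v.toValuationSubring) : F) = algebraMap B F b := rfl

/-- the center of `v` on `B`. -/
def centerIdeal : Ideal B :=
  (IsLocalRing.maximalIdeal v.toValuationSubring).comap (toOv v hB)

instance centerIdeal_isPrime : (centerIdeal v hB).IsPrime :=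
  Ideal.comap_isPrime _ _

theorem inv_mem_of_notMem_center {b : B} (hb : b ∉ centerIdeal v hB) :
    (algebraMap B F b)⁻¹ ∈ v.toValuationSubring := by
  have h1 : toOv v hB b ∉ IsLocalRing.maximalIdeal v.toValuationSubring := hb
  rw [IsLocalRing.mem_maximalIdeal, mem_nonunits_iff, not_not] at h1
  obtain ⟨u, hu⟩ := h1
  have h2 : ((u⁻¹ : v.toValuationSubringˣ) : v.toValuationSubring) * toOv v hB b = 1 := by
    rw [← hu]; exact u.inv_mul
  have h3 : (((u⁻¹ : v.toValuationSubringˣ) : v.toValuationSubring) : F) * algebraMap B F b = 1 := by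
    have := congrArg (Subtype.val) h2
    simpa [coe_toOv] using this
  have h4 : (algebraMap B F b)⁻¹ = (((u⁻¹ : v.toValuationSubringˣ) : v.toValuationSubring) : F) :=
    (eq_inv_of_mul_eq_one_left h3).symm
  rw [h4]
  exact Subtype.property _

theorem centerIdeal_ne_bot : centerIdeal v hB ≠ ⊥ := by
  intro hbot
  apply v.ne_top'
  refine SetLike.ext fun f => ⟨fun _ => ValuationSubring.mem_top f, fun _ => ?_⟩
  obtain ⟨a, b, hb, rfl⟩ := IsFractionRing.div_surjective (A := B) f
  have hb0 : b ≠ 0 := nonZeroDivisors.ne_zero hb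
  have hbn : b ∉ centerIdeal v hB := by
    rw [hbot, Ideal.mem_bot]; exact hb0
  rw [div_eq_mul_inv]
  exact v.toValuationSubring.mul_mem _ _ (hB a) (inv_mem_of_notMem_center v hB hbn)

/-- the center of `v` as a height one prime. -/
def center : HeightOneSpectrum B :=
  ⟨centerIdeal v hB, inferInstance, centerIdeal_ne_bot v hB⟩

theorem placeP_center : placeP (K := K) (center v hB) = v := by
  apply Place.ext
  have hle : (placeP (K := K) (center v hB)).toValuationSubring ≤ v.toValuationSubring := by
    intro f hf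
    rw [mem_placeP_iff] at hf
    obtain ⟨n, d, hnd⟩ := (center v hB).exists_primeCompl_mul_eq_of_integer f hf
    have hd : (d : B) ∉ centerIdeal v hB := d.2
    have hd0 : algebraMap B F d ≠ 0 := by
      intro h0
      apply hd
      have : (d : B) = 0 := (IsFractionRing.injective B F) (by rw [h0, map_zero])
      rw [this]; exact Ideal.zero_mem _
    have e : f = algebraMap B F n * (algebraMap B F d)⁻¹ := by
      rw [← hnd, mul_assoc, mul_inv_cancel₀ hd0, mul_one]
    rw [e]
    exact v.toValuationSubring.mul_mem _ _ (hB n) (inv_mem_of_notMem_center v hB hd)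
  exact ValuationSubring.eq_of_le_of_ne_top _ hle v.ne_top'

end center

theorem center_placeP (P : HeightOneSpectrum B) :
    center (placeP (K := K) (F := F) P) (algebraMap_mem_placeP (K := K) P) = P := by
  apply HeightOneSpectrum.ext
  ext b
  show toOv _ _ b ∈ IsLocalRing.maximalIdeal _ ↔ b ∈ P.asIdeal
  rw [IsLocalRing.mem_maximalIdeal, mem_nonunits_iff]
  rw [← P.valuation_lt_one_iff_mem (K := F)]
  constructor
  · intro hnu
    by_contra hlt
    apply hnu
    have h1 : P.valuation F (algebraMap B F b) = 1 :=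
      le_antisymm (P.valuation_le_one b) (not_lt.mp hlt)
    have hb0 : algebraMap B F b ≠ 0 := by
      intro h0; rw [h0, map_zero] at h1; exact zero_ne_one h1
    have hinv : (algebraMap B F b)⁻¹ ∈ (placeP (K := K) P).toValuationSubring := by
      rw [mem_placeP_iff, map_inv₀, h1, inv_one]
    refine ⟨⟨toOv _ (algebraMap_mem_placeP (K := K) P) b, ⟨_, hinv⟩, ?_, ?_⟩, rfl⟩
    · apply Subtype.ext
      show algebraMap B F b * (algebraMap B F b)⁻¹ = 1
      exact mul_inv_cancel₀ hb0
    · apply Subtype.ext
      show (algebraMap B F b)⁻¹ * algebraMap B F b = 1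
      exact inv_mul_cancel₀ hb0
  · intro hlt hu
    obtain ⟨w, hw⟩ := hu.exists_right_inv
    have h3 := congrArg (fun x : (placeP (K := K) (F := F) P).toValuationSubring =>
      P.valuation F (x : F)) hw
    simp only [MulMemClass.coe_mul, map_mul, OneMemClass.coe_one, map_one, coe_toOv] at h3
    have h4 : P.valuation F (w : F) ≤ 1 := (mem_placeP_iff (K := K) P _).mp w.2
    have : (1 : ℤᵐ⁰) < 1 := by
      calc (1 : ℤᵐ⁰) = _ := h3.symm
        _ ≤ P.valuation F (algebraMap B F b) * 1 := mul_le_mul_right h4 _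
        _ = P.valuation F (algebraMap B F b) := mul_one _
        _ < 1 := hlt
    exact lt_irrefl _ this

theorem placeP_injective : Function.Injective (placeP (K := K) (B := B) (F := F)) := by
  intro P Q h
  have key : ∀ (v : Place K F) (_ : v = placeP (K := K) Q)
      (hB : ∀ b : B, algebraMap B F b ∈ v.toValuationSubring), center v hB = Q := by
    rintro v rfl hB
    exact center_placeP (K := K) (F := F) Q
  rw [← center_placeP (K := K) (F := F) P]
  exact key _ h _

end bridge

section concrete

open scoped IntermediateField.algebraAdjoinAdjoin IntermediateField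
open Polynomial

variable (K : Type*) {F : Type*} [Field K] [Field F] [Algebra K F] (y : F)

/-- the polynomial ring `K[y]` inside `F`. -/
abbrev Ay : Subalgebra K F := Algebra.adjoin K {y}

/-- the integral closure of `K[y]` in `F`. -/
abbrev By : Subalgebra (Ay K y) F := integralClosure (Ay K y) F

def aevalEquiv (hy : Transcendental K y) : K[X] ≃ₐ[K] Ay K y :=
  (AlgEquiv.ofInjective (Polynomial.aeval (R := K) y) (transcendental_iff_injective.mp hy)).trans
    (Subalgebra.equivOfEq _ _ (Algebra.adjoin_singleton_eq_range_aeval K y).symm)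

theorem aevalEquiv_X (hy : Transcendental K y) :
    ((aevalEquiv K y hy Polynomial.X : Ay K y) : F) = y := by
  simp [aevalEquiv]

instance instPID [hy : Fact (Transcendental K y)] : IsPrincipalIdealRing (Ay K y) :=
  IsPrincipalIdealRing.of_surjective (aevalEquiv K y hy.out).toRingEquiv.toRingHom
    (aevalEquiv K y hy.out).surjective

instance instTowerB : IsScalarTower K (By K y) F := by
  refine IsScalarTower.of_algebraMap_eq (fun a => ?_)
  show algebraMap K F a = ((algebraMap K (By K y) a : By K y) : F)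
  rfl

variable [CharZero K] [FiniteDimensional K⟮y⟯ F]

instance instSep : Algebra.IsSeparable K⟮y⟯ F := by
  haveI : CharZero K⟮y⟯ := charZero_of_injective_algebraMap (algebraMap K K⟮y⟯).injective
  infer_instance

variable [hy : Fact (Transcendental K y)]

instance instDedB : IsDedekindDomain (By K y) :=
  IsIntegralClosure.isDedekindDomain (Ay K y) K⟮y⟯ F (By K y)

instance instFracB : IsFractionRing (By K y) F :=
  IsIntegralClosure.isFractionRing_of_finite_extension (Ay K y) K⟮y⟯ F (By K y)

instance instFinB : Module.Finite (Ay K y) (By K y) :=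
  IsIntegralClosure.finite (Ay K y) K⟮y⟯ F (By K y)

/-- `y` as an element of `B`. -/
def yB : By K y := ⟨y, Subalgebra.algebraMap_mem _ (⟨y, Algebra.self_mem_adjoin_singleton K y⟩ : Ay K y)⟩

theorem coe_yB : ((yB K y : By K y) : F) = y := rfl

/-- a valuation subring containing a subring `R` contains every element integral over `R`. -/
theorem mem_of_isIntegral_of_le {R : Type*} [CommRing R] [Algebra R F] (O : ValuationSubring F)
    (hR : ∀ r : R, algebraMap R F r ∈ O) {x : F} (hx : IsIntegral R x) : x ∈ O := by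
  let φ : R →+* O := (algebraMap R F).codRestrict O.toSubring hR
  have hcomp : (algebraMap O F).comp φ = algebraMap R F := by
    ext r; rfl
  have h1 : ((algebraMap O F).comp φ).IsIntegralElem x := by rw [hcomp]; exact hx
  have h2 : IsIntegral O x := RingHom.IsIntegralElem.of_comp h1
  obtain ⟨a, ha⟩ := IsIntegrallyClosed.isIntegral_iff.mp h2
  rw [← ha]
  exact a.2

theorem Ay_le_of_ord_nonneg (v : Place K F) (hv : 0 ≤ v.ord y) (a : Ay K y) :
    (a : F) ∈ v.toValuationSubring := by
  let O : Subalgebra K F :=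
    { v.toValuationSubring.toSubring with algebraMap_mem' := v.algebraMap_mem' }
  have hle : Algebra.adjoin K {y} ≤ O := by
    apply Algebra.adjoin_le
    intro z hz
    rw [Set.mem_singleton_iff] at hz
    subst hz
    exact FFDeriv.mem_of_ord_nonneg v hv
  exact hle a.2

theorem By_le_of_ord_nonneg (v : Place K F) (hv : 0 ≤ v.ord y) (b : By K y) :
    algebraMap (By K y) F b ∈ v.toValuationSubring :=
  mem_of_isIntegral_of_le (R := Ay K y) v.toValuationSubring (Ay_le_of_ord_nonneg K y v hv) b.2

theorem ord_y_nonneg_placeP (P : HeightOneSpectrum (By K y)) :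
    0 ≤ (placeP (K := K) (F := F) P).ord y :=
  FFDeriv.ord_nonneg_of_mem _ (algebraMap_mem_placeP (K := K) P (yB K y))

/-- every place with `ord y ≥ 0` comes from a unique height one prime of `B`. -/
theorem exists_placeP_eq (v : Place K F) (hv : 0 ≤ v.ord y) :
    ∃ P : HeightOneSpectrum (By K y), placeP (K := K) P = v :=
  ⟨center v (By_le_of_ord_nonneg K y v hv), placeP_center v _⟩

omit [CharZero K] [FiniteDimensional K⟮y⟯ F] in
include hy in
theorem y_ne_zero : y ≠ 0 := by
  intro h
  have := hy.out
  rw [h] at this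
  exact this (isAlgebraic_zero)

theorem yB_ne_zero : yB K y ≠ 0 := by
  intro h
  apply y_ne_zero K y
  have := congrArg (fun b : By K y => (b : F)) h
  simpa [coe_yB] using this

theorem ord_pos_placeP_iff (P : HeightOneSpectrum (By K y)) :
    0 < (placeP (K := K) (F := F) P).ord y ↔ yB K y ∈ P.asIdeal := by
  rw [ord_placeP, ordP_pos_iff P (y_ne_zero K y), ← P.valuation_lt_one_iff_mem (K := F)]
  rfl

/-- the set of zeros of `y` is finite. -/
theorem zeros_finite : {v : Place K F | 0 < v.ord y}.Finite := by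
  have hfin := Ideal.finite_factors (R := By K y) (I := Ideal.span {yB K y})
    (by rw [Ne, Ideal.zero_eq_bot, Ideal.span_singleton_eq_bot]; exact yB_ne_zero K y)
  refine (hfin.image (placeP (K := K) (F := F))).subset ?_
  intro v hv
  obtain ⟨P, rfl⟩ := exists_placeP_eq K y v (le_of_lt hv)
  refine ⟨P, ?_, rfl⟩
  rw [Set.mem_setOf_eq, Ideal.dvd_span_singleton]
  exact (ord_pos_placeP_iff K y P).mp hv

/-- approximation (prime avoidance): a zero `v` of `y` different from finitely many other places
`w` with `ord y ≥ 0` is separated from them by an element integral over `K[y]`. -/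
theorem exists_integral_separating (v : Place K F) (hv : 0 ≤ v.ord y)
    (S : Finset (Place K F)) (hS : ∀ w ∈ S, 0 ≤ w.ord y) (hvS : v ∉ S) :
    ∃ f : F, IsIntegral (Ay K y) f ∧ 0 < v.ord f ∧ ∀ w ∈ S, w.ord f = 0 := by
  classical
  obtain ⟨P, hP⟩ := exists_placeP_eq K y v hv
  -- centers of the places in S
  have hcen : ∀ w ∈ S, ∃ Q : HeightOneSpectrum (By K y), placeP (K := K) Q = w :=
    fun w hw => exists_placeP_eq K y w (hS w hw)
  haveI : Nonempty (HeightOneSpectrum (By K y)) := ⟨P⟩
  choose! Q hQ using hcen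
  have hne : ∀ w ∈ S, ¬ P.asIdeal ≤ (Q w).asIdeal := by
    intro w hw hle
    have h1 : P.asIdeal = (Q w).asIdeal :=
      (P.isMaximal.eq_of_le (Q w).isPrime.ne_top hle)
    have h2 : P = Q w := HeightOneSpectrum.ext h1
    apply hvS
    rw [← hP, h2, hQ w hw]
    exact hw
  have hav : ¬ (P.asIdeal : Set (By K y)) ⊆ ⋃ w ∈ (S : Set (Place K F)), ((Q w).asIdeal : Set _) := by
    rw [Ideal.subset_union_prime (s := S) (f := fun w => (Q w).asIdeal) v v
      (fun w _ _ _ => (Q w).isPrime)]
    rintro ⟨w, hw, hle⟩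
    exact hne w hw hle
  obtain ⟨b, hbP, hbQ⟩ := Set.not_subset.mp hav
  simp only [Set.mem_iUnion, not_exists] at hbQ
  have hbQ' : ∀ w ∈ S, b ∉ (Q w).asIdeal := fun w hw h => hbQ w (Finset.mem_coe.mpr hw) h
  have key : ∀ c : By K y, c ≠ 0 → c ∈ P.asIdeal → (∀ w ∈ S, c ∉ (Q w).asIdeal) →
      ∃ f : F, IsIntegral (Ay K y) f ∧ 0 < v.ord f ∧ ∀ w ∈ S, w.ord f = 0 := by
    intro c hc0 hcP hcQ
    have hcF : (algebraMap (By K y) F c) ≠ 0 := by
      intro h0
      exact hc0 ((IsFractionRing.injective (By K y) F) (by rw [h0, map_zero]))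
    refine ⟨algebraMap (By K y) F c, c.2, ?_, ?_⟩
    · rw [← hP, ord_placeP, ordP_pos_iff P hcF, P.valuation_lt_one_iff_mem (K := F)]
      exact hcP
    · intro w hw
      rw [← hQ w hw, ord_placeP, ordP,
        (HeightOneSpectrum.valuation_eq_one_iff_notMem (K := F) (v := Q w)).mpr (hcQ w hw)]
      simp
  by_cases hb0 : b = 0
  · -- then `S` is empty
    have hSe : S = ∅ := by
      rw [Finset.eq_empty_iff_forall_notMem]
      intro w hw
      exact hbQ' w hw (by rw [hb0]; exact Ideal.zero_mem _)
    obtain ⟨c, hcP, hc0⟩ := Submodule.exists_mem_ne_zero_of_ne_bot P.ne_bot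
    exact key c hc0 hcP (by rw [hSe]; intro w hw; exact absurd hw (Finset.notMem_empty w))
  · exact key b hb0 hbP hbQ'

end concrete

end

end Fermat.Agent.S24.FFP18
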