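import Mathlib
import Fermat.Agent.S24.FFPlaces_h18

set_option autoImplicit false
set_option linter.unusedSectionVars false
set_option linter.style.haveILetI false

namespace Fermat.Agent.S24.FFApprox

open AlgebraicCurve Fermat.Agent.S24 Fermat.Agent.S24.FFP18
open scoped IntermediateField

variable {K F : Type*} [Field K] [Field F] [Algebra K F]

theorem ord_nonneg_of_ord_sub_pos (v : Place K F) (y : F) (a : K)
    (hv : 0 < v.ord (y - algebraMap K F a)) : 0 ≤ v.ord y := by
  rcases eq_or_ne y 0 with rfl | hy0
  · simp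
  have e : y = (y - algebraMap K F a) + algebraMap K F a := by ring
  have h1 := FFDeriv.min_le_ord_add v (x := y - algebraMap K F a) (y := algebraMap K F a)
    (by rw [← e]; exact hy0)
  rw [← e, FFDeriv.ord_algebraMap] at h1
  have h2 : 0 ≤ min (v.ord (y - algebraMap K F a)) 0 := le_min (le_of_lt hv) le_rfl
  exact le_trans h2 h1

/-- Approximation lemma (prime avoidance in the integral closure of `K[y]`): a place `v` over
`y = a` which differs from finitely many places `P c` over `y = a` is separated from them by a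
nonzero element integral over `K[y]`. -/
theorem exists_approx [CharZero K] (y : F) (hy : Transcendental K y)
    [FiniteDimensional K⟮y⟯ F] (a : K) (v : Place K F)
    (hv : 0 < v.ord (y - algebraMap K F a)) {ι : Type*} [Finite ι] (P : ι → Place K F)
    (hP : ∀ c, 0 < (P c).ord (y - algebraMap K F a)) (hne : ∀ c, v ≠ P c) :
    ∃ f : F, f ≠ 0 ∧ IsIntegral (Algebra.adjoin K {y}) f ∧ 0 < v.ord f ∧
      ∀ c, (P c).ord f = 0 := by
  classical
  haveI : Fact (Transcendental K y) := ⟨hy⟩
  haveI : Fintype ι := Fintype.ofFinite ι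
  obtain ⟨f, hint, hpos, hzero⟩ := exists_integral_separating K y v
    (ord_nonneg_of_ord_sub_pos v y a hv) (Finset.univ.image P)
    (by
      intro w hw
      obtain ⟨c, -, rfl⟩ := Finset.mem_image.mp hw
      exact ord_nonneg_of_ord_sub_pos _ y a (hP c))
    (by
      intro hmem
      obtain ⟨c, -, hc⟩ := Finset.mem_image.mp hmem
      exact hne c hc.symm)
  refine ⟨f, ?_, hint, hpos, fun c => hzero _ (Finset.mem_image_of_mem P (Finset.mem_univ c))⟩
  rintro rfl
  simp at hpos

/-- The same statement for an arbitrary place with `ord y ≥ 0` (no reference to a value `a`). -/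
theorem exists_approx' [CharZero K] (y : F) (hy : Transcendental K y)
    [FiniteDimensional K⟮y⟯ F] (v : Place K F) (hv : 0 ≤ v.ord y)
    {ι : Type*} [Finite ι] (P : ι → Place K F)
    (hP : ∀ c, 0 ≤ (P c).ord y) (hne : ∀ c, v ≠ P c) :
    ∃ f : F, f ≠ 0 ∧ IsIntegral (Algebra.adjoin K {y}) f ∧ 0 < v.ord f ∧
      ∀ c, (P c).ord f = 0 := by
  classical
  haveI : Fact (Transcendental K y) := ⟨hy⟩
  haveI : Fintype ι := Fintype.ofFinite ι
  obtain ⟨f, hint, hpos, hzero⟩ := exists_integral_separating K y v hv (Finset.univ.image P)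
    (by
      intro w hw
      obtain ⟨c, -, rfl⟩ := Finset.mem_image.mp hw
      exact hP c)
    (by
      intro hmem
      obtain ⟨c, -, hc⟩ := Finset.mem_image.mp hmem
      exact hne c hc.symm)
  refine ⟨f, ?_, hint, hpos, fun c => hzero _ (Finset.mem_image_of_mem P (Finset.mem_univ c))⟩
  rintro rfl
  simp at hpos

end Fermat.Agent.S24.FFApprox
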