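import Fermat.Agent.S24.FFDeriv

set_option autoImplicit false

/-!
S24, package A5 (abstract form): the Hurwitz count.  Given the fibres of `x : F` over the points of
the projective line (as finsets of places, with `∑ e = n`), the degree of the divisor of any
nonzero differential is `∑_{a ∈ A} (n - r_a) - n - r_∞`, where `A` contains all branch values.
All function-field inputs are hypotheses, discharged by the packages A1-A4.
-/

open KaehlerDifferential AlgebraicCurve

namespace Fermat.Agent.S24.FFDeriv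

variable {K F : Type*} [Field K] [Field F] [Algebra K F] [CharZero K]

omit [CharZero K] in
/-- degree of a divisor all of whose places have degree one, as a sum over any finset containing
the support -/
lemma degree_eq_sum_of_subset (hdeg : ∀ v : Place K F, v.deg = 1) (G : Divisor K F)
    (S : Finset (Place K F)) (hS : G.support ⊆ S) :
    Divisor.degree G = ∑ v ∈ S, G v := by
  classical
  have h1 : Divisor.degree G = G.sum fun v k => k * (v.deg : ℤ) := by
    simp [Divisor.degree, Finsupp.liftAddHom_apply]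
  rw [h1, Finsupp.sum_of_support_subset G hS _ (fun v _ => by simp)]
  refine Finset.sum_congr rfl fun v _ => ?_
  rw [hdeg v]
  simp

/-- **Hurwitz count.** -/
theorem hurwitz_count (x : F) (n : ℕ)
    (hgood : ∀ v : Place K F, GoodPlace v)
    (hdeg : ∀ v : Place K F, v.deg = 1)
    (hprin : ∀ f : F, f ≠ 0 → ∃ E : Divisor K F, (∀ v : Place K F, E v = v.ord f) ∧
      Divisor.degree E = 0)
    (hDx : D K F x ≠ 0) (hspan : ∀ ω : Ω[F⁄K], ∃ f : F, ω = f • D K F x)
    (Z : K → Finset (Place K F))
    (hZ : ∀ a v, v ∈ Z a ↔ 0 < v.ord (x - algebraMap K F a))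
    (hZsum : ∀ a, ∑ v ∈ Z a, v.ord (x - algebraMap K F a) = n)
    (Pinf : Finset (Place K F)) (hP : ∀ v, v ∈ Pinf ↔ v.ord x < 0)
    (hPsum : ∑ v ∈ Pinf, v.ord x = -(n : ℤ))
    (A : Finset K) (hA : ∀ a, a ∉ A → ∀ v ∈ Z a, v.ord (x - algebraMap K F a) = 1)
    {ω : Ω[F⁄K]} (hω : ω ≠ 0) (Dv : Divisor K F) (hD : ∀ v, Dv v = v.ordDifferential ω) :
    Divisor.degree Dv = ∑ a ∈ A, ((n : ℤ) - (Z a).card) - n - Pinf.card := by
  classical
  obtain ⟨f, hf⟩ := hspan ω
  have hf0 : f ≠ 0 := by
    rintro rfl
    rw [zero_smul] at hf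
    exact hω hf
  obtain ⟨E, hE, hE0⟩ := hprin f hf0
  set G : Divisor K F := Dv - E with hG
  have hGv : ∀ v, G v = v.ordDifferential (D K F x) := by
    intro v
    rw [hG, Finsupp.sub_apply, hD v, hE v, hf, (hgood v).ordDifferential_smul hf0 hDx]
    ring
  have hdegG : Divisor.degree Dv = Divisor.degree G := by
    rw [hG, map_sub, hE0, sub_zero]
  -- the value of `G` on each fibre
  have hGP : ∀ v ∈ Pinf, G v = v.ord x - 1 := fun v hv => by
    rw [hGv, (hgood v).ordDifferential_of_pole ((hP v).mp hv)]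
  have hGZ : ∀ a, ∀ v ∈ Z a, G v = v.ord (x - algebraMap K F a) - 1 := fun a v hv => by
    rw [hGv, (hgood v).ordDifferential_of_zero ((hZ a v).mp hv)]
  -- the fibres are pairwise disjoint
  have hdisjZ : ∀ a b, a ≠ b → Disjoint (Z a) (Z b) := by
    intro a b hab
    rw [Finset.disjoint_left]
    intro v hva hvb
    have h1 := (hZ a v).mp hva
    have h2 := (hZ b v).mp hvb
    have hne : algebraMap K F (b - a) ≠ 0 := by
      rw [map_ne_zero]; exact sub_ne_zero.mpr (Ne.symm hab)
    have h3 : x - algebraMap K F a + -(x - algebraMap K F b) = algebraMap K F (b - a) := by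
      rw [map_sub]; ring
    have h4 := min_le_ord_add v (x := x - algebraMap K F a) (y := -(x - algebraMap K F b))
      (by rw [h3]; exact hne)
    rw [h3, ord_algebraMap, ord_neg] at h4
    rcases min_le_iff.mp h4 with h5 | h5 <;> omega
  have hdisjP : ∀ a, Disjoint Pinf (Z a) := by
    intro a
    rw [Finset.disjoint_left]
    intro v hvP hva
    have h1 := (hP v).mp hvP
    have h2 := (hZ a v).mp hva
    have hx0 : x ≠ 0 := by
      rintro rfl
      simp at h1
    have h3 : x - algebraMap K F a + algebraMap K F a = x := by ring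
    have h4 := min_le_ord_add v (x := x - algebraMap K F a) (y := algebraMap K F a)
      (by rw [h3]; exact hx0)
    rw [h3, ord_algebraMap] at h4
    rcases min_le_iff.mp h4 with h5 | h5 <;> omega
  -- the support of `G`
  set S : Finset (Place K F) := Pinf ∪ A.biUnion Z with hSdef
  have hsupp : G.support ⊆ S := by
    intro v hv
    rw [Finsupp.mem_support_iff] at hv
    rw [hSdef, Finset.mem_union, Finset.mem_biUnion]
    by_cases hvP : v.ord x < 0
    · exact Or.inl ((hP v).mpr hvP)
    · right
      rw [not_lt] at hvP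
      obtain ⟨a, ha⟩ := (hgood v).exists_const hvP
      have ha' : 0 < v.ord (x - algebraMap K F a) := by
        rcases ha with ha | ha
        · exfalso
          apply hDx
          rw [ha, Derivation.map_algebraMap]
        · exact ha
      have hva : v ∈ Z a := (hZ a v).mpr ha'
      refine ⟨a, ?_, hva⟩
      by_contra haA
      apply hv
      rw [hGZ a v hva, hA a haA v hva]
      ring
  rw [hdegG, degree_eq_sum_of_subset hdeg G S hsupp, hSdef, Finset.sum_union, Finset.sum_biUnion]
  · have h1 : ∑ v ∈ Pinf, G v = -(n : ℤ) - Pinf.card := by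
      rw [Finset.sum_congr rfl hGP, Finset.sum_sub_distrib, hPsum]
      simp
    have h2 : ∀ a ∈ A, ∑ v ∈ Z a, G v = (n : ℤ) - (Z a).card := by
      intro a _
      rw [Finset.sum_congr rfl (hGZ a), Finset.sum_sub_distrib, hZsum a]
      simp
    rw [h1, Finset.sum_congr rfl h2]
    ring
  · intro a _ b _ hab
    exact hdisjZ a b hab
  · rw [Finset.disjoint_biUnion_right]
    intro a _
    exact hdisjP a

/-- **Genus from the Hurwitz count.** -/
theorem genus_eq_of_hurwitz [HasCanonicalDivisor (K := K) (F := F)] (x : F) (n : ℕ)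
    (hgood : ∀ v : Place K F, GoodPlace v)
    (hdeg : ∀ v : Place K F, v.deg = 1)
    (hprin : ∀ f : F, f ≠ 0 → ∃ E : Divisor K F, (∀ v : Place K F, E v = v.ord f) ∧
      Divisor.degree E = 0)
    (hDx : D K F x ≠ 0) (hspan : ∀ ω : Ω[F⁄K], ∃ f : F, ω = f • D K F x)
    (Z : K → Finset (Place K F))
    (hZ : ∀ a v, v ∈ Z a ↔ 0 < v.ord (x - algebraMap K F a))
    (hZsum : ∀ a, ∑ v ∈ Z a, v.ord (x - algebraMap K F a) = n)
    (Pinf : Finset (Place K F)) (hP : ∀ v, v ∈ Pinf ↔ v.ord x < 0)
    (hPsum : ∑ v ∈ Pinf, v.ord x = -(n : ℤ))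
    (A : Finset K) (hA : ∀ a, a ∉ A → ∀ v ∈ Z a, v.ord (x - algebraMap K F a) = 1) :
    AlgebraicCurve.genus K F =
      (∑ a ∈ A, ((n : ℤ) - (Z a).card) - n - Pinf.card + 2).toNat / 2 := by
  have hex : ∃ ω : Ω[F⁄K], ω ≠ 0 := ⟨_, hDx⟩
  unfold AlgebraicCurve.genus
  rw [dif_pos hex]
  rw [hurwitz_count x n hgood hdeg hprin hDx hspan Z hZ hZsum Pinf hP hPsum A hA hex.choose_spec
    _ (fun v => canonicalDivisorOf_apply hex.choose_spec v)]

end Fermat.Agent.S24.FFDeriv
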