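import Mathlib

/-!
# S24 package A3: Kaehler differentials of a function field of one variable (char 0)

`F / K` a field extension, `x : F` transcendental over `K`, `F` finite over `K⟮x⟯`, `CharZero K`.
Then `Ω[F⁄K]` is one-dimensional over `F`, spanned by `D x`, and `D y ≠ 0` for every
transcendental `y`.
-/

set_option autoImplicit false
set_option linter.style.haveILetI false

namespace Fermat.Agent.S24

open KaehlerDifferential Polynomial IntermediateField TensorProduct
open scoped IntermediateField.algebraAdjoinAdjoin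

namespace FFK

variable {K F : Type*} [Field K] [Field F] [Algebra K F]

/-- the generator of `Algebra.adjoin K {x}`. -/
def gen (x : F) : Algebra.adjoin K {x} := ⟨x, Algebra.self_mem_adjoin_singleton K x⟩

/-- `d/dx` on `K[x]` with values in `F` (for transcendental `x`). -/
noncomputable def derivAdjoin (x : F) (hx : Transcendental K x) :
    Derivation K (Algebra.adjoin K {x}) F where
  toFun a := aeval x (derivative ((Polynomial.algEquivOfTranscendental K x hx).symm a))
  map_add' a b := by simp
  map_smul' c a := by simp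
  map_one_eq_zero' := by
    change aeval x (derivative ((Polynomial.algEquivOfTranscendental K x hx).symm 1)) = 0
    rw [map_one, derivative_one, map_zero]
  leibniz' a b := by
    change aeval x (derivative ((Polynomial.algEquivOfTranscendental K x hx).symm (a * b))) =
      a • aeval x (derivative ((Polynomial.algEquivOfTranscendental K x hx).symm b)) +
      b • aeval x (derivative ((Polynomial.algEquivOfTranscendental K x hx).symm a))
    rw [map_mul, derivative_mul, map_add, map_mul, map_mul]
    have h1 : ∀ c : Algebra.adjoin K {x},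
        aeval x ((Polynomial.algEquivOfTranscendental K x hx).symm c) = (c : F) := by
      intro c
      obtain ⟨p, rfl⟩ := (Polynomial.algEquivOfTranscendental K x hx).surjective c
      rw [AlgEquiv.symm_apply_apply, Polynomial.algEquivOfTranscendental_apply]
      rw [← Subalgebra.coe_val, ← Polynomial.aeval_algHom_apply]
      rfl
    rw [h1 a, h1 b]
    simp only [Algebra.smul_def]
    change _ = (a : F) * _ + (b : F) * _
    ring

theorem derivAdjoin_gen (x : F) (hx : Transcendental K x) :
    derivAdjoin x hx (gen x) = 1 := by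
  change aeval x (derivative ((Polynomial.algEquivOfTranscendental K x hx).symm
    ⟨x, Algebra.self_mem_adjoin_singleton K x⟩)) = 1
  rw [Polynomial.algEquivOfTranscendental_symm_gen]
  simp

theorem kaehler_adjoin_span (x : F) (ω : Ω[Algebra.adjoin K {x}⁄K]) :
    ∃ c : Algebra.adjoin K {x}, ω = c • D K (Algebra.adjoin K {x}) (gen x) := by
  have hω : ω ∈ Submodule.span (Algebra.adjoin K {x})
      (Set.range (D K (Algebra.adjoin K {x}))) := by
    rw [KaehlerDifferential.span_range_derivation]; trivial
  induction hω using Submodule.span_induction with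
  | mem ω h =>
    obtain ⟨a, rfl⟩ := h
    obtain ⟨p, hp⟩ : ∃ p : K[X], aeval (gen x) p = a := by
      have h0 : ∀ y ∈ Algebra.adjoin K {x}, y ∈ (Polynomial.aeval (R := K) x).range := by
        intro y hy
        rwa [Algebra.adjoin_singleton_eq_range_aeval] at hy
      have h1 : (a : F) ∈ (Polynomial.aeval (R := K) x).range := h0 _ a.2
      obtain ⟨p, hp⟩ := h1
      refine ⟨p, Subtype.ext ?_⟩
      rw [← Subalgebra.coe_val, ← Polynomial.aeval_algHom_apply]
      exact hp
    refine ⟨aeval (gen x) (derivative p), ?_⟩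
    rw [← hp, Derivation.map_aeval]
  | zero => exact ⟨0, by simp⟩
  | add a b _ _ ha hb =>
    obtain ⟨c, rfl⟩ := ha
    obtain ⟨d, rfl⟩ := hb
    exact ⟨c + d, by rw [add_smul]⟩
  | smul r a _ ha =>
    obtain ⟨c, rfl⟩ := ha
    exact ⟨r * c, by rw [mul_smul]⟩

section Etale

variable [CharZero K] (x : F) [FiniteDimensional K⟮x⟯ F]

theorem formallyEtale_adjoin : Algebra.FormallyEtale (Algebra.adjoin K {x}) F := by
  haveI : CharZero K⟮x⟯ := charZero_of_injective_algebraMap (algebraMap K K⟮x⟯).injective
  haveI : Algebra.IsSeparable K⟮x⟯ F := inferInstance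
  haveI h1 : Algebra.FormallyEtale K⟮x⟯ F := Algebra.FormallyEtale.of_isSeparable K⟮x⟯ F
  haveI h2 : Algebra.FormallyEtale (Algebra.adjoin K {x}) K⟮x⟯ :=
    Algebra.FormallyEtale.of_isLocalization (nonZeroDivisors (Algebra.adjoin K {x}))
  exact Algebra.FormallyEtale.comp (Algebra.adjoin K {x}) K⟮x⟯ F

/-- the base change isomorphism `F ⊗[K[x]] Ω[K[x]⁄K] ≃ Ω[F⁄K]`. -/
noncomputable def kaehlerEquiv :
    F ⊗[Algebra.adjoin K {x}] Ω[Algebra.adjoin K {x}⁄K] ≃ₗ[F] Ω[F⁄K] :=
  haveI := formallyEtale_adjoin (K := K) x
  KaehlerDifferential.tensorKaehlerEquivOfFormallyEtale K (Algebra.adjoin K {x}) F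

theorem kaehlerEquiv_tmul_D (f : F) (a : Algebra.adjoin K {x}) :
    kaehlerEquiv (K := K) x (f ⊗ₜ D K (Algebra.adjoin K {x}) a) = f • D K F (a : F) := by
  haveI := formallyEtale_adjoin (K := K) x
  simp only [kaehlerEquiv, tensorKaehlerEquivOfFormallyEtale_apply, mapBaseChange_tmul, map_D]
  rfl

theorem exists_eq_smul_D (ω : Ω[F⁄K]) : ∃ f : F, ω = f • D K F x := by
  obtain ⟨t, rfl⟩ := (kaehlerEquiv (K := K) x).surjective ω
  induction t using TensorProduct.induction_on with
  | zero => exact ⟨0, by simp⟩
  | tmul f ω0 =>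
    obtain ⟨c, rfl⟩ := kaehler_adjoin_span (K := K) x ω0
    refine ⟨f * (c : F), ?_⟩
    rw [← TensorProduct.smul_tmul, kaehlerEquiv_tmul_D]
    have : c • f = f * (c : F) := by rw [Algebra.smul_def, mul_comm]; rfl
    rw [this]
    rfl
  | add a b ha hb =>
    obtain ⟨f, hf⟩ := ha
    obtain ⟨g, hg⟩ := hb
    exact ⟨f + g, by rw [map_add, hf, hg, add_smul]⟩

/-- the `F`-linear functional on `Ω[F⁄K]` sending `D x` to `1`. -/
noncomputable def dualD (hx : Transcendental K x) : Ω[F⁄K] →ₗ[F] F :=
  (LinearMap.liftBaseChange F (derivAdjoin x hx).liftKaehlerDifferential) ∘ₗ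
    (kaehlerEquiv (K := K) x).symm.toLinearMap

theorem dualD_D (hx : Transcendental K x) : dualD x hx (D K F x) = 1 := by
  have h1 : (kaehlerEquiv (K := K) x).symm (D K F x) =
      (1 : F) ⊗ₜ D K (Algebra.adjoin K {x}) (gen x) := by
    rw [LinearEquiv.symm_apply_eq, kaehlerEquiv_tmul_D, one_smul]
    rfl
  simp only [dualD, LinearMap.coe_comp, LinearEquiv.coe_coe, Function.comp_apply, h1,
    LinearMap.liftBaseChange_tmul, Derivation.liftKaehlerDifferential_comp_D, one_smul,
    derivAdjoin_gen]

theorem D_ne_zero (hx : Transcendental K x) : D K F x ≠ 0 := by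
  intro h
  have := dualD_D (K := K) x hx
  rw [h, map_zero] at this
  exact zero_ne_one this

end Etale

section Transfer

/-- finiteness over `K⟮x⟯` transfers to `K⟮y⟯` for any other transcendental `y`. -/
theorem finiteDimensional_adjoin_of_transcendental (x : F) (hx : Transcendental K x)
    [FiniteDimensional K⟮x⟯ F] (y : F) (hy : Transcendental K y) :
    FiniteDimensional K⟮y⟯ F := by
  have halg : IsAlgebraic K⟮y⟯ x := by
    have h1 : IsAlgebraic K⟮x⟯ y := Algebra.IsAlgebraic.isAlgebraic y
    have h2 := IsAlgebraic.adjoin_singleton (R := K) (A := F) (B := F) hx hy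
      (isAlgebraic_adjoin_iff.mp h1)
    exact isAlgebraic_adjoin_iff.mpr (by simpa using h2)
  let Fyx := restrictScalars K K⟮y⟯⟮x⟯
  let Fxy := restrictScalars K K⟮x⟯⟮y⟯
  letI : Algebra K⟮y⟯ Fyx := K⟮y⟯⟮x⟯.algebra
  letI : Module K⟮y⟯ Fyx := Algebra.toModule
  letI : SMul K⟮y⟯ Fyx := Algebra.toSMul
  letI : Algebra K⟮x⟯ Fxy := K⟮x⟯⟮y⟯.algebra
  letI : Module K⟮x⟯ Fxy := Algebra.toModule
  letI : SMul K⟮x⟯ Fxy := Algebra.toSMul
  have h3 : FiniteDimensional K⟮y⟯ Fyx :=
    adjoin.finiteDimensional (isAlgebraic_iff_isIntegral.mp halg)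
  have h4 : FiniteDimensional Fyx F := by
    unfold Fyx
    rw [adjoin_simple_comm]
    have : IsScalarTower K⟮x⟯ Fxy F := isScalarTower_mid' K⟮x⟯⟮y⟯
    exact .right K⟮x⟯ Fxy F
  have : IsScalarTower K⟮y⟯ Fyx F := isScalarTower_mid' K⟮y⟯⟮x⟯
  exact .trans K⟮y⟯ Fyx F

end Transfer

end FFK

/-! ## Public API -/

section API

variable {K F : Type*} [Field K] [Field F] [Algebra K F] [CharZero K]

omit [CharZero K] in
/-- finiteness over `K⟮x⟯` transfers to any other transcendental element. -/
theorem finiteDimensional_adjoin_simple (x : F) (hx : Transcendental K x)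
    [FiniteDimensional K⟮x⟯ F] (y : F) (hy : Transcendental K y) :
    FiniteDimensional K⟮y⟯ F :=
  FFK.finiteDimensional_adjoin_of_transcendental x hx y hy

/-- `Ω[F⁄K] = F • D x` and `D x ≠ 0`. -/
theorem kaehler_span_D (x : F) (hx : Transcendental K x) [FiniteDimensional K⟮x⟯ F] :
    (∀ ω : Ω[F⁄K], ∃ f : F, ω = f • D K F x) ∧ D K F x ≠ 0 :=
  ⟨FFK.exists_eq_smul_D x, FFK.D_ne_zero x hx⟩

/-- `D y ≠ 0` for every transcendental `y`. -/
theorem D_ne_zero_of_transcendental (x : F) (hx : Transcendental K x)
    [FiniteDimensional K⟮x⟯ F] (y : F) (hy : Transcendental K y) : D K F y ≠ 0 :=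
  haveI := finiteDimensional_adjoin_simple x hx y hy
  FFK.D_ne_zero y hy

/-- every differential is a multiple of `D y`, for every transcendental `y`. -/
theorem exists_eq_smul_D_of_transcendental (x : F) (hx : Transcendental K x)
    [FiniteDimensional K⟮x⟯ F] (y : F) (hy : Transcendental K y) (ω : Ω[F⁄K]) :
    ∃ f : F, ω = f • D K F y :=
  haveI := finiteDimensional_adjoin_simple x hx y hy
  FFK.exists_eq_smul_D y ω

theorem span_D_eq_top (x : F) (hx : Transcendental K x) [FiniteDimensional K⟮x⟯ F]
    (y : F) (hy : Transcendental K y) :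
    Submodule.span F {D K F y} = ⊤ := by
  rw [eq_top_iff]
  intro ω _
  obtain ⟨f, rfl⟩ := exists_eq_smul_D_of_transcendental x hx y hy ω
  exact Submodule.smul_mem _ _ (Submodule.mem_span_singleton_self _)

/-- `Ω[F⁄K]` is free of rank one. -/
theorem kaehler_free_rank_one (x : F) (hx : Transcendental K x) [FiniteDimensional K⟮x⟯ F] :
    Module.Free F Ω[F⁄K] ∧ Module.finrank F Ω[F⁄K] = 1 := by
  refine ⟨Module.Free.of_divisionRing F _, ?_⟩
  have h1 := finrank_span_singleton (K := F) (FFK.D_ne_zero (K := K) x hx)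
  rw [span_D_eq_top x hx x hx] at h1
  rw [← h1]
  exact (finrank_top F Ω[F⁄K]).symm

theorem finrank_kaehler (x : F) (hx : Transcendental K x) [FiniteDimensional K⟮x⟯ F] :
    Module.finrank F Ω[F⁄K] = 1 :=
  (kaehler_free_rank_one x hx).2

/-- the derivation `d/dt` of `F`, for a transcendental `t`. -/
noncomputable def derivWrt (x : F) (hx : Transcendental K x) [FiniteDimensional K⟮x⟯ F]
    (t : F) (ht : Transcendental K t) : Derivation K F F :=
  haveI := finiteDimensional_adjoin_simple x hx t ht
  (FFK.dualD t ht).compDer (D K F)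

theorem derivWrt_self (x : F) (hx : Transcendental K x) [FiniteDimensional K⟮x⟯ F]
    (t : F) (ht : Transcendental K t) : derivWrt x hx t ht t = 1 := by
  haveI := finiteDimensional_adjoin_simple x hx t ht
  exact FFK.dualD_D t ht

/-- `D f = (df/dt) • D t`. -/
theorem D_eq_derivWrt_smul (x : F) (hx : Transcendental K x) [FiniteDimensional K⟮x⟯ F]
    (t : F) (ht : Transcendental K t) (f : F) :
    D K F f = derivWrt x hx t ht f • D K F t := by
  haveI := finiteDimensional_adjoin_simple x hx t ht
  obtain ⟨g, hg⟩ := FFK.exists_eq_smul_D (K := K) t (D K F f)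
  have h1 : derivWrt x hx t ht f = g := by
    change FFK.dualD t ht (D K F f) = g
    rw [hg, map_smul, FFK.dualD_D, smul_eq_mul, mul_one]
  rw [h1, hg]

/-- uniqueness: any `g` with `D f = g • D t` is `df/dt`. -/
theorem derivWrt_eq_of_D_eq (x : F) (hx : Transcendental K x) [FiniteDimensional K⟮x⟯ F]
    (t : F) (ht : Transcendental K t) {f g : F} (h : D K F f = g • D K F t) :
    derivWrt x hx t ht f = g := by
  haveI := finiteDimensional_adjoin_simple x hx t ht
  change FFK.dualD t ht (D K F f) = g
  rw [h, map_smul, FFK.dualD_D, smul_eq_mul, mul_one]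

/-- any `K`-derivation `δ : F → E` into an `F`-module is determined by `δ t`:
`δ f = (df/dt) • δ t`. -/
theorem derivation_eq_derivWrt_smul (x : F) (hx : Transcendental K x) [FiniteDimensional K⟮x⟯ F]
    (t : F) (ht : Transcendental K t) {E : Type*} [AddCommGroup E] [Module K E] [Module F E]
    [IsScalarTower K F E] (δ : Derivation K F E) (f : F) :
    δ f = derivWrt x hx t ht f • δ t := by
  have h := congrArg δ.liftKaehlerDifferential (D_eq_derivWrt_smul x hx t ht f)
  rwa [map_smul, Derivation.liftKaehlerDifferential_comp_D,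
    Derivation.liftKaehlerDifferential_comp_D] at h

/-- chain rule: `df/dt = (df/ds) * (ds/dt)`. -/
theorem derivWrt_chain (x : F) (hx : Transcendental K x) [FiniteDimensional K⟮x⟯ F]
    (s : F) (hs : Transcendental K s) (t : F) (ht : Transcendental K t) (f : F) :
    derivWrt x hx t ht f = derivWrt x hx s hs f * derivWrt x hx t ht s := by
  have := derivation_eq_derivWrt_smul x hx s hs (derivWrt x hx t ht) f
  rwa [smul_eq_mul] at this

/-- `df/dt ≠ 0` for transcendental `f`. -/
theorem derivWrt_ne_zero (x : F) (hx : Transcendental K x) [FiniteDimensional K⟮x⟯ F]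
    (t : F) (ht : Transcendental K t) (f : F) (hf : Transcendental K f) :
    derivWrt x hx t ht f ≠ 0 := by
  intro h
  have h1 := D_eq_derivWrt_smul x hx t ht f
  rw [h, zero_smul] at h1
  exact D_ne_zero_of_transcendental x hx f hf h1

/-- `df/dt = 0` for `f` algebraic over `K`. -/
theorem derivWrt_eq_zero_of_isAlgebraic (x : F) (hx : Transcendental K x)
    [FiniteDimensional K⟮x⟯ F] (t : F) (ht : Transcendental K t) (f : F)
    (hf : IsAlgebraic K f) : derivWrt x hx t ht f = 0 := by
  -- `minpoly` argument: `P'(f) • δ f = 0` with `P'(f) ≠ 0` in characteristic zero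
  set δ := derivWrt x hx t ht
  have hint : IsIntegral K f := hf.isIntegral
  have h1 : δ (Polynomial.aeval f (minpoly K f)) =
      Polynomial.aeval f (Polynomial.derivative (minpoly K f)) • δ f :=
    Derivation.map_aeval δ (minpoly K f) f
  rw [minpoly.aeval, map_zero] at h1
  have h2 : Polynomial.aeval f (Polynomial.derivative (minpoly K f)) ≠ 0 := by
    have hsep : (minpoly K f).Separable := (minpoly.irreducible hint).separable
    intro h0
    have hdvd := minpoly.dvd K f h0
    have hdeg := Polynomial.natDegree_derivative_lt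
      (p := minpoly K f) (Nat.ne_of_gt (minpoly.natDegree_pos hint))
    have hne : Polynomial.derivative (minpoly K f) ≠ 0 := by
      intro h00
      have := hsep
      rw [Polynomial.separable_def, h00] at this
      have h3 : IsUnit (minpoly K f) := by
        obtain ⟨a, b, hab⟩ := this
        rw [mul_zero, add_zero] at hab
        exact IsUnit.of_mul_eq_one a (by rw [mul_comm]; exact hab)
      exact (minpoly.not_isUnit K f) h3
    exact absurd (Polynomial.natDegree_le_of_dvd hdvd hne) (not_le.mpr hdeg)
  rcases smul_eq_zero.mp h1.symm with h | h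
  · exact absurd h h2
  · exact h

omit [CharZero K] in
/-- over an algebraically closed constant field, every non-constant is transcendental. -/
theorem transcendental_of_notMem_range [IsAlgClosed K] (t : F)
    (ht : t ∉ Set.range (algebraMap K F)) : Transcendental K t := by
  intro halg
  have hint : IsIntegral K t := halg.isIntegral
  have hdeg : (minpoly K t).degree = 1 :=
    IsAlgClosed.degree_eq_one_of_irreducible K (minpoly.irreducible hint)
  exact ht (minpoly.mem_range_of_degree_eq_one K t hdeg)

end API

end Fermat.Agent.S24
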