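import Mathlib
import Fermat.Prelude.Def_AlgebraicCurve_DivisorClassGroup
import Fermat.Agent.S24.FFDeriv
import Fermat.Agent.S24.FFKaehler

/-!
# S24 package A2 (abstract form): principal divisors have degree zero

Given that all places have degree one, that the zero set of every transcendental `y` is finite and
that `∑_{v zero of y} ord_v y = [F : K(y)]`, every nonzero `f` has a divisor of degree `0`.
-/

set_option autoImplicit false

open AlgebraicCurve IntermediateField

namespace Fermat.Agent.S24.FFPrin

variable {K F : Type*} [Field K] [Field F] [Algebra K F]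

theorem adjoin_inv_eq (y : F) : K⟮y⁻¹⟯ = K⟮y⟯ := by
  apply le_antisymm
  · rw [adjoin_simple_le_iff]
    exact inv_mem (mem_adjoin_simple_self K y)
  · rw [adjoin_simple_le_iff]
    have h := inv_mem (mem_adjoin_simple_self K y⁻¹)
    rwa [inv_inv] at h

theorem finrank_adjoin_inv (y : F) :
    Module.finrank K⟮y⁻¹⟯ F = Module.finrank K⟮y⟯ F := by
  have key : ∀ E1 E2 : IntermediateField K F, E1 = E2 →
      Module.finrank E1 F = Module.finrank E2 F := by
    rintro _ _ rfl; rfl
  exact key _ _ (adjoin_inv_eq y)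

theorem transcendental_inv {y : F} (hy : Transcendental K y) : Transcendental K y⁻¹ := by
  intro h
  apply hy
  have := h.inv
  rwa [inv_inv] at this

/-- the divisor of `f`, given finiteness of zeros and poles. -/
theorem exists_divisor_of_transcendental
    (hdeg : ∀ v : Place K F, v.deg = 1)
    (hfin : ∀ y : F, Transcendental K y → {v : Place K F | 0 < v.ord y}.Finite)
    (hsum : ∀ (y : F) (hy : Transcendental K y),
      ∑ v ∈ (hfin y hy).toFinset, v.ord y = (Module.finrank K⟮y⟯ F : ℤ))
    (f : F) (hf : Transcendental K f) :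
    ∃ D : Divisor K F, (∀ v : Place K F, D v = v.ord f) ∧ Divisor.degree D = 0 := by
  classical
  have hf' := transcendental_inv hf
  set Z := (hfin f hf).toFinset with hZ
  set P := (hfin f⁻¹ hf').toFinset with hP
  have hmemZ : ∀ v, v ∈ Z ↔ 0 < v.ord f := by
    intro v; simp [hZ]
  have hmemP : ∀ v, v ∈ P ↔ v.ord f < 0 := by
    intro v
    simp only [hP, Set.Finite.mem_toFinset, Set.mem_ofPred_eq, Place.ord_inv]
    omega
  have hdisj : Disjoint Z P := by
    rw [Finset.disjoint_left]
    intro v h1 h2
    rw [hmemZ] at h1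
    rw [hmemP] at h2
    omega
  let D : Divisor K F := Finsupp.onFinset (Z ∪ P) (fun v => v.ord f) (by
    intro v hv
    rw [Finset.mem_union, hmemZ, hmemP]
    omega)
  refine ⟨D, fun v => rfl, ?_⟩
  have hdegD : Divisor.degree D = ∑ v ∈ Z ∪ P, v.ord f := by
    change (Finsupp.liftAddHom fun v : Place K F =>
      AddMonoidHom.mulRight ((v.deg : ℕ) : ℤ)) D = _
    rw [Finsupp.liftAddHom_apply, Finsupp.sum]
    have hsub : D.support ⊆ Z ∪ P := Finsupp.support_onFinset_subset
    rw [Finset.sum_subset hsub]
    · apply Finset.sum_congr rfl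
      intro v _
      simp [hdeg v, D]
    · intro v _ hv
      rw [Finsupp.notMem_support_iff] at hv
      simp [hv]
  rw [hdegD, Finset.sum_union hdisj]
  have h1 := hsum f hf
  have h2 := hsum f⁻¹ hf'
  rw [finrank_adjoin_inv] at h2
  have h3 : ∑ v ∈ P, v.ord f = - ∑ v ∈ P, v.ord f⁻¹ := by
    rw [← Finset.sum_neg_distrib]
    apply Finset.sum_congr rfl
    intro v _
    rw [Place.ord_inv, neg_neg]
  rw [h3]
  change ∑ v ∈ (hfin f hf).toFinset, v.ord f + -∑ v ∈ (hfin f⁻¹ hf').toFinset, v.ord f⁻¹ = 0
  rw [h1, h2]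
  ring

/-- **A2 (abstract)**: principal divisors exist and have degree zero. -/
theorem hasPrincipalDivisors_of [IsAlgClosed K]
    (hdeg : ∀ v : Place K F, v.deg = 1)
    (hfin : ∀ y : F, Transcendental K y → {v : Place K F | 0 < v.ord y}.Finite)
    (hsum : ∀ (y : F) (hy : Transcendental K y),
      ∑ v ∈ (hfin y hy).toFinset, v.ord y = (Module.finrank K⟮y⟯ F : ℤ)) :
    HasPrincipalDivisors K F := by
  refine ⟨fun f hf0 => ?_⟩
  by_cases hf : f ∈ Set.range (algebraMap K F)
  · obtain ⟨a, rfl⟩ := hf
    refine ⟨0, fun v => ?_, by simp⟩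
    rw [FFDeriv.ord_algebraMap]
    rfl
  · exact exists_divisor_of_transcendental hdeg hfin hsum f
      (transcendental_of_notMem_range f hf)

end Fermat.Agent.S24.FFPrin
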