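import Mathlib
import Fermat.Prelude.Def_AlgebraicCurve_CanonicalDivisor
import Fermat.Agent.S24.FFDeriv
import Fermat.Agent.S24.FFHurwitzCount
import Fermat.Agent.S24.FFKaehler
import Fermat.Agent.S24.FFPrincipalAbs

/-!
# S24 package A5 (glue): the genus from the fibre cardinalities of `x : F → ℙ¹`

`F / K` a function field of one variable over an algebraically closed field of characteristic `0`,
`x : F` transcendental with `n = [F : K(x)]`.  All inputs from the theory of places (package A1)
enter as explicit hypotheses, in the shapes announced for `FFPlaces.lean`: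

* `hres`  : the residue field of every place is `K`;
* `hdeg`  : every place has degree one;
* `hfin`  : every transcendental `y` has finitely many zeros;
* `hsum`  : `∑_{v zero of y} ord_v y = [F : K(y)]`;
* `hgen`  : for every place `v` and uniformizer `t`, the valuation ring is a localisation of a
  finite `K[t]`-module (the shape consumed by `FFDeriv.deriv_bounded`).

Output: `genus_eq_of_fibres` / `genus_eq_of_three_fibres`: the Riemann–Hurwitz count
`2g - 2 = ∑_{a ∈ A} (n - r_a) - n - r_∞`, `r_a` the number of places over `a`.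
-/

set_option autoImplicit false

open AlgebraicCurve KaehlerDifferential IntermediateField

namespace Fermat.Agent.S24.FFGlue

open Fermat.Agent.S24.FFDeriv

variable {K F : Type*} [Field K] [Field F] [Algebra K F]

/-- the shape of the finite-generation hypothesis consumed by `FFDeriv.deriv_bounded`. -/
def HGen (v : Place K F) (t : F) : Prop :=
  ∃ (r : ℕ) (b : Fin r → F), (∀ i, b i ∈ v.toValuationSubring) ∧
    ∀ z ∈ v.toValuationSubring, ∃ p q : Fin r → Polynomial K,
      z * (∑ i, Polynomial.aeval t (q i) * b i) = ∑ i, Polynomial.aeval t (p i) * b i ∧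
      v.ord (∑ i, Polynomial.aeval t (q i) * b i) = 0 ∧
      (∑ i, Polynomial.aeval t (q i) * b i) ≠ 0

/-- the shape of the residue-field hypothesis. -/
def HRes (v : Place K F) : Prop :=
  ∀ y ∈ v.toValuationSubring, ∃ c : K, y = algebraMap K F c ∨
    0 < v.ord (y - algebraMap K F c)

section basic

variable [IsAlgClosed K]

/-- an element with nonzero order at some place is transcendental. -/
theorem transcendental_of_ord_ne_zero (v : Place K F) {t : F} (ht : v.ord t ≠ 0) :
    Transcendental K t := by
  apply Fermat.Agent.S24.transcendental_of_notMem_range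
  rintro ⟨a, rfl⟩
  exact ht (ord_algebraMap v a)

end basic

theorem adjoin_sub_const_eq (x : F) (a : K) : K⟮x - algebraMap K F a⟯ = K⟮x⟯ := by
  apply le_antisymm
  · rw [adjoin_simple_le_iff]
    exact sub_mem (mem_adjoin_simple_self K x) (IntermediateField.algebraMap_mem _ a)
  · rw [adjoin_simple_le_iff]
    have h := add_mem (mem_adjoin_simple_self K (x - algebraMap K F a))
      (IntermediateField.algebraMap_mem K⟮x - algebraMap K F a⟯ a)
    rwa [sub_add_cancel] at h

theorem finrank_adjoin_sub_const (x : F) (a : K) :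
    Module.finrank K⟮x - algebraMap K F a⟯ F = Module.finrank K⟮x⟯ F := by
  have key : ∀ E1 E2 : IntermediateField K F, E1 = E2 →
      Module.finrank E1 F = Module.finrank E2 F := by
    rintro _ _ rfl; rfl
  exact key _ _ (adjoin_sub_const_eq x a)

theorem transcendental_sub_const {x : F} (hx : Transcendental K x) (a : K) :
    Transcendental K (x - algebraMap K F a) := by
  intro h
  apply hx
  have h2 : IsAlgebraic K (algebraMap K F a) := isAlgebraic_algebraMap a
  have := h.add h2
  rwa [sub_add_cancel] at this

section good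

variable [IsAlgClosed K] [CharZero K]

/-- every place is a `GoodPlace`, given the residue field and finite generation inputs. -/
theorem goodPlace_of (x : F) (hx : Transcendental K x) [FiniteDimensional K⟮x⟯ F]
    (v : Place K F) (hres : HRes v) (hgen : ∀ t : F, v.ord t = 1 → HGen v t) :
    GoodPlace v := by
  refine ⟨fun t ht => ?_, hres, fun t ht δ hδ => ?_⟩
  · have htr : Transcendental K t := transcendental_of_ord_ne_zero v (by rw [ht]; norm_num)
    exact ⟨D_ne_zero_of_transcendental x hx t htr,
      exists_eq_smul_D_of_transcendental x hx t htr⟩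
  · obtain ⟨r, b, hb, hg⟩ := hgen t ht
    refine deriv_bounded v (by rw [ht]; norm_num) δ ?_ b hb hg
    rw [hδ]
    exact v.toValuationSubring.one_mem

end good

section main

variable [IsAlgClosed K] [CharZero K]

/-- **Riemann–Hurwitz, fibre-count form.**  `A` is any finite set of `a : K` outside which the
fibre of `x` over `a` has the full number `n = [F : K(x)]` of places. -/
theorem genus_eq_of_fibres [HasCanonicalDivisor (K := K) (F := F)]
    (x : F) (hx : Transcendental K x) [FiniteDimensional K⟮x⟯ F]
    (hres : ∀ v : Place K F, HRes v)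
    (hgen : ∀ (v : Place K F) (t : F), v.ord t = 1 → HGen v t)
    (hdeg : ∀ v : Place K F, v.deg = 1)
    (hfin : ∀ y : F, Transcendental K y → {v : Place K F | 0 < v.ord y}.Finite)
    (hsum : ∀ (y : F) (hy : Transcendental K y),
      ∑ v ∈ (hfin y hy).toFinset, v.ord y = (Module.finrank K⟮y⟯ F : ℤ))
    (A : Finset K)
    (hA : ∀ a : K, a ∉ A →
      Nat.card {v : Place K F | 0 < v.ord (x - algebraMap K F a)} = Module.finrank K⟮x⟯ F) :
    AlgebraicCurve.genus K F =
      (∑ a ∈ A, ((Module.finrank K⟮x⟯ F : ℤ) -
          Nat.card {v : Place K F | 0 < v.ord (x - algebraMap K F a)})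
        - Module.finrank K⟮x⟯ F - Nat.card {v : Place K F | v.ord x < 0} + 2).toNat / 2 := by
  classical
  set n := Module.finrank K⟮x⟯ F with hn
  have hgood : ∀ v : Place K F, GoodPlace v := fun v =>
    goodPlace_of x hx v (hres v) (hgen v)
  have hprin := (FFPrin.hasPrincipalDivisors_of hdeg hfin hsum).exists_divisor
  have hxa : ∀ a : K, Transcendental K (x - algebraMap K F a) :=
    fun a => transcendental_sub_const hx a
  have hxinv : Transcendental K x⁻¹ := FFPrin.transcendental_inv hx
  set Z : K → Finset (Place K F) := fun a => (hfin _ (hxa a)).toFinset with hZdef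
  have hZ : ∀ a v, v ∈ Z a ↔ 0 < v.ord (x - algebraMap K F a) := by
    intro a v
    simp [hZdef]
  have hZsum : ∀ a, ∑ v ∈ Z a, v.ord (x - algebraMap K F a) = n := by
    intro a
    have := hsum _ (hxa a)
    rw [finrank_adjoin_sub_const] at this
    exact this
  set Pinf : Finset (Place K F) := (hfin _ hxinv).toFinset with hPdef
  have hP : ∀ v, v ∈ Pinf ↔ v.ord x < 0 := by
    intro v
    simp only [hPdef, Set.Finite.mem_toFinset, Set.mem_ofPred_eq, Place.ord_inv]
    omega
  have hPsum : ∑ v ∈ Pinf, v.ord x = -(n : ℤ) := by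
    have h := hsum _ hxinv
    rw [FFPrin.finrank_adjoin_inv] at h
    rw [← h, ← Finset.sum_neg_distrib]
    apply Finset.sum_congr rfl
    intro v _
    rw [Place.ord_inv, neg_neg]
  have hcardZ : ∀ a, Nat.card {v : Place K F | 0 < v.ord (x - algebraMap K F a)} =
      (Z a).card := by
    intro a
    rw [Nat.card_coe_set_eq, Set.ncard_eq_toFinset_card _ (hfin _ (hxa a))]
  have hcardP : Nat.card {v : Place K F | v.ord x < 0} = Pinf.card := by
    have hset : {v : Place K F | v.ord x < 0} = {v : Place K F | 0 < v.ord x⁻¹} := by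
      ext v
      simp only [Set.mem_ofPred_eq, Place.ord_inv]
      omega
    rw [hset, Nat.card_coe_set_eq, Set.ncard_eq_toFinset_card _ (hfin _ hxinv)]
  have hA' : ∀ a, a ∉ A → ∀ v ∈ Z a, v.ord (x - algebraMap K F a) = 1 := by
    intro a ha v hv
    have hc : (Z a).card = n := by rw [← hcardZ a, hA a ha]
    have hpos : ∀ w ∈ Z a, 1 ≤ w.ord (x - algebraMap K F a) := fun w hw => (hZ a w).mp hw
    by_contra hne
    have hlt : 1 < v.ord (x - algebraMap K F a) := lt_of_le_of_ne (hpos v hv) (Ne.symm hne)
    have h1 : ∑ w ∈ Z a, (1 : ℤ) < ∑ w ∈ Z a, w.ord (x - algebraMap K F a) :=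
      Finset.sum_lt_sum hpos ⟨v, hv, hlt⟩
    rw [hZsum a] at h1
    simp only [Finset.sum_const, nsmul_eq_mul, mul_one] at h1
    rw [hc] at h1
    exact lt_irrefl _ h1
  have hspan := exists_eq_smul_D_of_transcendental x hx x hx
  have hDx := D_ne_zero_of_transcendental x hx x hx
  rw [genus_eq_of_hurwitz x n hgood hdeg hprin hDx hspan Z hZ hZsum Pinf hP hPsum A hA']
  simp only [hcardZ, hcardP]

/-- **Riemann–Hurwitz with two branch values** `a₀ ≠ a₁` (and `∞`): the shape consumed by
`OrbitCount.genus_of_degree`. -/
theorem genus_eq_of_two_fibres [HasCanonicalDivisor (K := K) (F := F)]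
    (x : F) (hx : Transcendental K x) [FiniteDimensional K⟮x⟯ F]
    (hres : ∀ v : Place K F, HRes v)
    (hgen : ∀ (v : Place K F) (t : F), v.ord t = 1 → HGen v t)
    (hdeg : ∀ v : Place K F, v.deg = 1)
    (hfin : ∀ y : F, Transcendental K y → {v : Place K F | 0 < v.ord y}.Finite)
    (hsum : ∀ (y : F) (hy : Transcendental K y),
      ∑ v ∈ (hfin y hy).toFinset, v.ord y = (Module.finrank K⟮y⟯ F : ℤ))
    (a₀ a₁ : K) (h01 : a₀ ≠ a₁)
    (hA : ∀ a : K, a ≠ a₀ → a ≠ a₁ →
      Nat.card {v : Place K F | 0 < v.ord (x - algebraMap K F a)} = Module.finrank K⟮x⟯ F) :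
    AlgebraicCurve.genus K F =
      ((((Module.finrank K⟮x⟯ F : ℤ) -
          Nat.card {v : Place K F | 0 < v.ord (x - algebraMap K F a₀)}) +
        ((Module.finrank K⟮x⟯ F : ℤ) -
          Nat.card {v : Place K F | 0 < v.ord (x - algebraMap K F a₁)}))
        - Module.finrank K⟮x⟯ F - Nat.card {v : Place K F | v.ord x < 0} + 2).toNat / 2 := by
  classical
  have h := genus_eq_of_fibres x hx hres hgen hdeg hfin hsum {a₀, a₁} (by
    intro a ha
    rw [Finset.mem_insert, Finset.mem_singleton, not_or] at ha
    exact hA a ha.1 ha.2)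
  rw [h, Finset.sum_pair h01]

end main

end Fermat.Agent.S24.FFGlue
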