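import Mathlib
import Fermat.Prelude.Def_AlgebraicCurve_DivisorClassGroup

set_option autoImplicit false

namespace Fermat.Agent.S24

open AlgebraicCurve IsDedekindDomain WithZero

section OrdUnique

variable {K F : Type*} [Field K] [Field F] [Algebra K F]

/-- A normalized additive "order" function with the same valuation ring as a place is `ord`. -/
theorem ord_eq_of_normalized (v : Place K F) (φ : F → ℤ)
    (hmul : ∀ f g : F, f ≠ 0 → g ≠ 0 → φ (f * g) = φ f + φ g)
    (hmem : ∀ f : F, f ≠ 0 → (0 ≤ φ f ↔ f ∈ v.toValuationSubring))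
    (hnorm : ∃ f : F, f ≠ 0 ∧ φ f = 1) :
    ∀ f : F, f ≠ 0 → v.ord f = φ f := by
  obtain ⟨π, hπ⟩ := IsDiscreteValuationRing.exists_irreducible v.toValuationSubring
  have hπ0 : (π : F) ≠ 0 := by
    simpa [ne_eq, ZeroMemClass.coe_eq_zero] using hπ.ne_zero
  have h1 : φ 1 = 0 := by
    have := hmul 1 1 one_ne_zero one_ne_zero
    rw [mul_one] at this
    omega
  have hinv : ∀ f : F, f ≠ 0 → φ f⁻¹ = -φ f := by
    intro f hf
    have := hmul f f⁻¹ hf (inv_ne_zero hf)
    rw [mul_inv_cancel₀ hf, h1] at this
    omega
  have hunit : ∀ u : v.toValuationSubringˣ, φ ((u : v.toValuationSubring) : F) = 0 := by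
    intro u
    have hu0 : ((u : v.toValuationSubring) : F) ≠ 0 := by
      simp [ne_eq, ZeroMemClass.coe_eq_zero]
    have ha : 0 ≤ φ ((u : v.toValuationSubring) : F) :=
      (hmem _ hu0).mpr (u : v.toValuationSubring).2
    have hb : 0 ≤ φ (((u : v.toValuationSubring) : F)⁻¹) := by
      refine (hmem _ (inv_ne_zero hu0)).mpr ?_
      have : (((u⁻¹ : v.toValuationSubringˣ) : v.toValuationSubring) : F)
          = ((u : v.toValuationSubring) : F)⁻¹ := by
        apply eq_inv_of_mul_eq_one_left
        have h := congrArg (fun z : v.toValuationSubring => (z : F)) (u.inv_mul)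
        exact h
      rw [← this]
      exact ((u⁻¹ : v.toValuationSubringˣ) : v.toValuationSubring).2
    rw [hinv _ hu0] at hb
    omega
  have hπpos : 0 < φ (π : F) := by
    have ha : 0 ≤ φ (π : F) := (hmem _ hπ0).mpr π.2
    have hb : ¬ 0 ≤ φ ((π : F)⁻¹) := by
      rw [hmem _ (inv_ne_zero hπ0)]
      intro hmem'
      apply hπ.not_isUnit
      refine isUnit_iff_exists_inv.mpr ⟨⟨(π : F)⁻¹, hmem'⟩, ?_⟩
      ext
      simp [hπ0]
    rw [hinv _ hπ0] at hb
    omega
  have hpow : ∀ n : ℕ, φ ((π : F) ^ n) = n * φ (π : F) := by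
    intro n
    induction n with
    | zero => simp [h1]
    | succ n ih =>
      rw [pow_succ, hmul _ _ (pow_ne_zero n hπ0) hπ0, ih]
      push_cast
      ring
  have hzpow : ∀ n : ℤ, φ ((π : F) ^ n) = n * φ (π : F) := by
    intro n
    obtain ⟨m, rfl | rfl⟩ := n.eq_nat_or_neg
    · rw [zpow_natCast, hpow]
    · rw [zpow_neg, zpow_natCast, hinv _ (pow_ne_zero m hπ0), hpow]
      ring
  have hform : ∀ f : F, f ≠ 0 → φ f = v.ord f * φ (π : F) := by
    intro f hf
    obtain ⟨u, hu⟩ := v.exists_unit_mul_zpow hf hπ
    have hu0 : ((u : v.toValuationSubring) : F) ≠ 0 := by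
      simp [ne_eq, ZeroMemClass.coe_eq_zero]
    conv_lhs => rw [hu]
    rw [hmul _ _ hu0 (zpow_ne_zero _ hπ0), hunit, zero_add, hzpow]
  obtain ⟨f0, hf0, hf01⟩ := hnorm
  have hc : φ (π : F) = 1 := by
    have := hform f0 hf0
    rw [hf01] at this
    have hdvd : φ (π : F) ∣ 1 := ⟨v.ord f0, by rw [this]; ring⟩
    exact Int.eq_one_of_dvd_one hπpos.le hdvd
  intro f hf
  rw [hform f hf, hc, mul_one]

end OrdUnique

section Bridge

variable {K F : Type*} [Field K] [Field F] [Algebra K F]
variable {B : Type*} [CommRing B] [IsDedekindDomain B] [Algebra B F] [IsFractionRing B F]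
  [Algebra K B] [IsScalarTower K B F]

/-- The place of `F` attached to a nonzero prime of a Dedekind model `B` of `F`. -/
noncomputable def placeOfPrime (P : HeightOneSpectrum B) : Place K F where
  toValuationSubring := (P.valuation F).valuationSubring
  algebraMap_mem' a := by
    rw [IsScalarTower.algebraMap_apply K B F]
    exact P.valuation_le_one _
  ne_top' := by
    simp only [ne_eq, Valuation.valuationSubring_eq_top_iff, not_not]
    infer_instance
  isPrincipalIdealRing' := by
    rw [← HeightOneSpectrum.valuationSubringAtPrime_eq_valuationSubring]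
    have : IsDiscreteValuationRing (HeightOneSpectrum.valuationSubringAtPrime F P) :=
      IsLocalization.AtPrime.isDiscreteValuationRing_of_dedekind_domain B P.ne_bot
        (HeightOneSpectrum.valuationSubringAtPrime F P)
    infer_instance

@[simp]
theorem placeOfPrime_toValuationSubring (P : HeightOneSpectrum B) :
    (placeOfPrime (K := K) (F := F) P).toValuationSubring = (P.valuation F).valuationSubring :=
  rfl

theorem mem_placeOfPrime_iff (P : HeightOneSpectrum B) (f : F) :
    f ∈ (placeOfPrime (K := K) (F := F) P).toValuationSubring ↔ P.valuation F f ≤ 1 :=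
  Iff.rfl

/-- `ord` at the place of a prime is minus the logarithm of the adic valuation. -/
theorem ord_placeOfPrime (P : HeightOneSpectrum B) (f : F) (hf : f ≠ 0) :
    (placeOfPrime (K := K) (F := F) P).ord f = -(WithZero.log (P.valuation F f)) := by
  refine ord_eq_of_normalized _ (fun f => -(WithZero.log (P.valuation F f))) ?_ ?_ ?_ f hf
  · intro f g hf hg
    have h1 : P.valuation F f ≠ 0 := (Valuation.ne_zero_iff _).mpr hf
    have h2 : P.valuation F g ≠ 0 := (Valuation.ne_zero_iff _).mpr hg
    simp only [map_mul]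
    rw [WithZero.log_mul h1 h2]
    ring
  · intro f hf
    have h1 : P.valuation F f ≠ 0 := (Valuation.ne_zero_iff _).mpr hf
    rw [mem_placeOfPrime_iff, ← WithZero.log_le_log h1 one_ne_zero, WithZero.log_one]
    omega
  · obtain ⟨π, hπ⟩ := P.valuation_exists_uniformizer F
    refine ⟨π, ?_, ?_⟩
    · intro h
      rw [h, map_zero] at hπ
      exact absurd hπ.symm (by simp)
    · simp [hπ]

/-- The ring hom `B → O_v` for a place whose valuation ring contains `B`. -/
noncomputable def toPlaceRing (v : Place K F)
    (hB : ∀ b : B, algebraMap B F b ∈ v.toValuationSubring) : B →+* v.toValuationSubring :=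
  (algebraMap B F).codRestrict v.toValuationSubring.toSubring hB

omit [IsDedekindDomain B] [IsFractionRing B F] [Algebra K B] [IsScalarTower K B F] in
@[simp]
theorem coe_toPlaceRing (v : Place K F)
    (hB : ∀ b : B, algebraMap B F b ∈ v.toValuationSubring) (b : B) :
    ((toPlaceRing v hB b : v.toValuationSubring) : F) = algebraMap B F b := rfl

/-- The prime of `B` cut out by a place whose valuation ring contains `B`. -/
noncomputable def primeOfPlace (v : Place K F)
    (hB : ∀ b : B, algebraMap B F b ∈ v.toValuationSubring) : HeightOneSpectrum B where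
  asIdeal := Ideal.comap (toPlaceRing v hB) (IsLocalRing.maximalIdeal v.toValuationSubring)
  isPrime := Ideal.comap_isPrime _ _
  ne_bot := by
    intro hbot
    apply v.ne_top'
    refine SetLike.ext fun x => ⟨fun _ => ValuationSubring.mem_top x, fun _ => ?_⟩
    obtain ⟨a, b, hb, rfl⟩ := IsFractionRing.div_surjective (A := B) x
    have hb0 : b ≠ 0 := nonZeroDivisors.ne_zero hb
    have hbu : IsUnit (toPlaceRing v hB b) := by
      by_contra hnu
      have : b ∈ Ideal.comap (toPlaceRing v hB) (IsLocalRing.maximalIdeal v.toValuationSubring) :=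
        (IsLocalRing.mem_maximalIdeal _).mpr hnu
      rw [hbot] at this
      exact hb0 ((Ideal.mem_bot).mp this)
    obtain ⟨u, hu⟩ := hbu
    have hinv : ((u⁻¹ : v.toValuationSubringˣ) : v.toValuationSubring).1
        = (algebraMap B F b)⁻¹ := by
      apply eq_inv_of_mul_eq_one_left
      have h := congrArg (fun z : v.toValuationSubring => (z : F)) (u.inv_mul)
      simp only [hu] at h
      exact h
    rw [div_eq_mul_inv, ← hinv]
    exact v.toValuationSubring.mul_mem _ _ (hB a) (SetLike.coe_mem _)

omit [Algebra K B] [IsScalarTower K B F] in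
theorem mem_primeOfPlace_iff (v : Place K F)
    (hB : ∀ b : B, algebraMap B F b ∈ v.toValuationSubring) (b : B) :
    b ∈ (primeOfPlace v hB).asIdeal ↔ ¬ IsUnit (toPlaceRing v hB b) := by
  simp [primeOfPlace, IsLocalRing.mem_maximalIdeal]

theorem placeOfPrime_primeOfPlace (v : Place K F)
    (hB : ∀ b : B, algebraMap B F b ∈ v.toValuationSubring) :
    placeOfPrime (K := K) (primeOfPlace v hB) = v := by
  apply Place.ext
  rw [placeOfPrime_toValuationSubring,
    ← HeightOneSpectrum.valuationSubringAtPrime_eq_valuationSubring]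
  refine ValuationSubring.eq_of_le_of_ne_top _ ?_ v.ne_top'
  rintro x ⟨a, s, hs, rfl⟩
  have hsu : IsUnit (toPlaceRing v hB s) := by
    by_contra hnu
    exact hs ((mem_primeOfPlace_iff v hB s).mpr hnu)
  obtain ⟨u, hu⟩ := hsu
  have hinv : ((u⁻¹ : v.toValuationSubringˣ) : v.toValuationSubring).1
      = (algebraMap B F s)⁻¹ := by
    apply eq_inv_of_mul_eq_one_left
    have h := congrArg (fun z : v.toValuationSubring => (z : F)) (u.inv_mul)
    simp only [hu] at h
    exact h
  show algebraMap B F a * (algebraMap B F s)⁻¹ ∈ v.toValuationSubring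
  rw [← hinv]
  exact v.toValuationSubring.mul_mem _ _ (hB a) (SetLike.coe_mem _)

theorem algebraMap_mem_placeOfPrime (P : HeightOneSpectrum B) (b : B) :
    algebraMap B F b ∈ (placeOfPrime (K := K) (F := F) P).toValuationSubring :=
  P.valuation_le_one b

theorem primeOfPlace_placeOfPrime (P : HeightOneSpectrum B) :
    primeOfPlace (placeOfPrime (K := K) (F := F) P) (algebraMap_mem_placeOfPrime P) = P := by
  apply HeightOneSpectrum.ext
  ext b
  rw [mem_primeOfPlace_iff, ← HeightOneSpectrum.valuation_lt_one_iff_mem (K := F)]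
  constructor
  · intro hnu
    by_contra hlt
    apply hnu
    have h1 : P.valuation F (algebraMap B F b) = 1 :=
      le_antisymm (P.valuation_le_one b) (not_lt.mp hlt)
    have hb0 : algebraMap B F b ≠ 0 := by
      intro h0
      rw [h0, map_zero] at h1
      exact zero_ne_one h1
    refine isUnit_iff_exists_inv.mpr ⟨⟨(algebraMap B F b)⁻¹, ?_⟩, ?_⟩
    · show P.valuation F (algebraMap B F b)⁻¹ ≤ 1
      rw [map_inv₀, h1, inv_one]
    · apply Subtype.ext
      show algebraMap B F b * (algebraMap B F b)⁻¹ = 1
      exact mul_inv_cancel₀ hb0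
  · intro hlt hu
    obtain ⟨w, hw⟩ := isUnit_iff_exists_inv.mp hu
    have h := congrArg (fun z : (placeOfPrime (K := K) (F := F) P).toValuationSubring => (z : F)) hw
    simp only [MulMemClass.coe_mul, coe_toPlaceRing, OneMemClass.coe_one] at h
    have hw1 : P.valuation F (w : F) ≤ 1 := w.2
    have : P.valuation F (algebraMap B F b * (w : F)) < 1 := by
      rw [map_mul]
      calc P.valuation F (algebraMap B F b) * P.valuation F (w : F)
          ≤ P.valuation F (algebraMap B F b) * 1 := by gcongr
        _ < 1 := by rwa [mul_one]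
    rw [h, map_one] at this
    exact lt_irrefl _ this

end Bridge

end Fermat.Agent.S24
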