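import Mathlib
import Fermat.Agent.S24.FFBridge

set_option autoImplicit false

namespace Fermat.Agent.S24

open AlgebraicCurve IsDedekindDomain WithZero

section Core

variable (K A : Type*) {B F : Type*} [Field K] [IsAlgClosed K] [CommRing A] [IsDomain A]
  [CommRing B] [IsDedekindDomain B] [Field F] [Algebra A B] [Algebra B F] [Algebra A F]
  [IsScalarTower A B F] [IsFractionRing B F] [Module.Finite A B]
  [Algebra K A] [Algebra K B] [Algebra K F] [IsScalarTower K A B] [IsScalarTower K B F]
  [Algebra.FiniteType K A]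

omit [IsDomain A] in
include A in
/-- Residue fields of a Dedekind model of finite type over an algebraically closed field
are the constant field. -/
theorem residue_bijective_of_prime (P : HeightOneSpectrum B) :
    Function.Bijective (algebraMap K (B ⧸ P.asIdeal)) := by
  have hmax : P.asIdeal.IsMaximal := P.isMaximal
  let _ : Field (B ⧸ P.asIdeal) := Ideal.Quotient.field P.asIdeal
  have hB : Algebra.FiniteType K B :=
    Algebra.FiniteType.trans (R := K) (S := A) (A := B) inferInstance inferInstance
  have hq : Algebra.FiniteType K (B ⧸ P.asIdeal) :=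
    Algebra.FiniteType.of_surjective (Ideal.Quotient.mkₐ K P.asIdeal)
      (Ideal.Quotient.mkₐ_surjective K P.asIdeal)
  have hfin : Module.Finite K (B ⧸ P.asIdeal) :=
    finite_of_finite_type_of_isJacobsonRing K (B ⧸ P.asIdeal)
  have : Algebra.IsIntegral K (B ⧸ P.asIdeal) := Algebra.IsIntegral.of_finite K _
  exact IsAlgClosed.algebraMap_bijective_of_isIntegral

omit [IsDomain A] [Algebra A F] [IsScalarTower A B F] in
include A in
/-- Every element of the valuation ring of a prime is congruent to a constant. -/
theorem exists_const_sub_lt (P : HeightOneSpectrum B) (z : F) (hz : P.valuation F z ≤ 1) :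
    ∃ c : K, P.valuation F (z - algebraMap K F c) < 1 := by
  obtain ⟨n, d, hnd⟩ := P.exists_primeCompl_mul_eq_of_integer z hz
  have hbij := residue_bijective_of_prime K A P
  obtain ⟨cn, hcn⟩ := hbij.2 (Ideal.Quotient.mk P.asIdeal n)
  obtain ⟨cd, hcd⟩ := hbij.2 (Ideal.Quotient.mk P.asIdeal (d : B))
  have hdP : (d : B) ∉ P.asIdeal := d.2
  have hcd0 : cd ≠ 0 := by
    rintro rfl
    rw [map_zero] at hcd
    exact hdP (Ideal.Quotient.eq_zero_iff_mem.mp hcd.symm)
  have hn' : n - algebraMap K B cn ∈ P.asIdeal := by
    rw [← Ideal.Quotient.eq_zero_iff_mem, map_sub, ← hcn]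
    rw [IsScalarTower.algebraMap_apply K B (B ⧸ P.asIdeal), Ideal.Quotient.algebraMap_eq,
      sub_self]
  have hd' : (d : B) - algebraMap K B cd ∈ P.asIdeal := by
    rw [← Ideal.Quotient.eq_zero_iff_mem, map_sub, ← hcd]
    rw [IsScalarTower.algebraMap_apply K B (B ⧸ P.asIdeal), Ideal.Quotient.algebraMap_eq,
      sub_self]
  refine ⟨cn / cd, ?_⟩
  have hdF : algebraMap B F (d : B) ≠ 0 := by
    intro h0
    have : (d : B) = 0 := (IsFractionRing.injective B F) (by rw [h0, map_zero])
    exact hdP (this ▸ P.asIdeal.zero_mem)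
  have hcdF : algebraMap K F cd ≠ 0 := (map_ne_zero_iff _ (algebraMap K F).injective).mpr hcd0
  have hkey : (z - algebraMap K F (cn / cd)) * (algebraMap B F (d : B) * algebraMap K F cd)
      = algebraMap B F ((n - algebraMap K B cn) * algebraMap K B cd
          - algebraMap K B cn * ((d : B) - algebraMap K B cd)) := by
    have e1 : z * algebraMap B F (d : B) = algebraMap B F n := hnd
    simp only [map_sub, map_mul, map_div₀, ← IsScalarTower.algebraMap_apply K B F]
    field_simp
    linear_combination (algebraMap K F cd) * e1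
  have hnum : P.valuation F (algebraMap B F ((n - algebraMap K B cn) * algebraMap K B cd
          - algebraMap K B cn * ((d : B) - algebraMap K B cd))) < 1 := by
    rw [HeightOneSpectrum.valuation_lt_one_iff_mem]
    exact P.asIdeal.sub_mem (P.asIdeal.mul_mem_right _ hn') (P.asIdeal.mul_mem_left _ hd')
  have hden : P.valuation F (algebraMap B F (d : B) * algebraMap K F cd) = 1 := by
    rw [map_mul]
    have h1 : P.valuation F (algebraMap B F (d : B)) = 1 :=
      P.valuation_eq_one_iff_notMem.mpr hdP
    have h2 : P.valuation F (algebraMap K F cd) = 1 := by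
      rw [IsScalarTower.algebraMap_apply K B F]
      apply P.valuation_eq_one_iff_notMem.mpr
      intro hmem
      have : Ideal.Quotient.mk P.asIdeal (algebraMap K B cd) = 0 :=
        Ideal.Quotient.eq_zero_iff_mem.mpr hmem
      rw [← Ideal.Quotient.algebraMap_eq, ← IsScalarTower.algebraMap_apply K B (B ⧸ P.asIdeal),
        hcd] at this
      exact hdP (Ideal.Quotient.eq_zero_iff_mem.mp this)
    rw [h1, h2, one_mul]
  have := congrArg (P.valuation F) hkey
  rw [map_mul, hden, mul_one] at this
  rw [this]
  exact hnum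

omit [IsAlgClosed K] [IsDomain A] [Module.Finite A B] [Algebra K A] [IsScalarTower K A B]
  [Algebra.FiniteType K A] in
/-- `ord` of an element of the base ring at the place of a prime `P` of `B`
is the multiplicity of `P` in the ideal it generates. -/
theorem ord_placeOfPrime_algebraMap (P : HeightOneSpectrum B) (a : A) (ha : algebraMap A B a ≠ 0) :
    (placeOfPrime (K := K) (F := F) P).ord (algebraMap A F a)
      = (multiplicity P.asIdeal (Ideal.span {algebraMap A B a}) : ℤ) := by
  have hne : algebraMap A F a ≠ 0 := by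
    rw [IsScalarTower.algebraMap_apply A B F]
    exact (map_ne_zero_iff _ (IsFractionRing.injective B F)).mpr ha
  rw [ord_placeOfPrime P _ hne, IsScalarTower.algebraMap_apply A B F,
    HeightOneSpectrum.valuation_of_algebraMap, P.intValuation_eq_exp_neg_multiplicity ha]
  simp

omit [IsDomain A]

include K in
/-- all inertia degrees are one. -/
theorem inertiaDeg_eq_one (p : Ideal A) [p.IsMaximal] (q : Ideal B) [q.IsMaximal]
    [q.LiesOver p] (hq : q ≠ ⊥) : q.inertiaDeg A = 1 := by
  rw [Ideal.inertiaDeg_eq_of_isMaximal p q]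
  let P : HeightOneSpectrum B := ⟨q, inferInstance, hq⟩
  have hbij := residue_bijective_of_prime K A P
  let _ : Field (A ⧸ p) := Ideal.Quotient.field p
  let _ : Field (B ⧸ q) := Ideal.Quotient.field q
  rw [finrank_eq_one_iff_of_nonzero' (1 : B ⧸ q) one_ne_zero]
  intro w
  obtain ⟨c, hc⟩ := hbij.2 w
  refine ⟨algebraMap K (A ⧸ p) c, ?_⟩
  rw [Algebra.smul_def, mul_one, ← hc]
  rw [IsScalarTower.algebraMap_apply K A (A ⧸ p), IsScalarTower.algebraMap_apply K B (B ⧸ q),
    IsScalarTower.algebraMap_apply K A B]
  rfl

variable [IsDedekindDomain A] [Module.IsTorsionFree A B]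

include K in
/-- Fundamental identity with all residue degrees one, for a principal prime. -/
theorem sum_multiplicity_eq_finrank (π : A) (hπ : Prime π) :
    ∃ s : Finset (HeightOneSpectrum B),
      (∀ P : HeightOneSpectrum B, P ∈ s ↔ algebraMap A B π ∈ P.asIdeal) ∧
      ∑ P ∈ s, multiplicity P.asIdeal (Ideal.span {algebraMap A B π}) = Module.finrank A B := by
  classical
  set p : Ideal A := Ideal.span {π} with hp
  have hp0 : p ≠ ⊥ := by
    rw [hp, Ne, Ideal.span_singleton_eq_bot]
    exact hπ.ne_zero
  have hpp : p.IsPrime := (Ideal.span_singleton_prime hπ.ne_zero).mpr hπ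
  have hpm : p.IsMaximal := hpp.isMaximal hp0
  have hint : Algebra.IsIntegral A B := Algebra.IsIntegral.of_finite A B
  have hmap : p.map (algebraMap A B) = Ideal.span {algebraMap A B π} := by
    rw [hp, Ideal.map_span, Set.image_singleton]
  have hmap0 : p.map (algebraMap A B) ≠ ⊥ := Ideal.map_ne_bot_of_ne_bot hp0
  have key : ∑ q : p.primesOver B,
      multiplicity q.1 (Ideal.span {algebraMap A B π}) = Module.finrank A B := by
    rw [← Ideal.sum_ramification_inertia_eq_finrank p B]
    refine Finset.sum_congr rfl fun q _ => ?_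
    have hqp : q.1.IsPrime := q.2.1
    have hql : q.1.LiesOver p := q.2.2
    have hq0 : q.1 ≠ ⊥ := Ideal.ne_bot_of_mem_primesOver hp0 q.2
    have hqm : q.1.IsMaximal := hqp.isMaximal hq0
    rw [inertiaDeg_eq_one K A p q.1 hq0, mul_one,
      Ideal.IsDedekindDomain.ramificationIdx_eq_multiplicity p q.1 hmap0, hmap]
  let e := HeightOneSpectrum.equivPrimesOver B hp0
  let emb : (p.primesOver B) ↪ HeightOneSpectrum B :=
    ⟨fun q => (e.symm q).1, fun q q' h => e.symm.injective (Subtype.ext h)⟩
  refine ⟨Finset.univ.map emb, ?_, ?_⟩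
  · intro P
    simp only [Finset.mem_map, Finset.mem_univ, true_and]
    constructor
    · rintro ⟨q, rfl⟩
      have hdvd : (e.symm q).1.asIdeal ∣ p.map (algebraMap A B) := (e.symm q).2
      have hle := Ideal.dvd_iff_le.mp hdvd
      exact hle (Ideal.mem_map_of_mem _ (Ideal.mem_span_singleton_self π))
    · intro hmem
      have hdvd : P.asIdeal ∣ p.map (algebraMap A B) := by
        rw [hmap, Ideal.dvd_iff_le, Ideal.span_singleton_le_iff_mem]
        exact hmem
      refine ⟨e ⟨P, hdvd⟩, ?_⟩
      show (e.symm (e ⟨P, hdvd⟩)).1 = P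
      rw [Equiv.symm_apply_apply]
  · rw [Finset.sum_map, ← key]
    refine Finset.sum_congr rfl fun q _ => ?_
    have : (e.symm q).1.asIdeal = q.1 := by
      have h := HeightOneSpectrum.equivPrimesOver_apply B hp0 (e.symm q)
      rw [Equiv.apply_symm_apply] at h
      exact h.symm
    show multiplicity (e.symm q).1.asIdeal _ = _
    rw [this]

/-- Fundamental identity in terms of `ord` at the places of the primes. -/
theorem sum_ord_eq_finrank (π : A) (hπ : Prime π) :
    ∃ s : Finset (HeightOneSpectrum B),
      (∀ P : HeightOneSpectrum B, P ∈ s ↔ algebraMap A B π ∈ P.asIdeal) ∧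
      ∑ P ∈ s, (placeOfPrime (K := K) (F := F) P).ord (algebraMap A F π)
        = (Module.finrank A B : ℤ) := by
  obtain ⟨s, hs, hsum⟩ := sum_multiplicity_eq_finrank K A (B := B) π hπ
  refine ⟨s, hs, ?_⟩
  have hne : algebraMap A B π ≠ 0 :=
    (map_ne_zero_iff _ (FaithfulSMul.algebraMap_injective A B)).mpr hπ.ne_zero
  rw [← hsum]
  push_cast
  refine Finset.sum_congr rfl fun P _ => ?_
  exact ord_placeOfPrime_algebraMap K A P π hne

end Core

end Fermat.Agent.S24
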