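import Mathlib
import Fermat.Agent.S24.FFCore

set_option autoImplicit false

noncomputable section

namespace Fermat.Agent.S24

open AlgebraicCurve IsDedekindDomain WithZero Polynomial IntermediateField

/-- `K[X]` viewed as the coordinate ring of the affine line with coordinate `y : F`. -/
def PolyOf (K : Type*) {F : Type*} [Field K] [Field F] [Algebra K F] (_y : F) : Type _ := K[X]

namespace PolyOf

variable (K : Type*) {F : Type*} [Field K] [Field F] [Algebra K F] (y : F)

noncomputable instance : CommRing (PolyOf K y) := inferInstanceAs (CommRing K[X])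
instance : IsDomain (PolyOf K y) := inferInstanceAs (IsDomain K[X])
instance : IsPrincipalIdealRing (PolyOf K y) := inferInstanceAs (IsPrincipalIdealRing K[X])
noncomputable instance : Algebra K (PolyOf K y) := inferInstanceAs (Algebra K K[X])
instance : Algebra.FiniteType K (PolyOf K y) := inferInstanceAs (Algebra.FiniteType K K[X])

/-- the coordinate function as an element of `PolyOf K y`. -/
noncomputable def coord : PolyOf K y := (X : K[X])

/-- view a polynomial as an element of `PolyOf K y`. -/
def ofPoly (p : K[X]) : PolyOf K y := p

noncomputable instance algF : Algebra (PolyOf K y) F := (aeval y : K[X] →ₐ[K] F).toRingHom.toAlgebra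

noncomputable instance algE : Algebra (PolyOf K y) K⟮y⟯ :=
  (aeval (AdjoinSimple.gen K y) : K[X] →ₐ[K] K⟮y⟯).toRingHom.toAlgebra

theorem algebraMap_F_apply (p : K[X]) : algebraMap (PolyOf K y) F (ofPoly K y p) = aeval y p := rfl

theorem algebraMap_E_apply (p : K[X]) :
    algebraMap (PolyOf K y) K⟮y⟯ (ofPoly K y p) = aeval (AdjoinSimple.gen K y) p := rfl

@[simp]
theorem algebraMap_coord : algebraMap (PolyOf K y) F (coord K y) = y := by
  show aeval y (X : K[X]) = y
  simp

theorem aeval_eq_algebraMap_aeval_gen (p : K[X]) :
    aeval y p = algebraMap K⟮y⟯ F (aeval (AdjoinSimple.gen K y) p) := by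
  rw [← aeval_algebraMap_apply]
  simp

instance : IsScalarTower (PolyOf K y) K⟮y⟯ F :=
  IsScalarTower.of_algebraMap_eq (fun p => aeval_eq_algebraMap_aeval_gen K y p)

instance algRat : Algebra (PolyOf K y) (RatFunc K) := inferInstanceAs (Algebra K[X] (RatFunc K))

instance : IsFractionRing (PolyOf K y) (RatFunc K) :=
  inferInstanceAs (IsFractionRing K[X] (RatFunc K))

instance : IsScalarTower K (PolyOf K y) F := IsScalarTower.of_algebraMap_eq (fun c => by
  show algebraMap K F c = aeval y (algebraMap K K[X] c)
  simp)

instance [hy : Fact (Transcendental K y)] : IsFractionRing (PolyOf K y) K⟮y⟯ := by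
  let e : RatFunc K ≃ₐ[PolyOf K y] K⟮y⟯ :=
    { (RatFunc.algEquivOfTranscendental y hy.out).toRingEquiv with
      commutes' := fun p =>
        RatFunc.algEquivOfTranscendental_algebraMap y hy.out (p : K[X]) }
  exact IsLocalization.isLocalization_of_algEquiv _ e

theorem prime_coord : Prime (coord K y) := (prime_X : Prime (X : K[X]))

end PolyOf

section Model

variable (K : Type*) {F : Type*} [Field K] [Field F] [Algebra K F] (y : F)

/-- The Dedekind model of `F` over the `y`-line: integral closure of `K[y]` in `F`. -/
abbrev Bof : Subalgebra (PolyOf K y) F := integralClosure (PolyOf K y) F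

variable [CharZero K] [hy : Fact (Transcendental K y)] [FiniteDimensional K⟮y⟯ F]

instance : IsDedekindDomain (Bof K y) := integralClosure.isDedekindDomain (PolyOf K y) K⟮y⟯ F

instance : IsFractionRing (Bof K y) F :=
  integralClosure.isFractionRing_of_finite_extension K⟮y⟯ F

instance : Module.Finite (PolyOf K y) (Bof K y) :=
  IsIntegralClosure.finite (PolyOf K y) K⟮y⟯ F _

example : Algebra K (Bof K y) := inferInstance
example : IsScalarTower K (Bof K y) F := inferInstance
example : IsScalarTower K (PolyOf K y) (Bof K y) := inferInstance
instance : Module.IsTorsionFree (PolyOf K y) F := .trans_faithfulSMul (PolyOf K y) K⟮y⟯ F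
example : Module.IsTorsionFree (PolyOf K y) (Bof K y) := inferInstance
example : IsDedekindDomain (PolyOf K y) := inferInstance

end Model

end Fermat.Agent.S24

end
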