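import Mathlib
import Fermat.Agent.S24.FFModel

set_option autoImplicit false

namespace Fermat.Agent.S24

open AlgebraicCurve IsDedekindDomain WithZero Polynomial IntermediateField

section Basic

variable {K F : Type*} [Field K] [Field F] [Algebra K F]

theorem mem_iff_ord_nonneg (v : Place K F) {f : F} (hf : f ≠ 0) :
    f ∈ v.toValuationSubring ↔ 0 ≤ v.ord f := by
  obtain ⟨π, hπ⟩ := IsDiscreteValuationRing.exists_irreducible v.toValuationSubring
  have hπ0 : (π : F) ≠ 0 := by
    simpa [ne_eq, ZeroMemClass.coe_eq_zero] using hπ.ne_zero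
  obtain ⟨u, hu⟩ := v.exists_unit_mul_zpow hf hπ
  constructor
  · intro hmem
    by_contra hneg
    have hneg' : v.ord f < 0 := not_le.mp hneg
    -- π ^ (-ord f) * f = u, so π^(-ord f - 1) * f * π = u ... derive π is a unit
    have hpos : 0 < -v.ord f := by omega
    obtain ⟨n, hn⟩ := Int.eq_ofNat_of_zero_le hpos.le
    have hn1 : 1 ≤ n := by omega
    have hfu : f * (π : F) ^ n = ((u : v.toValuationSubring) : F) := by
      conv_lhs => rw [hu]
      rw [mul_assoc, ← zpow_natCast, ← zpow_add₀ hπ0, ← hn]
      simp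
    -- in the subring: ⟨f, hmem⟩ * π ^ n = u
    have hsub : (⟨f, hmem⟩ : v.toValuationSubring) * π ^ n = u := by
      apply Subtype.ext
      simpa using hfu
    have hπu : IsUnit (π ^ n) := isUnit_of_mul_isUnit_right (hsub ▸ u.isUnit)
    exact hπ.not_isUnit ((isUnit_pow_iff (by omega)).mp hπu)
  · intro hnn
    obtain ⟨n, hn⟩ := Int.eq_ofNat_of_zero_le hnn
    rw [hu, hn, zpow_natCast]
    exact v.toValuationSubring.mul_mem _ _ (SetLike.coe_mem _)
      (pow_mem (SetLike.coe_mem _) n)

theorem ord_pos_iff_mem_maximalIdeal (v : Place K F) {f : F} (hf : f ≠ 0) :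
    0 < v.ord f ↔ ∃ h : f ∈ v.toValuationSubring,
      (⟨f, h⟩ : v.toValuationSubring) ∈ IsLocalRing.maximalIdeal v.toValuationSubring := by
  obtain ⟨π, hπ⟩ := IsDiscreteValuationRing.exists_irreducible v.toValuationSubring
  have hπ0 : (π : F) ≠ 0 := by
    simpa [ne_eq, ZeroMemClass.coe_eq_zero] using hπ.ne_zero
  obtain ⟨u, hu⟩ := v.exists_unit_mul_zpow hf hπ
  constructor
  · intro hpos
    have hmem : f ∈ v.toValuationSubring := (mem_iff_ord_nonneg v hf).mpr hpos.le
    refine ⟨hmem, ?_⟩
    rw [IsLocalRing.mem_maximalIdeal, mem_nonunits_iff]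
    intro hunit
    obtain ⟨w, hw⟩ := hunit
    have : v.ord f = 0 := by
      have := v.ord_coe_unit w
      rw [hw] at this
      exact this
    omega
  · rintro ⟨hmem, hmax⟩
    have hnn : 0 ≤ v.ord f := (mem_iff_ord_nonneg v hf).mp hmem
    rcases hnn.lt_or_eq with h | h
    · exact h
    · exfalso
      rw [IsLocalRing.mem_maximalIdeal, mem_nonunits_iff] at hmax
      apply hmax
      have hfu : f = ((u : v.toValuationSubring) : F) := by
        rw [hu, ← h, zpow_zero, mul_one]
      have : (⟨f, hmem⟩ : v.toValuationSubring) = u := Subtype.ext hfu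
      rw [this]
      exact u.isUnit

end Basic

section Places

variable (K : Type*) {F : Type*} [Field K] [Field F] [Algebra K F] (y : F)
  [IsAlgClosed K] [CharZero K] [hy : Fact (Transcendental K y)] [FiniteDimensional K⟮y⟯ F]

omit [IsAlgClosed K] [CharZero K] hy [FiniteDimensional K⟮y⟯ F] in
/-- polynomial expressions in `y` lie in every valuation ring containing `y` and `K`. -/
theorem aeval_mem_of_mem (v : Place K F) (hyv : y ∈ v.toValuationSubring) (p : K[X]) :
    aeval y p ∈ v.toValuationSubring := by
  induction p using Polynomial.induction_on' with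
  | add p q hp hq => rw [map_add]; exact v.toValuationSubring.add_mem _ _ hp hq
  | monomial n a =>
    rw [aeval_monomial]
    exact v.toValuationSubring.mul_mem _ _ (v.algebraMap_mem' a) (pow_mem hyv n)

omit [IsAlgClosed K] [CharZero K] hy [FiniteDimensional K⟮y⟯ F] in
/-- the Dedekind model lies in every valuation ring containing `y`. -/
theorem Bof_le_of_mem (v : Place K F) (hyv : y ∈ v.toValuationSubring) (b : Bof K y) :
    algebraMap (Bof K y) F b ∈ v.toValuationSubring := by
  obtain ⟨p, hpm, hp0⟩ := b.2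
  let φ : PolyOf K y →+* v.toValuationSubring :=
    (algebraMap (PolyOf K y) F).codRestrict v.toValuationSubring.toSubring
      (fun a => aeval_mem_of_mem K y v hyv a)
  have hint : IsIntegral v.toValuationSubring (b : F) := by
    refine ⟨p.map φ, hpm.map φ, ?_⟩
    rw [Polynomial.eval₂_map]
    exact hp0
  obtain ⟨z, hz⟩ := IsIntegrallyClosed.isIntegral_iff.mp hint
  show (b : F) ∈ v.toValuationSubring
  rw [← hz]
  exact z.2

end Places

end Fermat.Agent.S24
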