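import Mathlib
import Fermat.Agent.S24.FFPlaces

/-!
# S24 package A1: zeros of a transcendental element

For `y : F` transcendental over `K` with `[F : K(y)]` finite, the places of `F` at which `y` is
integral are exactly the places of the primes of `Bof K y`; the zeros of `y` are finitely many and
`∑ ord_v y = [F : K(y)]`; every such place has residue field `K`.
-/

set_option autoImplicit false

open AlgebraicCurve IsDedekindDomain Polynomial IntermediateField

namespace Fermat.Agent.S24

section Zeros

variable (K : Type*) {F : Type*} [Field K] [Field F] [Algebra K F] (y : F)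
  [IsAlgClosed K] [CharZero K] [hy : Fact (Transcendental K y)] [FiniteDimensional K⟮y⟯ F]

omit [IsAlgClosed K] in
theorem placeOfPrime_injective :
    Function.Injective (placeOfPrime (K := K) (F := F) (B := Bof K y)) := by
  intro P Q h
  have key : ∀ (v w : Place K F) (hv : ∀ b : Bof K y, algebraMap (Bof K y) F b ∈ v.toValuationSubring)
      (hw : ∀ b : Bof K y, algebraMap (Bof K y) F b ∈ w.toValuationSubring), v = w →
      primeOfPlace v hv = primeOfPlace w hw := by
    rintro v w hv hw rfl
    rfl
  rw [← primeOfPlace_placeOfPrime (K := K) (F := F) P, ← primeOfPlace_placeOfPrime (K := K) (F := F) Q]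
  exact key _ _ _ _ h

omit [IsAlgClosed K] [CharZero K] hy [FiniteDimensional K⟮y⟯ F] in
theorem ne_zero_of_transcendental (hy' : Transcendental K y) : y ≠ 0 := by
  rintro rfl
  exact hy' (isAlgebraic_zero)

omit [IsAlgClosed K] in
/-- a place where `y` is integral comes from a prime of `Bof K y`. -/
theorem exists_prime_of_mem (v : Place K F) (hyv : y ∈ v.toValuationSubring) :
    ∃ P : HeightOneSpectrum (Bof K y), placeOfPrime (K := K) (F := F) P = v :=
  ⟨primeOfPlace v (Bof_le_of_mem K y v hyv), placeOfPrime_primeOfPlace v _⟩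

omit [IsAlgClosed K] in
theorem coord_mem_iff (P : HeightOneSpectrum (Bof K y)) :
    algebraMap (PolyOf K y) (Bof K y) (PolyOf.coord K y) ∈ P.asIdeal ↔
      0 < (placeOfPrime (K := K) (F := F) P).ord y := by
  have hy0 : y ≠ 0 := ne_zero_of_transcendental K y hy.out
  have hmap : algebraMap (Bof K y) F (algebraMap (PolyOf K y) (Bof K y) (PolyOf.coord K y)) = y := by
    rw [← IsScalarTower.algebraMap_apply, PolyOf.algebraMap_coord]
  have h := P.valuation_lt_one_iff_mem (K := F)
    (algebraMap (PolyOf K y) (Bof K y) (PolyOf.coord K y))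
  change P.valuation F (algebraMap (Bof K y) F _) < 1 ↔ _ at h
  rw [hmap] at h
  rw [ord_placeOfPrime P y hy0, ← h]
  have hv0 : P.valuation F y ≠ 0 := (Valuation.ne_zero_iff _).mpr hy0
  rw [Left.neg_pos_iff, ← WithZero.log_one, WithZero.log_lt_log hv0 one_ne_zero]

open scoped Classical in
omit [IsAlgClosed K] in
theorem zeros_eq_image (s : Finset (HeightOneSpectrum (Bof K y)))
    (hs : ∀ P : HeightOneSpectrum (Bof K y), P ∈ s ↔
      algebraMap (PolyOf K y) (Bof K y) (PolyOf.coord K y) ∈ P.asIdeal) :
    {v : Place K F | 0 < v.ord y} = ((s.image (placeOfPrime (K := K) (F := F))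
      : Finset (Place K F)) : Set (Place K F)) := by
  classical
  have hy0 : y ≠ 0 := ne_zero_of_transcendental K y hy.out
  ext v
  simp only [Set.mem_ofPred_eq, Finset.coe_image, Set.mem_image, Finset.mem_coe]
  constructor
  · intro hv
    have hyv : y ∈ v.toValuationSubring := (mem_iff_ord_nonneg v hy0).mpr hv.le
    obtain ⟨P, rfl⟩ := exists_prime_of_mem K y v hyv
    exact ⟨P, (hs P).mpr ((coord_mem_iff K y P).mpr hv), rfl⟩
  · rintro ⟨P, hP, rfl⟩
    exact (coord_mem_iff K y P).mp ((hs P).mp hP)

/-- the zeros of a transcendental element are finitely many. -/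
theorem zeros_finite : {v : Place K F | 0 < v.ord y}.Finite := by
  classical
  obtain ⟨s, hs, -⟩ := sum_ord_eq_finrank K (PolyOf K y) (B := Bof K y) (F := F)
    (PolyOf.coord K y) (PolyOf.prime_coord K y)
  rw [zeros_eq_image K y s hs]
  exact Finset.finite_toSet _

/-- the zero divisor of a transcendental element has degree `[F : K(y)]`. -/
theorem sum_ord_zeros :
    ∑ v ∈ (zeros_finite K y).toFinset, v.ord y = (Module.finrank K⟮y⟯ F : ℤ) := by
  classical
  obtain ⟨s, hs, hsum⟩ := sum_ord_eq_finrank K (PolyOf K y) (B := Bof K y) (F := F)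
    (PolyOf.coord K y) (PolyOf.prime_coord K y)
  have himg : (zeros_finite K y).toFinset = s.image (placeOfPrime (K := K) (F := F)) := by
    apply Finset.coe_injective
    rw [Set.Finite.coe_toFinset]
    exact zeros_eq_image K y s hs
  rw [himg, Finset.sum_image (fun P _ Q _ h => placeOfPrime_injective K y h)]
  rw [PolyOf.algebraMap_coord] at hsum
  rw [hsum, IsFractionRing.finrank_eq (PolyOf K y) K⟮y⟯ (Bof K y) F]

/-- every element of the valuation ring of a place where `y` is integral is congruent to a
constant. -/
theorem exists_const_of_mem (v : Place K F) (hyv : y ∈ v.toValuationSubring)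
    (z : F) (hz : z ∈ v.toValuationSubring) :
    ∃ c : K, z = algebraMap K F c ∨ 0 < v.ord (z - algebraMap K F c) := by
  obtain ⟨P, rfl⟩ := exists_prime_of_mem K y v hyv
  obtain ⟨c, hc⟩ := exists_const_sub_lt K (PolyOf K y) P z ((mem_placeOfPrime_iff P z).mp hz)
  refine ⟨c, ?_⟩
  by_cases h0 : z - algebraMap K F c = 0
  · left
    exact sub_eq_zero.mp h0
  · right
    rw [ord_placeOfPrime P _ h0]
    have hv0 : P.valuation F (z - algebraMap K F c) ≠ 0 := (Valuation.ne_zero_iff _).mpr h0
    rw [Left.neg_pos_iff, ← WithZero.log_one, WithZero.log_lt_log hv0 one_ne_zero]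
    exact hc

end Zeros

end Fermat.Agent.S24
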