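import Mathlib
import Fermat.Agent.S24.FFZeros
import Fermat.Agent.S24.FFHurwitzGlue

/-!
# S24 package A: all place-theoretic inputs of the Riemann–Hurwitz count, discharged

`K` algebraically closed of characteristic zero, `F / K` a function field: `x : F` transcendental
with `[F : K(x)]` finite.
-/

set_option autoImplicit false

open AlgebraicCurve IsDedekindDomain Polynomial IntermediateField

namespace Fermat.Agent.S24.FFFinal

open Fermat.Agent.S24 Fermat.Agent.S24.FFGlue

variable {K F : Type*} [Field K] [Field F] [Algebra K F] [IsAlgClosed K] [CharZero K]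

/-- every transcendental element has finitely many zeros. -/
theorem hfin_of (hfd : ∀ y : F, Transcendental K y → FiniteDimensional K⟮y⟯ F)
    (y : F) (hy : Transcendental K y) : {v : Place K F | 0 < v.ord y}.Finite := by
  have := hfd y hy
  have : Fact (Transcendental K y) := ⟨hy⟩
  exact zeros_finite K y

theorem hsum_of (hfd : ∀ y : F, Transcendental K y → FiniteDimensional K⟮y⟯ F)
    (y : F) (hy : Transcendental K y) :
    ∑ v ∈ (hfin_of hfd y hy).toFinset, v.ord y = (Module.finrank K⟮y⟯ F : ℤ) := by
  have := hfd y hy
  have : Fact (Transcendental K y) := ⟨hy⟩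
  exact sum_ord_zeros K y

/-- every place has residue field `K`. -/
theorem hres_of (hfd : ∀ y : F, Transcendental K y → FiniteDimensional K⟮y⟯ F)
    (x : F) (hx : Transcendental K x) (v : Place K F) : HRes v := by
  intro z hz
  rcases v.toValuationSubring.mem_or_inv_mem x with hxv | hxv
  · have := hfd x hx
    have : Fact (Transcendental K x) := ⟨hx⟩
    exact exists_const_of_mem K x v hxv z hz
  · have hx' : Transcendental K x⁻¹ := FFPrin.transcendental_inv hx
    have := hfd x⁻¹ hx'
    have : Fact (Transcendental K x⁻¹) := ⟨hx'⟩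
    exact exists_const_of_mem K x⁻¹ v hxv z hz

omit [IsAlgClosed K] [CharZero K] in
/-- every place has degree one. -/
theorem hdeg_of (v : Place K F) (hres : HRes v) : v.deg = 1 := by
  unfold Place.deg
  rw [finrank_eq_one_iff_of_nonzero' (1 : v.ResidueField) one_ne_zero]
  intro w
  obtain ⟨z, rfl⟩ := IsLocalRing.residue_surjective w
  obtain ⟨c, hc⟩ := hres (z : F) z.2
  refine ⟨c, ?_⟩
  rw [Algebra.smul_def, mul_one, IsScalarTower.algebraMap_apply K v.toValuationSubring v.ResidueField]
  show IsLocalRing.residue _ (algebraMap K v.toValuationSubring c) = IsLocalRing.residue _ z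
  rw [eq_comm, ← sub_eq_zero, ← map_sub, IsLocalRing.residue_eq_zero_iff]
  rcases hc with hc | hc
  · have : z - algebraMap K v.toValuationSubring c = 0 := by
      apply Subtype.ext
      simp [hc]
    rw [this]
    exact Ideal.zero_mem _
  · have hne : (z : F) - algebraMap K F c ≠ 0 := by
      intro h
      rw [h, Place.ord_zero] at hc
      exact lt_irrefl _ hc
    obtain ⟨hmem, hmax⟩ := (ord_pos_iff_mem_maximalIdeal v hne).mp hc
    convert hmax
    rfl

/-- **Riemann–Hurwitz with two branch values**, all place-theoretic inputs discharged except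
(D1) finiteness over every transcendental and (D4) finite generation of the valuation rings. -/
theorem genus_eq_of_two_fibres_of [HasCanonicalDivisor (K := K) (F := F)]
    (hfd : ∀ y : F, Transcendental K y → FiniteDimensional K⟮y⟯ F)
    (hgen : ∀ (v : Place K F) (t : F), v.ord t = 1 → HGen v t)
    (x : F) (hx : Transcendental K x)
    (a₀ a₁ : K) (h01 : a₀ ≠ a₁)
    (hA : ∀ a : K, a ≠ a₀ → a ≠ a₁ →
      Nat.card {v : Place K F | 0 < v.ord (x - algebraMap K F a)} = Module.finrank K⟮x⟯ F) :
    AlgebraicCurve.genus K F =
      ((((Module.finrank K⟮x⟯ F : ℤ) -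
          Nat.card {v : Place K F | 0 < v.ord (x - algebraMap K F a₀)}) +
        ((Module.finrank K⟮x⟯ F : ℤ) -
          Nat.card {v : Place K F | 0 < v.ord (x - algebraMap K F a₁)}))
        - Module.finrank K⟮x⟯ F - Nat.card {v : Place K F | v.ord x < 0} + 2).toNat / 2 := by
  have := hfd x hx
  have hres : ∀ v : Place K F, HRes v := fun v => hres_of hfd x hx v
  exact genus_eq_of_two_fibres x hx hres hgen (fun v => hdeg_of v (hres v))
    (hfin_of hfd) (hsum_of hfd) a₀ a₁ h01 hA

end Fermat.Agent.S24.FFFinal
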