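import Mathlib
import Fermat.Agent.S24.FFPlaces
import Fermat.Agent.S24.FFHurwitzGlue

/-!
# S24 package A1 (D4): the finite-generation hypothesis `HGen`

For a place `v` of `F / K` and a transcendental uniformizer `t` with `[F : K(t)] < ∞`, the
valuation ring `O_v` is a localisation of the integral closure `B` of `K[t]` in `F`, and `B` is a
finite `K[t]`-module.  This is exactly the shape `FFGlue.HGen v t` consumed by
`FFDeriv.deriv_bounded` / `FFGlue.goodPlace_of`.
-/

set_option autoImplicit false

namespace Fermat.Agent.S24.FFGen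

open AlgebraicCurve IsDedekindDomain WithZero Polynomial IntermediateField
open Fermat.Agent.S24

variable {K F : Type*} [Field K] [Field F] [Algebra K F]

/-- an element of the Dedekind model `Bof K t`, expanded along a spanning family, as an element
of `F`. -/
theorem exists_aeval_expansion (t : F) {r : ℕ} (b : Fin r → Bof K t)
    (hb : Submodule.span (PolyOf K t) (Set.range b) = ⊤) (n : Bof K t) :
    ∃ p : Fin r → K[X], (n : F) = ∑ i, aeval t (p i) * (b i : F) := by
  have hn : n ∈ Submodule.span (PolyOf K t) (Set.range b) := by rw [hb]; trivial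
  obtain ⟨c, hc⟩ := (Submodule.mem_span_range_iff_exists_fun (PolyOf K t)).mp hn
  refine ⟨fun i => (c i : K[X]), ?_⟩
  rw [← hc]
  have : ((∑ i, c i • b i : Bof K t) : F) = ∑ i, ((c i • b i : Bof K t) : F) := by
    simp
  rw [this]
  refine Finset.sum_congr rfl fun i _ => ?_
  show ((c i • b i : Bof K t) : F) = aeval t (c i : K[X]) * (b i : F)
  rw [Algebra.smul_def]
  rfl

theorem hgen_of_place [CharZero K] (v : Place K F) (t : F) (ht : v.ord t = 1)
    (htr : Transcendental K t) [FiniteDimensional K⟮t⟯ F] : FFGlue.HGen v t := by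
  have : Fact (Transcendental K t) := ⟨htr⟩
  have ht0 : t ≠ 0 := by
    rintro rfl
    simp at ht
  have htv : t ∈ v.toValuationSubring := (mem_iff_ord_nonneg v ht0).mpr (by omega)
  have hB := Bof_le_of_mem K t v htv
  have hvP : placeOfPrime (K := K) (primeOfPlace v hB) = v := placeOfPrime_primeOfPlace v hB
  obtain ⟨r, b, hb⟩ := Module.Finite.exists_fin (R := PolyOf K t) (M := Bof K t)
  refine ⟨r, fun i => (b i : F), fun i => hB (b i), ?_⟩
  intro z hz
  have hz' : (primeOfPlace v hB).valuation F z ≤ 1 := by
    rw [← hvP] at hz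
    exact hz
  obtain ⟨n, d, hnd⟩ := (primeOfPlace v hB).exists_primeCompl_mul_eq_of_integer z hz'
  obtain ⟨p, hp⟩ := exists_aeval_expansion t b hb n
  obtain ⟨q, hq⟩ := exists_aeval_expansion t b hb (d : Bof K t)
  have hd1 : (primeOfPlace v hB).valuation F (algebraMap (Bof K t) F d) = 1 := by
    rw [HeightOneSpectrum.valuation_of_algebraMap]
    exact ((primeOfPlace v hB).intValuation_eq_one_iff_mem_primeCompl (d : Bof K t)).mpr d.2
  have hd0 : algebraMap (Bof K t) F d ≠ 0 := by
    intro h0
    rw [h0, map_zero] at hd1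
    exact zero_ne_one hd1
  have hq' : algebraMap (Bof K t) F d = ∑ i, aeval t (q i) * (b i : F) := hq
  have hp' : algebraMap (Bof K t) F n = ∑ i, aeval t (p i) * (b i : F) := hp
  refine ⟨p, q, ?_, ?_, ?_⟩
  · rw [← hq', ← hp']
    exact hnd
  · have hord : (placeOfPrime (K := K) (primeOfPlace v hB)).ord
        (algebraMap (Bof K t) F d) = 0 := by
      rw [ord_placeOfPrime _ _ hd0, hd1]
      simp
    rw [hvP] at hord
    rw [← hq']
    exact hord
  · rw [← hq']
    exact hd0

/-- the hypothesis `hgen` of `FFGlue.genus_eq_of_fibres` / `FFGlue.goodPlace_of`, discharged: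
for a function field `F / K` of one variable (`x` transcendental, `[F : K(x)] < ∞`) over an
algebraically closed field of characteristic zero. -/
theorem hgen_all [IsAlgClosed K] [CharZero K] (x : F) (hx : Transcendental K x)
    [FiniteDimensional K⟮x⟯ F] (v : Place K F) (t : F) (ht : v.ord t = 1) : FFGlue.HGen v t := by
  have htr : Transcendental K t :=
    FFGlue.transcendental_of_ord_ne_zero v (by rw [ht]; exact one_ne_zero)
  have : FiniteDimensional K⟮t⟯ F := finiteDimensional_adjoin_simple x hx t htr
  exact hgen_of_place v t ht htr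

end Fermat.Agent.S24.FFGen
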