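import Mathlib
import Fermat.Agent.S24.FFFinal
import Fermat.Agent.S24.FFGen

/-!
# S24 package A, final form: the genus of a function field from three fibre counts

`K` algebraically closed of characteristic zero, `x : F` transcendental with `[F : K(x)] = n`
finite.  If the fibre of `x` over every `a ≠ a₀, a₁` has `n` places then
`2 g - 2 = (n - r₀) + (n - r₁) - n - r_∞`.  No hypothesis on places is left.
-/

set_option autoImplicit false

open AlgebraicCurve IntermediateField

namespace Fermat.Agent.S24.FFGenus

open Fermat.Agent.S24 Fermat.Agent.S24.FFGlue Fermat.Agent.S24.FFFinal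

variable {K F : Type*} [Field K] [Field F] [Algebra K F] [IsAlgClosed K] [CharZero K]

omit [IsAlgClosed K] [CharZero K] in
theorem finiteDimensional_of (x : F) (hx : Transcendental K x) [FiniteDimensional K⟮x⟯ F]
    (y : F) (hy : Transcendental K y) : FiniteDimensional K⟮y⟯ F :=
  finiteDimensional_adjoin_simple x hx y hy

/-- every transcendental element has finitely many zeros. -/
theorem zeros_finite' (x : F) (hx : Transcendental K x) [FiniteDimensional K⟮x⟯ F]
    (y : F) (hy : Transcendental K y) : {v : Place K F | 0 < v.ord y}.Finite :=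
  hfin_of (finiteDimensional_of x hx) y hy

/-- the zero divisor of `y` has degree `[F : K(y)]`. -/
theorem sum_ord_zeros' (x : F) (hx : Transcendental K x) [FiniteDimensional K⟮x⟯ F]
    (y : F) (hy : Transcendental K y) :
    ∑ v ∈ (zeros_finite' x hx y hy).toFinset, v.ord y = (Module.finrank K⟮y⟯ F : ℤ) :=
  hsum_of (finiteDimensional_of x hx) y hy

/-- residue fields are `K`. -/
theorem hres (x : F) (hx : Transcendental K x) [FiniteDimensional K⟮x⟯ F] (v : Place K F) :
    HRes v :=
  hres_of (finiteDimensional_of x hx) x hx v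

/-- all places have degree one. -/
theorem deg_eq_one (x : F) (hx : Transcendental K x) [FiniteDimensional K⟮x⟯ F]
    (v : Place K F) : v.deg = 1 :=
  hdeg_of v (hres x hx v)

/-- **Riemann–Hurwitz with branch values `a₀ ≠ a₁` and `∞`**, unconditional. -/
theorem genus_eq_of_two_fibres [HasCanonicalDivisor (K := K) (F := F)]
    (x : F) (hx : Transcendental K x) [FiniteDimensional K⟮x⟯ F]
    (a₀ a₁ : K) (h01 : a₀ ≠ a₁)
    (hA : ∀ a : K, a ≠ a₀ → a ≠ a₁ →
      Nat.card {v : Place K F | 0 < v.ord (x - algebraMap K F a)} = Module.finrank K⟮x⟯ F) :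
    AlgebraicCurve.genus K F =
      ((((Module.finrank K⟮x⟯ F : ℤ) -
          Nat.card {v : Place K F | 0 < v.ord (x - algebraMap K F a₀)}) +
        ((Module.finrank K⟮x⟯ F : ℤ) -
          Nat.card {v : Place K F | 0 < v.ord (x - algebraMap K F a₁)}))
        - Module.finrank K⟮x⟯ F - Nat.card {v : Place K F | v.ord x < 0} + 2).toNat / 2 :=
  genus_eq_of_two_fibres_of (finiteDimensional_of x hx)
    (fun v t ht => FFGen.hgen_all x hx v t ht) x hx a₀ a₁ h01 hA

end Fermat.Agent.S24.FFGenus
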