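import Mathlib
import Fermat.Agent.S24.FFApprox
import Fermat.Agent.S24.FFGenus

/-!
# S24 package A: the approximation lemma, `Finset`-packaged (shape of `Fibres.lean`)
-/

set_option autoImplicit false

open AlgebraicCurve IntermediateField

namespace Fermat.Agent.S24.FFGenus

variable {K F : Type*} [Field K] [Field F] [Algebra K F] [CharZero K]

/-- **Approximation lemma**: a zero `v` of a transcendental `y` outside a finite set `S` of zeros
of `y` is separated from `S` by a nonzero element integral over `K[y]`. -/
theorem happrox (x : F) (hx : Transcendental K x) [FiniteDimensional K⟮x⟯ F]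
    (y : F) (hy : Transcendental K y) (v : Place K F) (hv : 0 < v.ord y)
    (S : Finset (Place K F)) (hS : ∀ w ∈ S, 0 < w.ord y) (hvS : v ∉ S) :
    ∃ f : F, f ≠ 0 ∧ IsIntegral (Algebra.adjoin K {y}) f ∧ 0 < v.ord f ∧
      ∀ w ∈ S, w.ord f = 0 := by
  have := finiteDimensional_adjoin_simple x hx y hy
  have hv0 : 0 < v.ord (y - algebraMap K F 0) := by rwa [map_zero, sub_zero]
  obtain ⟨f, hf0, hint, hpos, hz⟩ := FFApprox.exists_approx y hy (0 : K) v hv0
    (fun w : S => (w : Place K F))
    (fun w => by rw [map_zero, sub_zero]; exact hS w w.2)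
    (fun w h => hvS (h ▸ w.2))
  exact ⟨f, hf0, hint, hpos, fun w hw => hz ⟨w, hw⟩⟩

end Fermat.Agent.S24.FFGenus
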