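import Mathlib
import Fermat.Prelude.Def_AlgebraicCurve_DivisorClassGroup
import Fermat.Agent.S24.PlaceOfOrd
import Fermat.Agent.S24.FFDeriv

/-!
# Abstract fibre theorem (norm argument + counting)

Pure algebra.  Given a family of order functions `ν c` (`c : C`) on a function field `F/K`, all
positive on `y`, stable under a group `H` acting on `C`, satisfying a divisibility property and a
"norm" property, the places of `F` over `y = 0` are exactly the places of the `ν c`, they are in
bijection with the `H`-orbits on `C`, and the ramification index of the place of `ν c` is the size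
of the orbit of `c`.
-/

set_option autoImplicit false
set_option linter.unusedSectionVars false
set_option linter.unusedVariables false

namespace Fermat.Agent.S24

open AlgebraicCurve IntermediateField

noncomputable section

variable {K F : Type*} [Field K] [Field F] [Algebra K F]

namespace IsOrdFun

variable {ν : F → ℤ} (h : IsOrdFun K ν)
include h

/-- strict ultrametric inequality -/
theorem add_eq_of_lt {f g : F} (hf : f ≠ 0) (hg : g ≠ 0) (hlt : ν f < ν g) :
    f + g ≠ 0 ∧ ν (f + g) = ν f := by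
  have hfg : f + g ≠ 0 := by
    intro h0
    have : g = -f := by linear_combination h0
    rw [this, h.neg f hf] at hlt
    exact lt_irrefl _ hlt
  refine ⟨hfg, le_antisymm ?_ ?_⟩
  · -- ν f = ν ((f+g) + (-g)) ≥ min (ν (f+g)) (ν g)
    by_contra hcon
    push Not at hcon
    have hng : -g ≠ 0 := neg_ne_zero.mpr hg
    have hsum : (f + g) + (-g) ≠ 0 := by simpa using hf
    have := h.add (f + g) (-g) hfg hng hsum
    rw [h.neg g hg] at this
    have h2 : (f + g) + (-g) = f := by ring
    rw [h2] at this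
    have := lt_min hcon hlt
    omega
  · have := h.add f g hf hg hfg
    rwa [min_eq_left hlt.le] at this

/-- polynomials in an element of nonnegative order have nonnegative order -/
theorem aeval_nonneg {y : F} (hy0 : y ≠ 0) (hy : 0 ≤ ν y) (P : Polynomial K)
    (hP : Polynomial.aeval y P ≠ 0) : 0 ≤ ν (Polynomial.aeval y P) := by
  induction P using Polynomial.induction_on' with
  | add p q hp hq =>
    rw [map_add] at hP ⊢
    by_cases hp0 : Polynomial.aeval y p = 0
    · rw [hp0, zero_add] at hP ⊢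
      exact hq hP
    by_cases hq0 : Polynomial.aeval y q = 0
    · rw [hq0, add_zero] at hP ⊢
      exact hp hP
    exact le_trans (le_min (hp hp0) (hq hq0)) (h.add _ _ hp0 hq0 hP)
  | monomial n a =>
    rw [Polynomial.aeval_monomial] at hP ⊢
    have ha : a ≠ 0 := by
      rintro rfl
      simp at hP
    have ha' : algebraMap K F a ≠ 0 := by
      intro h0
      exact hP (by rw [h0, zero_mul])
    rw [h.mul _ _ ha' (pow_ne_zero n hy0), h.const a ha, h.pow y hy0, zero_add]
    positivity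

/-- the order of a polynomial in `y` (with `0 < ν y`) is `ν y` times its trailing degree -/
theorem aeval_eq {y : F} (hy0 : y ≠ 0) (hy : 0 < ν y) (P : Polynomial K) (hP0 : P ≠ 0) :
    Polynomial.aeval y P ≠ 0 ∧ ν (Polynomial.aeval y P) = P.rootMultiplicity 0 * ν y := by
  obtain ⟨Q, hPQ, hQ⟩ := Polynomial.exists_eq_pow_rootMultiplicity_mul_and_not_dvd P hP0 0
  -- P = (X - C 0)^k * Q, (X - C 0) ∤ Q
  set k := P.rootMultiplicity 0 with hk
  have hX : (Polynomial.X - Polynomial.C (0 : K)) = Polynomial.X := by simp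
  rw [hX] at hPQ hQ
  have hQ0 : Q.coeff 0 ≠ 0 := by
    intro h0
    exact hQ (Polynomial.X_dvd_iff.mpr h0)
  -- Q = C (Q.coeff 0) + X * R
  obtain ⟨R, hR⟩ : ∃ R : Polynomial K, Q = Polynomial.C (Q.coeff 0) + Polynomial.X * R := by
    refine ⟨Q.divX, ?_⟩
    conv_lhs => rw [← Polynomial.divX_mul_X_add Q]
    ring
  have hc : ν (algebraMap K F (Q.coeff 0)) = 0 := h.const _ hQ0
  have hc0 : algebraMap K F (Q.coeff 0) ≠ 0 := by
    simpa using hQ0
  have hQy : Polynomial.aeval y Q ≠ 0 ∧ ν (Polynomial.aeval y Q) = 0 := by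
    rw [hR, map_add, Polynomial.aeval_C, map_mul, Polynomial.aeval_X]
    by_cases hR0 : Polynomial.aeval y R = 0
    · rw [hR0, mul_zero, add_zero]
      exact ⟨hc0, hc⟩
    · have hyR : y * Polynomial.aeval y R ≠ 0 := mul_ne_zero hy0 hR0
      have hlt : ν (algebraMap K F (Q.coeff 0)) < ν (y * Polynomial.aeval y R) := by
        rw [hc, h.mul _ _ hy0 hR0]
        have := h.aeval_nonneg hy0 hy.le R hR0
        omega
      have := h.add_eq_of_lt hc0 hyR hlt
      exact ⟨this.1, this.2.trans hc⟩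
  constructor
  · rw [hPQ, map_mul, map_pow, Polynomial.aeval_X]
    exact mul_ne_zero (pow_ne_zero _ hy0) hQy.1
  · conv_lhs => rw [hPQ, map_mul, map_pow, Polynomial.aeval_X]
    rw [h.mul _ _ (pow_ne_zero _ hy0) hQy.1, h.pow y hy0, hQy.2, add_zero]

end IsOrdFun

/-- two order functions positive at `y` have proportional values on `K(y)` -/
theorem IsOrdFun.cross_eq {ν ν' : F → ℤ} (h : IsOrdFun K ν) (h' : IsOrdFun K ν') {y : F}
    (hy0 : y ≠ 0) (hy : 0 < ν y) (hy' : 0 < ν' y) {g : F} (hg0 : g ≠ 0) (hg : g ∈ K⟮y⟯) :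
    ν g * ν' y = ν' g * ν y := by
  obtain ⟨P, Q, hPQ⟩ := (IntermediateField.mem_adjoin_simple_iff K g).mp hg
  have hQ0 : Polynomial.aeval y Q ≠ 0 := by
    intro h0
    rw [h0, div_zero] at hPQ
    exact hg0 hPQ
  have hP0 : Polynomial.aeval y P ≠ 0 := by
    intro h0
    rw [h0, zero_div] at hPQ
    exact hg0 hPQ
  have hQ : Q ≠ 0 := by
    rintro rfl
    simp at hQ0
  have hP : P ≠ 0 := by
    rintro rfl
    simp at hP0
  have e1 := (h.aeval_eq hy0 hy P hP).2
  have e2 := (h.aeval_eq hy0 hy Q hQ).2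
  have e1' := (h'.aeval_eq hy0 hy' P hP).2
  have e2' := (h'.aeval_eq hy0 hy' Q hQ).2
  have hν : ν g = ν (Polynomial.aeval y P) - ν (Polynomial.aeval y Q) := by
    rw [hPQ, div_eq_mul_inv, h.mul _ _ hP0 (inv_ne_zero hQ0), h.inv _ hQ0]
    ring
  have hν' : ν' g = ν' (Polynomial.aeval y P) - ν' (Polynomial.aeval y Q) := by
    rw [hPQ, div_eq_mul_inv, h'.mul _ _ hP0 (inv_ne_zero hQ0), h'.inv _ hQ0]
    ring
  rw [hν, hν', e1, e2, e1', e2']
  ring


/-- combinatorial counting lemma -/
theorem comb_count {Ω P : Type*} [Fintype Ω] [DecidableEq P] (Z : Finset P) (g : Ω → P)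
    (hg : ∀ ω, g ω ∈ Z) (hsurj : ∀ v ∈ Z, ∃ ω, g ω = v) (t : P → ℤ) (ht : ∀ v ∈ Z, 0 < t v)
    (o : Ω → ℤ) (hto : ∀ ω, t (g ω) ≤ o ω) (hsum : ∑ ω, o ω ≤ ∑ v ∈ Z, t v) :
    Function.Injective g ∧ (∀ ω, t (g ω) = o ω) ∧ Z.card = Fintype.card Ω ∧
      ∑ ω, o ω = ∑ v ∈ Z, t v := by
  classical
  have hfib : ∑ ω, t (g ω) = ∑ v ∈ Z, ((Finset.univ.filter (fun ω => g ω = v)).card : ℤ) * t v := by
    rw [← Finset.sum_fiberwise_of_maps_to (s := Finset.univ) (t := Z) (g := g) (fun ω _ => hg ω)]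
    refine Finset.sum_congr rfl fun v _ => ?_
    rw [Finset.sum_congr rfl (fun ω hω => by rw [(Finset.mem_filter.mp hω).2] : ∀ ω ∈ Finset.univ.filter (fun ω => g ω = v), t (g ω) = t v)]
    rw [Finset.sum_const, nsmul_eq_mul]
  have hcard1 : ∀ v ∈ Z, 1 ≤ (Finset.univ.filter (fun ω => g ω = v)).card := by
    intro v hv
    obtain ⟨ω, hω⟩ := hsurj v hv
    exact Finset.card_pos.mpr ⟨ω, Finset.mem_filter.mpr ⟨Finset.mem_univ _, hω⟩⟩
  have hle1 : ∑ v ∈ Z, t v ≤ ∑ v ∈ Z, ((Finset.univ.filter (fun ω => g ω = v)).card : ℤ) * t v := by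
    refine Finset.sum_le_sum fun v hv => ?_
    have h1 : (1 : ℤ) ≤ ((Finset.univ.filter (fun ω => g ω = v)).card : ℤ) := by
      exact_mod_cast hcard1 v hv
    nlinarith [ht v hv]
  have hle2 : ∑ ω, t (g ω) ≤ ∑ ω, o ω := Finset.sum_le_sum fun ω _ => hto ω
  have e1 : ∑ v ∈ Z, t v = ∑ v ∈ Z, ((Finset.univ.filter (fun ω => g ω = v)).card : ℤ) * t v := by
    linarith
  have e2 : ∑ ω, t (g ω) = ∑ ω, o ω := by linarith
  have hfib1 : ∀ v ∈ Z, (Finset.univ.filter (fun ω => g ω = v)).card = 1 := by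
    intro v hv
    have := (Finset.sum_eq_sum_iff_of_le (fun v hv => by
      have h1 : (1 : ℤ) ≤ ((Finset.univ.filter (fun ω => g ω = v)).card : ℤ) := by
        exact_mod_cast hcard1 v hv
      nlinarith [ht v hv] : ∀ v ∈ Z, t v ≤ ((Finset.univ.filter (fun ω => g ω = v)).card : ℤ) * t v)).mp e1 v hv
    have htv := ht v hv
    have h2 : ((Finset.univ.filter (fun ω => g ω = v)).card : ℤ) = 1 := by
      have : (((Finset.univ.filter (fun ω => g ω = v)).card : ℤ) - 1) * t v = 0 := by linarith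
      rcases mul_eq_zero.mp this with h | h
      · linarith
      · omega
    exact_mod_cast h2
  have hinj : Function.Injective g := by
    intro ω ω' h
    have h1 := hfib1 (g ω) (hg ω)
    rw [Finset.card_eq_one] at h1
    obtain ⟨a, ha⟩ := h1
    have m1 : ω ∈ Finset.univ.filter (fun x => g x = g ω) := by simp
    have m2 : ω' ∈ Finset.univ.filter (fun x => g x = g ω) := by simp [h]
    rw [ha, Finset.mem_singleton] at m1 m2
    rw [m1, m2]
  refine ⟨hinj, ?_, ?_, by linarith⟩
  · intro ω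
    exact (Finset.sum_eq_sum_iff_of_le (fun ω _ => hto ω)).mp e2 ω (Finset.mem_univ _)
  · have : Z = Finset.univ.image g := by
      ext v
      constructor
      · intro hv
        obtain ⟨ω, hω⟩ := hsurj v hv
        exact Finset.mem_image.mpr ⟨ω, Finset.mem_univ _, hω⟩
      · intro hv
        obtain ⟨ω, -, rfl⟩ := Finset.mem_image.mp hv
        exact hg ω
    rw [this, Finset.card_image_of_injective _ hinj, Finset.card_univ]

/-- `Place.ord` is an order function -/
theorem isOrdFun_placeOrd (v : Place K F) : IsOrdFun K v.ord where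
  mul f g hf hg := v.ord_mul hf hg
  add f g _ _ hfg := FFDeriv.min_le_ord_add v hfg
  const a _ := FFDeriv.ord_algebraMap v a

/-- a fibre model over `y` (think `y = x - a` or `y = x⁻¹`): order functions `ν c` indexed by a
finite `H`-set `C`. -/
structure FibreModel (K : Type*) {F : Type*} [Field K] [Field F] [Algebra K F] (y : F)
    (C : Type*) [Fintype C] (H : Type*) [Group H] [MulAction H C] where
  /-- the order functions -/
  ν : C → F → ℤ
  isOrd : ∀ c : C, IsOrdFun K (ν c)
  y_ne : y ≠ 0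
  /-- the common order of `y` -/
  s : ℕ
  s_pos : 0 < s
  ν_y : ∀ c : C, ν c y = s
  ν_smul : ∀ (h : H) (c : C), ν ((h • c : C)) = ν c
  orbit_dvd : ∀ c : C, Nat.card (MulAction.orbit H c) ∣ s
  dvd : ∀ (c : C) (f : F), f ≠ 0 → ((s / Nat.card (MulAction.orbit H c) : ℕ) : ℤ) ∣ ν c f
  norm : ∀ f : F, f ≠ 0 → ∃ g : F, g ≠ 0 ∧ g ∈ K⟮y⟯ ∧ (∀ c0 : C, ∑ c, ν c f = ν c0 g) ∧
    (IsIntegral (Algebra.adjoin K {y}) f → IsIntegral (Algebra.adjoin K {y}) (g / f))

namespace FibreModel

variable {y : F} {C : Type*} [Fintype C] {H : Type*} [Group H] [MulAction H C]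
  (M : FibreModel K y C H)

theorem nontriv (c : C) : ∃ f : F, f ≠ 0 ∧ M.ν c f ≠ 0 :=
  ⟨y, M.y_ne, by rw [M.ν_y]; exact_mod_cast M.s_pos.ne'⟩

/-- the candidate place attached to `c` -/
def place (c : C) : Place K F := (M.isOrd c).place (M.nontriv c)

/-- the index of the value group of `ν c` -/
def gen (c : C) : ℕ := (M.isOrd c).gen (M.nontriv c)

theorem gen_pos (c : C) : 0 < M.gen c := (M.isOrd c).gen_pos (M.nontriv c)

theorem ν_eq (c : C) {f : F} (hf : f ≠ 0) : M.ν c f = M.gen c * (M.place c).ord f :=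
  (M.isOrd c).eq_gen_mul_ord (M.nontriv c) hf

theorem gen_mul_ord_y (c : C) : (M.gen c : ℤ) * (M.place c).ord y = M.s := by
  rw [← M.ν_eq c M.y_ne, M.ν_y]

theorem ord_y_pos (c : C) : 0 < (M.place c).ord y := by
  have h1 := M.gen_mul_ord_y c
  have h2 : (0 : ℤ) < M.gen c := by exact_mod_cast M.gen_pos c
  have h3 : (0 : ℤ) < M.s := by exact_mod_cast M.s_pos
  by_contra hcon
  push Not at hcon
  have : (M.gen c : ℤ) * (M.place c).ord y ≤ 0 := mul_nonpos_of_nonneg_of_nonpos h2.le hcon
  omega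

theorem place_smul (h : H) (c : C) : M.place (h • c) = M.place c := by
  apply Place.ext
  ext f
  show f ∈ (M.isOrd (h • c)).valuationSubring ↔ f ∈ (M.isOrd c).valuationSubring
  rw [IsOrdFun.mem_valuationSubring, IsOrdFun.mem_valuationSubring, M.ν_smul]

theorem place_eq_of_orbit_eq {c c' : C} (h : MulAction.orbit H c = MulAction.orbit H c') :
    M.place c = M.place c' := by
  have hc : c ∈ MulAction.orbit H c' := h ▸ MulAction.mem_orbit_self c
  obtain ⟨g, rfl⟩ := hc
  exact M.place_smul g c'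

omit M in
theorem orbit_card_pos (c : C) : 0 < Nat.card (MulAction.orbit H c) := by
  have : Nonempty (MulAction.orbit H c) := ⟨⟨c, MulAction.mem_orbit_self c⟩⟩
  exact Nat.card_pos

/-- the ramification bound -/
theorem ord_y_le (c : C) : (M.place c).ord y ≤ Nat.card (MulAction.orbit H c) := by
  set o := Nat.card (MulAction.orbit H c) with ho
  have ho_pos : 0 < o := orbit_card_pos (H := H) c
  obtain ⟨d, hd⟩ := M.orbit_dvd c
  -- s = o * d
  have hsd : M.s / o = d := by
    rw [hd]
    exact Nat.mul_div_cancel_left d ho_pos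
  have hd_pos : 0 < d := by
    rcases Nat.eq_zero_or_pos d with h0 | h0
    · rw [h0, mul_zero] at hd
      exact absurd hd M.s_pos.ne'
    · exact h0
  -- d ∣ gen
  obtain ⟨u, hu0, hu⟩ := (M.isOrd c).exists_gen (M.nontriv c)
  have hdvd := M.dvd c u hu0
  rw [hsd, hu] at hdvd
  have hdvd' : d ∣ M.gen c := by exact_mod_cast hdvd
  obtain ⟨k, hk⟩ := hdvd'
  have hgen_pos := M.gen_pos c
  have hk_pos : 0 < k := by
    rcases Nat.eq_zero_or_pos k with h0 | h0
    · rw [h0, mul_zero] at hk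
      omega
    · exact h0
  have h1 := M.gen_mul_ord_y c
  rw [hk, hd] at h1
  push_cast at h1
  -- d * k * e = o * d
  have he_pos := M.ord_y_pos c
  have h2 : (k : ℤ) * (M.place c).ord y = o := by
    have hd' : (d : ℤ) ≠ 0 := by exact_mod_cast hd_pos.ne'
    apply mul_left_cancel₀ hd'
    linarith
  have hk1 : (1 : ℤ) ≤ k := by exact_mod_cast hk_pos
  nlinarith

/-- **Abstract fibre theorem.** -/
theorem main [Nonempty C] (n : ℕ) (hcard : Fintype.card C ≤ n)
    (Z : Finset (Place K F)) (hZ : ∀ v, v ∈ Z ↔ 0 < v.ord y)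
    (hZsum : ∑ v ∈ Z, v.ord y = n)
    (happrox : ∀ v ∈ Z, ∀ S : Finset (Place K F), S ⊆ Z → v ∉ S →
      ∃ f : F, f ≠ 0 ∧ IsIntegral (Algebra.adjoin K {y}) f ∧ 0 < v.ord f ∧ ∀ w ∈ S, w.ord f = 0)
    (hint : ∀ f : F, f ≠ 0 → IsIntegral (Algebra.adjoin K {y}) f → ∀ v ∈ Z, 0 ≤ v.ord f) :
    (∀ v ∈ Z, ∃ c, v = M.place c) ∧
    (∀ c c', M.place c = M.place c' → MulAction.orbit H c = MulAction.orbit H c') ∧
    (∀ c, (M.place c).ord y = Nat.card (MulAction.orbit H c)) ∧
    Z.card = Nat.card (MulAction.orbitRel.Quotient H C) ∧ n = Fintype.card C := by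
  classical
  have hmem : ∀ c, M.place c ∈ Z := fun c => (hZ _).mpr (M.ord_y_pos c)
  -- Step 1: exhaustiveness (norm argument)
  have hex : ∀ v ∈ Z, ∃ c, v = M.place c := by
    intro v hv
    by_contra hcon
    push Not at hcon
    set S : Finset (Place K F) := Finset.univ.image M.place with hSdef
    have hS : S ⊆ Z := by
      intro w hw
      obtain ⟨c, -, rfl⟩ := Finset.mem_image.mp hw
      exact hmem c
    have hvS : v ∉ S := by
      intro h
      obtain ⟨c, -, hc⟩ := Finset.mem_image.mp h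
      exact hcon c hc.symm
    obtain ⟨f, hf0, hfint, hvf, hSf⟩ := happrox v hv S hS hvS
    obtain ⟨g, hg0, hgK, hsum, hgint⟩ := M.norm f hf0
    have hν0 : ∀ c, M.ν c f = 0 := by
      intro c
      rw [M.ν_eq c hf0, hSf _ (Finset.mem_image_of_mem _ (Finset.mem_univ c)), mul_zero]
    obtain ⟨c0⟩ := ‹Nonempty C›
    have hg0' : M.ν c0 g = 0 := by
      rw [← hsum c0]
      exact Finset.sum_eq_zero fun c _ => hν0 c
    have hgf0 : g / f ≠ 0 := div_ne_zero hg0 hf0
    have h1 : 0 ≤ v.ord (g / f) := hint _ hgf0 (hgint hfint) v hv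
    have h2 : v.ord g = v.ord f + v.ord (g / f) := by
      rw [← v.ord_mul hf0 hgf0, mul_div_cancel₀ _ hf0]
    have h3 : 0 < v.ord g := by omega
    have hsZ : (0 : ℤ) < M.s := by exact_mod_cast M.s_pos
    have hcross := IsOrdFun.cross_eq (isOrdFun_placeOrd v) (M.isOrd c0) M.y_ne ((hZ v).mp hv)
      (by rw [M.ν_y]; exact hsZ) hg0 hgK
    rw [hg0', zero_mul, M.ν_y] at hcross
    have := mul_pos h3 hsZ
    omega
  -- Step 2: counting
  let Ω := MulAction.orbitRel.Quotient H C
  have hout : ∀ c : C, MulAction.orbit H (Quotient.out (Quotient.mk (MulAction.orbitRel H C) c))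
      = MulAction.orbit H c := by
    intro c
    rw [MulAction.orbit_eq_iff]
    have := Quotient.mk_out (s := MulAction.orbitRel H C) c
    exact (MulAction.orbitRel_apply).mp this
  let g : Ω → Place K F := fun ω => M.place (Quotient.out ω)
  have hg_mk : ∀ c : C, g (Quotient.mk (MulAction.orbitRel H C) c) = M.place c := fun c =>
    M.place_eq_of_orbit_eq (hout c)
  have hgZ : ∀ ω, g ω ∈ Z := fun ω => hmem _
  have hsurj : ∀ v ∈ Z, ∃ ω, g ω = v := by
    intro v hv
    obtain ⟨c, rfl⟩ := hex v hv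
    exact ⟨_, hg_mk c⟩
  let t : Place K F → ℤ := fun v => v.ord y
  let o : Ω → ℤ := fun ω => (Nat.card (MulAction.orbit H (Quotient.out ω)) : ℤ)
  have hclass : ∑ ω : Ω, o ω = Fintype.card C := by
    have e := MulAction.selfEquivSigmaOrbits H C
    have h1 : Nat.card C = Nat.card (Σ ω : Ω, MulAction.orbit H (Quotient.out ω)) :=
      Nat.card_congr e
    rw [Nat.card_sigma, Nat.card_eq_fintype_card] at h1
    show ∑ ω : Ω, ((Nat.card (MulAction.orbit H (Quotient.out ω)) : ℕ) : ℤ) = _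
    rw [h1]
    push_cast
    rfl
  have hcomb := comb_count Z g hgZ hsurj t (fun v hv => (hZ v).mp hv) o
    (fun ω => M.ord_y_le _) (by rw [hclass, hZsum]; exact_mod_cast hcard)
  obtain ⟨hinj, hto, hZcard, hsumeq⟩ := hcomb
  refine ⟨hex, ?_, ?_, ?_, ?_⟩
  · intro c c' hcc'
    have : g (Quotient.mk (MulAction.orbitRel H C) c) = g (Quotient.mk (MulAction.orbitRel H C) c') := by
      rw [hg_mk, hg_mk, hcc']
    have h2 := hinj this
    have h3 : c ∈ MulAction.orbit H c' := (MulAction.orbitRel_apply).mp (Quotient.exact h2)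
    exact MulAction.orbit_eq_iff.mpr h3
  · intro c
    have h1 := hto (Quotient.mk (MulAction.orbitRel H C) c)
    show (M.place c).ord y = _
    have h2 : t (g (Quotient.mk (MulAction.orbitRel H C) c)) = (M.place c).ord y := by
      show (g _).ord y = _
      rw [hg_mk]
    rw [← h2, h1]
    show ((Nat.card (MulAction.orbit H (Quotient.out (Quotient.mk (MulAction.orbitRel H C) c))) : ℕ) : ℤ) = _
    rw [hout c]
  · rw [hZcard, Nat.card_eq_fintype_card]
  · have : (n : ℤ) = Fintype.card C := by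
      rw [← hZsum, ← hclass]
      exact hsumeq.symm
    exact_mod_cast this

end FibreModel

end

end Fermat.Agent.S24
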