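import Mathlib
import Fermat.Agent.S24.AbstractFibre
import Fermat.Agent.S24.Exhaust

/-!
# S24: discharging the fields of `FibreModel` from a bridge

Abstract setting: `Φ : F →+* M` a ring homomorphism into a field `M` (meromorphic functions),
`conj c : M →+* M` (`c : C`, `C` finite) ring endomorphisms fixing `Φ y` and `Φ K` (composition
with coset representatives), one of them being the identity on `Φ F`, such that the product of all
conjugates of `Φ f` is `Φ` of an element of `K(y)` (the property (Inv)).  `ord0 : M → ℤ` is an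
order function, additive on a subring `S` of `M` containing all conjugates.

* `conj_fix_adjoin`: `conj c` fixes `Φ (K(y))`.
* `norm_of_inv`: the field `norm` of `FibreModel`, for `ν c f := ord0 (conj c (Φ f))`.
* `isOrdFun_of_bridge`: `ν c` is an order function.
* `FibreModel.ofBridge`: the packaged constructor.
-/

set_option autoImplicit false
set_option linter.unusedSectionVars false
set_option linter.unusedVariables false

open AlgebraicCurve Polynomial IntermediateField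

namespace Fermat.Agent.S24.FibreNorm

open Fermat.Agent.S24

variable {K F : Type*} [Field K] [Field F] [Algebra K F]
variable {M : Type*} [Field M] (Φ : F →+* M) {C : Type*} [Fintype C] (conj : C → M →+* M)

/-- `conj c` fixes the image of `K[y]` -/
lemma conj_fix_aeval {y : F} (hfixy : ∀ c, conj c (Φ y) = Φ y)
    (hfixK : ∀ c (k : K), conj c (Φ (algebraMap K F k)) = Φ (algebraMap K F k))
    (c : C) (p : K[X]) : conj c (Φ (aeval y p)) = Φ (aeval y p) := by
  induction p using Polynomial.induction_on' with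
  | add p q hp hq => rw [map_add, map_add, map_add, hp, hq]
  | monomial n a =>
    rw [aeval_monomial, map_mul, map_mul, map_pow, map_pow, hfixK, hfixy]

/-- `conj c` fixes the image of `K(y)` -/
lemma conj_fix_adjoin {y : F} (hfixy : ∀ c, conj c (Φ y) = Φ y)
    (hfixK : ∀ c (k : K), conj c (Φ (algebraMap K F k)) = Φ (algebraMap K F k))
    (c : C) {n : F} (hn : n ∈ K⟮y⟯) : conj c (Φ n) = Φ n := by
  obtain ⟨p, q, rfl⟩ := (IntermediateField.mem_adjoin_simple_iff K n).mp hn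
  rw [map_div₀, map_div₀, conj_fix_aeval Φ conj hfixy hfixK, conj_fix_aeval Φ conj hfixy hfixK]

/-- **The `norm` field of `FibreModel`** from the invariance property (Inv). -/
theorem norm_of_inv [DecidableEq C]
    (c1 : C) (hc1 : ∀ f : F, conj c1 (Φ f) = Φ f)
    (y : F)
    (hfixy : ∀ c, conj c (Φ y) = Φ y)
    (hfixK : ∀ c (k : K), conj c (Φ (algebraMap K F k)) = Φ (algebraMap K F k))
    (hinv : ∀ f : F, ∃ n ∈ K⟮y⟯, Φ n = ∏ c, conj c (Φ f))
    (S : Subring M) (hS : ∀ c (f : F), conj c (Φ f) ∈ S)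
    (ord0 : M → ℤ)
    (hord0_mul : ∀ x z : M, x ∈ S → z ∈ S → x ≠ 0 → z ≠ 0 → ord0 (x * z) = ord0 x + ord0 z)
    (f : F) (hf0 : f ≠ 0) :
    ∃ g : F, g ≠ 0 ∧ g ∈ K⟮y⟯ ∧
      (∀ c0 : C, ∑ c, ord0 (conj c (Φ f)) = ord0 (conj c0 (Φ g))) ∧
      (IsIntegral (Algebra.adjoin K {y}) f → IsIntegral (Algebra.adjoin K {y}) (g / f)) := by
  obtain ⟨n, hnmem, hn⟩ := hinv f
  have hconj0 : ∀ c, conj c (Φ f) ≠ 0 := fun c => by
    rw [Ne, map_eq_zero, map_eq_zero]; exact hf0
  have hn0 : n ≠ 0 := by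
    intro h
    rw [h, map_zero] at hn
    exact (Finset.prod_ne_zero_iff.mpr fun c _ => hconj0 c) hn.symm
  have hord0_one : ord0 1 = 0 := by
    have := hord0_mul 1 1 S.one_mem S.one_mem one_ne_zero one_ne_zero
    rw [mul_one] at this; linarith
  have hord0_prod : ∀ s : Finset C, ord0 (∏ c ∈ s, conj c (Φ f)) = ∑ c ∈ s, ord0 (conj c (Φ f)) := by
    intro s
    induction s using Finset.induction_on with
    | empty => simp [hord0_one]
    | insert b s hb ih =>
      rw [Finset.prod_insert hb, Finset.sum_insert hb,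
        hord0_mul _ _ (hS b f) (S.prod_mem fun c _ => hS c f) (hconj0 b)
          (Finset.prod_ne_zero_iff.mpr fun c _ => hconj0 c), ih]
  refine ⟨n, hn0, hnmem, ?_, ?_⟩
  · intro c0
    rw [conj_fix_adjoin Φ conj hfixy hfixK c0 hnmem, hn, hord0_prod]
  · intro hfint
    have hrest : Φ (n / f) = ∏ c ∈ Finset.univ.erase c1, conj c (Φ f) := by
      have hmul : Φ (n / f) * Φ f = Φ n := by rw [← map_mul, div_mul_cancel₀ _ hf0]
      have hsplit : ∏ c, conj c (Φ f) = conj c1 (Φ f) * ∏ c ∈ Finset.univ.erase c1, conj c (Φ f) :=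
        (Finset.mul_prod_erase _ _ (Finset.mem_univ c1)).symm
      rw [hn, hsplit, hc1] at hmul
      have hΦf : Φ f ≠ 0 := by rwa [Ne, map_eq_zero]
      have : Φ (n / f) * Φ f = (∏ c ∈ Finset.univ.erase c1, conj c (Φ f)) * Φ f := by
        rw [hmul]; ring
      exact mul_right_cancel₀ hΦf this
    apply Exhaust.isIntegral_of_isIntegralElem Φ
    rw [hrest]
    have key : ∀ s : Finset C,
        (Φ.comp (algebraMap (Algebra.adjoin K {y}) F)).IsIntegralElem (∏ c ∈ s, conj c (Φ f)) := by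
      intro s
      induction s using Finset.induction_on with
      | empty =>
        rw [Finset.prod_empty]
        exact RingHom.isIntegralElem_one _
      | insert b s hb ih =>
        rw [Finset.prod_insert hb]
        exact RingHom.IsIntegralElem.mul _
          (Exhaust.isIntegralElem_conj Φ conj hfixy hfixK hfint b) ih
    exact key _

/-- `f ↦ ord0 (e (Φ f))` is an order function on `F`, for a ring endomorphism `e` of `M`. -/
theorem isOrdFun_of_bridge (e : M →+* M)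
    (S : Subring M) (hS : ∀ f : F, e (Φ f) ∈ S)
    (ord0 : M → ℤ)
    (hord0_mul : ∀ x z : M, x ∈ S → z ∈ S → x ≠ 0 → z ≠ 0 → ord0 (x * z) = ord0 x + ord0 z)
    (hord0_add : ∀ x z : M, x ∈ S → z ∈ S → x ≠ 0 → z ≠ 0 → x + z ≠ 0 →
      min (ord0 x) (ord0 z) ≤ ord0 (x + z))
    (hord0_const : ∀ a : K, a ≠ 0 → ord0 (e (Φ (algebraMap K F a))) = 0) :
    IsOrdFun K (fun f : F => ord0 (e (Φ f))) where
  mul f g hf hg := by
    show ord0 (e (Φ (f * g))) = _
    rw [map_mul, map_mul]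
    exact hord0_mul _ _ (hS f) (hS g) (by rw [Ne, map_eq_zero, map_eq_zero]; exact hf)
      (by rw [Ne, map_eq_zero, map_eq_zero]; exact hg)
  add f g hf hg hfg := by
    show _ ≤ ord0 (e (Φ (f + g)))
    rw [map_add, map_add]
    refine hord0_add _ _ (hS f) (hS g) (by rw [Ne, map_eq_zero, map_eq_zero]; exact hf)
      (by rw [Ne, map_eq_zero, map_eq_zero]; exact hg) ?_
    rw [← map_add, ← map_add, Ne, map_eq_zero, map_eq_zero]; exact hfg
  const a ha := hord0_const a ha

/-- **Packaged constructor**: a `FibreModel` from a bridge.  The rotation inputs (`ν_smul`,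
`orbit_dvd`, `dvd`) stay as hypotheses. -/
def _root_.Fermat.Agent.S24.FibreModel.ofBridge [DecidableEq C]
    {H : Type*} [Group H] [MulAction H C]
    (c1 : C) (hc1 : ∀ f : F, conj c1 (Φ f) = Φ f)
    (y : F) (hy0 : y ≠ 0)
    (hfixK : ∀ c (k : K), conj c (Φ (algebraMap K F k)) = Φ (algebraMap K F k))
    (hfixy : ∀ c, conj c (Φ y) = Φ y)
    (hinv : ∀ f : F, ∃ n ∈ K⟮y⟯, Φ n = ∏ c, conj c (Φ f))
    (S : Subring M) (hS : ∀ c (f : F), conj c (Φ f) ∈ S)
    (ord0 : M → ℤ)
    (hord0_mul : ∀ x z : M, x ∈ S → z ∈ S → x ≠ 0 → z ≠ 0 → ord0 (x * z) = ord0 x + ord0 z)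
    (hord0_add : ∀ x z : M, x ∈ S → z ∈ S → x ≠ 0 → z ≠ 0 → x + z ≠ 0 →
      min (ord0 x) (ord0 z) ≤ ord0 (x + z))
    (hord0_const : ∀ a : K, a ≠ 0 → ord0 (Φ (algebraMap K F a)) = 0)
    (s : ℕ) (hs : 0 < s) (hsy : ord0 (Φ y) = s)
    (hsmul : ∀ (h : H) (c : C) (f : F), ord0 (conj (h • c) (Φ f)) = ord0 (conj c (Φ f)))
    (horbit : ∀ c : C, Nat.card (MulAction.orbit H c) ∣ s)
    (hdvd : ∀ (c : C) (f : F), f ≠ 0 →
      ((s / Nat.card (MulAction.orbit H c) : ℕ) : ℤ) ∣ ord0 (conj c (Φ f))) :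
    FibreModel K y C H where
  ν c f := ord0 (conj c (Φ f))
  isOrd c := isOrdFun_of_bridge Φ (conj c) S (hS c) ord0 hord0_mul hord0_add
    (fun a ha => by rw [hfixK]; exact hord0_const a ha)
  y_ne := hy0
  s := s
  s_pos := hs
  ν_y c := by rw [hfixy]; exact hsy
  ν_smul h c := by
    funext f
    exact hsmul h c f
  orbit_dvd := horbit
  dvd := hdvd
  norm f hf := norm_of_inv Φ conj c1 hc1 y hfixy hfixK hinv S hS ord0 hord0_mul f hf

@[simp] theorem _root_.Fermat.Agent.S24.FibreModel.ofBridge_ν [DecidableEq C]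
    {H : Type*} [Group H] [MulAction H C]
    (c1 : C) (hc1 : ∀ f : F, conj c1 (Φ f) = Φ f)
    (y : F) (hy0 : y ≠ 0)
    (hfixK : ∀ c (k : K), conj c (Φ (algebraMap K F k)) = Φ (algebraMap K F k))
    (hfixy : ∀ c, conj c (Φ y) = Φ y)
    (hinv : ∀ f : F, ∃ n ∈ K⟮y⟯, Φ n = ∏ c, conj c (Φ f))
    (S : Subring M) (hS : ∀ c (f : F), conj c (Φ f) ∈ S)
    (ord0 : M → ℤ)
    (hord0_mul : ∀ x z : M, x ∈ S → z ∈ S → x ≠ 0 → z ≠ 0 → ord0 (x * z) = ord0 x + ord0 z)
    (hord0_add : ∀ x z : M, x ∈ S → z ∈ S → x ≠ 0 → z ≠ 0 → x + z ≠ 0 →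
      min (ord0 x) (ord0 z) ≤ ord0 (x + z))
    (hord0_const : ∀ a : K, a ≠ 0 → ord0 (Φ (algebraMap K F a)) = 0)
    (s : ℕ) (hs : 0 < s) (hsy : ord0 (Φ y) = s)
    (hsmul : ∀ (h : H) (c : C) (f : F), ord0 (conj (h • c) (Φ f)) = ord0 (conj c (Φ f)))
    (horbit : ∀ c : C, Nat.card (MulAction.orbit H c) ∣ s)
    (hdvd : ∀ (c : C) (f : F), f ≠ 0 →
      ((s / Nat.card (MulAction.orbit H c) : ℕ) : ℤ) ∣ ord0 (conj c (Φ f)))
    (c : C) (f : F) :
    (FibreModel.ofBridge Φ conj c1 hc1 y hy0 hfixK hfixy hinv S hS ord0 hord0_mul hord0_add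
      hord0_const s hs hsy hsmul horbit hdvd).ν c f = ord0 (conj c (Φ f)) := rfl

end Fermat.Agent.S24.FibreNorm
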