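import Mathlib

set_option autoImplicit false

/-!
S24: the rotation lemma.  If `g` is meromorphic at `z0` and invariant under a local analytic map
`φ` fixing `z0` with multiplier `lam = φ'(z0) ≠ 0`, then `lam ^ ord_{z0} g = 1`.
Consequences for functions on the upper half plane invariant under an elliptic element of
`SL(2, ℤ)`.
-/

open Filter Topology

namespace Fermat.Agent.S24.Rotation

/-- **Rotation lemma.** -/
theorem pow_order_eq_one {g φ : ℂ → ℂ} {z0 lam : ℂ} {n : ℤ}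
    (hgm : MeromorphicAt g z0) (hg : meromorphicOrderAt g z0 = n)
    (hφ : AnalyticAt ℂ φ z0) (hφ0 : φ z0 = z0) (hlam : deriv φ z0 = lam) (hlam0 : lam ≠ 0)
    (hinv : ∀ᶠ z in 𝓝[≠] z0, g (φ z) = g z) : lam ^ n = 1 := by
  obtain ⟨h, hh_an, hh0, hgh⟩ := (meromorphicOrderAt_eq_int_iff hgm).mp hg
  -- `φ z - z0 = (z - z0) * ψ z` with `ψ` analytic, `ψ z0 = lam`
  set ψ : ℂ → ℂ := dslope φ z0 with hψ
  have hψ_an : AnalyticAt ℂ ψ z0 := by
    obtain ⟨p, hp⟩ := hφ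
    exact ⟨_, hp.has_fpower_series_dslope_fslope⟩
  have hψ0 : ψ z0 = lam := by rw [hψ, dslope_same, hlam]
  have hψeq : ∀ z, φ z - z0 = (z - z0) * ψ z := by
    intro z
    have := sub_smul_dslope φ z0 z
    rw [hφ0, smul_eq_mul] at this
    exact this.symm
  have hψ_cont : ContinuousAt ψ z0 := hψ_an.continuousAt
  have hψ_ne : ∀ᶠ z in 𝓝 z0, ψ z ≠ 0 := by
    apply hψ_cont.eventually_ne
    rw [hψ0]; exact hlam0
  -- `φ` maps the punctured neighbourhood filter into itself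
  have hφ_cont : ContinuousAt φ z0 := hφ.continuousAt
  have hφ_tend : Tendsto φ (𝓝[≠] z0) (𝓝[≠] z0) := by
    rw [tendsto_nhdsWithin_iff]
    refine ⟨?_, ?_⟩
    · have : Tendsto φ (𝓝 z0) (𝓝 z0) := by
        have := hφ_cont.tendsto
        rwa [hφ0] at this
      exact this.mono_left nhdsWithin_le_nhds
    · have h1 : ∀ᶠ z in 𝓝[≠] z0, ψ z ≠ 0 := hψ_ne.filter_mono nhdsWithin_le_nhds
      have h2 : ∀ᶠ z in 𝓝[≠] z0, z ≠ z0 := eventually_mem_nhdsWithin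
      filter_upwards [h1, h2] with z hz1 hz2
      rw [Set.mem_compl_iff, Set.mem_singleton_iff, ← sub_eq_zero, hψeq z]
      exact mul_ne_zero (sub_ne_zero.mpr hz2) hz1
  have hgh' : ∀ᶠ z in 𝓝[≠] z0, g (φ z) = (φ z - z0) ^ n • h (φ z) := hφ_tend.eventually hgh
  -- the identity `h z = ψ z ^ n * h (φ z)` on a punctured neighbourhood
  have hkey : ∀ᶠ z in 𝓝[≠] z0, h z = ψ z ^ n * h (φ z) := by
    have h2 : ∀ᶠ z in 𝓝[≠] z0, z ≠ z0 := eventually_mem_nhdsWithin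
    filter_upwards [hgh, hgh', hinv, h2] with z e1 e2 e3 hz
    have hz' : (z - z0) ^ n ≠ 0 := zpow_ne_zero _ (sub_ne_zero.mpr hz)
    rw [e1, e2, hψeq z, mul_zpow, smul_eq_mul, smul_eq_mul] at e3
    have : (z - z0) ^ n * (ψ z ^ n * h (φ z)) = (z - z0) ^ n * h z := by
      rw [← e3]; ring
    exact (mul_left_cancel₀ hz' this).symm
  -- pass to the limit at `z0`
  have hlim1 : Tendsto h (𝓝[≠] z0) (𝓝 (h z0)) :=
    hh_an.continuousAt.tendsto.mono_left nhdsWithin_le_nhds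
  have hlim2 : Tendsto (fun z => ψ z ^ n * h (φ z)) (𝓝[≠] z0) (𝓝 (lam ^ n * h z0)) := by
    have hA : Tendsto (fun z => ψ z ^ n) (𝓝 z0) (𝓝 (lam ^ n)) := by
      have : ContinuousAt (fun z => ψ z ^ n) z0 :=
        hψ_cont.zpow₀ n (Or.inl (by rw [hψ0]; exact hlam0))
      have := this.tendsto
      rwa [hψ0] at this
    have hB : Tendsto (fun z => h (φ z)) (𝓝 z0) (𝓝 (h z0)) := by
      have hc : ContinuousAt (fun z => h (φ z)) z0 := by
        apply ContinuousAt.comp (g := h) (f := φ)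
        · rw [hφ0]; exact hh_an.continuousAt
        · exact hφ_cont
      have := hc.tendsto
      rwa [hφ0] at this
    exact (hA.mul hB).mono_left nhdsWithin_le_nhds
  have huniq : h z0 = lam ^ n * h z0 :=
    tendsto_nhds_unique_of_eventuallyEq hlim1 hlim2 hkey
  have : (lam ^ n - 1) * h z0 = 0 := by linear_combination -huniq
  rcases mul_eq_zero.mp this with h1 | h1
  · exact sub_eq_zero.mp h1
  · exact absurd h1 hh0

/-! ### functions on the upper half plane -/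

open UpperHalfPlane ModularGroup MatrixGroups

/-- the Möbius map of `γ` as a function `ℂ → ℂ` -/
noncomputable def moeb (γ : SL(2, ℤ)) (w : ℂ) : ℂ :=
  ((γ 0 0 : ℂ) * w + (γ 0 1 : ℂ)) / ((γ 1 0 : ℂ) * w + (γ 1 1 : ℂ))

lemma coe_smul_eq_moeb (γ : SL(2, ℤ)) (z : ℍ) : ((γ • z : ℍ) : ℂ) = moeb γ z := by
  rw [coe_specialLinearGroup_apply, moeb]
  simp

lemma denom_eq (γ : SL(2, ℤ)) (z : ℍ) : denom γ z = (γ 1 0 : ℂ) * z + (γ 1 1 : ℂ) := by
  rw [ModularGroup.denom_apply]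

lemma hasDerivAt_moeb (γ : SL(2, ℤ)) (z : ℍ) :
    HasDerivAt (moeb γ) (1 / (denom γ z) ^ 2) (z : ℂ) := by
  have hd : (γ 1 0 : ℂ) * z + (γ 1 1 : ℂ) ≠ 0 := by
    rw [← denom_eq]; exact denom_ne_zero γ z
  have hdet : (γ 0 0 : ℂ) * (γ 1 1 : ℂ) - (γ 0 1 : ℂ) * (γ 1 0 : ℂ) = 1 := by
    have := γ.det_coe
    rw [Matrix.det_fin_two] at this
    exact_mod_cast this
  have h1 : HasDerivAt (fun w : ℂ => (γ 0 0 : ℂ) * w + (γ 0 1 : ℂ)) (γ 0 0 : ℂ) (z : ℂ) := by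
    simpa using ((hasDerivAt_id (z : ℂ)).const_mul (γ 0 0 : ℂ)).add_const (γ 0 1 : ℂ)
  have h2 : HasDerivAt (fun w : ℂ => (γ 1 0 : ℂ) * w + (γ 1 1 : ℂ)) (γ 1 0 : ℂ) (z : ℂ) := by
    simpa using ((hasDerivAt_id (z : ℂ)).const_mul (γ 1 0 : ℂ)).add_const (γ 1 1 : ℂ)
  have h3 := h1.div h2 hd
  have heq : ((γ 0 0 : ℂ) * ((γ 1 0 : ℂ) * z + (γ 1 1 : ℂ)) -
      ((γ 0 0 : ℂ) * z + (γ 0 1 : ℂ)) * (γ 1 0 : ℂ)) / ((γ 1 0 : ℂ) * z + (γ 1 1 : ℂ)) ^ 2
      = 1 / (denom γ z) ^ 2 := by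
    rw [denom_eq]
    congr 1
    linear_combination hdet
  rw [← heq]
  exact h3

/-- **Rotation lemma on `ℍ`.** -/
theorem denom_zpow_eq_one {f : ℍ → ℂ} {γ : SL(2, ℤ)} {z0 : ℍ} {n : ℤ}
    (hγ : γ • z0 = z0) (hf : ∀ z, f (γ • z) = f z)
    (hgm : MeromorphicAt (f ∘ ofComplex) (z0 : ℂ))
    (hg : meromorphicOrderAt (f ∘ ofComplex) (z0 : ℂ) = n) :
    (denom γ z0) ^ (2 * n) = 1 := by
  have hd0 : denom γ z0 ≠ 0 := denom_ne_zero γ z0
  have hderiv := hasDerivAt_moeb γ z0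
  have hφ_an : AnalyticAt ℂ (moeb γ) (z0 : ℂ) := by
    have hd : (γ 1 0 : ℂ) * z0 + (γ 1 1 : ℂ) ≠ 0 := by
      rw [← denom_eq]; exact hd0
    unfold moeb
    fun_prop (disch := exact hd)
  have hφ0 : moeb γ (z0 : ℂ) = z0 := by
    rw [← coe_smul_eq_moeb, hγ]
  have hinv : ∀ᶠ w in 𝓝[≠] (z0 : ℂ), (f ∘ ofComplex) (moeb γ w) = (f ∘ ofComplex) w := by
    have hopen : ∀ᶠ w in 𝓝 (z0 : ℂ), 0 < w.im :=
      ((Complex.continuous_im.isOpen_preimage _ isOpen_Ioi).eventually_mem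
        (show (z0 : ℂ) ∈ Complex.im ⁻¹' Set.Ioi 0 from z0.im_pos)).mono fun w hw => hw
    refine (hopen.filter_mono nhdsWithin_le_nhds).mono fun w hw => ?_
    have h1 : moeb γ w = ((γ • (⟨w, hw⟩ : ℍ) : ℍ) : ℂ) := (coe_smul_eq_moeb γ ⟨w, hw⟩).symm
    simp only [Function.comp_apply]
    rw [h1, ofComplex_apply, ofComplex_apply_of_im_pos hw, hf]
  have hlam0 : (1 / (denom γ z0) ^ 2 : ℂ) ≠ 0 := by
    apply one_div_ne_zero
    exact pow_ne_zero 2 hd0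
  have h := pow_order_eq_one hgm hg hφ_an hφ0 hderiv.deriv hlam0 hinv
  rw [one_div, inv_zpow, inv_eq_one, ← zpow_natCast, ← zpow_mul] at h
  exact_mod_cast h

/-- invariance under `S` at a fixed point of `S`: the order is even -/
theorem even_order_of_S {f : ℍ → ℂ} {z0 : ℍ} {n : ℤ}
    (hγ : S • z0 = z0) (hf : ∀ z, f (S • z) = f z)
    (hgm : MeromorphicAt (f ∘ ofComplex) (z0 : ℂ))
    (hg : meromorphicOrderAt (f ∘ ofComplex) (z0 : ℂ) = n) : Even n := by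
  have h := denom_zpow_eq_one hγ hf hgm hg
  rw [denom_S] at h
  -- `z0 ^ 2 = -1`
  have hz : (z0 : ℂ) ^ 2 = -1 := by
    have h1 := coe_smul_eq_moeb S z0
    rw [hγ] at h1
    have hz0 : (z0 : ℂ) ≠ 0 := ne_zero z0
    unfold moeb at h1
    simp [S] at h1
    field_simp at h1
    linear_combination h1
  rw [zpow_mul, zpow_ofNat, hz, neg_one_zpow_eq_ite] at h
  by_contra hodd
  rw [if_neg hodd] at h
  norm_num at h

/-- invariance under `S * T` at a fixed point of `S * T`: the order is divisible by `3` -/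
theorem three_dvd_order_of_ST {f : ℍ → ℂ} {z0 : ℍ} {n : ℤ}
    (hγ : (S * T) • z0 = z0) (hf : ∀ z, f ((S * T) • z) = f z)
    (hgm : MeromorphicAt (f ∘ ofComplex) (z0 : ℂ))
    (hg : meromorphicOrderAt (f ∘ ofComplex) (z0 : ℂ) = n) : (3 : ℤ) ∣ n := by
  have h := denom_zpow_eq_one hγ hf hgm hg
  have e00 : (S * T : SL(2, ℤ)) 0 0 = 0 := by decide
  have e01 : (S * T : SL(2, ℤ)) 0 1 = -1 := by decide
  have e10 : (S * T : SL(2, ℤ)) 1 0 = 1 := by decide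
  have e11 : (S * T : SL(2, ℤ)) 1 1 = 1 := by decide
  have hd := denom_eq (S * T) z0
  rw [e10, e11] at hd
  simp only [Int.cast_one, one_mul] at hd
  have hd0 : (z0 : ℂ) + 1 ≠ 0 := by
    rw [← hd]; exact denom_ne_zero _ _
  -- `z0 ^ 2 + z0 + 1 = 0`
  have hz : (z0 : ℂ) ^ 2 + z0 + 1 = 0 := by
    have h1 := coe_smul_eq_moeb (S * T) z0
    rw [hγ] at h1
    unfold moeb at h1
    rw [e00, e01, e10, e11] at h1
    simp only [Int.cast_zero, zero_mul, Int.cast_neg, Int.cast_one, one_mul, zero_add] at h1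
    field_simp at h1
    linear_combination h1
  have hd2 : ((z0 : ℂ) + 1) ^ 2 = z0 := by linear_combination hz
  rw [hd, zpow_mul, zpow_ofNat, hd2] at h
  have hz3 : (z0 : ℂ) ^ 3 = 1 := by linear_combination ((z0 : ℂ) - 1) * hz
  have hz0 : (z0 : ℂ) ≠ 0 := ne_zero z0
  have him : (z0 : ℂ).im ≠ 0 := z0.im_pos.ne'
  -- reduce the exponent mod 3
  have hn : n = 3 * (n / 3) + n % 3 := (Int.mul_ediv_add_emod n 3).symm
  have hr0 : 0 ≤ n % 3 := Int.emod_nonneg n (by norm_num)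
  have hr3 : n % 3 < 3 := Int.emod_lt_of_pos n (by norm_num)
  rw [hn, zpow_add₀ hz0, zpow_mul, zpow_ofNat, hz3, one_zpow, one_mul] at h
  have hcases : n % 3 = 0 ∨ n % 3 = 1 ∨ n % 3 = 2 := by omega
  rcases hcases with h0 | h1 | h2
  · exact Int.dvd_of_emod_eq_zero h0
  · exfalso
    rw [h1, zpow_one] at h
    rw [h] at him
    simp at him
  · exfalso
    rw [h2] at h
    have h4 : (z0 : ℂ) ^ 2 = 1 := by exact_mod_cast h
    have h5 : (z0 : ℂ) = -2 := by linear_combination hz - h4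
    rw [h5] at him
    simp at him

/-! ### versions for holomorphic functions (`analyticOrderAt`) -/

lemma meromorphicOrderAt_of_analyticOrderAt {g : ℂ → ℂ} {x : ℂ} (hg : AnalyticAt ℂ g x) {m : ℕ}
    (hm : analyticOrderAt g x = m) : meromorphicOrderAt g x = ((m : ℤ) : WithTop ℤ) := by
  rw [hg.meromorphicOrderAt_eq, hm]
  rfl

theorem denom_pow_eq_one_of_analytic {f : ℍ → ℂ} {γ : SL(2, ℤ)} {z0 : ℍ} {m : ℕ}
    (hγ : γ • z0 = z0) (hf : ∀ z, f (γ • z) = f z)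
    (hfan : AnalyticAt ℂ (f ∘ ofComplex) (z0 : ℂ))
    (hm : analyticOrderAt (f ∘ ofComplex) (z0 : ℂ) = m) :
    (denom γ z0) ^ (2 * m) = 1 := by
  have h := denom_zpow_eq_one hγ hf hfan.meromorphicAt
    (meromorphicOrderAt_of_analyticOrderAt hfan hm)
  exact_mod_cast h

theorem even_analyticOrder_of_S {f : ℍ → ℂ} {z0 : ℍ} {m : ℕ}
    (hγ : S • z0 = z0) (hf : ∀ z, f (S • z) = f z)
    (hfan : AnalyticAt ℂ (f ∘ ofComplex) (z0 : ℂ))
    (hm : analyticOrderAt (f ∘ ofComplex) (z0 : ℂ) = m) : Even m := by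
  have h := even_order_of_S hγ hf hfan.meromorphicAt
    (meromorphicOrderAt_of_analyticOrderAt hfan hm)
  exact_mod_cast h

theorem three_dvd_analyticOrder_of_ST {f : ℍ → ℂ} {z0 : ℍ} {m : ℕ}
    (hγ : (S * T) • z0 = z0) (hf : ∀ z, f ((S * T) • z) = f z)
    (hfan : AnalyticAt ℂ (f ∘ ofComplex) (z0 : ℂ))
    (hm : analyticOrderAt (f ∘ ofComplex) (z0 : ℂ) = m) : 3 ∣ m := by
  have h := three_dvd_order_of_ST hγ hf hfan.meromorphicAt
    (meromorphicOrderAt_of_analyticOrderAt hfan hm)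
  exact_mod_cast h

end Fermat.Agent.S24.Rotation
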