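import Mathlib
import Fermat.Agent.S24.Hol
import Fermat.Agent.S24.Rotation

set_option autoImplicit false

/-!
# S24: orders of vanishing on `Hol` and `Mer`
-/

namespace Fermat.Agent.S24

open UpperHalfPlane Filter Topology
open scoped Manifold MatrixGroups

noncomputable section

/-! ### analyticity of elements of `Hol` -/

theorem Hol.differentiableOn (f : Hol) :
    DifferentiableOn ℂ ((f : ℍ → ℂ) ∘ ofComplex) {z : ℂ | 0 < z.im} :=
  UpperHalfPlane.mdifferentiable_iff.mp f.2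

theorem Hol.analyticOnNhd (f : Hol) :
    AnalyticOnNhd ℂ ((f : ℍ → ℂ) ∘ ofComplex) {z : ℂ | 0 < z.im} :=
  (Hol.differentiableOn f).analyticOnNhd isOpen_upperHalfPlaneSet

theorem Hol.analyticAt (f : Hol) (z0 : ℍ) :
    AnalyticAt ℂ ((f : ℍ → ℂ) ∘ ofComplex) (z0 : ℂ) :=
  Hol.analyticOnNhd f _ z0.im_pos

theorem Hol.comp_ofComplex_apply (f : Hol) (z0 : ℍ) :
    ((f : ℍ → ℂ) ∘ ofComplex) (z0 : ℂ) = (f : ℍ → ℂ) z0 := by
  simp [Function.comp, ofComplex_apply]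

/-- Build an element of `Hol` from a function holomorphic on the open upper half plane of `ℂ`. -/
def Hol.ofComplexFun (F : ℂ → ℂ) (hF : DifferentiableOn ℂ F {z : ℂ | 0 < z.im}) : Hol :=
  ⟨fun z => F z, by
    rw [mem_Hol, UpperHalfPlane.mdifferentiable_iff]
    refine hF.congr ?_
    intro z hz
    simp [Function.comp, ofComplex_apply_of_im_pos hz]⟩

@[simp] theorem Hol.ofComplexFun_apply (F : ℂ → ℂ) (hF) (z : ℍ) :
    ((Hol.ofComplexFun F hF : Hol) : ℍ → ℂ) z = F z := rfl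

/-! ### the order of vanishing on `Hol` -/

/-- Order of vanishing of a holomorphic function at `z0` (`⊤` iff the function is zero). -/
def Hol.ordAt (z0 : ℍ) (f : Hol) : ℕ∞ := analyticOrderAt ((f : ℍ → ℂ) ∘ ofComplex) (z0 : ℂ)

theorem Hol.ordAt_mul (z0 : ℍ) (f g : Hol) :
    Hol.ordAt z0 (f * g) = Hol.ordAt z0 f + Hol.ordAt z0 g :=
  analyticOrderAt_mul (Hol.analyticAt f z0) (Hol.analyticAt g z0)

theorem Hol.ordAt_eq_top_iff (z0 : ℍ) (f : Hol) : Hol.ordAt z0 f = ⊤ ↔ f = 0 := by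
  constructor
  · intro h
    have h1 : ∀ᶠ z in 𝓝 (z0 : ℂ), ((f : ℍ → ℂ) ∘ ofComplex) z = 0 := analyticOrderAt_eq_top.mp h
    have hconn : IsPreconnected {z : ℂ | 0 < z.im} := (convex_halfSpace_im_gt 0).isPreconnected
    have h2 := (Hol.analyticOnNhd f).eqOn_zero_of_preconnected_of_eventuallyEq_zero hconn z0.im_pos h1
    ext τ
    have := h2 τ.im_pos
    simpa [Function.comp, ofComplex_apply] using this
  · rintro rfl
    apply analyticOrderAt_eq_top.mpr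
    exact Eventually.of_forall fun z => rfl

theorem Hol.ordAt_ne_top {z0 : ℍ} {f : Hol} (hf : f ≠ 0) : Hol.ordAt z0 f ≠ ⊤ :=
  fun h => hf ((Hol.ordAt_eq_top_iff z0 f).mp h)

theorem Hol.ordAt_eq_zero_iff (z0 : ℍ) (f : Hol) : Hol.ordAt z0 f = 0 ↔ (f : ℍ → ℂ) z0 ≠ 0 := by
  rw [Hol.ordAt, (Hol.analyticAt f z0).analyticOrderAt_eq_zero, Hol.comp_ofComplex_apply]

theorem Hol.ordAt_add (z0 : ℍ) (f g : Hol) :
    min (Hol.ordAt z0 f) (Hol.ordAt z0 g) ≤ Hol.ordAt z0 (f + g) :=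
  le_analyticOrderAt_add

theorem Hol.ordAt_algebraMap (z0 : ℍ) {c : ℂ} (hc : c ≠ 0) :
    Hol.ordAt z0 (algebraMap ℂ Hol c) = 0 := by
  rw [Hol.ordAt_eq_zero_iff]
  simpa using hc

theorem Hol.ordAt_one (z0 : ℍ) : Hol.ordAt z0 1 = 0 := by
  rw [Hol.ordAt_eq_zero_iff]
  simp

/-- Natural-number valued order. -/
def Hol.ordNat (z0 : ℍ) (f : Hol) : ℕ := (Hol.ordAt z0 f).toNat

theorem Hol.coe_ordNat {z0 : ℍ} {f : Hol} (hf : f ≠ 0) : (Hol.ordNat z0 f : ℕ∞) = Hol.ordAt z0 f :=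
  ENat.natCast_toNat (Hol.ordAt_ne_top hf)

theorem Hol.ordNat_mul (z0 : ℍ) {f g : Hol} (hf : f ≠ 0) (hg : g ≠ 0) :
    Hol.ordNat z0 (f * g) = Hol.ordNat z0 f + Hol.ordNat z0 g := by
  have h := Hol.ordAt_mul z0 f g
  rw [← Hol.coe_ordNat hf, ← Hol.coe_ordNat hg, ← Hol.coe_ordNat (mul_ne_zero hf hg)] at h
  exact_mod_cast h

theorem Hol.ordNat_add (z0 : ℍ) {f g : Hol} (hf : f ≠ 0) (hg : g ≠ 0) (hfg : f + g ≠ 0) :
    min (Hol.ordNat z0 f) (Hol.ordNat z0 g) ≤ Hol.ordNat z0 (f + g) := by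
  have h := Hol.ordAt_add z0 f g
  rw [← Hol.coe_ordNat hf, ← Hol.coe_ordNat hg, ← Hol.coe_ordNat hfg] at h
  rcases le_total (Hol.ordNat z0 f) (Hol.ordNat z0 g) with h1 | h1
  · rw [min_eq_left h1]
    rw [min_eq_left (by exact_mod_cast h1)] at h
    exact_mod_cast h
  · rw [min_eq_right h1]
    rw [min_eq_right (by exact_mod_cast h1)] at h
    exact_mod_cast h

theorem Hol.ordNat_eq_zero_iff (z0 : ℍ) {f : Hol} (hf : f ≠ 0) :
    Hol.ordNat z0 f = 0 ↔ (f : ℍ → ℂ) z0 ≠ 0 := by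
  rw [← Hol.ordAt_eq_zero_iff, ← Hol.coe_ordNat hf]
  simp

/-! ### division by `z - z0` -/

/-- The holomorphic function `z ↦ z - z0`. -/
def Hol.idSub (z0 : ℍ) : Hol :=
  Hol.ofComplexFun (fun z => z - (z0 : ℂ)) (by fun_prop)

@[simp] theorem Hol.idSub_apply (z0 z : ℍ) : ((Hol.idSub z0 : Hol) : ℍ → ℂ) z = (z : ℂ) - z0 := rfl

theorem Hol.idSub_ne_zero (z0 : ℍ) : Hol.idSub z0 ≠ 0 := by
  intro h
  have h1 := congrFun (congrArg Subtype.val h)
    ⟨(z0 : ℂ) + Complex.I, by simpa using add_pos z0.im_pos one_pos⟩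
  simp at h1

theorem Hol.ordAt_idSub_self (z0 : ℍ) : Hol.ordAt z0 (Hol.idSub z0) = 1 := by
  have h : analyticOrderAt (fun z : ℂ => z - (z0 : ℂ)) (z0 : ℂ) = 1 := by
    have := analyticOrderAt_id_sub_const_self (𝕜 := ℂ) (c := (z0 : ℂ))
    exact this
  rw [Hol.ordAt, ← h]
  apply analyticOrderAt_congr
  filter_upwards [isOpen_upperHalfPlaneSet.mem_nhds z0.im_pos] with z hz
  simp [Function.comp, ofComplex_apply_of_im_pos hz]

theorem Hol.ordAt_idSub_of_ne {z0 z1 : ℍ} (h : z1 ≠ z0) : Hol.ordAt z1 (Hol.idSub z0) = 0 := by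
  rw [Hol.ordAt_eq_zero_iff]
  simp only [Hol.idSub_apply]
  intro h0
  apply h
  ext
  exact sub_eq_zero.mp h0

/-- The holomorphic function `(f - f z0) / (z - z0)`. -/
def Hol.dslope (z0 : ℍ) (f : Hol) : Hol :=
  Hol.ofComplexFun (_root_.dslope ((f : ℍ → ℂ) ∘ ofComplex) (z0 : ℂ))
    ((Complex.differentiableOn_dslope (isOpen_upperHalfPlaneSet.mem_nhds z0.im_pos)).mpr
      (Hol.differentiableOn f))

theorem Hol.eq_add_idSub_mul_dslope (z0 : ℍ) (f : Hol) :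
    f = algebraMap ℂ Hol ((f : ℍ → ℂ) z0) + Hol.idSub z0 * Hol.dslope z0 f := by
  ext z
  have h := sub_smul_dslope ((f : ℍ → ℂ) ∘ ofComplex) (z0 : ℂ) (z : ℂ)
  simp only [smul_eq_mul, Function.comp, ofComplex_apply] at h
  simp only [Hol.coe_add, Hol.coe_mul, Pi.add_apply, Pi.mul_apply, Hol.coe_algebraMap,
    Hol.idSub_apply, Hol.dslope, Hol.ofComplexFun_apply]
  rw [h]
  ring

/-- If `f` vanishes at `z0` it is divisible by `z - z0`. -/
theorem Hol.exists_eq_idSub_mul {z0 : ℍ} {f : Hol} (h : (f : ℍ → ℂ) z0 = 0) :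
    ∃ g : Hol, f = Hol.idSub z0 * g := by
  refine ⟨Hol.dslope z0 f, ?_⟩
  have := Hol.eq_add_idSub_mul_dslope z0 f
  rw [h, map_zero, zero_add] at this
  exact this

/-- Divide out the exact order of vanishing. -/
theorem Hol.exists_eq_pow_mul (z0 : ℍ) {f : Hol} (hf : f ≠ 0) :
    ∃ g : Hol, (g : ℍ → ℂ) z0 ≠ 0 ∧ f = Hol.idSub z0 ^ Hol.ordNat z0 f * g := by
  induction hn : Hol.ordNat z0 f generalizing f with
  | zero =>
    refine ⟨f, (Hol.ordNat_eq_zero_iff z0 hf).mp hn, by simp⟩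
  | succ n ih =>
    have h0 : (f : ℍ → ℂ) z0 = 0 := by
      by_contra h
      rw [(Hol.ordNat_eq_zero_iff z0 hf).mpr h] at hn
      exact absurd hn (by simp)
    obtain ⟨g, hg⟩ := Hol.exists_eq_idSub_mul h0
    have hg0 : g ≠ 0 := by
      rintro rfl
      exact hf (by rw [hg, mul_zero])
    have hord : Hol.ordNat z0 g = n := by
      have h1 := Hol.ordNat_mul z0 (Hol.idSub_ne_zero z0) hg0
      rw [← hg, hn] at h1
      have h2 : Hol.ordNat z0 (Hol.idSub z0) = 1 := by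
        rw [Hol.ordNat, Hol.ordAt_idSub_self]; rfl
      omega
    obtain ⟨g1, hg1, hgg⟩ := ih hg0 hord
    refine ⟨g1, hg1, ?_⟩
    rw [hg, hgg, pow_succ]
    ring


/-! ### the order of vanishing on `Mer` -/

/-- The inclusion `Hol → Mer`. -/
abbrev toMer : Hol →+* Mer := algebraMap Hol Mer

theorem toMer_injective : Function.Injective toMer := IsFractionRing.injective Hol Mer

theorem toMer_ne_zero {a : Hol} (ha : a ≠ 0) : toMer a ≠ 0 := by
  intro h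
  exact ha (toMer_injective (by rw [h, map_zero]))

theorem Mer.exists_eq_div (x : Mer) : ∃ a b : Hol, b ≠ 0 ∧ x = toMer a / toMer b := by
  obtain ⟨a, b, hb, h⟩ := IsFractionRing.div_surjective (A := Hol) x
  exact ⟨a, b, nonZeroDivisors.ne_zero hb, h.symm⟩

theorem Mer.exists_rep_pair (x : Mer) : ∃ p : Hol × Hol, p.2 ≠ 0 ∧ x = toMer p.1 / toMer p.2 := by
  obtain ⟨a, b, hb, h⟩ := Mer.exists_eq_div x
  exact ⟨(a, b), hb, h⟩

/-- A chosen representation of `x` as a fraction. -/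
def Mer.rep (x : Mer) : Hol × Hol := Classical.choose (Mer.exists_rep_pair x)

theorem Mer.rep_snd_ne_zero (x : Mer) : (Mer.rep x).2 ≠ 0 :=
  (Classical.choose_spec (Mer.exists_rep_pair x)).1

theorem Mer.eq_rep_div (x : Mer) : x = toMer (Mer.rep x).1 / toMer (Mer.rep x).2 :=
  (Classical.choose_spec (Mer.exists_rep_pair x)).2

/-- The order of a meromorphic function at `z0` (junk value `0` at `x = 0`). -/
def Mer.ordAt (z0 : ℍ) (x : Mer) : ℤ :=
  haveI := Classical.propDecidable (x = 0)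
  if x = 0 then 0 else
    (Hol.ordNat z0 (Mer.rep x).1 : ℤ) - Hol.ordNat z0 (Mer.rep x).2

@[simp] theorem Mer.ordAt_zero (z0 : ℍ) : Mer.ordAt z0 0 = 0 := by simp [Mer.ordAt]

theorem Mer.ordAt_div (z0 : ℍ) {a b : Hol} (ha : a ≠ 0) (hb : b ≠ 0) :
    Mer.ordAt z0 (toMer a / toMer b) = (Hol.ordNat z0 a : ℤ) - Hol.ordNat z0 b := by
  have hx : toMer a / toMer b ≠ 0 := div_ne_zero (toMer_ne_zero ha) (toMer_ne_zero hb)
  rw [Mer.ordAt, if_neg hx]
  set p := Mer.rep (toMer a / toMer b) with hp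
  have hb'0 : p.2 ≠ 0 := Mer.rep_snd_ne_zero _
  have hx' : toMer a / toMer b = toMer p.1 / toMer p.2 := Mer.eq_rep_div _
  have ha'0 : p.1 ≠ 0 := by
    rintro h
    rw [h, map_zero, zero_div] at hx'
    exact hx hx'
  have hcross : a * p.2 = p.1 * b := by
    apply toMer_injective
    rw [map_mul, map_mul]
    have h1 := toMer_ne_zero hb
    have h2 := toMer_ne_zero hb'0
    field_simp at hx'
    rw [hx', mul_comm]
  have h1 := Hol.ordNat_mul z0 ha hb'0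
  have h2 := Hol.ordNat_mul z0 ha'0 hb
  rw [hcross] at h1
  omega

theorem Mer.ordAt_toMer (z0 : ℍ) {a : Hol} (ha : a ≠ 0) :
    Mer.ordAt z0 (toMer a) = Hol.ordNat z0 a := by
  have h := Mer.ordAt_div z0 ha (one_ne_zero)
  rw [map_one, div_one] at h
  rw [h]
  have : Hol.ordNat z0 1 = 0 := by rw [Hol.ordNat, Hol.ordAt_one]; rfl
  simp [this]

theorem Mer.ordAt_toMer_nonneg (z0 : ℍ) (a : Hol) : 0 ≤ Mer.ordAt z0 (toMer a) := by
  rcases eq_or_ne a 0 with rfl | ha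
  · simp
  · rw [Mer.ordAt_toMer z0 ha]; positivity

@[simp] theorem Mer.ordAt_one (z0 : ℍ) : Mer.ordAt z0 1 = 0 := by
  have h := Mer.ordAt_toMer z0 (one_ne_zero (α := Hol))
  rw [map_one] at h
  rw [h]
  have : Hol.ordNat z0 1 = 0 := by rw [Hol.ordNat, Hol.ordAt_one]; rfl
  simp [this]

theorem Mer.ordAt_mul (z0 : ℍ) {x y : Mer} (hx : x ≠ 0) (hy : y ≠ 0) :
    Mer.ordAt z0 (x * y) = Mer.ordAt z0 x + Mer.ordAt z0 y := by
  obtain ⟨a, b, hb, rfl⟩ := Mer.exists_eq_div x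
  obtain ⟨c, d, hd, rfl⟩ := Mer.exists_eq_div y
  have ha : a ≠ 0 := by rintro rfl; simp at hx
  have hc : c ≠ 0 := by rintro rfl; simp at hy
  have h : toMer a / toMer b * (toMer c / toMer d) = toMer (a * c) / toMer (b * d) := by
    rw [map_mul, map_mul, div_mul_div_comm]
  rw [h, Mer.ordAt_div z0 (mul_ne_zero ha hc) (mul_ne_zero hb hd), Mer.ordAt_div z0 ha hb,
    Mer.ordAt_div z0 hc hd, Hol.ordNat_mul z0 ha hc, Hol.ordNat_mul z0 hb hd]
  push_cast
  ring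

theorem Mer.ordAt_inv (z0 : ℍ) (x : Mer) : Mer.ordAt z0 x⁻¹ = -Mer.ordAt z0 x := by
  rcases eq_or_ne x 0 with rfl | hx
  · simp
  · have h := Mer.ordAt_mul z0 hx (inv_ne_zero hx)
    rw [mul_inv_cancel₀ hx, Mer.ordAt_one] at h
    omega

theorem Mer.ordAt_div' (z0 : ℍ) {x y : Mer} (hx : x ≠ 0) (hy : y ≠ 0) :
    Mer.ordAt z0 (x / y) = Mer.ordAt z0 x - Mer.ordAt z0 y := by
  rw [div_eq_mul_inv, Mer.ordAt_mul z0 hx (inv_ne_zero hy), Mer.ordAt_inv]
  ring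

theorem Mer.ordAt_pow (z0 : ℍ) (x : Mer) (n : ℕ) : Mer.ordAt z0 (x ^ n) = n * Mer.ordAt z0 x := by
  rcases eq_or_ne x 0 with rfl | hx
  · rcases n with _ | n <;> simp
  · induction n with
    | zero => simp
    | succ n ih =>
      rw [pow_succ, Mer.ordAt_mul z0 (pow_ne_zero n hx) hx, ih]
      push_cast
      ring

theorem Mer.ordAt_const (z0 : ℍ) {c : ℂ} (hc : c ≠ 0) :
    Mer.ordAt z0 (algebraMap ℂ Mer c) = 0 := by
  have h0 : algebraMap ℂ Hol c ≠ 0 := by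
    intro h
    have := congrFun (congrArg Subtype.val h) z0
    simp at this
    exact hc this
  have h : algebraMap ℂ Mer c = toMer (algebraMap ℂ Hol c) :=
    IsScalarTower.algebraMap_apply ℂ Hol Mer c
  rw [h, Mer.ordAt_toMer z0 h0, Hol.ordNat, Hol.ordAt_algebraMap z0 hc]
  rfl

theorem Mer.ordAt_neg (z0 : ℍ) (x : Mer) : Mer.ordAt z0 (-x) = Mer.ordAt z0 x := by
  rcases eq_or_ne x 0 with rfl | hx
  · simp
  · have h : -x = algebraMap ℂ Mer (-1) * x := by simp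
    rw [h, Mer.ordAt_mul z0 _ hx, Mer.ordAt_const z0 (by norm_num), zero_add]
    simp

theorem Mer.ordAt_add (z0 : ℍ) {x y : Mer} (hx : x ≠ 0) (hy : y ≠ 0) (hxy : x + y ≠ 0) :
    min (Mer.ordAt z0 x) (Mer.ordAt z0 y) ≤ Mer.ordAt z0 (x + y) := by
  obtain ⟨a, b, hb, rfl⟩ := Mer.exists_eq_div x
  obtain ⟨c, d, hd, rfl⟩ := Mer.exists_eq_div y
  have ha : a ≠ 0 := by rintro rfl; simp at hx
  have hc : c ≠ 0 := by rintro rfl; simp at hy
  have hb' := toMer_ne_zero hb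
  have hd' := toMer_ne_zero hd
  have h : toMer a / toMer b + toMer c / toMer d = toMer (a * d + c * b) / toMer (b * d) := by
    rw [map_add, map_mul, map_mul, map_mul]
    field_simp
  have hnum : a * d + c * b ≠ 0 := by
    intro h0
    rw [h, h0, map_zero, zero_div] at hxy
    exact hxy rfl
  rw [h, Mer.ordAt_div z0 hnum (mul_ne_zero hb hd), Mer.ordAt_div z0 ha hb,
    Mer.ordAt_div z0 hc hd, Hol.ordNat_mul z0 hb hd]
  have h1 := Hol.ordNat_add z0 (mul_ne_zero ha hd) (mul_ne_zero hc hb) hnum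
  rw [Hol.ordNat_mul z0 ha hd, Hol.ordNat_mul z0 hc hb] at h1
  push_cast
  omega


/-! ### the action of `SL(2,ℤ)` by composition -/

theorem mdiff_smul_SL (γ : SL(2, ℤ)) : MDiff (fun z : ℍ => γ • z) := by
  have h : 0 < ((γ : GL (Fin 2) ℝ)).det.val := by simp
  exact UpperHalfPlane.mdifferentiable_smul h

/-- `f ↦ f ∘ γ` on holomorphic functions, as a ring homomorphism. -/
def Hol.compHom (γ : SL(2, ℤ)) : Hol →+* Hol where
  toFun f := ⟨fun z => (f : ℍ → ℂ) (γ • z), (Hol.mdiff f).comp (mdiff_smul_SL γ)⟩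
  map_one' := rfl
  map_mul' _ _ := rfl
  map_zero' := rfl
  map_add' _ _ := rfl

@[simp] theorem Hol.compHom_apply (γ : SL(2, ℤ)) (f : Hol) (z : ℍ) :
    ((Hol.compHom γ f : Hol) : ℍ → ℂ) z = (f : ℍ → ℂ) (γ • z) := rfl

theorem Hol.compHom_mul (γ γ' : SL(2, ℤ)) (f : Hol) :
    Hol.compHom γ' (Hol.compHom γ f) = Hol.compHom (γ * γ') f := by
  ext z
  simp [mul_smul]

theorem Hol.compHom_one (f : Hol) : Hol.compHom 1 f = f := by
  ext z
  simp

/-- `f ↦ f ∘ γ` as a ring automorphism of `Hol`. -/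
def Hol.comp (γ : SL(2, ℤ)) : Hol ≃+* Hol where
  toFun := Hol.compHom γ
  invFun := Hol.compHom γ⁻¹
  left_inv f := by rw [Hol.compHom_mul, mul_inv_cancel, Hol.compHom_one]
  right_inv f := by rw [Hol.compHom_mul, inv_mul_cancel, Hol.compHom_one]
  map_mul' := map_mul _
  map_add' := map_add _

@[simp] theorem Hol.comp_apply (γ : SL(2, ℤ)) (f : Hol) (z : ℍ) :
    ((Hol.comp γ f : Hol) : ℍ → ℂ) z = (f : ℍ → ℂ) (γ • z) := rfl

theorem Hol.comp_comp (γ γ' : SL(2, ℤ)) (f : Hol) :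
    Hol.comp γ' (Hol.comp γ f) = Hol.comp (γ * γ') f := Hol.compHom_mul γ γ' f

theorem Hol.comp_one (f : Hol) : Hol.comp 1 f = f := Hol.compHom_one f

theorem Hol.comp_algebraMap (γ : SL(2, ℤ)) (c : ℂ) :
    Hol.comp γ (algebraMap ℂ Hol c) = algebraMap ℂ Hol c := by
  ext z; rfl

/-- `m ↦ m ∘ γ` as a field automorphism of `Mer`. -/
def Mer.comp (γ : SL(2, ℤ)) : Mer ≃+* Mer := IsFractionRing.ringEquivOfRingEquiv (Hol.comp γ)

@[simp] theorem Mer.comp_toMer (γ : SL(2, ℤ)) (a : Hol) :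
    Mer.comp γ (toMer a) = toMer (Hol.comp γ a) :=
  IsFractionRing.ringEquivOfRingEquiv_algebraMap (Hol.comp γ) a

theorem Mer.comp_div (γ : SL(2, ℤ)) (a b : Hol) :
    Mer.comp γ (toMer a / toMer b) = toMer (Hol.comp γ a) / toMer (Hol.comp γ b) := by
  rw [map_div₀, Mer.comp_toMer, Mer.comp_toMer]

theorem Mer.comp_comp (γ γ' : SL(2, ℤ)) (x : Mer) :
    Mer.comp γ' (Mer.comp γ x) = Mer.comp (γ * γ') x := by
  obtain ⟨a, b, hb, rfl⟩ := Mer.exists_eq_div x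
  simp only [Mer.comp_div, Hol.comp_comp]

theorem Mer.comp_one (x : Mer) : Mer.comp 1 x = x := by
  obtain ⟨a, b, hb, rfl⟩ := Mer.exists_eq_div x
  simp only [Mer.comp_div, Hol.comp_one]

theorem Mer.comp_const (γ : SL(2, ℤ)) (c : ℂ) :
    Mer.comp γ (algebraMap ℂ Mer c) = algebraMap ℂ Mer c := by
  have h : algebraMap ℂ Mer c = toMer (algebraMap ℂ Hol c) :=
    IsScalarTower.algebraMap_apply ℂ Hol Mer c
  rw [h, Mer.comp_toMer, Hol.comp_algebraMap]

theorem Mer.comp_eq_zero_iff (γ : SL(2, ℤ)) (x : Mer) : Mer.comp γ x = 0 ↔ x = 0 :=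
  (Mer.comp γ).map_eq_zero_iff

/-! ### orders and composition -/

theorem analyticAt_moeb (γ : SL(2, ℤ)) (z0 : ℍ) : AnalyticAt ℂ (Rotation.moeb γ) (z0 : ℂ) := by
  have hd : (γ 1 0 : ℂ) * z0 + (γ 1 1 : ℂ) ≠ 0 := by
    rw [← Rotation.denom_eq]; exact denom_ne_zero γ z0
  unfold Rotation.moeb
  fun_prop (disch := exact hd)

theorem eventually_im_pos (z0 : ℍ) : ∀ᶠ w in 𝓝 (z0 : ℂ), 0 < w.im :=
  isOpen_upperHalfPlaneSet.mem_nhds z0.im_pos

theorem Hol.comp_ofComplex_eventuallyEq (γ : SL(2, ℤ)) (f : Hol) (z0 : ℍ) :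
    ((Hol.comp γ f : Hol) : ℍ → ℂ) ∘ ofComplex =ᶠ[𝓝 (z0 : ℂ)]
      (((f : ℍ → ℂ) ∘ ofComplex) ∘ Rotation.moeb γ) := by
  filter_upwards [eventually_im_pos z0] with w hw
  have h1 : Rotation.moeb γ w = ((γ • (⟨w, hw⟩ : ℍ) : ℍ) : ℂ) :=
    (Rotation.coe_smul_eq_moeb γ ⟨w, hw⟩).symm
  simp only [Function.comp_apply, Hol.comp_apply]
  rw [h1, ofComplex_apply, ofComplex_apply_of_im_pos hw]

theorem Hol.ordAt_comp (γ : SL(2, ℤ)) (f : Hol) (z0 : ℍ) :
    Hol.ordAt z0 (Hol.comp γ f) = Hol.ordAt (γ • z0) f := by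
  rw [Hol.ordAt, analyticOrderAt_congr (Hol.comp_ofComplex_eventuallyEq γ f z0)]
  have hd : deriv (Rotation.moeb γ) (z0 : ℂ) ≠ 0 := by
    rw [(Rotation.hasDerivAt_moeb γ z0).deriv]
    exact one_div_ne_zero (pow_ne_zero 2 (denom_ne_zero γ z0))
  rw [analyticOrderAt_comp_of_deriv_ne_zero (analyticAt_moeb γ z0) hd, Hol.ordAt,
    ← Rotation.coe_smul_eq_moeb]

theorem Hol.ordNat_comp (γ : SL(2, ℤ)) (f : Hol) (z0 : ℍ) :
    Hol.ordNat z0 (Hol.comp γ f) = Hol.ordNat (γ • z0) f := by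
  rw [Hol.ordNat, Hol.ordNat, Hol.ordAt_comp]

theorem Mer.ordAt_comp (γ : SL(2, ℤ)) (x : Mer) (z0 : ℍ) :
    Mer.ordAt z0 (Mer.comp γ x) = Mer.ordAt (γ • z0) x := by
  rcases eq_or_ne x 0 with rfl | hx
  · simp
  obtain ⟨a, b, hb, rfl⟩ := Mer.exists_eq_div x
  have ha : a ≠ 0 := by rintro rfl; simp at hx
  have ha' : Hol.comp γ a ≠ 0 := (Hol.comp γ).map_ne_zero_iff.mpr ha
  have hb' : Hol.comp γ b ≠ 0 := (Hol.comp γ).map_ne_zero_iff.mpr hb
  rw [Mer.comp_div, Mer.ordAt_div _ ha' hb', Mer.ordAt_div _ ha hb, Hol.ordNat_comp,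
    Hol.ordNat_comp]

theorem Mer.ordAt_prod {ι : Type*} (z0 : ℍ) (s : Finset ι) (x : ι → Mer) (hx : ∀ i ∈ s, x i ≠ 0) :
    Mer.ordAt z0 (∏ i ∈ s, x i) = ∑ i ∈ s, Mer.ordAt z0 (x i) := by
  classical
  induction s using Finset.induction_on with
  | empty => simp
  | insert i s hi ih =>
    rw [Finset.prod_insert hi, Finset.sum_insert hi,
      Mer.ordAt_mul z0 (hx i (Finset.mem_insert_self i s))
        (Finset.prod_ne_zero_iff.mpr fun j hj => hx j (Finset.mem_insert_of_mem hj)),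
      ih fun j hj => hx j (Finset.mem_insert_of_mem hj)]

/-! ### the rotation lemma on `Mer` -/

/-- the function underlying a fraction -/
theorem Mer.merOrder_fraction (z0 : ℍ) {a b : Hol} (ha : a ≠ 0) (hb : b ≠ 0) :
    MeromorphicAt (fun w : ℂ => ((a : ℍ → ℂ) ∘ ofComplex) w / ((b : ℍ → ℂ) ∘ ofComplex) w)
        (z0 : ℂ) ∧
      meromorphicOrderAt
        (fun w : ℂ => ((a : ℍ → ℂ) ∘ ofComplex) w / ((b : ℍ → ℂ) ∘ ofComplex) w) (z0 : ℂ) =
        ((Mer.ordAt z0 (toMer a / toMer b) : ℤ) : WithTop ℤ) := by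
  have haa := Hol.analyticAt a z0
  have hba := Hol.analyticAt b z0
  refine ⟨haa.meromorphicAt.div hba.meromorphicAt, ?_⟩
  have h := _root_.meromorphicOrderAt_div haa.meromorphicAt hba.meromorphicAt
  have h' : meromorphicOrderAt
      (fun w : ℂ => ((a : ℍ → ℂ) ∘ ofComplex) w / ((b : ℍ → ℂ) ∘ ofComplex) w) (z0 : ℂ) =
      meromorphicOrderAt ((a : ℍ → ℂ) ∘ ofComplex) (z0 : ℂ) -
        meromorphicOrderAt ((b : ℍ → ℂ) ∘ ofComplex) (z0 : ℂ) := h
  rw [h', haa.meromorphicOrderAt_eq, hba.meromorphicOrderAt_eq, Mer.ordAt_div z0 ha hb]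
  have e1 : analyticOrderAt ((a : ℍ → ℂ) ∘ ofComplex) (z0 : ℂ) = (Hol.ordNat z0 a : ℕ∞) :=
    (Hol.coe_ordNat ha).symm
  have e2 : analyticOrderAt ((b : ℍ → ℂ) ∘ ofComplex) (z0 : ℂ) = (Hol.ordNat z0 b : ℕ∞) :=
    (Hol.coe_ordNat hb).symm
  rw [e1, e2]
  simp only [ENat.map_natCast]
  norm_cast

theorem Hol.eventually_ne_zero (z0 : ℍ) {b : Hol} (hb : b ≠ 0) :
    ∀ᶠ w in 𝓝[≠] (z0 : ℂ), ((b : ℍ → ℂ) ∘ ofComplex) w ≠ 0 := by
  rcases (Hol.analyticAt b z0).eventually_eq_zero_or_eventually_ne_zero with h | h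
  · exfalso
    exact Hol.ordAt_ne_top (z0 := z0) hb (analyticOrderAt_eq_top.mpr h)
  · exact h

/-- **Rotation lemma on `Mer`.** -/
theorem Mer.denom_zpow_eq_one {γ : SL(2, ℤ)} {z0 : ℍ} {x : Mer} (hx : x ≠ 0)
    (hγ : γ • z0 = z0) (hinv : Mer.comp γ x = x) :
    (denom γ z0) ^ (2 * Mer.ordAt z0 x) = 1 := by
  obtain ⟨a, b, hb, rfl⟩ := Mer.exists_eq_div x
  have ha : a ≠ 0 := by rintro rfl; simp at hx
  have hb' : Hol.comp γ b ≠ 0 := (Hol.comp γ).map_ne_zero_iff.mpr hb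
  -- cross relation
  have hcross : Hol.comp γ a * b = a * Hol.comp γ b := by
    apply toMer_injective
    rw [Mer.comp_div] at hinv
    have h1 := toMer_ne_zero hb
    have h2 := toMer_ne_zero hb'
    rw [map_mul, map_mul]
    field_simp at hinv
    rw [hinv, mul_comm]
  obtain ⟨hgm, hg⟩ := Mer.merOrder_fraction z0 ha hb
  have hd0 : denom γ z0 ≠ 0 := denom_ne_zero γ z0
  have hφ0 : Rotation.moeb γ (z0 : ℂ) = z0 := by
    rw [← Rotation.coe_smul_eq_moeb, hγ]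
  have hlam0 : (1 / (denom γ z0) ^ 2 : ℂ) ≠ 0 := one_div_ne_zero (pow_ne_zero 2 hd0)
  have hinv' : ∀ᶠ w in 𝓝[≠] (z0 : ℂ),
      (fun w : ℂ => ((a : ℍ → ℂ) ∘ ofComplex) w / ((b : ℍ → ℂ) ∘ ofComplex) w)
        (Rotation.moeb γ w) =
      (fun w : ℂ => ((a : ℍ → ℂ) ∘ ofComplex) w / ((b : ℍ → ℂ) ∘ ofComplex) w) w := by
    have e1 := (Hol.comp_ofComplex_eventuallyEq γ a z0).filter_mono
      (nhdsWithin_le_nhds (s := {(z0 : ℂ)}ᶜ))
    have e2 := (Hol.comp_ofComplex_eventuallyEq γ b z0).filter_mono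
      (nhdsWithin_le_nhds (s := {(z0 : ℂ)}ᶜ))
    filter_upwards [e1, e2, Hol.eventually_ne_zero z0 hb, Hol.eventually_ne_zero z0 hb',
      (eventually_im_pos z0).filter_mono nhdsWithin_le_nhds] with w h1 h2 h3 h4 hw
    simp only [Function.comp_apply] at h1 h2 h3 h4 ⊢
    rw [← h1, ← h2]
    have hc := congrFun (congrArg Subtype.val hcross) (ofComplex w)
    simp only [Hol.coe_mul, Pi.mul_apply] at hc
    rw [div_eq_div_iff h4 h3]
    exact hc
  have h := Rotation.pow_order_eq_one hgm hg (analyticAt_moeb γ z0) hφ0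
    (Rotation.hasDerivAt_moeb γ z0).deriv hlam0 hinv'
  rw [one_div, inv_zpow, inv_eq_one, ← zpow_natCast, ← zpow_mul] at h
  exact_mod_cast h


open ModularGroup in
/-- `denom S z0 ^ (2 n) = 1` at a fixed point of `S` forces `n` even. -/
theorem even_of_denom_S_zpow {z0 : ℍ} {n : ℤ} (hγ : S • z0 = z0)
    (h : (denom S z0) ^ (2 * n) = 1) : Even n := by
  rw [denom_S] at h
  have hz : (z0 : ℂ) ^ 2 = -1 := by
    have h1 := Rotation.coe_smul_eq_moeb S z0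
    rw [hγ] at h1
    have hz0 : (z0 : ℂ) ≠ 0 := ne_zero z0
    unfold Rotation.moeb at h1
    simp [S] at h1
    field_simp at h1
    linear_combination h1
  rw [zpow_mul, zpow_ofNat, hz, neg_one_zpow_eq_ite] at h
  by_contra hodd
  rw [if_neg hodd] at h
  norm_num at h

open ModularGroup in
/-- `denom γ z0 ^ (2 n) = 1` at a fixed point of `γ = S * T` forces `3 ∣ n`. -/
theorem three_dvd_of_denom_ST_zpow {γ : SL(2, ℤ)} (hST : γ = S * T) {z0 : ℍ} {n : ℤ}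
    (hγ : γ • z0 = z0) (h : (denom γ z0) ^ (2 * n) = 1) : (3 : ℤ) ∣ n := by
  have e00 : γ 0 0 = 0 := by rw [hST]; decide
  have e01 : γ 0 1 = -1 := by rw [hST]; decide
  have e10 : γ 1 0 = 1 := by rw [hST]; decide
  have e11 : γ 1 1 = 1 := by rw [hST]; decide
  have hd := Rotation.denom_eq γ z0
  rw [e10, e11] at hd
  simp only [Int.cast_one, one_mul] at hd
  have hd0 : (z0 : ℂ) + 1 ≠ 0 := by
    rw [← hd]; exact denom_ne_zero _ _
  have hz : (z0 : ℂ) ^ 2 + z0 + 1 = 0 := by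
    have h1 := Rotation.coe_smul_eq_moeb γ z0
    rw [hγ] at h1
    unfold Rotation.moeb at h1
    rw [e00, e01, e10, e11] at h1
    simp only [Int.cast_zero, zero_mul, Int.cast_neg, Int.cast_one, one_mul, zero_add] at h1
    field_simp at h1
    linear_combination h1
  have hd2 : ((z0 : ℂ) + 1) ^ 2 = z0 := by linear_combination hz
  rw [hd, zpow_mul, zpow_ofNat, hd2] at h
  have hz3 : (z0 : ℂ) ^ 3 = 1 := by linear_combination ((z0 : ℂ) - 1) * hz
  have hz0 : (z0 : ℂ) ≠ 0 := ne_zero z0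
  have him : (z0 : ℂ).im ≠ 0 := z0.im_pos.ne'
  have hn : n = 3 * (n / 3) + n % 3 := (Int.mul_ediv_add_emod n 3).symm
  have hr0 : 0 ≤ n % 3 := Int.emod_nonneg n (by norm_num)
  have hr3 : n % 3 < 3 := Int.emod_lt_of_pos n (by norm_num)
  rw [hn, zpow_add₀ hz0, zpow_mul, zpow_ofNat, hz3, one_zpow, one_mul] at h
  have hcases : n % 3 = 0 ∨ n % 3 = 1 ∨ n % 3 = 2 := by omega
  rcases hcases with h0 | h1 | h2
  · exact Int.dvd_of_emod_eq_zero h0
  · exfalso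
    rw [h1, zpow_one] at h
    rw [h] at him
    simp at him
  · exfalso
    rw [h2] at h
    have h4 : (z0 : ℂ) ^ 2 = 1 := by exact_mod_cast h
    have h5 : (z0 : ℂ) = -2 := by linear_combination hz - h4
    rw [h5] at him
    simp at him

open ModularGroup in
theorem Mer.even_ordAt_of_S {z0 : ℍ} {x : Mer} (hx : x ≠ 0) (hγ : S • z0 = z0)
    (hinv : Mer.comp S x = x) : Even (Mer.ordAt z0 x) :=
  even_of_denom_S_zpow hγ (Mer.denom_zpow_eq_one hx hγ hinv)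

open ModularGroup in
theorem Mer.three_dvd_ordAt_of_ST {γ : SL(2, ℤ)} (hST : γ = S * T) {z0 : ℍ} {x : Mer}
    (hx : x ≠ 0) (hγ : γ • z0 = z0) (hinv : Mer.comp γ x = x) : (3 : ℤ) ∣ Mer.ordAt z0 x :=
  three_dvd_of_denom_ST_zpow hST hγ (Mer.denom_zpow_eq_one hx hγ hinv)

/-- conjugated form: invariance under `δ σ δ⁻¹` at `δ • z0`. -/
theorem Mer.denom_zpow_eq_one_conj {σ δ : SL(2, ℤ)} {z0 : ℍ} {x : Mer} (hx : x ≠ 0)
    (hσ : σ • z0 = z0) (hinv : Mer.comp (δ * σ * δ⁻¹) x = x) :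
    (denom σ z0) ^ (2 * Mer.ordAt (δ • z0) x) = 1 := by
  have hx' : Mer.comp δ x ≠ 0 := (Mer.comp δ).map_ne_zero_iff.mpr hx
  have hinv' : Mer.comp σ (Mer.comp δ x) = Mer.comp δ x := by
    have h1 : Mer.comp δ (Mer.comp (δ * σ * δ⁻¹) x) = Mer.comp δ x := by rw [hinv]
    rw [Mer.comp_comp] at h1
    rw [Mer.comp_comp]
    have : δ * σ * δ⁻¹ * δ = δ * σ := by group
    rw [this] at h1
    exact h1
  have h := Mer.denom_zpow_eq_one hx' hσ hinv'
  rwa [Mer.ordAt_comp] at h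

/-! ### Part 3: the valuation ring at a point, holomorphy criterion, integral closedness -/

/-- The valuation subring of `Mer` of functions without pole at `z0`. -/
def Mer.nonnegAt (z0 : ℍ) : ValuationSubring Mer where
  carrier := {x | 0 ≤ Mer.ordAt z0 x}
  mul_mem' := by
    intro x y hx hy
    simp only [Set.mem_ofPred_eq] at hx hy ⊢
    rcases eq_or_ne x 0 with rfl | hx0
    · simp
    rcases eq_or_ne y 0 with rfl | hy0
    · simp
    rw [Mer.ordAt_mul z0 hx0 hy0]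
    omega
  one_mem' := by simp
  add_mem' := by
    intro x y hx hy
    simp only [Set.mem_ofPred_eq] at hx hy ⊢
    rcases eq_or_ne x 0 with rfl | hx0
    · simpa using hy
    rcases eq_or_ne y 0 with rfl | hy0
    · simpa using hx
    rcases eq_or_ne (x + y) 0 with h | hxy
    · rw [h]; simp
    have := Mer.ordAt_add z0 hx0 hy0 hxy
    omega
  zero_mem' := by simp
  neg_mem' := by
    intro x hx
    simp only [Set.mem_ofPred_eq] at hx ⊢
    rwa [Mer.ordAt_neg]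
  mem_or_inv_mem' := by
    intro x
    simp only [Set.mem_ofPred_eq]
    rw [Mer.ordAt_inv]
    omega

theorem Mer.mem_nonnegAt_iff (z0 : ℍ) (x : Mer) : x ∈ Mer.nonnegAt z0 ↔ 0 ≤ Mer.ordAt z0 x :=
  Iff.rfl

theorem Mer.toMer_mem_nonnegAt (z0 : ℍ) (a : Hol) : toMer a ∈ Mer.nonnegAt z0 :=
  Mer.ordAt_toMer_nonneg z0 a

/-- Local representation at a point where `x` has no pole: the denominator can be chosen
non-vanishing at `z0`. -/
theorem Mer.exists_local_rep {z0 : ℍ} {x : Mer} (h : 0 ≤ Mer.ordAt z0 x) :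
    ∃ a b : Hol, (b : ℍ → ℂ) z0 ≠ 0 ∧ x * toMer b = toMer a := by
  rcases eq_or_ne x 0 with rfl | hx
  · exact ⟨0, 1, by simp, by simp⟩
  obtain ⟨a, b, hb, rfl⟩ := Mer.exists_eq_div x
  have ha : a ≠ 0 := by rintro rfl; simp at hx
  rw [Mer.ordAt_div z0 ha hb] at h
  obtain ⟨a1, ha1, haa⟩ := Hol.exists_eq_pow_mul z0 ha
  obtain ⟨b1, hb1, hbb⟩ := Hol.exists_eq_pow_mul z0 hb
  have hle : Hol.ordNat z0 b ≤ Hol.ordNat z0 a := by omega
  refine ⟨Hol.idSub z0 ^ (Hol.ordNat z0 a - Hol.ordNat z0 b) * a1, b1, hb1, ?_⟩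
  have hb' := toMer_ne_zero hb
  rw [div_mul_eq_mul_div, div_eq_iff hb', ← map_mul, ← map_mul]
  congr 1
  have hpow : Hol.idSub z0 ^ Hol.ordNat z0 a =
      Hol.idSub z0 ^ (Hol.ordNat z0 a - Hol.ordNat z0 b) * Hol.idSub z0 ^ Hol.ordNat z0 b := by
    rw [← pow_add, Nat.sub_add_cancel hle]
  calc a * b1 = Hol.idSub z0 ^ Hol.ordNat z0 a * a1 * b1 := by rw [← haa]
    _ = Hol.idSub z0 ^ (Hol.ordNat z0 a - Hol.ordNat z0 b) * a1 *
          (Hol.idSub z0 ^ Hol.ordNat z0 b * b1) := by rw [hpow]; ring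
    _ = Hol.idSub z0 ^ (Hol.ordNat z0 a - Hol.ordNat z0 b) * a1 * b := by rw [← hbb]

/-- **Holomorphy criterion**: an element of `Mer` without poles is (the image of) an element of
`Hol`. -/
theorem Mer.exists_hol_of_ordAt_nonneg {x : Mer} (h : ∀ z : ℍ, 0 ≤ Mer.ordAt z x) :
    ∃ f : Hol, toMer f = x := by
  rcases eq_or_ne x 0 with rfl | hx
  · exact ⟨0, map_zero _⟩
  obtain ⟨a, b, hb, rfl⟩ := Mer.exists_eq_div x
  have ha : a ≠ 0 := by rintro rfl; simp at hx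
  set U : Set ℂ := {z : ℂ | 0 < z.im} with hU
  set A : ℂ → ℂ := (a : ℍ → ℂ) ∘ ofComplex with hA
  set B : ℂ → ℂ := (b : ℍ → ℂ) ∘ ofComplex with hB
  set G : ℂ → ℂ := fun w => A w / B w with hG
  have hGmer : MeromorphicOn G U := by
    intro w hw
    have := (Mer.merOrder_fraction (⟨w, hw⟩ : ℍ) ha hb).1
    exact this
  set F : ℂ → ℂ := toMeromorphicNFOn G U with hF
  have hFan : ∀ w ∈ U, AnalyticAt ℂ F w := by
    intro w hw
    have hnf : MeromorphicNFAt F w := meromorphicNFOn_toMeromorphicNFOn G U hw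
    rw [← hnf.meromorphicOrderAt_nonneg_iff_analyticAt, hF,
      meromorphicOrderAt_toMeromorphicNFOn hGmer hw]
    have := (Mer.merOrder_fraction (⟨w, hw⟩ : ℍ) ha hb).2
    have h2 : meromorphicOrderAt G w =
        ((Mer.ordAt (⟨w, hw⟩ : ℍ) (toMer a / toMer b) : ℤ) : WithTop ℤ) := this
    rw [h2]
    exact_mod_cast h ⟨w, hw⟩
  have hFd : DifferentiableOn ℂ F U := fun w hw => (hFan w hw).differentiableAt.differentiableWithinAt
  refine ⟨Hol.ofComplexFun F hFd, ?_⟩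
  have hb' := toMer_ne_zero hb
  rw [eq_div_iff hb', ← map_mul]
  congr 1
  apply Hol.ext
  intro z
  rw [Hol.coe_mul, Pi.mul_apply, Hol.ofComplexFun_apply]
  -- pointwise: F z * b z = a z by continuity
  have hz : (z : ℂ) ∈ U := z.im_pos
  have h1 : F =ᶠ[𝓝[≠] (z : ℂ)] G := hGmer.toMeromorphicNFOn_eq_self_on_nhdsNE hz
  have h2 := Hol.eventually_ne_zero z hb
  have h3 : (fun w => F w * B w) =ᶠ[𝓝[≠] (z : ℂ)] A := by
    filter_upwards [h1, h2] with w hw1 hw2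
    rw [hw1, hG]
    simp only
    rw [div_mul_cancel₀ _ hw2]
  have hc1 : ContinuousAt (fun w => F w * B w) (z : ℂ) :=
    ((hFan _ hz).continuousAt).mul (Hol.analyticAt b z).continuousAt
  have hc2 : ContinuousAt A (z : ℂ) := (Hol.analyticAt a z).continuousAt
  have h4 : (fun w => F w * B w) (z : ℂ) = A (z : ℂ) := by
    have t1 : Tendsto (fun w => F w * B w) (𝓝[≠] (z : ℂ)) (𝓝 ((fun w => F w * B w) (z : ℂ))) :=
      hc1.tendsto.mono_left nhdsWithin_le_nhds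
    have t2 : Tendsto A (𝓝[≠] (z : ℂ)) (𝓝 (A (z : ℂ))) :=
      hc2.tendsto.mono_left nhdsWithin_le_nhds
    exact tendsto_nhds_unique (t1.congr' h3) t2
  simp only [hA, hB] at h4
  rw [Hol.comp_ofComplex_apply, Hol.comp_ofComplex_apply] at h4
  exact h4

/-- If `x` is integral over a ring mapping to pole-free elements of `Mer`, then `x` is (the image
of) an element of `Hol`. -/
theorem Mer.exists_hol_of_isIntegralElem {R : Type*} [CommRing R] (φ : R →+* Mer)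
    (hφ : ∀ (r : R) (z : ℍ), 0 ≤ Mer.ordAt z (φ r)) {x : Mer} (hx : φ.IsIntegralElem x) :
    ∃ f : Hol, toMer f = x := by
  apply Mer.exists_hol_of_ordAt_nonneg
  intro z
  -- `x` is integral over the valuation subring at `z`
  have hle : ∀ r : R, φ r ∈ (Mer.nonnegAt z).toSubring := fun r => hφ r z
  obtain ⟨p, hp, hpx⟩ := hx
  have hint : IsIntegral (Mer.nonnegAt z) x := by
    let ψ : R →+* (Mer.nonnegAt z) := φ.codRestrict (Mer.nonnegAt z).toSubring hle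
    refine ⟨p.map ψ, hp.map ψ, ?_⟩
    rw [Polynomial.eval₂_map]
    have : (algebraMap (Mer.nonnegAt z) Mer).comp ψ = φ := by
      ext a
      rfl
    rw [this]
    exact hpx
  have := (IsIntegrallyClosed.isIntegral_iff (R := Mer.nonnegAt z) (K := Mer)).mp hint
  obtain ⟨y, hy⟩ := this
  rw [← hy]
  exact y.2

/-- `Hol` is integrally closed (in its fraction field `Mer`). -/
theorem Mer.exists_hol_of_isIntegral {x : Mer} (hx : IsIntegral Hol x) :
    ∃ f : Hol, toMer f = x :=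
  Mer.exists_hol_of_isIntegralElem toMer (fun r z => Mer.ordAt_toMer_nonneg z r) hx

instance Hol.instIsIntegrallyClosed : IsIntegrallyClosed Hol :=
  (isIntegrallyClosed_iff Mer).mpr fun hx => Mer.exists_hol_of_isIntegral hx

/-- strict ultrametric inequality -/
theorem Mer.ordAt_add_eq_of_lt (z0 : ℍ) {x y : Mer} (hx : x ≠ 0) (hy : y ≠ 0)
    (h : Mer.ordAt z0 x < Mer.ordAt z0 y) : Mer.ordAt z0 (x + y) = Mer.ordAt z0 x := by
  have hxy : x + y ≠ 0 := by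
    intro h0
    have : y = -x := by rw [eq_neg_iff_add_eq_zero, add_comm]; exact h0
    rw [this, Mer.ordAt_neg] at h
    exact lt_irrefl _ h
  have h1 := Mer.ordAt_add z0 hx hy hxy
  have hny : -y ≠ 0 := neg_ne_zero.mpr hy
  have h2 := Mer.ordAt_add z0 hxy hny (by simpa using hx)
  rw [add_neg_cancel_right, Mer.ordAt_neg] at h2
  rcases min_le_iff.mp h2 with h3 | h3
  · have := le_min (le_refl (Mer.ordAt z0 x)) h.le
    omega
  · omega

theorem Mer.ordAt_sub (z0 : ℍ) {x y : Mer} (hx : x ≠ 0) (hy : y ≠ 0) (hxy : x - y ≠ 0) :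
    min (Mer.ordAt z0 x) (Mer.ordAt z0 y) ≤ Mer.ordAt z0 (x - y) := by
  have h := Mer.ordAt_add z0 hx (neg_ne_zero.mpr hy) (by rwa [← sub_eq_add_neg])
  rwa [Mer.ordAt_neg, ← sub_eq_add_neg] at h

end

end Fermat.Agent.S24
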