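import Mathlib
import Fermat.Agent.S20

/-!
# Counting orbits of an element of prime order (modulo the kernel of the action)
-/

set_option autoImplicit false

namespace Fermat.Agent.S24

open MulAction Function

section Generic

variable {G X : Type*} [Group G] [MulAction G X]

theorem isPeriodicPt_of_pow_smul (g : G) (p : ℕ) (x : X) (hg : g ^ p • x = x) :
    IsPeriodicPt (g • ·) p x := by
  unfold IsPeriodicPt IsFixedPt
  rw [smul_iterate]
  exact hg

/-- The orbit of `x` under `⟨g⟩`, where `g ^ p` fixes `x` (`p` prime), has `1` or `p` elements. -/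
theorem card_orbit_zpowers (g : G) (p : ℕ) (hp : p.Prime) (x : X) (hg : g ^ p • x = x) :
    Nat.card (orbit (Subgroup.zpowers g) x) = 1 ∧ g • x = x ∨
      Nat.card (orbit (Subgroup.zpowers g) x) = p ∧ g • x ≠ x := by
  have hcard : Nat.card (orbit (Subgroup.zpowers g) x) = minimalPeriod (g • ·) x := by
    rw [Nat.card_congr (orbitZPowersEquiv g x), Nat.card_zmod]
  have hdvd : minimalPeriod (g • ·) x ∣ p := (isPeriodicPt_of_pow_smul g p x hg).minimalPeriod_dvd
  rcases (Nat.dvd_prime hp).mp hdvd with h1 | h1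
  · left
    refine ⟨by rw [hcard, h1], ?_⟩
    exact minimalPeriod_eq_one_iff_isFixedPt.mp h1
  · right
    refine ⟨by rw [hcard, h1], fun hfix => ?_⟩
    have : minimalPeriod (g • ·) x = 1 := minimalPeriod_eq_one_iff_isFixedPt.mpr hfix
    rw [h1] at this
    exact hp.one_lt.ne' this

/-- Orbit count for an element acting with prime order: `p * #orbits = #X + (p - 1) * #Fix`. -/
theorem prime_mul_card_orbits [Finite X] (g : G) (p : ℕ) (hp : p.Prime)
    (hg : ∀ x : X, g ^ p • x = x) :
    p * Nat.card (orbitRel.Quotient (Subgroup.zpowers g) X)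
      = Nat.card X + (p - 1) * Nat.card (fixedBy X g) := by
  classical
  have := Fintype.ofFinite X
  have : Fintype (orbitRel.Quotient (Subgroup.zpowers g) X) := Fintype.ofFinite _
  set Ω := orbitRel.Quotient (Subgroup.zpowers g) X with hΩ
  let π : X → Ω := Quotient.mk''
  -- the fibre of `π` over the class of `x₀` is the orbit of `x₀`
  have hfib : ∀ x₀ : X, (Finset.univ.filter fun x => π x = π x₀).card
      = Nat.card (orbit (Subgroup.zpowers g) x₀) := by
    intro x₀
    rw [Nat.card_eq_fintype_card, ← Finset.card_univ (α := orbit (Subgroup.zpowers g) x₀)]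
    refine Finset.card_bij' (fun x hx => ⟨x, ?_⟩) (fun y _ => (y : X)) ?_ ?_ ?_ ?_
    · have : π x = π x₀ := (Finset.mem_filter.mp hx).2
      exact (orbitRel_apply).mp (Quotient.exact' this)
    · intro x _
      exact Finset.mem_univ _
    · intro y _
      refine Finset.mem_filter.mpr ⟨Finset.mem_univ _, ?_⟩
      exact Quotient.sound' ((orbitRel_apply).mpr y.2)
    · intro x _
      rfl
    · intro y _
      rfl
  -- per-orbit identity
  have hper : ∀ ω : Ω, p = (Finset.univ.filter fun x => π x = ω).card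
      + (p - 1) * ((Finset.univ.filter fun x : X => g • x = x).filter fun x => π x = ω).card := by
    intro ω
    induction ω using Quotient.inductionOn' with
    | h x₀ =>
      show p = (Finset.univ.filter fun x => π x = π x₀).card
        + (p - 1) * ((Finset.univ.filter fun x : X => g • x = x).filter fun x => π x = π x₀).card
      rw [hfib x₀]
      rcases card_orbit_zpowers g p hp x₀ (hg x₀) with ⟨h1, hfix⟩ | ⟨h1, hnfix⟩
      · -- fixed point: the fibre is `{x₀}`
        have hsub : ((Finset.univ.filter fun x : X => g • x = x).filter fun x => π x = π x₀)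
            = {x₀} := by
          ext x
          simp only [Finset.mem_filter, Finset.mem_univ, true_and, Finset.mem_singleton]
          constructor
          · rintro ⟨_, hx⟩
            have hxo : x ∈ orbit (Subgroup.zpowers g) x₀ :=
              (orbitRel_apply).mp (Quotient.exact' hx)
            have hone : Nat.card (orbit (Subgroup.zpowers g) x₀) = 1 := h1
            have : Subsingleton (orbit (Subgroup.zpowers g) x₀) :=
              (Nat.card_eq_one_iff_unique.mp hone).1
            have := Subsingleton.elim (⟨x, hxo⟩ : orbit (Subgroup.zpowers g) x₀)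
              ⟨x₀, mem_orbit_self x₀⟩
            exact congrArg Subtype.val this
          · rintro rfl
            exact ⟨hfix, rfl⟩
        rw [hsub, h1, Finset.card_singleton, mul_one]
        have := hp.one_le
        omega
      · -- no fixed point in the fibre
        have hsub : ((Finset.univ.filter fun x : X => g • x = x).filter fun x => π x = π x₀)
            = ∅ := by
          rw [Finset.eq_empty_iff_forall_notMem]
          intro x hx
          simp only [Finset.mem_filter, Finset.mem_univ, true_and] at hx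
          obtain ⟨hgx, hx⟩ := hx
          have hxo : x ∈ orbit (Subgroup.zpowers g) x₀ :=
            (orbitRel_apply).mp (Quotient.exact' hx)
          obtain ⟨⟨a, ha⟩, rfl⟩ := hxo
          obtain ⟨k, rfl⟩ := Subgroup.mem_zpowers_iff.mp ha
          apply hnfix
          have h2 : g • (g ^ k • x₀) = g ^ k • x₀ := hgx
          have hcomm : g ^ k * g = g * g ^ k := by
            rw [← zpow_add_one, ← zpow_one_add, add_comm]
          have h3 : g ^ k • (g • x₀) = g ^ k • x₀ := by
            rw [← mul_smul, hcomm, mul_smul]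
            exact h2
          exact smul_left_cancel _ h3
        rw [hsub, h1, Finset.card_empty, mul_zero, add_zero]
  -- sum over the orbits
  have hX : Fintype.card X = ∑ ω : Ω, (Finset.univ.filter fun x => π x = ω).card := by
    rw [← Finset.card_univ]
    exact Finset.card_eq_sum_card_fiberwise (fun _ _ => Finset.mem_univ _)
  have hF : (Finset.univ.filter fun x : X => g • x = x).card
      = ∑ ω : Ω, ((Finset.univ.filter fun x : X => g • x = x).filter fun x => π x = ω).card :=
    Finset.card_eq_sum_card_fiberwise (fun _ _ => Finset.mem_univ _)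
  have hFix : Nat.card (fixedBy X g) = (Finset.univ.filter fun x : X => g • x = x).card := by
    rw [Nat.card_eq_fintype_card, ← Fintype.card_subtype]
    rfl
  rw [Nat.card_eq_fintype_card, Nat.card_eq_fintype_card, hFix, hX, hF, Finset.mul_sum,
    ← Finset.sum_add_distrib, ← Finset.card_univ, Finset.card_eq_sum_ones, Finset.mul_sum]
  refine Finset.sum_congr rfl fun ω _ => ?_
  rw [mul_one]
  exact hper ω

end Generic


/-! ## The cosets of `Γ₀(N)` -/

section Gamma0

open CongruenceSubgroup ModularGroup ModularCurve Fermat.Agent.S20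
open scoped MatrixGroups

variable (N : ℕ)

theorem neg_one_mem_Gamma0' : (-1 : SL(2, ℤ)) ∈ Gamma0 N := by
  rw [Gamma0_mem]
  simp

theorem neg_one_smul_coset (x : SL(2, ℤ) ⧸ Gamma0 N) : (-1 : SL(2, ℤ)) • x = x := by
  induction x using QuotientGroup.induction_on with
  | H g =>
    rw [smul_mk_eq_iff]
    have : g⁻¹ * (-1) * g = -1 := by
      rw [mul_neg, mul_one, neg_mul, inv_mul_cancel]
    rw [this]
    exact neg_one_mem_Gamma0' N

theorem S_sq_eq : (S : SL(2, ℤ)) ^ 2 = -1 := by
  rw [pow_two]
  ext i j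
  simp only [Matrix.SpecialLinearGroup.coe_mul, Matrix.SpecialLinearGroup.coe_neg,
    Matrix.SpecialLinearGroup.coe_one, coe_S, Matrix.mul_fin_two]
  fin_cases i <;> fin_cases j <;> simp

theorem ST_cube_eq : ((S * T : SL(2, ℤ))) ^ 3 = -1 := by
  rw [pow_succ, pow_two]
  ext i j
  simp only [Matrix.SpecialLinearGroup.coe_mul, Matrix.SpecialLinearGroup.coe_neg,
    Matrix.SpecialLinearGroup.coe_one, coe_S, coe_T, Matrix.mul_fin_two]
  fin_cases i <;> fin_cases j <;> simp

theorem S_sq_smul_coset (x : SL(2, ℤ) ⧸ Gamma0 N) : (S : SL(2, ℤ)) ^ 2 • x = x := by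
  rw [S_sq_eq, neg_one_smul_coset]

theorem ST_cube_smul_coset (x : SL(2, ℤ) ⧸ Gamma0 N) : (S * T : SL(2, ℤ)) ^ 3 • x = x := by
  rw [ST_cube_eq, neg_one_smul_coset]

variable [NeZero N]

instance finite_coset : Finite (SL(2, ℤ) ⧸ Gamma0 N) :=
  Nat.finite_of_card_ne_zero (by
    rw [card_quotient_Gamma0]
    have := (index_Gamma0 N (NeZero.ne N)).symm
    rw [this]
    exact Subgroup.FiniteIndex.index_ne_zero)

/-- `⟨S⟩` has `(ψ(N) + ν₂(N)) / 2` orbits on the cosets of `Γ₀(N)`. -/
theorem two_mul_card_orbits_S :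
    2 * Nat.card (orbitRel.Quotient (Subgroup.zpowers (S : SL(2, ℤ))) (SL(2, ℤ) ⧸ Gamma0 N))
      = dedekindPsi N + nuTwo N := by
  have h := prime_mul_card_orbits (X := SL(2, ℤ) ⧸ Gamma0 N) (S : SL(2, ℤ)) 2 Nat.prime_two
    (S_sq_smul_coset N)
  refine h.trans ?_
  rw [card_quotient_Gamma0, card_fixedBy_S]
  norm_num

/-- `⟨ST⟩` has `(ψ(N) + 2 ν₃(N)) / 3` orbits on the cosets of `Γ₀(N)`. -/
theorem three_mul_card_orbits_ST :
    3 * Nat.card (orbitRel.Quotient (Subgroup.zpowers (S * T : SL(2, ℤ)))
        (SL(2, ℤ) ⧸ Gamma0 N))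
      = dedekindPsi N + 2 * nuThree N := by
  have h := prime_mul_card_orbits (X := SL(2, ℤ) ⧸ Gamma0 N) (S * T : SL(2, ℤ)) 3
    Nat.prime_three (ST_cube_smul_coset N)
  refine h.trans ?_
  rw [card_quotient_Gamma0, card_fixedBy_ST]

omit [NeZero N] in
/-- `⟨S⟩`-orbits have one or two elements. -/
theorem card_orbit_S (x : SL(2, ℤ) ⧸ Gamma0 N) :
    Nat.card (orbit (Subgroup.zpowers (S : SL(2, ℤ))) x) = 1 ∧ (S : SL(2, ℤ)) • x = x ∨
      Nat.card (orbit (Subgroup.zpowers (S : SL(2, ℤ))) x) = 2 ∧ (S : SL(2, ℤ)) • x ≠ x :=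
  card_orbit_zpowers _ 2 Nat.prime_two x (S_sq_smul_coset N x)

omit [NeZero N] in
/-- `⟨ST⟩`-orbits have one or three elements. -/
theorem card_orbit_ST (x : SL(2, ℤ) ⧸ Gamma0 N) :
    Nat.card (orbit (Subgroup.zpowers (S * T : SL(2, ℤ))) x) = 1 ∧
        (S * T : SL(2, ℤ)) • x = x ∨
      Nat.card (orbit (Subgroup.zpowers (S * T : SL(2, ℤ))) x) = 3 ∧
        (S * T : SL(2, ℤ)) • x ≠ x :=
  card_orbit_zpowers _ 3 Nat.prime_three x (ST_cube_smul_coset N x)

/-- The final arithmetic of Riemann-Hurwitz: if the canonical degree is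
`(ψ - r₀) + (ψ - r₁₇₂₈) - ψ - r_∞` with the numbers of places over `0`, `1728`, `∞` given by the
orbit counts, then the genus is `genusFormula N`. -/
theorem genus_of_degree (d : ℤ) (r0 r1728 rinf : ℕ)
    (h0 : 3 * r0 = dedekindPsi N + 2 * nuThree N) (h1 : 2 * r1728 = dedekindPsi N + nuTwo N)
    (hinf : rinf = cuspCount N)
    (hd : d = ((dedekindPsi N : ℤ) - r0) + ((dedekindPsi N : ℤ) - r1728) - dedekindPsi N - rinf) :
    (((d + 2).toNat / 2 : ℕ) : ℚ) = genusFormula N := by
  have hS20 := Fermat.Agent.S20.result N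
  set g := Module.finrank ℂ (CuspForm (Gamma0 N) 2) with hg
  have h12 : (12 : ℚ) * g = 12 + (dedekindPsi N : ℚ) - 3 * nuTwo N - 4 * nuThree N
      - 6 * cuspCount N := by
    rw [hS20, genusFormula]
    ring
  have h0' : (3 : ℚ) * r0 = dedekindPsi N + 2 * nuThree N := by exact_mod_cast h0
  have h1' : (2 : ℚ) * r1728 = dedekindPsi N + nuTwo N := by exact_mod_cast h1
  have hd' : (d : ℚ) = ((dedekindPsi N : ℚ) - r0) + ((dedekindPsi N : ℚ) - r1728)
      - dedekindPsi N - rinf := by
    rw [hd]
    push_cast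
    ring
  have hdg : (d : ℚ) + 2 = 2 * g := by
    rw [hinf] at hd'
    linarith
  have hdz : d + 2 = 2 * (g : ℤ) := by exact_mod_cast hdg
  rw [← hS20, hdz]
  have : (2 * (g : ℤ)).toNat = 2 * g := by omega
  rw [this, Nat.mul_div_cancel_left g (by norm_num)]

end Gamma0

end Fermat.Agent.S24
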