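import Mathlib
import Fermat.Agent.S20.Serre
import Fermat.Agent.S20.Elliptic
import Fermat.Agent.S24.JFun

set_option autoImplicit false

/-!
# S24 / J2: Ramanujan's identities and the derivative of `j`
-/

namespace Fermat.Agent.S24

open UpperHalfPlane Filter Topology CongruenceSubgroup
open scoped MatrixGroups ModularForm Manifold
open Fermat.Agent.S20 Derivative

noncomputable section

set_option quotPrecheck false in
local notation "E4" => (⇑ModularForm.E₄ : ℍ → ℂ)
set_option quotPrecheck false in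
local notation "E6" => (⇑ModularForm.E₆ : ℍ → ℂ)
local notation "Δ" => ModularForm.discriminant
local notation "E2" => EisensteinSeries.E2

/-- `D f → 0` at `i∞` for a holomorphic `f` with a limit at `i∞`. -/
theorem tendsto_D_zero {f : ℍ → ℂ} (hf : MDiff f) {c : ℂ} (h : Tendsto f atImInfty (𝓝 c)) :
    Tendsto (D f) atImInfty (𝓝 0) := by
  rw [Metric.tendsto_nhds]
  intro ε hε
  have h1 : ∀ᶠ z in atImInfty, ‖f z - c‖ ≤ ε / 2 := by
    have := (Metric.tendsto_nhds.mp h) (ε / 2) (half_pos hε)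
    filter_upwards [this] with z hz
    rw [dist_eq_norm] at hz
    exact hz.le
  obtain ⟨A, hA⟩ := (atImInfty_mem _).mp h1
  have hφ : MDiff (fun z => f z - c) := hf.sub mdifferentiable_const
  have hmem : {z : ℍ | max A 0 + 2 ≤ im z} ∈ atImInfty := (atImInfty_mem _).mpr ⟨_, fun z hz => hz⟩
  filter_upwards [hmem] with z hz
  have hb := norm_deriv_comp_ofComplex_le hφ (M := ε / 2) (A := A) (fun w hw => hA w hw) z hz
  have hderiv : deriv ((fun z => f z - c) ∘ ofComplex) (z : ℂ) = deriv (f ∘ ofComplex) (z : ℂ) := by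
    have : ((fun z => f z - c) ∘ ofComplex) = fun w => (f ∘ ofComplex) w - c := by
      funext w; rfl
    rw [this, deriv_sub_const]
  rw [hderiv] at hb
  rw [dist_zero_right, normalizedDerivOfComplex, norm_mul]
  have h2pi : ‖(2 * (Real.pi : ℂ) * Complex.I)⁻¹‖ ≤ 1 := by
    rw [norm_inv, norm_mul, norm_mul, Complex.norm_I, mul_one]
    simp only [Complex.norm_ofNat, Complex.norm_real, Real.norm_eq_abs, abs_of_pos Real.pi_pos]
    have : (1 : ℝ) ≤ 2 * Real.pi := by linarith [Real.pi_gt_three]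
    exact inv_le_one_of_one_le₀ this
  calc ‖(2 * (Real.pi : ℂ) * Complex.I)⁻¹‖ * ‖deriv (f ∘ ofComplex) (z : ℂ)‖
      ≤ 1 * (ε / 2) := mul_le_mul h2pi hb (norm_nonneg _) zero_le_one
    _ < ε := by linarith

/-- `D (expFn c) = c • expFn c`. -/
theorem D_expFn (c : ℝ) (z : ℍ) : D (expFn c) z = (c : ℂ) * expFn c z := by
  have hev : (expFn c ∘ ofComplex) =ᶠ[nhds (z : ℂ)]
      fun w => Complex.exp (2 * Real.pi * Complex.I * c * w) := by
    filter_upwards [isOpen_upperHalfPlaneSet.mem_nhds z.2] with w hw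
    simp [expFn, ofComplex_apply_of_im_pos hw]
  have hd : HasDerivAt (fun w : ℂ => Complex.exp (2 * Real.pi * Complex.I * c * w))
      (Complex.exp (2 * Real.pi * Complex.I * c * z) * (2 * Real.pi * Complex.I * c)) (z : ℂ) := by
    have h1 : HasDerivAt (fun w : ℂ => 2 * Real.pi * Complex.I * c * w)
        (2 * Real.pi * Complex.I * c) (z : ℂ) := by
      simpa using (hasDerivAt_id (z : ℂ)).const_mul (2 * Real.pi * Complex.I * c)
    exact h1.cexp
  rw [normalizedDerivOfComplex, (hd.congr_of_eventuallyEq hev).deriv]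
  have hpi : (2 * (Real.pi : ℂ) * Complex.I) ≠ 0 := by
    simp [Real.pi_ne_zero]
  rw [expFn]
  field_simp

/-- `E₂ → 1` at `i∞`. -/
theorem tendsto_E2 : Tendsto E2 atImInfty (𝓝 1) := by
  set P : ℍ → ℂ := fun z => Δ z * expFn (-1) z with hP
  have hPmd : MDiff P := mdiff_delta.mul (mdiff_expFn (-1))
  have hP1 : Tendsto P atImInfty (𝓝 1) := tendsto_delta_mul_expFn_neg_one
  have hDP : Tendsto (D P) atImInfty (𝓝 0) := tendsto_D_zero hPmd hP1
  have hΔ : Δ = expFn 1 * P := by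
    funext z
    simp only [hP, Pi.mul_apply]
    have := expFn_neg_mul 1 z
    linear_combination (-(Δ z)) * this
  have hE2 : ∀ z, E2 z = (P z + D P z) / P z := by
    intro z
    have hPz : P z ≠ 0 := mul_ne_zero (ModularForm.discriminant_ne_zero z) (expFn_ne_zero _ _)
    have h1 := D_delta z
    have h2 : D Δ z = D (expFn 1 * P) z := by rw [← hΔ]
    rw [normalizedDerivOfComplex_mul _ _ (mdiff_expFn 1) hPmd] at h2
    simp only [Pi.add_apply, Pi.mul_apply, D_expFn] at h2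
    have h3 : Δ z = expFn 1 z * P z := congrFun hΔ z
    have he : expFn 1 z ≠ 0 := expFn_ne_zero _ _
    rw [eq_div_iff hPz]
    have h4 : E2 z * (expFn 1 z * P z) = expFn 1 z * (P z + D P z) := by
      rw [← h3, ← h1, h2]
      push_cast
      ring
    have := mul_left_cancel₀ he (by linear_combination h4 :
      expFn 1 z * (E2 z * P z) = expFn 1 z * (P z + D P z))
    exact this
  have hlim : Tendsto (fun z => (P z + D P z) / P z) atImInfty (𝓝 1) := by
    have := (hP1.add hDP).div hP1 one_ne_zero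
    rw [add_zero, div_one] at this
    exact this
  exact hlim.congr fun z => (hE2 z).symm


/-- In a one-dimensional space of level one forms, a form is determined by its limit at `i∞`. -/
theorem eq_smul_of_finrank_one {k : ℤ} (hk : Module.finrank ℂ (MkSub 1 k) = 1) {f g : ℍ → ℂ}
    (hf : IsMF 1 k f) (hg : IsMF 1 k g) {c : ℂ} (hfl : Tendsto f atImInfty (𝓝 c))
    (hgl : Tendsto g atImInfty (𝓝 1)) : f = c • g := by
  have hg0 : (⟨g, hg⟩ : MkSub 1 k) ≠ 0 := by
    intro h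
    have h0 : g = 0 := congrArg Subtype.val h
    rw [h0] at hgl
    have h1 : Tendsto (0 : ℍ → ℂ) atImInfty (𝓝 0) := tendsto_const_nhds
    exact one_ne_zero (tendsto_nhds_unique hgl h1)
  obtain ⟨c', hc'⟩ := (finrank_eq_one_iff_of_nonzero' _ hg0).mp hk ⟨f, hf⟩
  have hfg : f = c' • g := (congrArg Subtype.val hc').symm
  have h2 : Tendsto f atImInfty (𝓝 (c' • (1 : ℂ))) := by
    rw [hfg]; exact hgl.const_smul c'
  have hcc : c = c' := by simpa using tendsto_nhds_unique hfl h2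
  rw [hcc, hfg]

theorem tendsto_serreDerivative {k c : ℂ} {f : ℍ → ℂ} (hf : MDiff f)
    (h : Tendsto f atImInfty (𝓝 c)) :
    Tendsto (serreDerivative k f) atImInfty (𝓝 (-(k * 12⁻¹ * c))) := by
  have h1 := tendsto_D_zero hf h
  have h2 : Tendsto (fun z => D f z - k * 12⁻¹ * E2 z * f z) atImInfty
      (𝓝 (0 - k * 12⁻¹ * 1 * c)) :=
    h1.sub ((tendsto_E2.const_mul (k * 12⁻¹)).mul h)
  have h3 : (0 : ℂ) - k * 12⁻¹ * 1 * c = -(k * 12⁻¹ * c) := by ring
  rw [h3] at h2
  exact h2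

/-- Ramanujan: `∂₄ E₄ = -E₆/3`. -/
theorem serreDerivative_E4 : serreDerivative 4 E4 = (-(1 / 3) : ℂ) • E6 := by
  have hf : IsMF 1 6 (serreDerivative 4 E4) := by
    have := IsMF.serre isMF_E4
    simpa using this
  have hk : Module.finrank ℂ (MkSub 1 6) = 1 := by
    have := finrank_MkSub_one_nat (k := 6) (by decide)
    simpa [Nat.ModEq] using this
  have hl := tendsto_serreDerivative (k := 4) mdiff_E4 tendsto_E4
  have h3 : -((4 : ℂ) * 12⁻¹ * 1) = -(1 / 3) := by norm_num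
  rw [h3] at hl
  exact eq_smul_of_finrank_one hk hf isMF_E6 hl tendsto_E6

/-- Ramanujan: `∂₆ E₆ = -E₄²/2`. -/
theorem serreDerivative_E6 : serreDerivative 6 E6 = (-(1 / 2) : ℂ) • E4 ^ 2 := by
  have hf : IsMF 1 8 (serreDerivative 6 E6) := by
    have := IsMF.serre isMF_E6
    simpa using this
  have hg : IsMF 1 8 (E4 ^ 2) := (isMF_E4.pow 2).cast (by norm_num)
  have hk : Module.finrank ℂ (MkSub 1 8) = 1 := by
    have := finrank_MkSub_one_nat (k := 8) (by decide)
    simpa [Nat.ModEq] using this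
  have hl := tendsto_serreDerivative (k := 6) mdiff_E6 tendsto_E6
  have h3 : -((6 : ℂ) * 12⁻¹ * 1) = -(1 / 2) := by norm_num
  rw [h3] at hl
  have hgl : Tendsto (E4 ^ 2) atImInfty (𝓝 1) := by
    have := tendsto_E4.pow 2
    rw [one_pow] at this
    exact this
  exact eq_smul_of_finrank_one hk hf hg hl hgl

/-- Ramanujan: `D E₄ = (E₂ E₄ - E₆)/3`. -/
theorem D_E4 (z : ℍ) : D E4 z = (E2 z * E4 z - E6 z) / 3 := by
  have h := congrFun serreDerivative_E4 z
  rw [serreDerivative_apply, Pi.smul_apply, smul_eq_mul] at h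
  linear_combination h

/-- Ramanujan: `D E₆ = (E₂ E₆ - E₄²)/2`. -/
theorem D_E6 (z : ℍ) : D E6 z = (E2 z * E6 z - E4 z ^ 2) / 2 := by
  have h := congrFun serreDerivative_E6 z
  rw [serreDerivative_apply, Pi.smul_apply, smul_eq_mul, Pi.pow_apply] at h
  linear_combination h

theorem jFun_mul_delta (z : ℍ) : jFun z * Δ z = E4 z ^ 3 := by
  rw [jFun_apply, div_mul_cancel₀ _ (ModularForm.discriminant_ne_zero z)]

theorem delta_eq' (z : ℍ) : 1728 * Δ z = E4 z ^ 3 - E6 z ^ 2 := by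
  have := ModularForm.discriminant_eq_E₄_cube_sub_E₆_sq z
  rw [this]; ring

theorem jFun_sub_mul_delta (z : ℍ) : (jFun z - 1728) * Δ z = E6 z ^ 2 := by
  have h1 := jFun_mul_delta z
  have h2 := delta_eq' z
  linear_combination h1 - h2

/-- `D j = -E₄² E₆ / Δ`. -/
theorem D_jFun (z : ℍ) : D jFun z = -(E4 z ^ 2 * E6 z) / Δ z := by
  have hΔ := ModularForm.discriminant_ne_zero z
  have h1 : (jFun * Δ : ℍ → ℂ) = E4 ^ 3 := by
    funext w; exact jFun_mul_delta w
  have h2 := congrFun (congrArg D h1) z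
  rw [normalizedDerivOfComplex_mul _ _ mdiff_jFun mdiff_delta,
    normalizedDerivOfComplex_pow _ _ mdiff_E4] at h2
  simp only [Pi.add_apply, Pi.mul_apply, Pi.pow_apply, D_delta z, D_E4 z,
    Nat.cast_ofNat] at h2
  have h3 := jFun_mul_delta z
  rw [eq_div_iff hΔ]
  norm_num at h2
  linear_combination h2 - E2 z * h3

theorem E4_E6_not_both_zero (z : ℍ) : E4 z ≠ 0 ∨ E6 z ≠ 0 := by
  by_contra h
  rw [not_or, not_not, not_not] at h
  have := delta_eq' z
  rw [h.1, h.2] at this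
  have hΔ := ModularForm.discriminant_ne_zero z
  simp at this
  exact hΔ this

theorem D_E4_ne_zero {z : ℍ} (h : E4 z = 0) : D E4 z ≠ 0 := by
  have h6 : E6 z ≠ 0 := (E4_E6_not_both_zero z).resolve_left (not_not.mpr h)
  rw [D_E4, h]
  simp [h6]

theorem D_E6_ne_zero {z : ℍ} (h : E6 z = 0) : D E6 z ≠ 0 := by
  have h4 : E4 z ≠ 0 := (E4_E6_not_both_zero z).resolve_right (not_not.mpr h)
  rw [D_E6, h]
  simp [h4]

theorem D_jFun_ne_zero {z : ℍ} (h4 : E4 z ≠ 0) (h6 : E6 z ≠ 0) : D jFun z ≠ 0 := by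
  rw [D_jFun]
  exact div_ne_zero (neg_ne_zero.mpr (mul_ne_zero (pow_ne_zero 2 h4) h6))
    (ModularForm.discriminant_ne_zero z)

theorem jFun_eq_zero_iff (z : ℍ) : jFun z = 0 ↔ E4 z = 0 := by
  rw [jFun_apply, div_eq_zero_iff]
  simp [ModularForm.discriminant_ne_zero z]

theorem jFun_eq_1728_iff (z : ℍ) : jFun z = 1728 ↔ E6 z = 0 := by
  have h := jFun_sub_mul_delta z
  have hΔ := ModularForm.discriminant_ne_zero z
  constructor
  · intro h1
    rw [h1, sub_self, zero_mul] at h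
    exact pow_eq_zero_iff (two_ne_zero) |>.mp h.symm
  · intro h1
    rw [h1] at h
    have h0 : (jFun z - 1728) * Δ z = 0 := by rw [h]; norm_num
    have : (jFun z - 1728) = 0 := by
      rcases mul_eq_zero.mp h0 with h2 | h2
      · exact h2
      · exact absurd h2 hΔ
    linear_combination this


/-! ### Orders of vanishing of `j - j(z₀)` -/

theorem analyticAt_comp_ofComplex {f : ℍ → ℂ} (hf : MDiff f) (z : ℍ) :
    AnalyticAt ℂ (f ∘ ofComplex) (z : ℂ) :=
  (UpperHalfPlane.mdifferentiable_iff.mp hf).analyticAt (isOpen_upperHalfPlaneSet.mem_nhds z.2)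

theorem deriv_comp_ofComplex_ne_zero {f : ℍ → ℂ} {z : ℍ} (h : D f z ≠ 0) :
    deriv (f ∘ ofComplex) (z : ℂ) ≠ 0 := by
  intro h0
  apply h
  rw [normalizedDerivOfComplex, h0, mul_zero]

theorem comp_ofComplex_coe (f : ℍ → ℂ) (z : ℍ) : (f ∘ ofComplex) (z : ℂ) = f z := by
  rw [Function.comp_apply, ofComplex_apply]

/-- Away from `j = 0, 1728` the function `j - j(z₀)` has a simple zero at `z₀`. -/
theorem analyticOrderAt_jFun_sub_generic {z0 : ℍ} (h0 : jFun z0 ≠ 0) (h1 : jFun z0 ≠ 1728) :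
    analyticOrderAt (fun w : ℂ => (jFun ∘ ofComplex) w - jFun z0) (z0 : ℂ) = 1 := by
  have h4 : E4 z0 ≠ 0 := fun h => h0 ((jFun_eq_zero_iff z0).mpr h)
  have h6 : E6 z0 ≠ 0 := fun h => h1 ((jFun_eq_1728_iff z0).mpr h)
  have hd := deriv_comp_ofComplex_ne_zero (D_jFun_ne_zero h4 h6)
  have := (analyticAt_comp_ofComplex mdiff_jFun z0).analyticOrderAt_sub_eq_one_of_deriv_ne_zero hd
  rw [comp_ofComplex_coe] at this
  exact this

/-- Where `j = 1728`, the function `j - 1728` has a double zero. -/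
theorem analyticOrderAt_jFun_sub_1728 {z0 : ℍ} (h : jFun z0 = 1728) :
    analyticOrderAt (fun w : ℂ => (jFun ∘ ofComplex) w - 1728) (z0 : ℂ) = 2 := by
  have h6 : E6 z0 = 0 := (jFun_eq_1728_iff z0).mp h
  have hg : AnalyticAt ℂ (fun w : ℂ => (jFun ∘ ofComplex) w - 1728) (z0 : ℂ) :=
    (analyticAt_comp_ofComplex mdiff_jFun z0).sub analyticAt_const
  have hd : AnalyticAt ℂ (Δ ∘ ofComplex) (z0 : ℂ) := analyticAt_comp_ofComplex mdiff_delta z0
  have he : AnalyticAt ℂ (E6 ∘ ofComplex) (z0 : ℂ) := analyticAt_comp_ofComplex mdiff_E6 z0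
  have hmul : (fun w : ℂ => (jFun ∘ ofComplex) w - 1728) * (Δ ∘ ofComplex) = (E6 ∘ ofComplex) ^ 2 := by
    funext w
    simp only [Pi.mul_apply, Pi.pow_apply, Function.comp_apply]
    exact jFun_sub_mul_delta (ofComplex w)
  have h1 := analyticOrderAt_mul hg hd
  rw [hmul, analyticOrderAt_pow he] at h1
  have h2 : analyticOrderAt (Δ ∘ ofComplex) (z0 : ℂ) = 0 := by
    rw [hd.analyticOrderAt_eq_zero, comp_ofComplex_coe]
    exact ModularForm.discriminant_ne_zero z0
  have h3 : analyticOrderAt (E6 ∘ ofComplex) (z0 : ℂ) = 1 :=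
    he.analyticOrderAt_eq_one_of_zero_deriv_ne_zero (by rw [comp_ofComplex_coe]; exact h6)
      (deriv_comp_ofComplex_ne_zero (D_E6_ne_zero h6))
  rw [h2, h3, add_zero] at h1
  rw [← h1]; rfl

/-- Where `j = 0`, the function `j` has a triple zero. -/
theorem analyticOrderAt_jFun_zero {z0 : ℍ} (h : jFun z0 = 0) :
    analyticOrderAt (jFun ∘ ofComplex) (z0 : ℂ) = 3 := by
  have h4 : E4 z0 = 0 := (jFun_eq_zero_iff z0).mp h
  have hg : AnalyticAt ℂ (jFun ∘ ofComplex) (z0 : ℂ) := analyticAt_comp_ofComplex mdiff_jFun z0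
  have hd : AnalyticAt ℂ (Δ ∘ ofComplex) (z0 : ℂ) := analyticAt_comp_ofComplex mdiff_delta z0
  have he : AnalyticAt ℂ (E4 ∘ ofComplex) (z0 : ℂ) := analyticAt_comp_ofComplex mdiff_E4 z0
  have hmul : (jFun ∘ ofComplex) * (Δ ∘ ofComplex) = (E4 ∘ ofComplex) ^ 3 := by
    funext w
    simp only [Pi.mul_apply, Pi.pow_apply, Function.comp_apply]
    exact jFun_mul_delta (ofComplex w)
  have h1 := analyticOrderAt_mul hg hd
  rw [hmul, analyticOrderAt_pow he] at h1
  have h2 : analyticOrderAt (Δ ∘ ofComplex) (z0 : ℂ) = 0 := by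
    rw [hd.analyticOrderAt_eq_zero, comp_ofComplex_coe]
    exact ModularForm.discriminant_ne_zero z0
  have h3 : analyticOrderAt (E4 ∘ ofComplex) (z0 : ℂ) = 1 :=
    he.analyticOrderAt_eq_one_of_zero_deriv_ne_zero (by rw [comp_ofComplex_coe]; exact h4)
      (deriv_comp_ofComplex_ne_zero (D_E4_ne_zero h4))
  rw [h2, h3, add_zero] at h1
  rw [← h1]; rfl


/-! ### Elliptic points -/

/-- A level one form of weight `k` vanishes at a fixed point of `γ` unless `(cz+d)^k = 1`. -/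
theorem eq_zero_of_fixed {k : ℤ} {f : ℍ → ℂ} (hf : IsMF 1 k f) {γ : SL(2, ℤ)} {z : ℍ}
    (hfix : γ • z = z) (hd : denom γ z ^ k ≠ 1) : f z = 0 := by
  have h := levelOne_smul_apply hf γ z
  rw [hfix] at h
  have h2 : (denom γ z ^ k - 1) * f z = 0 := by linear_combination -h
  rcases mul_eq_zero.mp h2 with h3 | h3
  · exact absurd (sub_eq_zero.mp h3) hd
  · exact h3

theorem E6_I : E6 UpperHalfPlane.I = 0 := by
  refine eq_zero_of_fixed isMF_E6 S_smul_I ?_
  rw [ModularGroup.denom_S, UpperHalfPlane.coe_I]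
  have : (Complex.I : ℂ) ^ (6 : ℤ) = -1 := by
    have h : (Complex.I : ℂ) ^ (6 : ℕ) = -1 := by
      calc (Complex.I : ℂ) ^ 6 = (Complex.I ^ 2) ^ 3 := by ring
        _ = -1 := by rw [Complex.I_sq]; norm_num
    exact_mod_cast h
  rw [this]
  norm_num

theorem E4_rho : E4 rho = 0 := by
  refine eq_zero_of_fixed isMF_E4 ST_smul_rho ?_
  rw [denom_ST_rho]
  intro h
  have h1 := rho_sq_add
  have h4 : ((rho : ℂ) + 1) ^ (4 : ℕ) = 1 := by exact_mod_cast h
  have h5 : ((rho : ℂ) + 1) ^ 4 = -(rho : ℂ) - 1 := by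
    have : ((rho : ℂ) + 1) ^ 2 = (rho : ℂ) := by linear_combination h1
    calc ((rho : ℂ) + 1) ^ 4 = (((rho : ℂ) + 1) ^ 2) ^ 2 := by ring
      _ = (rho : ℂ) ^ 2 := by rw [this]
      _ = -(rho : ℂ) - 1 := by linear_combination h1
  rw [h5] at h4
  have h6 : (rho : ℂ) = -2 := by linear_combination -h4
  rw [h6] at h1
  norm_num at h1

theorem jFun_rho : jFun rho = 0 := (jFun_eq_zero_iff _).mpr E4_rho

theorem jFun_I : jFun UpperHalfPlane.I = 1728 := (jFun_eq_1728_iff _).mpr E6_I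

end

end Fermat.Agent.S24
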