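import Mathlib
import Fermat.Agent.S24.BridgeInv
import Fermat.Agent.S24.Mer
import Fermat.Agent.S24.Ramanujan
import Fermat.Agent.S24.AbstractFibre
import Fermat.Agent.S24.OrbitCount

set_option autoImplicit false
set_option linter.unusedSectionVars false
set_option linter.unusedVariables false

/-!
# S24 (M9, concrete): the candidate order functions at points of `ℍ`

For a bridge `Φ : F →+* Mer`, a coset `c : Q N = SL(2,ℤ) ⧸ Γ₀(N)` and a point `z0 : ℍ`,
`nuAt Φ c z0 f = ord_{z0} ((Φ f) ∘ (c.out)⁻¹)`.  We prove that it is an order function, that it is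
stable under the stabiliser of `z0`, compute its value at `J - a`, prove the divisibility at fixed
cosets (rotation lemma) and build the `FibreModel`s of `AbstractFibre.lean` for the three kinds of
finite fibres (generic, `1728`, `0`) from the norm property alone.
-/

namespace Fermat.Agent.S24.PlaceAt

open scoped MatrixGroups
open IntermediateField UpperHalfPlane CongruenceSubgroup ModularGroup
open Fermat.Agent.S20 Fermat.Agent.S24.PsiLe Fermat.Agent.S24.BridgeInv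

noncomputable section

/-! ### `compMer` is `Mer.comp` -/

theorem compHol_eq_comp (γ : SL(2, ℤ)) (f : Hol) : compHol γ f = Hol.comp γ f := rfl

theorem compMer_eq_comp (γ : SL(2, ℤ)) (m : Mer) : compMer γ m = Mer.comp γ m := by
  have h : compMer γ = (Mer.comp γ : Mer →+* Mer) := by
    refine IsLocalization.ringHom_ext (nonZeroDivisors Hol) ?_
    refine RingHom.ext fun f => ?_
    show compMer γ (algebraMap Hol Mer f) = Mer.comp γ (algebraMap Hol Mer f)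
    rw [compMer_algebraMap, Mer.comp_toMer, compHol_eq_comp]
  exact congrArg (fun g : Mer →+* Mer => g m) h

variable {N : ℕ} {Φ : FF N →+* Mer}

/-- the generator `J = j_1` of `F`. -/
abbrev J (N : ℕ) : FF N := Jd N 1 (one_dvd N)

/-- the conjugates are injective -/
theorem conjMer_ne_zero (Φ : FF N →+* Mer) (c : Q N) {f : FF N} (hf : f ≠ 0) :
    conjMer Φ c f ≠ 0 := (map_ne_zero (conjMer Φ c)).mpr hf

/-- the complex number attached to a constant -/
theorem exists_const (hΦ : IsBridge N Φ) (a : Kbar) :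
    ∃ c : ℂ, Φ (algebraMap Kbar (FF N) a) = algebraMap ℂ Mer c := by
  obtain ⟨c, hc⟩ := hΦ.const a
  exact ⟨c, hc.trans (IsScalarTower.algebraMap_apply ℂ Hol Mer c).symm⟩

/-- the conjugates fix the constants -/
theorem conjMer_const (hΦ : IsBridge N Φ) (c : Q N) (a : Kbar) :
    conjMer Φ c (algebraMap Kbar (FF N) a) = Φ (algebraMap Kbar (FF N) a) :=
  hΦ.compMer_const _ a

/-- the conjugates fix `J` -/
theorem conjMer_J (hΦ : IsBridge N Φ) (c : Q N) : conjMer Φ c (J N) = Φ (J N) :=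
  hΦ.compMer_J _

/-! ### the order functions -/

/-- `ν_{c, z0} f = ord_{z0} ((Φ f) ∘ (c.out)⁻¹)`. -/
def nuAt (Φ : FF N →+* Mer) (c : Q N) (z0 : ℍ) (f : FF N) : ℤ := Mer.ordAt z0 (conjMer Φ c f)

theorem nuAt_def (Φ : FF N →+* Mer) (c : Q N) (z0 : ℍ) (f : FF N) :
    nuAt Φ c z0 f = Mer.ordAt z0 (conjMer Φ c f) := rfl

theorem nuAt_mk (hΦ : IsBridge N Φ) (g : SL(2, ℤ)) (z0 : ℍ) (f : FF N) :
    nuAt Φ (QuotientGroup.mk g : Q N) z0 f = Mer.ordAt (g⁻¹ • z0) (Φ f) := by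
  rw [nuAt_def, hΦ.conjMer_mk, compMer_eq_comp, Mer.ordAt_comp]

theorem isOrdFun_nuAt (hΦ : IsBridge N Φ) (c : Q N) (z0 : ℍ) :
    IsOrdFun Kbar (nuAt Φ c z0) where
  mul f g hf hg := by
    rw [nuAt_def, map_mul]
    exact Mer.ordAt_mul z0 (conjMer_ne_zero Φ c hf) (conjMer_ne_zero Φ c hg)
  add f g hf hg hfg := by
    rw [nuAt_def, nuAt_def, nuAt_def, map_add]
    refine Mer.ordAt_add z0 (conjMer_ne_zero Φ c hf) (conjMer_ne_zero Φ c hg) ?_
    rw [← map_add]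
    exact conjMer_ne_zero Φ c hfg
  const a ha := by
    rw [nuAt_def, conjMer_const hΦ]
    obtain ⟨w, hw⟩ := exists_const hΦ a
    rw [hw]
    refine Mer.ordAt_const z0 ?_
    rintro rfl
    rw [map_zero] at hw
    have : algebraMap Kbar (FF N) a ≠ 0 := by
      rw [Ne, map_eq_zero_iff _ (algebraMap Kbar (FF N)).injective]
      exact ha
    exact (map_ne_zero Φ).mpr this hw

/-- stability under the stabiliser of `z0` -/
theorem nuAt_smul (hΦ : IsBridge N Φ) {σ : SL(2, ℤ)} {z0 : ℍ} (hσ : σ • z0 = z0)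
    (c : Q N) : nuAt Φ (σ • c) z0 = nuAt Φ c z0 := by
  funext f
  rw [nuAt_def, nuAt_def, ← hΦ.compMer_conjMer, compMer_eq_comp, Mer.ordAt_comp]
  congr 1
  rw [inv_smul_eq_iff, hσ]

/-- invariance of a conjugate under an element fixing the coset -/
theorem comp_conjMer_of_smul_eq (hΦ : IsBridge N Φ) {σ : SL(2, ℤ)} {c : Q N}
    (hσ : σ • c = c) (f : FF N) : Mer.comp σ (conjMer Φ c f) = conjMer Φ c f := by
  have h := hΦ.compMer_conjMer σ⁻¹ c f
  rw [inv_inv, compMer_eq_comp] at h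
  rw [h]
  have h2 : σ⁻¹ • c = c := by rw [inv_smul_eq_iff, hσ]
  rw [h2]

/-- rotation lemma at `i`: at an `S`-fixed coset all orders at `i` are even -/
theorem two_dvd_nuAt (hΦ : IsBridge N Φ) {c : Q N} (hc : (S : SL(2, ℤ)) • c = c)
    {f : FF N} (hf : f ≠ 0) : (2 : ℤ) ∣ nuAt Φ c UpperHalfPlane.I f :=
  (Mer.even_ordAt_of_S (conjMer_ne_zero Φ c hf) S_smul_I
    (comp_conjMer_of_smul_eq hΦ hc f)).two_dvd

/-- rotation lemma at `ρ`: at an `ST`-fixed coset all orders at `ρ` are divisible by `3` -/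
theorem three_dvd_nuAt (hΦ : IsBridge N Φ) {c : Q N}
    (hc : (S * T : SL(2, ℤ)) • c = c) {f : FF N} (hf : f ≠ 0) : (3 : ℤ) ∣ nuAt Φ c rho f :=
  Mer.three_dvd_ordAt_of_ST rfl (conjMer_ne_zero Φ c hf) ST_smul_rho
    (comp_conjMer_of_smul_eq hΦ hc f)

/-! ### the value at `J - a` -/

/-- the holomorphic function `j - w` -/
def jSub (w : ℂ) : Hol := ⟨fun z => jFun z - w, mdiff_jFun.sub mdifferentiable_const⟩

theorem phi_J (hΦ : IsBridge N Φ) : Φ (J N) = toMer (jSub 0) := by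
  obtain ⟨h, hh, hpt⟩ := hΦ.gen 1 inferInstance (one_dvd N)
  rw [hh]
  congr 1
  refine Hol.ext fun z => ?_
  rw [hpt z z (by simp)]
  show jFun z = jFun z - 0
  rw [sub_zero]

theorem phi_J_sub (hΦ : IsBridge N Φ) {a : Kbar} {w : ℂ}
    (haw : Φ (algebraMap Kbar (FF N) a) = algebraMap ℂ Mer w) :
    Φ (J N - algebraMap Kbar (FF N) a) = toMer (jSub w) := by
  rw [map_sub, phi_J hΦ, haw, IsScalarTower.algebraMap_apply ℂ Hol Mer w, ← map_sub]
  congr 1
  refine Hol.ext fun z => ?_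
  show jFun z - 0 - w = jFun z - w
  rw [sub_zero]

theorem jSub_ne_zero (w : ℂ) : jSub w ≠ 0 := by
  intro h
  obtain ⟨z, hz⟩ := jFun_surjective (w + 1)
  have := congrFun (congrArg Subtype.val h) z
  simp only [jSub] at this
  rw [hz] at this
  simp at this

theorem conjMer_J_sub (hΦ : IsBridge N Φ) (c : Q N) (a : Kbar) :
    conjMer Φ c (J N - algebraMap Kbar (FF N) a) = Φ (J N - algebraMap Kbar (FF N) a) := by
  rw [map_sub, map_sub, conjMer_J hΦ, conjMer_const hΦ]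

theorem J_sub_ne_zero (hΦ : IsBridge N Φ) (a : Kbar) : J N - algebraMap Kbar (FF N) a ≠ 0 := by
  obtain ⟨w, hw⟩ := exists_const hΦ a
  intro h
  have h1 := phi_J_sub hΦ hw
  rw [h, map_zero] at h1
  exact toMer_ne_zero (jSub_ne_zero w) h1.symm

theorem nuAt_J_sub (hΦ : IsBridge N Φ) (c : Q N) (z0 : ℍ) {a : Kbar} {w : ℂ}
    (haw : Φ (algebraMap Kbar (FF N) a) = algebraMap ℂ Mer w) :
    nuAt Φ c z0 (J N - algebraMap Kbar (FF N) a) = Hol.ordNat z0 (jSub w) := by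
  rw [nuAt_def, conjMer_J_sub hΦ, phi_J_sub hΦ haw, Mer.ordAt_toMer z0 (jSub_ne_zero w)]

theorem ordAt_jSub_generic {z0 : ℍ} (h0 : jFun z0 ≠ 0) (h1 : jFun z0 ≠ 1728) :
    Hol.ordAt z0 (jSub (jFun z0)) = 1 :=
  analyticOrderAt_jFun_sub_generic h0 h1

theorem ordAt_jSub_1728 {z0 : ℍ} (h : jFun z0 = 1728) : Hol.ordAt z0 (jSub 1728) = 2 :=
  analyticOrderAt_jFun_sub_1728 h

theorem ordAt_jSub_zero {z0 : ℍ} (h : jFun z0 = 0) : Hol.ordAt z0 (jSub 0) = 3 := by
  have := analyticOrderAt_jFun_zero h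
  rw [← this]
  show analyticOrderAt (((jSub 0 : Hol) : ℍ → ℂ) ∘ ofComplex) (z0 : ℂ) = _
  congr 1
  funext w
  show jFun (ofComplex w) - 0 = jFun (ofComplex w)
  rw [sub_zero]

/-! ### the fibre models -/

variable [NeZero N]

/-- the norm hypothesis of `FibreModel`, for the order functions `nuAt Φ · z0` and `y` -/
def NormHyp (Φ : FF N →+* Mer) (z0 : ℍ) (y : FF N) : Prop :=
  ∀ f : FF N, f ≠ 0 → ∃ g : FF N, g ≠ 0 ∧ g ∈ Kbar⟮y⟯ ∧
    (∀ c0 : Q N, ∑ c, nuAt Φ c z0 f = nuAt Φ c0 z0 g) ∧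
    (IsIntegral (Algebra.adjoin Kbar {y}) f → IsIntegral (Algebra.adjoin Kbar {y}) (g / f))

/-- the general fibre model at a point `z0 : ℍ` with `j(z0) = w`, for a subgroup `H` of the
stabiliser of `z0`. -/
def fibreModelAt (hΦ : IsBridge N Φ) (z0 : ℍ) {a : Kbar} {w : ℂ}
    (haw : Φ (algebraMap Kbar (FF N) a) = algebraMap ℂ Mer w)
    (H : Subgroup SL(2, ℤ)) (hH : ∀ σ ∈ H, σ • z0 = z0)
    (s : ℕ) (hs0 : 0 < s) (hs : Hol.ordAt z0 (jSub w) = s)
    (horb : ∀ c : Q N, Nat.card (MulAction.orbit H c) ∣ s)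
    (hdvd : ∀ (c : Q N) (f : FF N), f ≠ 0 →
      ((s / Nat.card (MulAction.orbit H c) : ℕ) : ℤ) ∣ nuAt Φ c z0 f)
    (hnorm : NormHyp Φ z0 (J N - algebraMap Kbar (FF N) a)) :
    FibreModel Kbar (J N - algebraMap Kbar (FF N) a) (Q N) H where
  ν c := nuAt Φ c z0
  isOrd c := isOrdFun_nuAt hΦ c z0
  y_ne := J_sub_ne_zero hΦ a
  s := s
  s_pos := hs0
  ν_y c := by
    rw [nuAt_J_sub hΦ c z0 haw, Hol.ordNat, hs]
    rfl
  ν_smul h c := nuAt_smul hΦ (hH h.1 h.2) c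
  orbit_dvd := horb
  dvd := hdvd
  norm := hnorm

@[simp] theorem fibreModelAt_ν (hΦ : IsBridge N Φ) (z0 : ℍ) {a : Kbar} {w : ℂ}
    (haw : Φ (algebraMap Kbar (FF N) a) = algebraMap ℂ Mer w)
    (H : Subgroup SL(2, ℤ)) (hH : ∀ σ ∈ H, σ • z0 = z0)
    (s : ℕ) (hs0 : 0 < s) (hs : Hol.ordAt z0 (jSub w) = s)
    (horb : ∀ c : Q N, Nat.card (MulAction.orbit H c) ∣ s)
    (hdvd : ∀ (c : Q N) (f : FF N), f ≠ 0 →
      ((s / Nat.card (MulAction.orbit H c) : ℕ) : ℤ) ∣ nuAt Φ c z0 f)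
    (hnorm : NormHyp Φ z0 (J N - algebraMap Kbar (FF N) a)) (c : Q N) :
    (fibreModelAt hΦ z0 haw H hH s hs0 hs horb hdvd hnorm).ν c = nuAt Φ c z0 := rfl

theorem card_orbit_bot (c : Q N) :
    Nat.card (MulAction.orbit (⊥ : Subgroup SL(2, ℤ)) c) = 1 := by
  rw [Nat.card_eq_one_iff_unique]
  refine ⟨⟨?_⟩, ⟨⟨c, MulAction.mem_orbit_self c⟩⟩⟩
  rintro ⟨x, ⟨⟨g, hg⟩, rfl⟩⟩ ⟨y, ⟨⟨g', hg'⟩, rfl⟩⟩
  rw [Subgroup.mem_bot] at hg hg'
  subst hg hg'
  rfl

/-- the fibre over a generic value `a` (`≠ 0, 1728`): trivial group, `s = 1`. -/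
def fibreModelGeneric (hΦ : IsBridge N Φ) (z0 : ℍ) {a : Kbar}
    (haw : Φ (algebraMap Kbar (FF N) a) = algebraMap ℂ Mer (jFun z0))
    (h0 : jFun z0 ≠ 0) (h1 : jFun z0 ≠ 1728)
    (hnorm : NormHyp Φ z0 (J N - algebraMap Kbar (FF N) a)) :
    FibreModel Kbar (J N - algebraMap Kbar (FF N) a) (Q N) (⊥ : Subgroup SL(2, ℤ)) :=
  fibreModelAt hΦ z0 haw ⊥ (fun σ hσ => by rw [Subgroup.mem_bot.mp hσ, one_smul]) 1 one_pos
    (by rw [ordAt_jSub_generic h0 h1]; rfl) (fun c => by rw [card_orbit_bot])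
    (fun c f _ => by rw [card_orbit_bot]; exact one_dvd _)
    hnorm

theorem card_orbit_zpowers_one (c : Q N) :
    Nat.card (MulAction.orbit (Subgroup.zpowers (1 : SL(2, ℤ))) c) = 1 := by
  rw [Nat.card_eq_one_iff_unique]
  refine ⟨⟨?_⟩, ⟨⟨c, MulAction.mem_orbit_self c⟩⟩⟩
  rintro ⟨x, ⟨⟨g, hg⟩, rfl⟩⟩ ⟨y, ⟨⟨g', hg'⟩, rfl⟩⟩
  rw [Subgroup.zpowers_one_eq_bot, Subgroup.mem_bot] at hg hg'
  subst hg hg'
  rfl

/-- the fibre over a generic value, with the group `⟨1⟩` (shape of the generic builder). -/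
def fibreModelGeneric' (hΦ : IsBridge N Φ) (z0 : ℍ) {a : Kbar}
    (haw : Φ (algebraMap Kbar (FF N) a) = algebraMap ℂ Mer (jFun z0))
    (h0 : jFun z0 ≠ 0) (h1 : jFun z0 ≠ 1728)
    (hnorm : NormHyp Φ z0 (J N - algebraMap Kbar (FF N) a)) :
    FibreModel Kbar (J N - algebraMap Kbar (FF N) a) (Q N)
      (Subgroup.zpowers (1 : SL(2, ℤ))) :=
  fibreModelAt hΦ z0 haw _ (fun σ hσ => by
      rw [Subgroup.zpowers_one_eq_bot, Subgroup.mem_bot] at hσ
      rw [hσ, one_smul]) 1 one_pos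
    (by rw [ordAt_jSub_generic h0 h1]; rfl) (fun c => by rw [card_orbit_zpowers_one])
    (fun c f _ => by rw [card_orbit_zpowers_one]; exact one_dvd _)
    hnorm

theorem smul_eq_of_mem_zpowers {σ : SL(2, ℤ)} {z0 : ℍ} (hσ : σ • z0 = z0) :
    ∀ τ ∈ Subgroup.zpowers σ, τ • z0 = z0 := by
  intro τ hτ
  have h : Subgroup.zpowers σ ≤ MulAction.stabilizer SL(2, ℤ) z0 :=
    Subgroup.zpowers_le.mpr (MulAction.mem_stabilizer_iff.mpr hσ)
  exact MulAction.mem_stabilizer_iff.mp (h hτ)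

/-- the fibre over `1728`: `z0 = i`, `H = ⟨S⟩`, `s = 2`. -/
def fibreModel1728 (hΦ : IsBridge N Φ) {a : Kbar}
    (haw : Φ (algebraMap Kbar (FF N) a) = algebraMap ℂ Mer 1728)
    (hnorm : NormHyp Φ UpperHalfPlane.I (J N - algebraMap Kbar (FF N) a)) :
    FibreModel Kbar (J N - algebraMap Kbar (FF N) a) (Q N) (Subgroup.zpowers (S : SL(2, ℤ))) :=
  fibreModelAt hΦ UpperHalfPlane.I haw _ (smul_eq_of_mem_zpowers S_smul_I) 2 two_pos
    (by rw [ordAt_jSub_1728 jFun_I]; rfl)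
    (fun c => by
      rcases card_orbit_S N c with h | h
      · rw [h.1]; exact one_dvd _
      · rw [h.1])
    (fun c f hf => by
      rcases card_orbit_S N c with h | h
      · rw [h.1]
        exact two_dvd_nuAt hΦ h.2 hf
      · rw [h.1]
        exact one_dvd _)
    hnorm

/-- the fibre over `0`: `z0 = ρ`, `H = ⟨ST⟩`, `s = 3`. -/
def fibreModelZero (hΦ : IsBridge N Φ) {a : Kbar}
    (haw : Φ (algebraMap Kbar (FF N) a) = algebraMap ℂ Mer 0)
    (hnorm : NormHyp Φ rho (J N - algebraMap Kbar (FF N) a)) :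
    FibreModel Kbar (J N - algebraMap Kbar (FF N) a) (Q N)
      (Subgroup.zpowers (S * T : SL(2, ℤ))) :=
  fibreModelAt hΦ rho haw _ (smul_eq_of_mem_zpowers ST_smul_rho) 3 (by norm_num)
    (by rw [ordAt_jSub_zero jFun_rho]; rfl)
    (fun c => by
      rcases card_orbit_ST N c with h | h
      · rw [h.1]; exact one_dvd _
      · rw [h.1])
    (fun c f hf => by
      rcases card_orbit_ST N c with h | h
      · rw [h.1]
        exact three_dvd_nuAt hΦ h.2 hf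
      · rw [h.1]
        exact one_dvd _)
    hnorm

/-- the constants `1728` and `0` -/
theorem phi_const_1728 (Φ : FF N →+* Mer) :
    Φ (algebraMap Kbar (FF N) 1728) = algebraMap ℂ Mer 1728 := by
  rw [map_ofNat, map_ofNat, map_ofNat]

theorem phi_const_zero (Φ : FF N →+* Mer) :
    Φ (algebraMap Kbar (FF N) 0) = algebraMap ℂ Mer 0 := by
  rw [map_zero, map_zero, map_zero]

/-- a generic constant has a generic image -/
theorem exists_point_of_const (hΦ : IsBridge N Φ) (a : Kbar) :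
    ∃ z0 : ℍ, Φ (algebraMap Kbar (FF N) a) = algebraMap ℂ Mer (jFun z0) := by
  obtain ⟨w, hw⟩ := exists_const hΦ a
  obtain ⟨z0, hz0⟩ := jFun_surjective w
  exact ⟨z0, by rw [hw, hz0]⟩

theorem phi_const_injective (Φ : FF N →+* Mer) {a b : Kbar}
    (h : Φ (algebraMap Kbar (FF N) a) = Φ (algebraMap Kbar (FF N) b)) : a = b :=
  (algebraMap Kbar (FF N)).injective (Φ.injective h)

theorem jFun_ne_of_const_ne (hΦ : IsBridge N Φ) {a : Kbar} {z0 : ℍ}
    (haw : Φ (algebraMap Kbar (FF N) a) = algebraMap ℂ Mer (jFun z0)) :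
    (a ≠ 0 → jFun z0 ≠ 0) ∧ (a ≠ 1728 → jFun z0 ≠ 1728) := by
  constructor
  · intro ha h
    rw [h, ← phi_const_zero Φ] at haw
    exact ha (phi_const_injective Φ haw)
  · intro ha h
    rw [h, ← phi_const_1728 Φ] at haw
    exact ha (phi_const_injective Φ haw)

end

end Fermat.Agent.S24.PlaceAt
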