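import Mathlib
import Fermat.Agent.S24.PlaceAt
import Fermat.Agent.S24.FibreNorm
import Fermat.Agent.S24.FFApproxSet
import Fermat.Agent.S24.Exhaust
import Fermat.Agent.S24.Inv
import Fermat.Agent.S24.BridgePhi

set_option autoImplicit false
set_option linter.unusedSectionVars false
set_option linter.unusedVariables false

/-!
# S24 (M11, finite part): the fibres of `J` over the points of the affine line

From a bridge `Φ` with the invariance property (Inv) we get, for `F = K(j_d : d ∣ N)`: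
* (T0) `[F : K(J)] = ψ(N)`;
* (T1) over `a ≠ 0, 1728` there are exactly `ψ(N)` places;
* (T2) `2 · #{places over 1728} = ψ(N) + ν₂(N)`;
* (T3) `3 · #{places over 0} = ψ(N) + 2 ν₃(N)`.
-/

namespace Fermat.Agent.S24.FiniteFibres

open scoped MatrixGroups
open IntermediateField UpperHalfPlane CongruenceSubgroup ModularGroup AlgebraicCurve
open Fermat.Agent.S20 Fermat.Agent.S24.PsiLe Fermat.Agent.S24.BridgeInv Fermat.Agent.S24.PlaceAt

noncomputable section

variable {N : ℕ} [NeZero N] {Φ : FF N →+* Mer}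

/-- the invariance property (Inv): the product of all conjugates of `Φ f` comes from `K(J)`. -/
def Inv (Φ : FF N →+* Mer) : Prop :=
  ∀ f : FF N, ∃ n ∈ Kbar⟮J N⟯, Φ n = ∏ q : Q N, conjMer Φ q f

theorem adjoin_sub_const (a : Kbar) : Kbar⟮J N - algebraMap Kbar (FF N) a⟯ = Kbar⟮J N⟯ := by
  apply le_antisymm
  · rw [adjoin_simple_le_iff]
    exact sub_mem (mem_adjoin_simple_self Kbar _) (IntermediateField.algebraMap_mem _ a)
  · rw [adjoin_simple_le_iff]
    have h := add_mem (mem_adjoin_simple_self Kbar (J N - algebraMap Kbar (FF N) a))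
      (IntermediateField.algebraMap_mem Kbar⟮J N - algebraMap Kbar (FF N) a⟯ a)
    rwa [sub_add_cancel] at h

theorem transcendental_sub_const (hJ : Transcendental Kbar (J N)) (a : Kbar) :
    Transcendental Kbar (J N - algebraMap Kbar (FF N) a) := by
  intro halg
  apply hJ
  have h := halg.add (isAlgebraic_algebraMap (R := Kbar) (A := FF N) a)
  rwa [sub_add_cancel] at h

theorem conjMer_one_coset (hΦ : IsBridge N Φ) (f : FF N) :
    conjMer Φ (QuotientGroup.mk 1 : Q N) f = Φ f := by
  rw [hΦ.conjMer_mk, inv_one, compMer_one]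

/-- (Inv) gives the norm hypothesis of the fibre models. -/
theorem normHyp_of_inv (hΦ : IsBridge N Φ) (hinv : Inv Φ) (z0 : ℍ) (a : Kbar) :
    NormHyp Φ z0 (J N - algebraMap Kbar (FF N) a) := by
  classical
  intro f hf
  have h := FibreNorm.norm_of_inv (K := Kbar) Φ (fun c : Q N => compMer c.out⁻¹)
    (QuotientGroup.mk 1 : Q N) (fun f => conjMer_one_coset hΦ f)
    (J N - algebraMap Kbar (FF N) a)
    (fun c => conjMer_J_sub hΦ c a) (fun c k => conjMer_const hΦ c k)
    (fun f => by
      obtain ⟨n, hn, hn'⟩ := hinv f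
      exact ⟨n, by rw [adjoin_sub_const]; exact hn, hn'⟩)
    ⊤ (fun _ _ => Subring.mem_top _) (Mer.ordAt z0)
    (fun x z _ _ hx hz => Mer.ordAt_mul z0 hx hz) f hf
  exact h

section main

variable (hΦ : IsBridge N Φ) (hJ : Transcendental Kbar (J N))
  [FiniteDimensional Kbar⟮J N⟯ (FF N)]

include hΦ hJ

/-- the abstract fibre theorem applied to a fibre model over `a`. -/
theorem fibre_main (a : Kbar) {H : Subgroup SL(2, ℤ)}
    (M : FibreModel Kbar (J N - algebraMap Kbar (FF N) a) (Q N) H) :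
    Nat.card {v : Place Kbar (FF N) | 0 < v.ord (J N - algebraMap Kbar (FF N) a)}
        = Nat.card (MulAction.orbitRel.Quotient H (Q N)) ∧
      Module.finrank Kbar⟮J N⟯ (FF N) = Nat.card (Q N) := by
  classical
  set y := J N - algebraMap Kbar (FF N) a with hy_def
  have hy : Transcendental Kbar y := transcendental_sub_const hJ a
  have hfin := FFGenus.zeros_finite' (J N) hJ y hy
  have hsum := FFGenus.sum_ord_zeros' (J N) hJ y hy
  have hZ : ∀ v, v ∈ hfin.toFinset ↔ 0 < v.ord y := fun v => by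
    rw [Set.Finite.mem_toFinset]; rfl
  have hn : Module.finrank Kbar⟮y⟯ (FF N) = Module.finrank Kbar⟮J N⟯ (FF N) := by
    rw [hy_def, adjoin_sub_const]
  have hcard : Fintype.card (Q N) ≤ Module.finrank Kbar⟮y⟯ (FF N) := by
    rw [hn, ← Nat.card_eq_fintype_card]
    have h1 : Nat.card (Q N) = ModularCurve.dedekindPsi N := card_quotient_Gamma0 N
    rw [h1]
    exact hΦ.psi_le_finrank
  have : Nonempty (Q N) := ⟨QuotientGroup.mk 1⟩
  have hmain := M.main (Module.finrank Kbar⟮y⟯ (FF N)) hcard hfin.toFinset hZ hsum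
    (fun v hv S hS hvS => FFGenus.happrox (J N) hJ y hy v ((hZ v).mp hv) S
      (fun w hw => (hZ w).mp (hS hw)) hvS)
    (fun f hf hfint v hv => by
      have hyv : y ∈ v.toValuationSubring :=
        (mem_iff_ord_nonneg v M.y_ne).mpr ((hZ v).mp hv).le
      exact (mem_iff_ord_nonneg v hf).mp (Exhaust.mem_of_isIntegral v hyv hfint))
  obtain ⟨-, -, -, hcardZ, hdeg⟩ := hmain
  constructor
  · rw [← hcardZ, Nat.card_coe_set_eq, Set.ncard_eq_toFinset_card _ hfin]
  · rw [← hn, hdeg, Nat.card_eq_fintype_card]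

/-- **(T0)** the degree of `F` over `K(J)` is `ψ(N)`. -/
theorem finrank_eq_psi (hinv : Inv Φ) :
    Module.finrank Kbar⟮J N⟯ (FF N) = ModularCurve.dedekindPsi N := by
  have h := (fibre_main hΦ hJ 1728
    (fibreModel1728 hΦ (phi_const_1728 Φ) (normHyp_of_inv hΦ hinv _ _))).2
  rw [h]
  exact card_quotient_Gamma0 N

omit hΦ hJ in
theorem card_orbits_bot :
    Nat.card (MulAction.orbitRel.Quotient (⊥ : Subgroup SL(2, ℤ)) (Q N)) = Nat.card (Q N) := by
  refine (Nat.card_congr (Equiv.ofBijective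
    (Quotient.mk (MulAction.orbitRel (⊥ : Subgroup SL(2, ℤ)) (Q N))) ⟨?_, Quotient.mk_surjective⟩)).symm
  intro x y hxy
  have h : x ∈ MulAction.orbit (⊥ : Subgroup SL(2, ℤ)) y :=
    MulAction.orbitRel_apply.mp (Quotient.exact hxy)
  obtain ⟨⟨g, hg⟩, rfl⟩ := h
  rw [Subgroup.mem_bot] at hg
  subst hg
  exact one_smul _ y

/-- **(T1)** over a value `a ≠ 0, 1728` the function `J` has `[F : K(J)]` distinct places. -/
theorem card_fibre_generic (hinv : Inv Φ) (a : Kbar) (h0 : a ≠ 0) (h1 : a ≠ 1728) :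
    Nat.card {v : Place Kbar (FF N) | 0 < v.ord (J N - algebraMap Kbar (FF N) a)}
      = Module.finrank Kbar⟮J N⟯ (FF N) := by
  obtain ⟨z0, hz0⟩ := exists_point_of_const hΦ a
  have hne := jFun_ne_of_const_ne hΦ hz0
  have h := fibre_main hΦ hJ a
    (fibreModelGeneric hΦ z0 hz0 (hne.1 h0) (hne.2 h1) (normHyp_of_inv hΦ hinv _ _))
  rw [h.1, h.2, card_orbits_bot]

/-- **(T2)** the places over `1728`. -/
theorem two_mul_card_fibre_1728 (hinv : Inv Φ) :
    2 * Nat.card {v : Place Kbar (FF N) | 0 < v.ord (J N - algebraMap Kbar (FF N) 1728)}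
      = ModularCurve.dedekindPsi N + ModularCurve.nuTwo N := by
  have h := (fibre_main hΦ hJ 1728
    (fibreModel1728 hΦ (phi_const_1728 Φ) (normHyp_of_inv hΦ hinv _ _))).1
  rw [h]
  exact two_mul_card_orbits_S N

/-- **(T3)** the places over `0`. -/
theorem three_mul_card_fibre_zero (hinv : Inv Φ) :
    3 * Nat.card {v : Place Kbar (FF N) | 0 < v.ord (J N - algebraMap Kbar (FF N) 0)}
      = ModularCurve.dedekindPsi N + 2 * ModularCurve.nuThree N := by
  have h := (fibre_main hΦ hJ 0
    (fibreModelZero hΦ (phi_const_zero Φ) (normHyp_of_inv hΦ hinv _ _))).1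
  rw [h]
  exact three_mul_card_orbits_ST N

end main

/-! ### unconditional versions -/

theorem inv_of_isBridge (hΦ : IsBridge N Φ) : Inv Φ := fun f => Inv.inv_of_isBridge hΦ f

theorem transcendental_J (N : ℕ) [NeZero N] : Transcendental Kbar (J N) :=
  Inv.transcendental_Jgen (BridgePhi.isBridge_PhiBar N)

instance finiteDimensional_J (N : ℕ) [NeZero N] : FiniteDimensional Kbar⟮J N⟯ (FF N) :=
  Inv.finiteDimensional_of_isBridge (BridgePhi.isBridge_PhiBar N)

/-- **(T0)** `[F : K(J)] = ψ(N)`. -/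
theorem T0 (N : ℕ) [NeZero N] :
    Module.finrank Kbar⟮J N⟯ (FF N) = ModularCurve.dedekindPsi N :=
  finrank_eq_psi (BridgePhi.isBridge_PhiBar N) (transcendental_J N)
    (inv_of_isBridge (BridgePhi.isBridge_PhiBar N))

/-- **(T1)** the generic fibres are unramified. -/
theorem T1 (N : ℕ) [NeZero N] (a : Kbar) (h0 : a ≠ 0) (h1 : a ≠ 1728) :
    Nat.card {v : Place Kbar (FF N) | 0 < v.ord (J N - algebraMap Kbar (FF N) a)}
      = Module.finrank Kbar⟮J N⟯ (FF N) :=
  card_fibre_generic (BridgePhi.isBridge_PhiBar N) (transcendental_J N)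
    (inv_of_isBridge (BridgePhi.isBridge_PhiBar N)) a h0 h1

/-- **(T2)** the fibre over `1728`. -/
theorem T2 (N : ℕ) [NeZero N] :
    2 * Nat.card {v : Place Kbar (FF N) | 0 < v.ord (J N - algebraMap Kbar (FF N) 1728)}
      = ModularCurve.dedekindPsi N + ModularCurve.nuTwo N :=
  two_mul_card_fibre_1728 (BridgePhi.isBridge_PhiBar N) (transcendental_J N)
    (inv_of_isBridge (BridgePhi.isBridge_PhiBar N))

/-- **(T3)** the fibre over `0`. -/
theorem T3 (N : ℕ) [NeZero N] :
    3 * Nat.card {v : Place Kbar (FF N) | 0 < v.ord (J N - algebraMap Kbar (FF N) 0)}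
      = ModularCurve.dedekindPsi N + 2 * ModularCurve.nuThree N :=
  three_mul_card_fibre_zero (BridgePhi.isBridge_PhiBar N) (transcendental_J N)
    (inv_of_isBridge (BridgePhi.isBridge_PhiBar N))

end

end Fermat.Agent.S24.FiniteFibres
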