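import Mathlib
import Fermat.Agent.S24.Mer
import Fermat.Agent.S24.CuspOrd
import Fermat.Agent.S24.Rotation
import Fermat.Agent.S24.PlaceOfOrd
import Fermat.Agent.S24.PsiLe

set_option autoImplicit false

/-!
# S24: the order at `i∞` on the field of meromorphic functions

* `natDiv_dvd_ordCusp_sub_of_cross`: the periodicity (rotation) lemma for quotients `a / b`.
* `HolInf N : Subalgebra ℂ Hol`: `N`-periodic holomorphic functions meromorphic at `i∞`.
* `MerInf N : Subfield Mer`: quotients of elements of `HolInf N`.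
* `Mer.ordInf N : Mer → ℤ`: the order at `i∞` in `q_N`, with the valuation axioms on `MerInf N`.
-/

namespace Fermat.Agent.S24

open UpperHalfPlane Function Filter Topology Complex
open scoped Manifold Real

noncomputable section

local notation "𝕢" => Function.Periodic.qParam

/-! ## The rotation lemma at the cusp, for quotients -/

theorem cuspMer_qParam_add (h : ℝ) (u v : ℂ) : 𝕢 h (u + v) = 𝕢 h u * 𝕢 h v := by
  unfold Function.Periodic.qParam
  rw [← Complex.exp_add]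
  congr 1
  ring

/-- If `ζ = exp (2 π i w / N)` and `ζ ^ n = 1` then `N / w` divides `n` (for `w ∣ N`). -/
theorem cuspMer_dvd_of_qParam_zpow_eq_one {N w : ℕ} (hw : 0 < w) (hwN : w ∣ N) (hN : 0 < N)
    {n : ℤ} (h1 : 𝕢 (N : ℝ) (w : ℂ) ^ n = 1) : ((N / w : ℕ) : ℤ) ∣ n := by
  obtain ⟨m, rfl⟩ := hwN
  have hm : 0 < m := by
    rcases Nat.eq_zero_or_pos m with rfl | h'
    · simp at hN
    · exact h'
  rw [Nat.mul_div_cancel_left m hw]
  unfold Function.Periodic.qParam at h1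
  rw [← Complex.exp_int_mul, Complex.exp_eq_one_iff] at h1
  obtain ⟨k, hk⟩ := h1
  have hw' : (w : ℂ) ≠ 0 := by exact_mod_cast hw.ne'
  have hm' : (m : ℂ) ≠ 0 := by exact_mod_cast hm.ne'
  have hpi : (2 * (π : ℂ) * Complex.I) ≠ 0 := Complex.two_pi_I_ne_zero
  have h2 : (n : ℂ) = k * m := by
    have h3 : (n : ℂ) * (2 * π * Complex.I * (w : ℂ) / (((w * m : ℕ) : ℝ) : ℂ)) =
        (n : ℂ) / m * (2 * π * Complex.I) := by
      push_cast
      field_simp
    rw [h3] at hk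
    have h4 : (n : ℂ) / m = k := mul_right_cancel₀ hpi hk
    rw [← h4]
    field_simp
  refine ⟨k, ?_⟩
  have : ((n : ℤ) : ℂ) = ((m * k : ℤ) : ℂ) := by push_cast; rw [h2]; ring
  exact_mod_cast this

/-- **Periodicity lemma for quotients.** If `a`, `b` are meromorphic at the cusp for the period
`N` and the quotient `a / b` is invariant under `τ ↦ τ + w` (in the cross-multiplied form), with
`w ∣ N`, then `N / w` divides `ordCusp N a - ordCusp N b`. -/
theorem natDiv_dvd_ordCusp_sub_of_cross {N w : ℕ} (hw : 0 < w) (hwN : w ∣ N) (hN : 0 < N)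
    {a b : ℍ → ℂ} (ha : IsMeroCusp (N : ℝ) a) (hb : IsMeroCusp (N : ℝ) b) (ha0 : a ≠ 0)
    (hb0 : b ≠ 0)
    (hcross : ∀ τ : ℍ, a (((w : ℕ) : ℝ) +ᵥ τ) * b τ = a τ * b (((w : ℕ) : ℝ) +ᵥ τ)) :
    ((N / w : ℕ) : ℤ) ∣ ordCusp (N : ℝ) a - ordCusp (N : ℝ) b := by
  have hh : 0 < (N : ℝ) := by exact_mod_cast hN
  set A := cuspFunction (N : ℝ) a with hA
  set B := cuspFunction (N : ℝ) b with hB
  set ζ : ℂ := 𝕢 (N : ℝ) (w : ℂ) with hζ
  have hζ0 : ζ ≠ 0 := Function.Periodic.qParam_ne_zero _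
  set R : ℂ → ℂ := A * B⁻¹ with hR
  have hRm : MeromorphicAt R 0 := ha.mero.mul hb.mero.inv
  have hRord : meromorphicOrderAt R 0 = ((ordCusp (N : ℝ) a - ordCusp (N : ℝ) b : ℤ) : WithTop ℤ) := by
    rw [hR, meromorphicOrderAt_mul ha.mero hb.mero.inv, meromorphicOrderAt_inv,
      ← ha.coe_ordCusp hh ha0, ← hb.coe_ordCusp hh hb0]
    push_cast
    rw [sub_eq_add_neg]
  set φ : ℂ → ℂ := fun q => ζ * q with hφ
  have hφan : AnalyticAt ℂ φ 0 := by
    have : AnalyticAt ℂ (fun q : ℂ => ζ * q) 0 := by fun_prop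
    exact this
  have hφ0 : φ 0 = 0 := by simp [hφ]
  have hderiv : deriv φ 0 = ζ := by
    have : HasDerivAt φ (ζ * 1) 0 := (hasDerivAt_id (0 : ℂ)).const_mul ζ
    rw [this.deriv, mul_one]
  -- `B` and `B ∘ φ` are eventually nonzero
  have hBne : ∀ᶠ q in 𝓝[≠] (0 : ℂ), B q ≠ 0 :=
    (meromorphicOrderAt_ne_top_iff_eventually_ne_zero hb.mero).mp (hb.order_ne_top hh hb0)
  have hφtend : Tendsto φ (𝓝[≠] (0 : ℂ)) (𝓝[≠] (0 : ℂ)) := by
    rw [tendsto_nhdsWithin_iff]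
    refine ⟨?_, ?_⟩
    · have : Tendsto φ (𝓝 0) (𝓝 (φ 0)) := hφan.continuousAt.tendsto
      rw [hφ0] at this
      exact this.mono_left nhdsWithin_le_nhds
    · filter_upwards [self_mem_nhdsWithin] with q hq
      exact mul_ne_zero hζ0 hq
  have hBne' : ∀ᶠ q in 𝓝[≠] (0 : ℂ), B (φ q) ≠ 0 := hφtend.eventually hBne
  have hinv : ∀ᶠ q in 𝓝[≠] (0 : ℂ), R (φ q) = R q := by
    filter_upwards [hBne, hBne', eventually_punctured_disc] with q h1 h2 hq
    obtain ⟨τ, rfl⟩ := exists_qParam_eq hh hq.1 hq.2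
    have e : φ (𝕢 (N : ℝ) τ) = 𝕢 (N : ℝ) ((((w : ℕ) : ℝ) +ᵥ τ : ℍ) : ℂ) := by
      rw [hφ, hζ, UpperHalfPlane.coe_vadd, cuspMer_qParam_add]
      push_cast
      rfl
    rw [e] at h2 ⊢
    have eA1 : A (𝕢 (N : ℝ) ((((w : ℕ) : ℝ) +ᵥ τ : ℍ) : ℂ)) = a (((w : ℕ) : ℝ) +ᵥ τ) :=
      cuspFunction_qParam hh ha.periodic _
    have eB1 : B (𝕢 (N : ℝ) ((((w : ℕ) : ℝ) +ᵥ τ : ℍ) : ℂ)) = b (((w : ℕ) : ℝ) +ᵥ τ) :=
      cuspFunction_qParam hh hb.periodic _
    have eA0 : A (𝕢 (N : ℝ) (τ : ℂ)) = a τ := cuspFunction_qParam hh ha.periodic _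
    have eB0 : B (𝕢 (N : ℝ) (τ : ℂ)) = b τ := cuspFunction_qParam hh hb.periodic _
    rw [eB0] at h1
    rw [eB1] at h2
    simp only [hR, Pi.mul_apply, Pi.inv_apply]
    rw [eA1, eB1, eA0, eB0]
    have := hcross τ
    field_simp
    linear_combination this
  have hkey := Rotation.pow_order_eq_one hRm hRord hφan hφ0 hderiv hζ0 hinv
  exact cuspMer_dvd_of_qParam_zpow_eq_one hw hwN hN hkey

/-! ## `HolInf`, `MerInf`, `Mer.ordInf` -/

section Layer

variable (N : ℕ) [NeZero N]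

theorem cuspMer_natPos : 0 < N := Nat.pos_of_ne_zero (NeZero.ne N)

theorem cuspMer_pos : 0 < (N : ℝ) := by exact_mod_cast cuspMer_natPos N

/-- `N`-periodic holomorphic functions on `ℍ` which are meromorphic at `i∞`. -/
def HolInf : Subalgebra ℂ Hol where
  carrier := {f | IsMeroCusp (N : ℝ) (f : ℍ → ℂ)}
  mul_mem' {f g} hf hg := by
    show IsMeroCusp (N : ℝ) ((f * g : Hol) : ℍ → ℂ)
    rw [Hol.coe_mul]
    exact IsMeroCusp.mul (cuspMer_pos N) hf hg
  add_mem' {f g} hf hg := by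
    show IsMeroCusp (N : ℝ) ((f + g : Hol) : ℍ → ℂ)
    rw [Hol.coe_add]
    exact IsMeroCusp.add (cuspMer_pos N) hf hg
  algebraMap_mem' c := by
    show IsMeroCusp (N : ℝ) ((algebraMap ℂ Hol c : Hol) : ℍ → ℂ)
    have : ((algebraMap ℂ Hol c : Hol) : ℍ → ℂ) = fun _ => c := by
      funext z; exact Hol.coe_algebraMap c z
    rw [this]
    exact isMeroCusp_const (cuspMer_pos N) c

theorem mem_HolInf {f : Hol} : f ∈ HolInf N ↔ IsMeroCusp (N : ℝ) (f : ℍ → ℂ) := Iff.rfl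

theorem Hol.coe_ne_zero {f : Hol} (hf : f ≠ 0) : (f : ℍ → ℂ) ≠ 0 := fun h =>
  hf (Subtype.ext h)

/-- The order at `i∞` (in `q_N`) of a holomorphic function. -/
def Hol.ordInf (f : Hol) : ℤ := ordCusp (N : ℝ) (f : ℍ → ℂ)

theorem Hol.ordInf_mul {f g : Hol} (hf : f ∈ HolInf N) (hg : g ∈ HolInf N) (hf0 : f ≠ 0)
    (hg0 : g ≠ 0) : Hol.ordInf N (f * g) = Hol.ordInf N f + Hol.ordInf N g := by
  unfold Hol.ordInf
  rw [Hol.coe_mul]
  exact ordCusp_mul (cuspMer_pos N) hf hg (Hol.coe_ne_zero hf0) (Hol.coe_ne_zero hg0)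

theorem Hol.ordInf_add {f g : Hol} (hf : f ∈ HolInf N) (hg : g ∈ HolInf N) (hf0 : f ≠ 0)
    (hg0 : g ≠ 0) (hfg : f + g ≠ 0) :
    min (Hol.ordInf N f) (Hol.ordInf N g) ≤ Hol.ordInf N (f + g) := by
  unfold Hol.ordInf
  rw [Hol.coe_add]
  refine min_ordCusp_le_add (cuspMer_pos N) hf hg (Hol.coe_ne_zero hf0) (Hol.coe_ne_zero hg0) ?_
  have := Hol.coe_ne_zero hfg
  rwa [Hol.coe_add] at this

theorem Hol.ordInf_algebraMap {c : ℂ} (hc : c ≠ 0) : Hol.ordInf N (algebraMap ℂ Hol c) = 0 := by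
  unfold Hol.ordInf
  have : ((algebraMap ℂ Hol c : Hol) : ℍ → ℂ) = fun _ => c := by
    funext z; exact Hol.coe_algebraMap c z
  rw [this]
  exact ordCusp_const (cuspMer_pos N) hc

theorem Hol.algebraMap_ne_zero {c : ℂ} (hc : c ≠ 0) : algebraMap ℂ Hol c ≠ 0 := by
  intro h
  have := congrFun (congrArg Subtype.val h) UpperHalfPlane.I
  exact hc (by simpa using this)

/-- The field of quotients of elements of `HolInf N`, inside `Mer`. -/
def MerInf : Subfield Mer where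
  carrier := {x | ∃ a b : Hol, a ∈ HolInf N ∧ b ∈ HolInf N ∧ b ≠ 0 ∧ x = toMer a / toMer b}
  mul_mem' := by
    rintro _ _ ⟨a, b, ha, hb, hb0, rfl⟩ ⟨c, d, hc, hd, hd0, rfl⟩
    exact ⟨a * c, b * d, mul_mem ha hc, mul_mem hb hd, mul_ne_zero hb0 hd0, by
      rw [map_mul, map_mul, div_mul_div_comm]⟩
  one_mem' := ⟨1, 1, one_mem _, one_mem _, one_ne_zero, by simp⟩
  add_mem' := by
    rintro _ _ ⟨a, b, ha, hb, hb0, rfl⟩ ⟨c, d, hc, hd, hd0, rfl⟩
    refine ⟨a * d + c * b, b * d, add_mem (mul_mem ha hd) (mul_mem hc hb), mul_mem hb hd,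
      mul_ne_zero hb0 hd0, ?_⟩
    have h1 := toMer_ne_zero hb0
    have h2 := toMer_ne_zero hd0
    rw [map_add, map_mul, map_mul, map_mul]
    field_simp
  zero_mem' := ⟨0, 1, zero_mem _, one_mem _, one_ne_zero, by simp⟩
  neg_mem' := by
    rintro _ ⟨a, b, ha, hb, hb0, rfl⟩
    exact ⟨-a, b, neg_mem ha, hb, hb0, by rw [map_neg, neg_div]⟩
  inv_mem' := by
    rintro _ ⟨a, b, ha, hb, hb0, rfl⟩
    by_cases ha0 : a = 0
    · subst ha0
      exact ⟨0, 1, zero_mem _, one_mem _, one_ne_zero, by simp⟩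
    · exact ⟨b, a, hb, ha, ha0, by rw [inv_div]⟩

theorem mem_MerInf {x : Mer} : x ∈ MerInf N ↔
    ∃ a b : Hol, a ∈ HolInf N ∧ b ∈ HolInf N ∧ b ≠ 0 ∧ x = toMer a / toMer b := Iff.rfl

theorem toMer_mem_MerInf {a : Hol} (ha : a ∈ HolInf N) : toMer a ∈ MerInf N :=
  ⟨a, 1, ha, one_mem _, one_ne_zero, by simp⟩

theorem div_mem_MerInf {a b : Hol} (ha : a ∈ HolInf N) (hb : b ∈ HolInf N) :
    toMer a / toMer b ∈ MerInf N :=
  div_mem (toMer_mem_MerInf N ha) (toMer_mem_MerInf N hb)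

theorem algebraMap_mem_MerInf (c : ℂ) : algebraMap ℂ Mer c ∈ MerInf N := by
  have h : algebraMap ℂ Mer c = toMer (algebraMap ℂ Hol c) :=
    IsScalarTower.algebraMap_apply ℂ Hol Mer c
  rw [h]
  exact toMer_mem_MerInf N ((HolInf N).algebraMap_mem c)

theorem MerInf.exists_rep {x : Mer} (hx : x ∈ MerInf N) (hx0 : x ≠ 0) :
    ∃ a b : Hol, a ∈ HolInf N ∧ b ∈ HolInf N ∧ a ≠ 0 ∧ b ≠ 0 ∧ x = toMer a / toMer b := by
  obtain ⟨a, b, ha, hb, hb0, rfl⟩ := hx
  refine ⟨a, b, ha, hb, ?_, hb0, rfl⟩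
  rintro rfl
  simp at hx0

/-- The order at `i∞` in `q_N` on `Mer` (meaningful on `MerInf N`; junk value `0` elsewhere). -/
def Mer.ordInf (x : Mer) : ℤ :=
  haveI := Classical.propDecidable
  if h : ∃ p : Hol × Hol, p.1 ∈ HolInf N ∧ p.2 ∈ HolInf N ∧ p.1 ≠ 0 ∧ p.2 ≠ 0 ∧
      x = toMer p.1 / toMer p.2 then
    Hol.ordInf N h.choose.1 - Hol.ordInf N h.choose.2
  else 0

theorem Mer.ordInf_div {a b : Hol} (ha : a ∈ HolInf N) (hb : b ∈ HolInf N) (ha0 : a ≠ 0)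
    (hb0 : b ≠ 0) : Mer.ordInf N (toMer a / toMer b) = Hol.ordInf N a - Hol.ordInf N b := by
  have h : ∃ p : Hol × Hol, p.1 ∈ HolInf N ∧ p.2 ∈ HolInf N ∧ p.1 ≠ 0 ∧ p.2 ≠ 0 ∧
      toMer a / toMer b = toMer p.1 / toMer p.2 := ⟨(a, b), ha, hb, ha0, hb0, rfl⟩
  rw [Mer.ordInf, dif_pos h]
  obtain ⟨hp1, hp2, hp10, hp20, hpe⟩ := h.choose_spec
  set p := h.choose
  have hcross : a * p.2 = p.1 * b := by
    apply toMer_injective
    rw [map_mul, map_mul]
    have h1 := toMer_ne_zero hb0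
    have h2 := toMer_ne_zero hp20
    field_simp at hpe
    rw [hpe, mul_comm]
  have e1 := Hol.ordInf_mul N ha hp2 ha0 hp20
  have e2 := Hol.ordInf_mul N hp1 hb hp10 hb0
  rw [hcross] at e1
  omega

@[simp] theorem Mer.ordInf_zero : Mer.ordInf N 0 = 0 := by
  rw [Mer.ordInf, dif_neg]
  rintro ⟨p, -, -, hp10, hp20, hpe⟩
  have := div_ne_zero (toMer_ne_zero hp10) (toMer_ne_zero hp20)
  exact this hpe.symm

theorem Mer.ordInf_toMer {a : Hol} (ha : a ∈ HolInf N) (ha0 : a ≠ 0) :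
    Mer.ordInf N (toMer a) = Hol.ordInf N a := by
  have h := Mer.ordInf_div N ha (one_mem _) ha0 one_ne_zero
  rw [map_one, div_one] at h
  rw [h]
  have h1 : Hol.ordInf N 1 = 0 := by
    have := Hol.ordInf_algebraMap N (one_ne_zero (α := ℂ))
    rwa [map_one] at this
  rw [h1, sub_zero]

theorem Mer.ordInf_const {c : ℂ} (hc : c ≠ 0) : Mer.ordInf N (algebraMap ℂ Mer c) = 0 := by
  have h : algebraMap ℂ Mer c = toMer (algebraMap ℂ Hol c) :=
    IsScalarTower.algebraMap_apply ℂ Hol Mer c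
  rw [h, Mer.ordInf_toMer N ((HolInf N).algebraMap_mem c) (Hol.algebraMap_ne_zero hc),
    Hol.ordInf_algebraMap N hc]

@[simp] theorem Mer.ordInf_one : Mer.ordInf N 1 = 0 := by
  have := Mer.ordInf_const N (one_ne_zero (α := ℂ))
  rwa [map_one] at this

theorem Mer.ordInf_mul {x y : Mer} (hx : x ∈ MerInf N) (hy : y ∈ MerInf N) (hx0 : x ≠ 0)
    (hy0 : y ≠ 0) : Mer.ordInf N (x * y) = Mer.ordInf N x + Mer.ordInf N y := by
  obtain ⟨a, b, ha, hb, ha0, hb0, rfl⟩ := MerInf.exists_rep N hx hx0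
  obtain ⟨c, d, hc, hd, hc0, hd0, rfl⟩ := MerInf.exists_rep N hy hy0
  have h : toMer a / toMer b * (toMer c / toMer d) = toMer (a * c) / toMer (b * d) := by
    rw [map_mul, map_mul, div_mul_div_comm]
  rw [h, Mer.ordInf_div N (mul_mem ha hc) (mul_mem hb hd) (mul_ne_zero ha0 hc0)
    (mul_ne_zero hb0 hd0), Mer.ordInf_div N ha hb ha0 hb0, Mer.ordInf_div N hc hd hc0 hd0,
    Hol.ordInf_mul N ha hc ha0 hc0, Hol.ordInf_mul N hb hd hb0 hd0]
  ring

theorem Mer.ordInf_inv {x : Mer} (hx : x ∈ MerInf N) : Mer.ordInf N x⁻¹ = -Mer.ordInf N x := by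
  rcases eq_or_ne x 0 with rfl | hx0
  · simp
  · have h := Mer.ordInf_mul N hx (inv_mem hx) hx0 (inv_ne_zero hx0)
    rw [mul_inv_cancel₀ hx0, Mer.ordInf_one] at h
    omega

theorem Mer.ordInf_div' {x y : Mer} (hx : x ∈ MerInf N) (hy : y ∈ MerInf N) (hx0 : x ≠ 0)
    (hy0 : y ≠ 0) : Mer.ordInf N (x / y) = Mer.ordInf N x - Mer.ordInf N y := by
  rw [div_eq_mul_inv, Mer.ordInf_mul N hx (inv_mem hy) hx0 (inv_ne_zero hy0),
    Mer.ordInf_inv N hy]
  ring

theorem Mer.ordInf_neg {x : Mer} (hx : x ∈ MerInf N) : Mer.ordInf N (-x) = Mer.ordInf N x := by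
  rcases eq_or_ne x 0 with rfl | hx0
  · simp
  · have h : -x = algebraMap ℂ Mer (-1) * x := by simp
    rw [h, Mer.ordInf_mul N (algebraMap_mem_MerInf N _) hx _ hx0,
      Mer.ordInf_const N (by norm_num), zero_add]
    simp

theorem Mer.ordInf_pow {x : Mer} (hx : x ∈ MerInf N) (n : ℕ) :
    Mer.ordInf N (x ^ n) = n * Mer.ordInf N x := by
  rcases eq_or_ne x 0 with rfl | hx0
  · rcases n with _ | n <;> simp
  · induction n with
    | zero => simp
    | succ n ih =>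
      rw [pow_succ, Mer.ordInf_mul N (pow_mem hx n) hx (pow_ne_zero n hx0) hx0, ih]
      push_cast
      ring

theorem Mer.ordInf_add {x y : Mer} (hx : x ∈ MerInf N) (hy : y ∈ MerInf N) (hx0 : x ≠ 0)
    (hy0 : y ≠ 0) (hxy : x + y ≠ 0) :
    min (Mer.ordInf N x) (Mer.ordInf N y) ≤ Mer.ordInf N (x + y) := by
  obtain ⟨a, b, ha, hb, ha0, hb0, rfl⟩ := MerInf.exists_rep N hx hx0
  obtain ⟨c, d, hc, hd, hc0, hd0, rfl⟩ := MerInf.exists_rep N hy hy0
  have hb' := toMer_ne_zero hb0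
  have hd' := toMer_ne_zero hd0
  have h : toMer a / toMer b + toMer c / toMer d = toMer (a * d + c * b) / toMer (b * d) := by
    rw [map_add, map_mul, map_mul, map_mul]
    field_simp
  have hnum : a * d + c * b ≠ 0 := by
    intro h0
    rw [h, h0, map_zero, zero_div] at hxy
    exact hxy rfl
  rw [h, Mer.ordInf_div N (add_mem (mul_mem ha hd) (mul_mem hc hb)) (mul_mem hb hd) hnum
    (mul_ne_zero hb0 hd0), Mer.ordInf_div N ha hb ha0 hb0, Mer.ordInf_div N hc hd hc0 hd0,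
    Hol.ordInf_mul N hb hd hb0 hd0]
  have h1 := Hol.ordInf_add N (mul_mem ha hd) (mul_mem hc hb) (mul_ne_zero ha0 hd0)
    (mul_ne_zero hc0 hb0) hnum
  rw [Hol.ordInf_mul N ha hd ha0 hd0, Hol.ordInf_mul N hc hb hc0 hb0] at h1
  omega

/-! ### Packaging as an order function on a field mapping into `MerInf N` -/

theorem isOrdFun_ordInf_comp {K F : Type*} [Field K] [Field F] [Algebra K F] (Ψ : F →+* Mer)
    (hΨ : ∀ f, Ψ f ∈ MerInf N)
    (hK : ∀ a : K, ∃ c : ℂ, Ψ (algebraMap K F a) = toMer (algebraMap ℂ Hol c)) :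
    IsOrdFun K (fun f : F => Mer.ordInf N (Ψ f)) where
  mul f g hf hg := by
    show Mer.ordInf N (Ψ (f * g)) = _
    rw [map_mul]
    exact Mer.ordInf_mul N (hΨ f) (hΨ g) ((map_ne_zero Ψ).mpr hf) ((map_ne_zero Ψ).mpr hg)
  add f g hf hg hfg := by
    show min (Mer.ordInf N (Ψ f)) (Mer.ordInf N (Ψ g)) ≤ Mer.ordInf N (Ψ (f + g))
    rw [map_add]
    refine Mer.ordInf_add N (hΨ f) (hΨ g) ((map_ne_zero Ψ).mpr hf) ((map_ne_zero Ψ).mpr hg) ?_
    rw [← map_add]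
    exact (map_ne_zero Ψ).mpr hfg
  const a ha := by
    show Mer.ordInf N (Ψ (algebraMap K F a)) = 0
    obtain ⟨c, hc⟩ := hK a
    have hne : Ψ (algebraMap K F a) ≠ 0 :=
      (map_ne_zero Ψ).mpr ((map_ne_zero (algebraMap K F)).mpr ha)
    have hc0 : c ≠ 0 := by
      rintro rfl
      rw [hc, map_zero, map_zero] at hne
      exact hne rfl
    rw [hc, Mer.ordInf_toMer N ((HolInf N).algebraMap_mem c) (Hol.algebraMap_ne_zero hc0),
      Hol.ordInf_algebraMap N hc0]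

/-- A ring hom into `Mer` which maps field generators into `MerInf N` has range in `MerInf N`. -/
theorem forall_mem_MerInf_of_adjoin {K F : Type*} [Field K] [Field F] [Algebra K F]
    (Ψ : F →+* Mer) (S : Set F) (hS : IntermediateField.adjoin K S = ⊤)
    (hK : ∀ a : K, Ψ (algebraMap K F a) ∈ MerInf N) (hgen : ∀ s ∈ S, Ψ s ∈ MerInf N) (f : F) :
    Ψ f ∈ MerInf N := by
  have hle : (IntermediateField.adjoin K S).toSubfield ≤ (MerInf N).comap Ψ := by
    rw [IntermediateField.adjoin_toSubfield, Subfield.closure_le]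
    rintro x (⟨a, rfl⟩ | hx)
    · exact hK a
    · exact hgen x hx
  have hf : f ∈ (IntermediateField.adjoin K S).toSubfield := by
    rw [hS]; trivial
  exact hle hf

end Layer

/-! ## Translations (`T ^ k`) on `Mer`, the periodicity lemma on `MerInf N` -/

section Translate

variable (N : ℕ) [NeZero N]

open PsiLe in
theorem compHol_T_zpow_mem_HolInf (k : ℤ) {a : Hol} (ha : a ∈ HolInf N) :
    compHol (ModularGroup.T ^ k) a ∈ HolInf N := by
  show IsMeroCusp (N : ℝ) ((compHol (ModularGroup.T ^ k) a : Hol) : ℍ → ℂ)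
  have : ((compHol (ModularGroup.T ^ k) a : Hol) : ℍ → ℂ) =
      fun τ : ℍ => (a : ℍ → ℂ) (ModularGroup.T ^ k • τ) := by
    funext τ; exact compHol_apply _ a τ
  rw [this]
  exact isMeroCusp_comp_T_zpow (cuspMer_pos N) ha k

open PsiLe in
theorem Hol.ordInf_compHol_T_zpow (k : ℤ) {a : Hol} (ha : a ∈ HolInf N) :
    Hol.ordInf N (compHol (ModularGroup.T ^ k) a) = Hol.ordInf N a := by
  unfold Hol.ordInf
  have : ((compHol (ModularGroup.T ^ k) a : Hol) : ℍ → ℂ) =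
      fun τ : ℍ => (a : ℍ → ℂ) (ModularGroup.T ^ k • τ) := by
    funext τ; exact compHol_apply _ a τ
  rw [this]
  exact ordCusp_comp_T_zpow (cuspMer_pos N) ha k

open PsiLe in
theorem compMer_toMer (γ : Matrix.SpecialLinearGroup (Fin 2) ℤ) (a : Hol) :
    compMer γ (toMer a) = toMer (compHol γ a) := compMer_algebraMap γ a

open PsiLe in
/-- `MerInf N` is stable under translations. -/
theorem compMer_T_zpow_mem_MerInf (k : ℤ) {x : Mer} (hx : x ∈ MerInf N) :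
    compMer (ModularGroup.T ^ k) x ∈ MerInf N := by
  obtain ⟨a, b, ha, hb, hb0, rfl⟩ := hx
  rw [map_div₀, compMer_toMer, compMer_toMer]
  exact div_mem_MerInf N (compHol_T_zpow_mem_HolInf N k ha) (compHol_T_zpow_mem_HolInf N k hb)

open PsiLe in
/-- The order at `i∞` is invariant under translations. -/
theorem Mer.ordInf_compMer_T_zpow (k : ℤ) {x : Mer} (hx : x ∈ MerInf N) :
    Mer.ordInf N (compMer (ModularGroup.T ^ k) x) = Mer.ordInf N x := by
  rcases eq_or_ne x 0 with rfl | hx0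
  · simp
  obtain ⟨a, b, ha, hb, ha0, hb0, rfl⟩ := MerInf.exists_rep N hx hx0
  have hinj := compHol_injective (ModularGroup.T ^ k)
  have ha0' : compHol (ModularGroup.T ^ k) a ≠ 0 := fun h => ha0 (hinj (by rw [h, map_zero]))
  have hb0' : compHol (ModularGroup.T ^ k) b ≠ 0 := fun h => hb0 (hinj (by rw [h, map_zero]))
  rw [map_div₀, compMer_toMer, compMer_toMer,
    Mer.ordInf_div N (compHol_T_zpow_mem_HolInf N k ha) (compHol_T_zpow_mem_HolInf N k hb) ha0' hb0',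
    Mer.ordInf_div N ha hb ha0 hb0, Hol.ordInf_compHol_T_zpow N k ha,
    Hol.ordInf_compHol_T_zpow N k hb]

/-- **Periodicity lemma on `MerInf N`** (abstract form): if `σ : Mer →+* Mer` is "composition with
`T ^ w`" and fixes `x ∈ MerInf N`, `x ≠ 0`, `w ∣ N`, then `N / w` divides the order of `x`. -/
theorem Mer.natDiv_dvd_ordInf {w : ℕ} (hw : 0 < w) (hwN : w ∣ N) (σ : Mer →+* Mer)
    (hσ : ∀ a a' : Hol, (∀ z : ℍ, (a' : ℍ → ℂ) z = (a : ℍ → ℂ) (ModularGroup.T ^ w • z)) →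
      σ (toMer a) = toMer a')
    {x : Mer} (hx : x ∈ MerInf N) (hx0 : x ≠ 0) (hfix : σ x = x) :
    ((N / w : ℕ) : ℤ) ∣ Mer.ordInf N x := by
  obtain ⟨a, b, ha, hb, ha0, hb0, rfl⟩ := MerInf.exists_rep N hx hx0
  rw [Mer.ordInf_div N ha hb ha0 hb0]
  have hh := cuspMer_pos N
  have hTw : ∀ τ : ℍ, ModularGroup.T ^ w • τ = ((w : ℕ) : ℝ) +ᵥ τ := fun τ => by
    rw [← zpow_natCast, UpperHalfPlane.modular_T_zpow_smul, Int.cast_natCast]
  have hma : MDiff (fun τ : ℍ => (a : ℍ → ℂ) (ModularGroup.T ^ w • τ)) := by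
    have := (isMeroCusp_comp_T_zpow hh ha (w : ℤ)).mdiff
    simpa only [zpow_natCast] using this
  have hmb : MDiff (fun τ : ℍ => (b : ℍ → ℂ) (ModularGroup.T ^ w • τ)) := by
    have := (isMeroCusp_comp_T_zpow hh hb (w : ℤ)).mdiff
    simpa only [zpow_natCast] using this
  set a' : Hol := Hol.mk _ hma with ha'
  set b' : Hol := Hol.mk _ hmb with hb'
  have e1 : σ (toMer a) = toMer a' := hσ a a' fun z => rfl
  have e2 : σ (toMer b) = toMer b' := hσ b b' fun z => rfl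
  rw [map_div₀, e1, e2] at hfix
  have hb'0 : toMer b' ≠ 0 := by
    intro h0
    rw [h0, div_zero] at hfix
    exact div_ne_zero (toMer_ne_zero ha0) (toMer_ne_zero hb0) hfix.symm
  have hbm := toMer_ne_zero hb0
  have hcrossH : a' * b = a * b' := by
    apply toMer_injective
    rw [map_mul, map_mul]
    field_simp at hfix
    rw [hfix, mul_comm]
  apply natDiv_dvd_ordCusp_sub_of_cross hw hwN (cuspMer_natPos N) ha hb (Hol.coe_ne_zero ha0)
    (Hol.coe_ne_zero hb0)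
  intro τ
  have := congrFun (congrArg Subtype.val hcrossH) τ
  simp only [Hol.coe_mul, Pi.mul_apply, ha', hb', Hol.coe_mk, hTw] at this
  exact this

open PsiLe in
/-- **Periodicity lemma on `MerInf N`**, for `PsiLe.compMer`. -/
theorem Mer.natDiv_dvd_ordInf_of_compMer {w : ℕ} (hw : 0 < w) (hwN : w ∣ N)
    {x : Mer} (hx : x ∈ MerInf N) (hx0 : x ≠ 0) (hfix : compMer (ModularGroup.T ^ w) x = x) :
    ((N / w : ℕ) : ℤ) ∣ Mer.ordInf N x := by
  refine Mer.natDiv_dvd_ordInf N hw hwN (compMer (ModularGroup.T ^ w)) ?_ hx hx0 hfix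
  intro a a' h
  rw [compMer_toMer]
  congr 1
  apply Hol.ext
  intro z
  rw [compHol_apply, h z]

end Translate

/-! ## The `j`-function -/

section JFun

variable (N : ℕ) [NeZero N]

theorem jFun_vadd_one (τ : ℍ) : jFun ((1 : ℝ) +ᵥ τ) = jFun τ := by
  rw [← UpperHalfPlane.modular_T_smul, jFun_smul]

theorem isMeroCusp_jFun : IsMeroCusp (N : ℝ) jFun :=
  isMeroCusp_nat_of_tendsto mdiff_jFun jFun_vadd_one PsiLe.tendsto_jFun_mul_qParam
    (cuspMer_natPos N)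

theorem ordCusp_jFun : ordCusp (N : ℝ) jFun = -(N : ℤ) :=
  ordCusp_nat_of_tendsto mdiff_jFun jFun_vadd_one PsiLe.tendsto_jFun_mul_qParam
    (cuspMer_natPos N)

theorem ordCusp_jFun_sub_const (c : ℂ) : ordCusp (N : ℝ) (fun τ : ℍ => jFun τ - c) = -(N : ℤ) := by
  rw [ordCusp_sub_const_of_neg (cuspMer_pos N) (isMeroCusp_jFun N), ordCusp_jFun]
  rw [ordCusp_jFun]
  have : 0 < (N : ℤ) := by exact_mod_cast cuspMer_natPos N
  omega

/-- For `h : Hol` representing `jFun`: it lies in `HolInf N` and has order `-N` at `i∞`. -/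
theorem mem_HolInf_of_eq_jFun {h : Hol} (hh : ∀ z : ℍ, (h : ℍ → ℂ) z = jFun z) : h ∈ HolInf N := by
  have : (h : ℍ → ℂ) = jFun := funext hh
  show IsMeroCusp (N : ℝ) (h : ℍ → ℂ)
  rw [this]
  exact isMeroCusp_jFun N

theorem Mer.ordInf_toMer_of_eq_jFun {h : Hol} (hh : ∀ z : ℍ, (h : ℍ → ℂ) z = jFun z) :
    Mer.ordInf N (toMer h) = -(N : ℤ) := by
  have e : (h : ℍ → ℂ) = jFun := funext hh
  have h0 : h ≠ 0 := by
    rintro rfl
    have h1 := ordCusp_jFun N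
    rw [← e] at h1
    have h2 : ordCusp (N : ℝ) ((0 : Hol) : ℍ → ℂ) = 0 := by
      unfold ordCusp
      have h0 : cuspFunction (N : ℝ) (((0 : Hol) : ℍ → ℂ)) =ᶠ[𝓝[≠] 0] fun _ => (0 : ℂ) :=
        cuspFunction_const_eventuallyEq (cuspMer_pos N) 0
      rw [meromorphicOrderAt_congr h0]
      have : meromorphicOrderAt (fun _ : ℂ => (0 : ℂ)) 0 = ⊤ :=
        meromorphicOrderAt_eq_top_iff.mpr (Eventually.of_forall fun _ => rfl)
      rw [this]; rfl
    rw [h2] at h1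
    have : 0 < (N : ℤ) := by exact_mod_cast cuspMer_natPos N
    omega
  rw [Mer.ordInf_toMer N (mem_HolInf_of_eq_jFun N hh) h0]
  unfold Hol.ordInf
  rw [e]
  exact ordCusp_jFun N

end JFun

end

end Fermat.Agent.S24
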