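import Mathlib
import Fermat.Prelude.Def_ModularCurve_ArithmeticGalois
import Fermat.Agent.S24.PsiLe

set_option autoImplicit false

/-!
# S24: `Γ₀(N)`-invariance of `Φ f` for every `f` of the function field, and generators of the field

* `eq_of_adjoin_eq_top`: two ring homomorphisms out of `F ⊇ K` which agree on `K` and on a set of
  field generators agree.
* `invariant_of_bridge`: for any "bridge" `Φ : F →+* Mer` sending `K` to constants and a set of
  generators to the functions `z ↦ j (d z)`, `d ∣ N`, every `Φ f` is invariant under `Γ₀(N)`.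
  The automorphism `ρ` of `Mer` standing for `m ↦ m ∘ γ` is abstract.
* `adjoin_gens_eq_top`: the field `modularFunctionFieldBar N` is generated over `K` by the
  `J_d = j(q^d)`, `d ∣ N`.
-/

namespace Fermat.Agent.S24.PhiInvGen

open scoped MatrixGroups
open IntermediateField UpperHalfPlane CongruenceSubgroup
open Fermat.Agent.S24.PsiLe

noncomputable section

/-! ### abstract part -/

/-- two ring homomorphisms out of a field `F ⊇ K` which agree on `K` and on a generating set agree -/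
theorem eq_of_adjoin_eq_top {K F Ω : Type*} [Field K] [Field F] [Algebra K F] [Field Ω]
    (σ τ : F →+* Ω) (hK : ∀ a : K, σ (algebraMap K F a) = τ (algebraMap K F a)) (S : Set F)
    (hS : IntermediateField.adjoin K S = ⊤) (hσ : ∀ s ∈ S, σ s = τ s) (x : F) : σ x = τ x := by
  have hle : IntermediateField.adjoin K S ≤ eqField σ τ hK := by
    rw [adjoin_le_iff]
    exact fun s hs => hσ s hs
  rw [hS] at hle
  exact hle IntermediateField.mem_top

/-- **`Γ₀(N)`-invariance of the bridge.** -/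
theorem invariant_of_bridge {K F : Type*} [Field K] [Field F] [Algebra K F]
    (N : ℕ) [NeZero N] (Φ : F →+* Mer) (S : Set F) (hS : IntermediateField.adjoin K S = ⊤)
    (hK : ∀ a : K, ∃ c : ℂ, Φ (algebraMap K F a) = algebraMap Hol Mer (algebraMap ℂ Hol c))
    (hSj : ∀ s ∈ S, ∃ (d : ℕ) (_ : NeZero d), d ∣ N ∧ ∃ h : Hol, Φ s = algebraMap Hol Mer h ∧
      ∀ z w : ℍ, (w : ℂ) = (d : ℂ) * (z : ℂ) → (h : ℍ → ℂ) z = jFun w)
    (γ : SL(2, ℤ)) (hγ : γ ∈ Gamma0 N) (ρ : Mer →+* Mer)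
    (hρ : ∀ h h' : Hol, (∀ z : ℍ, (h' : ℍ → ℂ) z = (h : ℍ → ℂ) (γ • z)) →
      ρ (algebraMap Hol Mer h) = algebraMap Hol Mer h') (f : F) : ρ (Φ f) = Φ f := by
  refine eq_of_adjoin_eq_top (ρ.comp Φ) Φ (fun a => ?_) S hS (fun s hs => ?_) f
  · obtain ⟨c, hc⟩ := hK a
    show ρ (Φ _) = Φ _
    rw [hc]
    exact hρ _ _ (fun z => rfl)
  · obtain ⟨d, hd, hdN, h, hΦ, hh⟩ := hSj s hs
    show ρ (Φ s) = Φ s
    rw [hΦ]
    refine hρ h h (fun z => ?_)
    rw [hh z (JConj.mulN d z) (JConj.coe_mulN d z),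
      hh (γ • z) (JConj.mulN d (γ • z)) (JConj.coe_mulN d _)]
    exact (JConj.comp_smul_eq_of_mem_Gamma0_of_dvd jFun_smul hdN γ hγ z).symm

/-- the same for `PsiLe.compMer` -/
theorem compMer_eq_of_bridge {K F : Type*} [Field K] [Field F] [Algebra K F]
    (N : ℕ) [NeZero N] (Φ : F →+* Mer) (S : Set F) (hS : IntermediateField.adjoin K S = ⊤)
    (hK : ∀ a : K, ∃ c : ℂ, Φ (algebraMap K F a) = algebraMap Hol Mer (algebraMap ℂ Hol c))
    (hSj : ∀ s ∈ S, ∃ (d : ℕ) (_ : NeZero d), d ∣ N ∧ ∃ h : Hol, Φ s = algebraMap Hol Mer h ∧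
      ∀ z w : ℍ, (w : ℂ) = (d : ℂ) * (z : ℂ) → (h : ℍ → ℂ) z = jFun w)
    (γ : SL(2, ℤ)) (hγ : γ ∈ Gamma0 N) (f : F) : compMer γ (Φ f) = Φ f := by
  refine invariant_of_bridge N Φ S hS hK hSj γ hγ (compMer γ) (fun h h' hh' => ?_) f
  rw [compMer_algebraMap]
  congr 1
  exact Hol.ext fun z => (hh' z).symm

/-- composition law of the right action: `(m ∘ γ) ∘ δ = m ∘ (γ δ)` -/
theorem compMer_compMer (γ δ : SL(2, ℤ)) (m : Mer) :
    compMer δ (compMer γ m) = compMer (γ * δ) m := by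
  have h : (compMer δ).comp (compMer γ) = compMer (γ * δ) := by
    refine IsLocalization.ringHom_ext (nonZeroDivisors Hol) (RingHom.ext fun f => ?_)
    show compMer δ (compMer γ (algebraMap Hol Mer f)) = compMer (γ * δ) (algebraMap Hol Mer f)
    rw [compMer_algebraMap, compMer_algebraMap, compMer_algebraMap]
    congr 1
    refine Hol.ext fun z => ?_
    rw [compHol_apply, compHol_apply, compHol_apply, mul_smul]
  exact congrArg (fun φ : Mer →+* Mer => φ m) h

theorem compMer_one (m : Mer) : compMer 1 m = m := by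
  have h : compMer 1 = RingHom.id Mer := by
    refine IsLocalization.ringHom_ext (nonZeroDivisors Hol) (RingHom.ext fun f => ?_)
    show compMer 1 (algebraMap Hol Mer f) = algebraMap Hol Mer f
    rw [compMer_algebraMap]
    congr 1
    refine Hol.ext fun z => ?_
    rw [compHol_apply, one_smul]
  exact congrArg (fun φ : Mer →+* Mer => φ m) h

/-- coset independence: `(Φ f) ∘ g⁻¹` only depends on the left coset `g Γ₀(N)` -/
theorem compMer_inv_eq_of_coset {K F : Type*} [Field K] [Field F] [Algebra K F]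
    (N : ℕ) [NeZero N] (Φ : F →+* Mer) (S : Set F) (hS : IntermediateField.adjoin K S = ⊤)
    (hK : ∀ a : K, ∃ c : ℂ, Φ (algebraMap K F a) = algebraMap Hol Mer (algebraMap ℂ Hol c))
    (hSj : ∀ s ∈ S, ∃ (d : ℕ) (_ : NeZero d), d ∣ N ∧ ∃ h : Hol, Φ s = algebraMap Hol Mer h ∧
      ∀ z w : ℍ, (w : ℂ) = (d : ℂ) * (z : ℂ) → (h : ℍ → ℂ) z = jFun w)
    (g g' : SL(2, ℤ)) (hgg : g⁻¹ * g' ∈ Gamma0 N) (f : F) :
    compMer g'⁻¹ (Φ f) = compMer g⁻¹ (Φ f) := by
  have e : g'⁻¹ = (g⁻¹ * g')⁻¹ * g⁻¹ := by group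
  rw [e, ← compMer_compMer,
    compMer_eq_of_bridge N Φ S hS hK hSj _ (inv_mem hgg) f]

/-- the conjugate attached to a coset `q = g Γ₀(N)`: `(Φ f) ∘ g⁻¹`, computed with any
representative -/
theorem compMer_out_inv_eq {K F : Type*} [Field K] [Field F] [Algebra K F]
    (N : ℕ) [NeZero N] (Φ : F →+* Mer) (S : Set F) (hS : IntermediateField.adjoin K S = ⊤)
    (hK : ∀ a : K, ∃ c : ℂ, Φ (algebraMap K F a) = algebraMap Hol Mer (algebraMap ℂ Hol c))
    (hSj : ∀ s ∈ S, ∃ (d : ℕ) (_ : NeZero d), d ∣ N ∧ ∃ h : Hol, Φ s = algebraMap Hol Mer h ∧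
      ∀ z w : ℍ, (w : ℂ) = (d : ℂ) * (z : ℂ) → (h : ℍ → ℂ) z = jFun w)
    (g : SL(2, ℤ)) (f : F) :
    compMer (QuotientGroup.mk g : Fermat.Agent.S20.Q N).out⁻¹ (Φ f) = compMer g⁻¹ (Φ f) := by
  refine compMer_inv_eq_of_coset N Φ S hS hK hSj g _ ?_ f
  exact QuotientGroup.eq.mp (QuotientGroup.out_eq' (QuotientGroup.mk g : Fermat.Agent.S20.Q N)).symm

/-- translation law for the conjugates `σ_q f = (Φ f) ∘ q.out⁻¹`:
`(σ_q f) ∘ δ⁻¹ = σ_{δ • q} f` -/
theorem compMer_inv_conj {K F : Type*} [Field K] [Field F] [Algebra K F]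
    (N : ℕ) [NeZero N] (Φ : F →+* Mer) (S : Set F) (hS : IntermediateField.adjoin K S = ⊤)
    (hK : ∀ a : K, ∃ c : ℂ, Φ (algebraMap K F a) = algebraMap Hol Mer (algebraMap ℂ Hol c))
    (hSj : ∀ s ∈ S, ∃ (d : ℕ) (_ : NeZero d), d ∣ N ∧ ∃ h : Hol, Φ s = algebraMap Hol Mer h ∧
      ∀ z w : ℍ, (w : ℂ) = (d : ℂ) * (z : ℂ) → (h : ℍ → ℂ) z = jFun w)
    (q : Fermat.Agent.S20.Q N) (δ : SL(2, ℤ)) (f : F) :
    compMer δ⁻¹ (compMer q.out⁻¹ (Φ f)) = compMer (δ • q).out⁻¹ (Φ f) := by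
  have hq : δ • q = (QuotientGroup.mk (δ * q.out) : Fermat.Agent.S20.Q N) := by
    conv_lhs => rw [← QuotientGroup.out_eq' q]
    rfl
  rw [hq, compMer_out_inv_eq N Φ S hS hK hSj, compMer_compMer, mul_inv_rev]

/-! ### generators of `laurentBaseChange` and of `modularFunctionFieldBar N` -/

open ModularCurve

theorem coeffEmb_algebraMap (L : Type*) [Field L] [Algebra ℚ L] (c : ℚ) :
    coeffEmb L (algebraMap ℚ (LaurentSeries ℚ) c)
      = algebraMap L (LaurentSeries L) (algebraMap ℚ L c) := by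
  rw [algebraMap_laurentSeries_eq_single, algebraMap_laurentSeries_eq_single, coeffEmb,
    coeffMap_single]

/-- base change of a field generated by `S₀` is generated over `L` by the image of `S₀` -/
theorem laurentBaseChange_adjoin (L : Type*) [Field L] [Algebra ℚ L]
    (S₀ : Set (LaurentSeries ℚ)) :
    laurentBaseChange L (IntermediateField.adjoin ℚ S₀)
      = IntermediateField.adjoin L (⇑(coeffEmb L) '' S₀) := by
  refine le_antisymm ?_ (IntermediateField.adjoin.mono L _ _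
    (Set.image_mono (IntermediateField.subset_adjoin ℚ S₀)))
  have key : ∀ x ∈ IntermediateField.adjoin ℚ S₀,
      coeffEmb L x ∈ IntermediateField.adjoin L (⇑(coeffEmb L) '' S₀) := by
    intro x hx
    induction hx using IntermediateField.adjoin_induction with
    | mem x hx => exact IntermediateField.subset_adjoin L _ ⟨x, hx, rfl⟩
    | algebraMap c =>
      rw [coeffEmb_algebraMap]
      exact IntermediateField.algebraMap_mem _ _
    | add x y _ _ hx hy => rw [map_add]; exact add_mem hx hy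
    | inv x _ hx => rw [map_inv₀]; exact inv_mem hx
    | mul x y _ _ hx hy => rw [map_mul]; exact mul_mem hx hy
  rw [laurentBaseChange, adjoin_le_iff]
  rintro y ⟨x, hx, rfl⟩
  exact key x hx

/-- the element `J_d = j(q^d)` of the function field, `d ∣ N` -/
def Jd (N d : ℕ) [NeZero d] (hd : d ∣ N) : ↥(modularFunctionFieldBar N) :=
  ⟨coeffEmb (AlgebraicClosure ℚ) (qExpand ℚ d jq),
    coeffEmb_mem_laurentBaseChange _ (jqd_mem_full N hd)⟩

@[simp] theorem coe_Jd (N d : ℕ) [NeZero d] (hd : d ∣ N) :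
    ((Jd N d hd : ↥(modularFunctionFieldBar N)) : LaurentSeries (AlgebraicClosure ℚ))
      = coeffEmb (AlgebraicClosure ℚ) (qExpand ℚ d jq) := rfl

/-- the generators `J_d`, `d ∣ N` -/
def gens (N : ℕ) : Set ↥(modularFunctionFieldBar N) :=
  {x | ∃ (d : ℕ) (_ : NeZero d) (hd : d ∣ N), x = Jd N d hd}

theorem Jd_mem_gens (N d : ℕ) [NeZero d] (hd : d ∣ N) : Jd N d hd ∈ gens N :=
  ⟨d, ‹_›, hd, rfl⟩

theorem image_gens (N : ℕ) :
    (Subtype.val '' gens N : Set (LaurentSeries (AlgebraicClosure ℚ)))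
      = ⇑(coeffEmb (AlgebraicClosure ℚ)) '' divisorExpansions N := by
  ext y
  constructor
  · rintro ⟨x, ⟨d, hne, hd, rfl⟩, rfl⟩
    exact ⟨qExpand ℚ d jq, ⟨d, hne, hd, rfl⟩, rfl⟩
  · rintro ⟨x, ⟨d, hne, hd, rfl⟩, rfl⟩
    have := hne
    exact ⟨Jd N d hd, Jd_mem_gens N d hd, rfl⟩

/-- **the function field is generated over `K = ℚ̄` by the `J_d`, `d ∣ N`.** -/
theorem adjoin_gens_eq_top (N : ℕ) :
    IntermediateField.adjoin (AlgebraicClosure ℚ) (gens N) = ⊤ := by
  apply IntermediateField.lift_injective (modularFunctionFieldBar N)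
  rw [IntermediateField.lift_adjoin, IntermediateField.lift_top, image_gens]
  exact (laurentBaseChange_adjoin (AlgebraicClosure ℚ) (divisorExpansions N)).symm

/-- **`Γ₀(N)`-invariance for the real function field**: any bridge `Φ` which maps constants to
constants and `J_d` to `z ↦ j (d z)` has `Γ₀(N)`-invariant values. -/
theorem compMer_eq (N : ℕ) [NeZero N] (Φ : ↥(modularFunctionFieldBar N) →+* Mer)
    (hK : ∀ a : AlgebraicClosure ℚ, ∃ c : ℂ,
      Φ (algebraMap (AlgebraicClosure ℚ) ↥(modularFunctionFieldBar N) a)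
        = algebraMap Hol Mer (algebraMap ℂ Hol c))
    (hJ : ∀ (d : ℕ) [NeZero d] (hd : d ∣ N), ∃ h : Hol, Φ (Jd N d hd) = algebraMap Hol Mer h ∧
      ∀ z w : ℍ, (w : ℂ) = (d : ℂ) * (z : ℂ) → (h : ℍ → ℂ) z = jFun w)
    (γ : SL(2, ℤ)) (hγ : γ ∈ Gamma0 N) (f : ↥(modularFunctionFieldBar N)) :
    compMer γ (Φ f) = Φ f := by
  refine compMer_eq_of_bridge N Φ (gens N) (adjoin_gens_eq_top N) hK ?_ γ hγ f
  rintro s ⟨d, hne, hd, rfl⟩
  have := hne
  exact ⟨d, hne, hd, hJ d hd⟩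

end

end Fermat.Agent.S24.PhiInvGen
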