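import Mathlib
import Fermat.Agent.S24.CuspMer
import Fermat.Agent.S24.CuspExp
import Fermat.Agent.S24.BridgeInv
import Fermat.Agent.S24.PhiInvGen

set_option autoImplicit false

/-!
# S24: all conjugates of elements of the function field are meromorphic at `i∞`

For a bridge `Φ : F →+* Mer` (`F = ℚ̄(j_d : d ∣ N)`), every `SL(2, ℤ)`-translate of `Φ f` lies in
`MerInf N`; hence the order at the cusp `γ∞` is an order function on `F`.
-/

namespace Fermat.Agent.S24.CuspMem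

open UpperHalfPlane
open scoped MatrixGroups
open Fermat.Agent.S20 Fermat.Agent.S24.PsiLe Fermat.Agent.S24.BridgeInv

noncomputable section

variable {N : ℕ} [NeZero N] {Φ : FF N →+* Mer}

/-- every translate of the image of a generator lies in `HolInf N`. -/
theorem compMer_Jd_mem (hΦ : IsBridge N Φ) (γ : SL(2, ℤ)) (d : ℕ) [NeZero d] (hd : d ∣ N) :
    compMer γ (Φ (Jd N d hd)) ∈ MerInf N := by
  obtain ⟨h, hh, hpt⟩ := hΦ.gen d inferInstance hd
  rw [hh]
  show compMer γ (toMer h) ∈ MerInf N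
  rw [compMer_toMer]
  apply toMer_mem_MerInf
  show IsMeroCusp (N : ℝ) ((compHol γ h : Hol) : ℍ → ℂ)
  have e : ((compHol γ h : Hol) : ℍ → ℂ) = JConj.conjG jFun d γ⁻¹ := by
    funext z
    rw [compHol_apply, hpt _ _ (JConj.coe_mulN d (γ • z))]
    unfold JConj.conjG
    rw [inv_inv]
  rw [e]
  exact (CuspExp.isMeroCusp_conjG CuspExp.jLike_jFun (cuspMer_natPos N) d hd γ⁻¹).1

/-- **(c1)** every `SL(2, ℤ)`-translate of `Φ f` lies in `MerInf N`. -/
theorem compMer_mem_MerInf (hΦ : IsBridge N Φ) (γ : SL(2, ℤ)) (f : FF N) :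
    compMer γ (Φ f) ∈ MerInf N := by
  refine forall_mem_MerInf_of_adjoin N ((compMer γ).comp Φ) (PhiInvGen.gens N)
    (PhiInvGen.adjoin_gens_eq_top N) (fun a => ?_) ?_ f
  · show compMer γ (Φ (algebraMap Kbar (FF N) a)) ∈ MerInf N
    rw [hΦ.compMer_const γ a]
    obtain ⟨c, hc⟩ := hΦ.const a
    rw [hc]
    exact toMer_mem_MerInf N ((HolInf N).algebraMap_mem c)
  · rintro s ⟨d, hne, hd, rfl⟩
    have := hne
    exact compMer_Jd_mem hΦ γ d hd

theorem conjMer_mem_MerInf (hΦ : IsBridge N Φ) (q : Q N) (f : FF N) :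
    conjMer Φ q f ∈ MerInf N :=
  compMer_mem_MerInf hΦ q.out⁻¹ f

theorem phi_mem_MerInf (hΦ : IsBridge N Φ) (f : FF N) : Φ f ∈ MerInf N := by
  have := compMer_mem_MerInf hΦ 1 f
  rwa [BridgeInv.compMer_one] at this

/-- The order at the cusp attached to the coset `q`. -/
def nuInf (Φ : FF N →+* Mer) (q : Q N) (f : FF N) : ℤ := Mer.ordInf N (conjMer Φ q f)

theorem nuInf_def (q : Q N) (f : FF N) : nuInf Φ q f = Mer.ordInf N (conjMer Φ q f) := rfl

/-- `nuInf Φ q` is an order function on `F`. -/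
theorem isOrdFun_nuInf (hΦ : IsBridge N Φ) (q : Q N) : IsOrdFun Kbar (nuInf Φ q) := by
  refine isOrdFun_ordInf_comp N (conjMer Φ q) (conjMer_mem_MerInf hΦ q) (fun a => ?_)
  obtain ⟨c, hc⟩ := hΦ.const a
  refine ⟨c, ?_⟩
  show compMer q.out⁻¹ (Φ (algebraMap Kbar (FF N) a)) = _
  rw [hΦ.compMer_const, hc]

/-- `T`-invariance: the order function only depends on the `T`-orbit of the coset. -/
theorem nuInf_T_zpow_smul (hΦ : IsBridge N Φ) (k : ℤ) (q : Q N) (f : FF N) :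
    nuInf Φ (ModularGroup.T ^ k • q) f = nuInf Φ q f := by
  unfold nuInf
  rw [← hΦ.compMer_conjMer (ModularGroup.T ^ k) q f]
  have := Mer.ordInf_compMer_T_zpow N (-k) (conjMer_mem_MerInf hΦ q f)
  rwa [zpow_neg] at this

/-- the order of `J` at every cusp is `-N`. -/
theorem nuInf_J (hΦ : IsBridge N Φ) (q : Q N) : nuInf Φ q (Jd N 1 (one_dvd N)) = -(N : ℤ) := by
  unfold nuInf
  show Mer.ordInf N (compMer q.out⁻¹ (Φ (Jd N 1 (one_dvd N)))) = _
  rw [hΦ.compMer_J]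
  obtain ⟨h, hh, hpt⟩ := hΦ.gen 1 inferInstance (one_dvd N)
  rw [hh]
  refine Mer.ordInf_toMer_of_eq_jFun N (fun z => ?_)
  exact hpt z z (by simp)

/-- **(c3)** periodicity: if `T ^ w` fixes the coset `q` (`0 < w ∣ N`) then `N / w` divides all
values of `nuInf Φ q`. -/
theorem natDiv_dvd_nuInf (hΦ : IsBridge N Φ) {w : ℕ} (hw : 0 < w) (hwN : w ∣ N) (q : Q N)
    (hq : ModularGroup.T ^ w • q = q) {f : FF N} (hf : f ≠ 0) :
    ((N / w : ℕ) : ℤ) ∣ nuInf Φ q f := by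
  unfold nuInf
  refine Mer.natDiv_dvd_ordInf_of_compMer N hw hwN (conjMer_mem_MerInf hΦ q f)
    ((map_ne_zero (conjMer Φ q)).mpr hf) ?_
  -- `compMer (T^w) (conjMer q f) = conjMer ((T^w)⁻¹ • q) f = conjMer q f`
  have h1 := hΦ.compMer_conjMer (ModularGroup.T ^ w)⁻¹ q f
  rw [inv_inv] at h1
  rw [h1]
  have h2 : (ModularGroup.T ^ w)⁻¹ • q = q := by
    rw [inv_smul_eq_iff, hq]
  rw [h2]

end

end Fermat.Agent.S24.CuspMem
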