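import Mathlib
import Fermat.Agent.S24.CuspMem
import Fermat.Agent.S24.PlaceAt
import Fermat.Agent.S24.FibreNorm
import Fermat.Agent.S24.Inv

set_option autoImplicit false
set_option linter.unusedSectionVars false
set_option linter.unusedVariables false

/-!
# S24: the fibre over the cusp `J = ∞`

The `FibreModel` (of `AbstractFibre.lean`) over `y = J⁻¹`, with the order functions
`nuInf Φ c f = ord_{i∞} ((Φ f) ∘ (c.out)⁻¹)` (in `q_N`) of `CuspMem.lean`, the group `⟨T⟩` acting on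
`Q N = SL(2,ℤ) ⧸ Γ₀(N)` and `s = N`.

* `T_pow_smul`: `T ^ N` acts trivially on `Q N`; hence the `⟨T⟩`-orbit of every coset has `w ∣ N`
  elements and `T ^ w` fixes the coset.
* `fibreModelInf`: the fibre model, built with `FibreModel.ofBridge` from (Inv) (`Inv.lean`).
-/

namespace Fermat.Agent.S24.CuspFibre

open scoped MatrixGroups
open IntermediateField UpperHalfPlane CongruenceSubgroup ModularGroup MulAction Function
open Fermat.Agent.S20 Fermat.Agent.S24.PsiLe Fermat.Agent.S24.BridgeInv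

noncomputable section

/-! ### the action of `T` on `Q N` -/

/-- `g⁻¹ T^N g ∈ Γ₀(N)`. -/
theorem conj_T_pow_mem_Gamma0 (N : ℕ) (g : SL(2, ℤ)) : g⁻¹ * (T ^ N * g) ∈ Gamma0 N := by
  rw [Gamma0_mem]
  have hT : ((T ^ N : SL(2, ℤ)) : Matrix (Fin 2) (Fin 2) ℤ) = !![1, (N : ℤ); 0, 1] := by
    have := coe_T_zpow (N : ℤ)
    rwa [zpow_natCast] at this
  have h : ((g⁻¹ * (T ^ N * g) : SL(2, ℤ)) : Matrix (Fin 2) (Fin 2) ℤ) 1 0
      = -((N : ℤ) * (g 1 0 * g 1 0)) := by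
    rw [Matrix.SpecialLinearGroup.coe_mul, Matrix.SpecialLinearGroup.coe_mul, hT,
      Matrix.SpecialLinearGroup.coe_inv, Matrix.adjugate_fin_two]
    simp only [Matrix.mul_apply, Fin.sum_univ_two, Matrix.of_apply, Matrix.cons_val', Matrix.cons_val_zero,
      Matrix.cons_val_one, Matrix.cons_val_fin_one]
    ring
  rw [h]
  push_cast
  simp

/-- `T ^ N` acts trivially on `Q N`. -/
theorem T_pow_smul (N : ℕ) (c : Q N) : (T ^ N : SL(2, ℤ)) • c = c := by
  induction c using QuotientGroup.induction_on with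
  | H g =>
    show (QuotientGroup.mk (T ^ N * g) : Q N) = QuotientGroup.mk g
    rw [eq_comm, QuotientGroup.eq]
    exact conj_T_pow_mem_Gamma0 N g

section general

variable {G X : Type*} [Group G] [MulAction G X]

/-- the size of a `⟨g⟩`-orbit is the minimal period -/
theorem card_orbit_zpowers_eq (g : G) (x : X) :
    Nat.card (orbit (Subgroup.zpowers g) x) = minimalPeriod (g • ·) x := by
  rw [Nat.card_congr (orbitZPowersEquiv g x), Nat.card_zmod]

theorem card_orbit_zpowers_dvd (g : G) (x : X) (n : ℕ) (h : g ^ n • x = x) :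
    Nat.card (orbit (Subgroup.zpowers g) x) ∣ n := by
  rw [card_orbit_zpowers_eq]
  exact (pow_smul_eq_iff_minimalPeriod_dvd).mp h

theorem pow_card_orbit_zpowers_smul (g : G) (x : X) :
    g ^ Nat.card (orbit (Subgroup.zpowers g) x) • x = x := by
  rw [card_orbit_zpowers_eq]
  exact (pow_smul_eq_iff_minimalPeriod_dvd).mpr dvd_rfl

end general

/-- the `⟨T⟩`-orbit of a coset has a number of elements dividing `N`. -/
theorem card_orbit_T_dvd (N : ℕ) (c : Q N) :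
    Nat.card (orbit (Subgroup.zpowers (T : SL(2, ℤ))) c) ∣ N :=
  card_orbit_zpowers_dvd (T : SL(2, ℤ)) c N (T_pow_smul N c)

/-- `T ^ w` fixes the coset `c`, `w` the size of its `⟨T⟩`-orbit. -/
theorem T_pow_card_orbit_smul (N : ℕ) (c : Q N) :
    (T ^ Nat.card (orbit (Subgroup.zpowers (T : SL(2, ℤ))) c) : SL(2, ℤ)) • c = c :=
  pow_card_orbit_zpowers_smul (T : SL(2, ℤ)) c

theorem card_orbit_T_pos (N : ℕ) [NeZero N] (c : Q N) :
    0 < Nat.card (orbit (Subgroup.zpowers (T : SL(2, ℤ))) c) :=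
  Nat.pos_of_dvd_of_pos (card_orbit_T_dvd N c) (Nat.pos_of_ne_zero (NeZero.ne N))

/-! ### the fibre model over `J = ∞` -/

variable {N : ℕ} [NeZero N] {Φ : FF N →+* Mer}

theorem J_ne_zero (hΦ : IsBridge N Φ) : PlaceAt.J N ≠ 0 := by
  have := PlaceAt.J_sub_ne_zero hΦ 0
  rwa [map_zero, sub_zero] at this

/-- (Inv) for `y = J⁻¹` (`K(J⁻¹) = K(J)`). -/
theorem inv_Jinv (hΦ : IsBridge N Φ) (f : FF N) :
    ∃ n ∈ Kbar⟮(PlaceAt.J N)⁻¹⟯, Φ n = ∏ c : Q N, compMer c.out⁻¹ (Φ f) := by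
  obtain ⟨n, hn, h⟩ := Inv.inv_of_isBridge hΦ f
  exact ⟨n, by rwa [Exhaust.adjoin_inv_eq], h⟩

/-- the order of `Φ J` at `i∞` is `-N`. -/
theorem ordInf_phi_J (hΦ : IsBridge N Φ) : Mer.ordInf N (Φ (PlaceAt.J N)) = -(N : ℤ) := by
  obtain ⟨h, hh, hpt⟩ := hΦ.gen 1 inferInstance (one_dvd N)
  rw [hh]
  exact Mer.ordInf_toMer_of_eq_jFun N (fun z => hpt z z (by simp))

/-- the order of `Φ J⁻¹` at `i∞` is `N`. -/
theorem ordInf_phi_J_inv (hΦ : IsBridge N Φ) : Mer.ordInf N (Φ (PlaceAt.J N)⁻¹) = (N : ℤ) := by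
  rw [map_inv₀, Mer.ordInf_inv N (CuspMem.phi_mem_MerInf hΦ _), ordInf_phi_J hΦ, neg_neg]

/-- constants have order `0` at `i∞`. -/
theorem ordInf_phi_const (hΦ : IsBridge N Φ) (a : Kbar) (ha : a ≠ 0) :
    Mer.ordInf N (Φ (algebraMap Kbar (FF N) a)) = 0 := by
  obtain ⟨w, hw⟩ := PlaceAt.exists_const hΦ a
  rw [hw]
  refine Mer.ordInf_const N ?_
  rintro rfl
  rw [map_zero] at hw
  have : algebraMap Kbar (FF N) a ≠ 0 := by
    rw [Ne, map_eq_zero_iff _ (algebraMap Kbar (FF N)).injective]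
    exact ha
  exact (map_ne_zero Φ).mpr this hw

/-- **The fibre model over the cusp**: `y = J⁻¹`, `H = ⟨T⟩`, `s = N`,
`ν c f = ord_{i∞} ((Φ f) ∘ (c.out)⁻¹)`. -/
def fibreModelInf (hΦ : IsBridge N Φ) :
    FibreModel Kbar (PlaceAt.J N)⁻¹ (Q N) (Subgroup.zpowers (T : SL(2, ℤ))) :=
  FibreModel.ofBridge Φ (fun c : Q N => compMer c.out⁻¹) (Inv.c0 N) (Inv.hc0_FF hΦ)
    (PlaceAt.J N)⁻¹ (inv_ne_zero (J_ne_zero hΦ))
    (Inv.hfixK_FF hΦ)
    (fun c => by rw [map_inv₀, map_inv₀, hΦ.compMer_J])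
    (inv_Jinv hΦ)
    (MerInf N).toSubring (fun c f => CuspMem.conjMer_mem_MerInf hΦ c f)
    (Mer.ordInf N)
    (fun x z hx hz hx0 hz0 => Mer.ordInf_mul N hx hz hx0 hz0)
    (fun x z hx hz hx0 hz0 hxz => Mer.ordInf_add N hx hz hx0 hz0 hxz)
    (ordInf_phi_const hΦ)
    N (Nat.pos_of_ne_zero (NeZero.ne N))
    (ordInf_phi_J_inv hΦ)
    (fun h c f => by
      obtain ⟨k, hk⟩ := Subgroup.mem_zpowers_iff.mp h.2
      have h1 := CuspMem.nuInf_T_zpow_smul hΦ k c f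
      rw [hk] at h1
      exact h1)
    (card_orbit_T_dvd N)
    (fun c f hf => CuspMem.natDiv_dvd_nuInf hΦ (card_orbit_T_pos N c) (card_orbit_T_dvd N c) c
      (T_pow_card_orbit_smul N c) hf)

@[simp] theorem fibreModelInf_ν (hΦ : IsBridge N Φ) (c : Q N) (f : FF N) :
    (fibreModelInf hΦ).ν c f = CuspMem.nuInf Φ c f := rfl

@[simp] theorem fibreModelInf_s (hΦ : IsBridge N Φ) : (fibreModelInf hΦ).s = N := rfl

end

end Fermat.Agent.S24.CuspFibre
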