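import Mathlib
import Fermat.Agent.S24.AbstractFibre
import Fermat.Agent.S24.BridgeInv
import Fermat.Agent.S24.Mer
import Fermat.Agent.S24.Exhaust
import Fermat.Agent.S24.Ramanujan
import Fermat.Agent.S24.OrbitCount
import Fermat.Agent.S24.FFHurwitzGlue

/-!
# S24 (M11): the fibres of `J : X₀(N) → ℙ¹`

From a bridge `Φ : F →+* Mer` (`IsBridge N Φ`), the invariance statement (Inv)
(`∏_q conjMer Φ q f ∈ Φ (K(J))`) and the facts about places of `F` (finiteness of zeros,
`∑ ord = degree`, approximation), we get the number of places in each fibre of `J`.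
-/

set_option autoImplicit false

namespace Fermat.Agent.S24.Fibres

open scoped MatrixGroups
open IntermediateField UpperHalfPlane CongruenceSubgroup AlgebraicCurve
open Fermat.Agent.S20 Fermat.Agent.S24.PsiLe Fermat.Agent.S24.BridgeInv

noncomputable section

/-! ### the two composition actions agree -/

theorem compMer_eq_comp (γ : SL(2, ℤ)) (x : Mer) : compMer γ x = Mer.comp γ x := by
  have h : compMer γ = ((Mer.comp γ : Mer ≃+* Mer) : Mer →+* Mer) := by
    refine IsLocalization.ringHom_ext (nonZeroDivisors Hol) ?_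
    refine RingHom.ext fun f => ?_
    show compMer γ (algebraMap Hol Mer f) = Mer.comp γ (algebraMap Hol Mer f)
    rw [compMer_algebraMap, Mer.comp_toMer]
    rfl
  exact congrArg (fun g : Mer →+* Mer => g x) h

/-! ### generalities on a bridge -/

/-- `J = j_1` -/
abbrev JJ (N : ℕ) : FF N := Jd N 1 (one_dvd N)

variable {N : ℕ} {Φ : FF N →+* Mer}

/-- elements of `K(J)` are fixed by `SL(2,ℤ)` -/
theorem compMer_of_mem (hΦ : IsBridge N Φ) (γ : SL(2, ℤ)) {n : FF N} (hn : n ∈ Kbar⟮JJ N⟯) :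
    compMer γ (Φ n) = Φ n := by
  induction hn using IntermediateField.adjoin_induction with
  | mem x hx =>
    rw [Set.mem_singleton_iff] at hx
    subst hx
    exact hΦ.compMer_J γ
  | algebraMap a => exact hΦ.compMer_const γ a
  | add x y _ _ hx hy => rw [map_add, map_add, hx, hy]
  | inv x _ hx => rw [map_inv₀, map_inv₀, hx]
  | mul x y _ _ hx hy => rw [map_mul, map_mul, hx, hy]

theorem conjMer_of_mem (hΦ : IsBridge N Φ) (q : Q N) {n : FF N} (hn : n ∈ Kbar⟮JJ N⟯) :
    conjMer Φ q n = Φ n :=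
  compMer_of_mem hΦ _ hn

theorem conjMer_one (hΦ : IsBridge N Φ) (f : FF N) :
    conjMer Φ (QuotientGroup.mk 1 : Q N) f = Φ f := by
  rw [hΦ.conjMer_mk, inv_one, compMer_one]

theorem conjMer_ne_zero (q : Q N) {f : FF N} (hf : f ≠ 0) : conjMer Φ q f ≠ 0 :=
  (map_ne_zero (conjMer Φ q)).mpr hf

/-! ### induction principle for `F` -/

/-- every element of `F` is obtained from the constants and the generators `J_d` by field
operations. -/
theorem FF_induction (N : ℕ) (P : FF N → Prop)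
    (hK : ∀ a : Kbar, P (algebraMap Kbar (FF N) a))
    (hJ : ∀ (d : ℕ) (_ : NeZero d) (hd : d ∣ N), P (Jd N d hd))
    (hadd : ∀ x y, P x → P y → P (x + y))
    (hmul : ∀ x y, P x → P y → P (x * y))
    (hinv : ∀ x, P x → P x⁻¹) (f : FF N) : P f := by
  -- first on the rational subfield
  have hrat : ∀ (y : LaurentSeries ℚ) (hy : y ∈ ModularCurve.modularFunctionFieldFull N),
      P ⟨ModularCurve.coeffEmb Kbar y, ModularCurve.coeffEmb_mem_laurentBaseChange Kbar hy⟩ := by
    intro y hy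
    refine IntermediateField.adjoin_induction (F := ℚ) (s := ModularCurve.divisorExpansions N)
      (p := fun y hy => P ⟨ModularCurve.coeffEmb Kbar y,
        ModularCurve.coeffEmb_mem_laurentBaseChange Kbar hy⟩) ?_ ?_ ?_ ?_ ?_ hy
    · rintro x ⟨d, hne, hd, rfl⟩
      exact hJ d hne hd
    · intro a
      have e : (⟨ModularCurve.coeffEmb Kbar (algebraMap ℚ (LaurentSeries ℚ) a),
          ModularCurve.coeffEmb_mem_laurentBaseChange Kbar
            (IntermediateField.algebraMap_mem _ a)⟩ : FF N)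
          = algebraMap Kbar (FF N) (algebraMap ℚ Kbar a) := by
        apply Subtype.ext
        show ModularCurve.coeffEmb Kbar (algebraMap ℚ (LaurentSeries ℚ) a)
          = algebraMap Kbar (LaurentSeries Kbar) (algebraMap ℚ Kbar a)
        rw [ModularCurve.algebraMap_laurentSeries_eq_single,
          ModularCurve.algebraMap_laurentSeries_eq_single, ModularCurve.coeffEmb,
          ModularCurve.coeffMap_single]
      rw [e]
      exact hK _
    · intro x y hx hy h₁ h₂
      have e : (⟨ModularCurve.coeffEmb Kbar (x + y),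
          ModularCurve.coeffEmb_mem_laurentBaseChange Kbar (add_mem hx hy)⟩ : FF N)
          = ⟨ModularCurve.coeffEmb Kbar x, ModularCurve.coeffEmb_mem_laurentBaseChange Kbar hx⟩
            + ⟨ModularCurve.coeffEmb Kbar y,
              ModularCurve.coeffEmb_mem_laurentBaseChange Kbar hy⟩ :=
        Subtype.ext (map_add _ _ _)
      rw [e]
      exact hadd _ _ h₁ h₂
    · intro x hx h
      have e : (⟨ModularCurve.coeffEmb Kbar x⁻¹,
          ModularCurve.coeffEmb_mem_laurentBaseChange Kbar (inv_mem hx)⟩ : FF N)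
          = (⟨ModularCurve.coeffEmb Kbar x,
              ModularCurve.coeffEmb_mem_laurentBaseChange Kbar hx⟩ : FF N)⁻¹ :=
        Subtype.ext (map_inv₀ _ _)
      rw [e]
      exact hinv _ h
    · intro x y hx hy h₁ h₂
      have e : (⟨ModularCurve.coeffEmb Kbar (x * y),
          ModularCurve.coeffEmb_mem_laurentBaseChange Kbar (mul_mem hx hy)⟩ : FF N)
          = ⟨ModularCurve.coeffEmb Kbar x, ModularCurve.coeffEmb_mem_laurentBaseChange Kbar hx⟩
            * ⟨ModularCurve.coeffEmb Kbar y,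
              ModularCurve.coeffEmb_mem_laurentBaseChange Kbar hy⟩ :=
        Subtype.ext (map_mul _ _ _)
      rw [e]
      exact hmul _ _ h₁ h₂
  obtain ⟨x, hx⟩ := f
  refine IntermediateField.adjoin_induction (F := Kbar)
    (p := fun x hx => P (⟨x, hx⟩ : FF N)) ?_ ?_ ?_ ?_ ?_ hx
  · rintro x ⟨y, hy, rfl⟩
    exact hrat y hy
  · intro a
    exact hK a
  · intro x y hx hy h₁ h₂
    have e : (⟨x + y, add_mem hx hy⟩ : FF N) = ⟨x, hx⟩ + ⟨y, hy⟩ := rfl
    rw [e]
    exact hadd _ _ h₁ h₂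
  · intro x hx h
    have e : (⟨x⁻¹, inv_mem hx⟩ : FF N) = (⟨x, hx⟩ : FF N)⁻¹ := rfl
    rw [e]
    exact hinv _ h
  · intro x y hx hy h₁ h₂
    have e : (⟨x * y, mul_mem hx hy⟩ : FF N) = ⟨x, hx⟩ * ⟨y, hy⟩ := rfl
    rw [e]
    exact hmul _ _ h₁ h₂

/-! ### the generic builder -/

/-- an order function on (a subfield of) `Mer`, invariant under the cyclic group generated by
`σ`. -/
structure OrdData (N : ℕ) (Φ : FF N →+* Mer) (σ : SL(2, ℤ)) where
  /-- the subfield on which `o` is an order function -/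
  E : Subfield Mer
  /-- the order function -/
  o : Mer → ℤ
  mem : ∀ (q : Q N) (f : FF N), conjMer Φ q f ∈ E
  o_mul : ∀ x y : Mer, x ∈ E → y ∈ E → x ≠ 0 → y ≠ 0 → o (x * y) = o x + o y
  o_add : ∀ x y : Mer, x ∈ E → y ∈ E → x ≠ 0 → y ≠ 0 → x + y ≠ 0 →
    min (o x) (o y) ≤ o (x + y)
  o_const : ∀ c : ℂ, c ≠ 0 → o (algebraMap Hol Mer (algebraMap ℂ Hol c)) = 0
  o_inv : ∀ h ∈ Subgroup.zpowers σ, ∀ x ∈ E, o (compMer h x) = o x

namespace OrdData

variable {σ : SL(2, ℤ)} (D : OrdData N Φ σ)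

theorem o_one : D.o 1 = 0 := by
  have h := D.o_const 1 one_ne_zero
  rwa [map_one, map_one] at h

theorem o_prod {ι : Type*} (s : Finset ι) (x : ι → Mer) (hx : ∀ i ∈ s, x i ∈ D.E)
    (hx0 : ∀ i ∈ s, x i ≠ 0) : D.o (∏ i ∈ s, x i) = ∑ i ∈ s, D.o (x i) := by
  classical
  induction s using Finset.induction_on with
  | empty => simpa using D.o_one
  | insert i s hi ih =>
    rw [Finset.prod_insert hi, Finset.sum_insert hi,
      D.o_mul _ _ (hx i (Finset.mem_insert_self i s))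
        (Subfield.prod_mem _ fun j hj => hx j (Finset.mem_insert_of_mem hj))
        (hx0 i (Finset.mem_insert_self i s))
        (Finset.prod_ne_zero_iff.mpr fun j hj => hx0 j (Finset.mem_insert_of_mem hj)),
      ih (fun j hj => hx j (Finset.mem_insert_of_mem hj))
        (fun j hj => hx0 j (Finset.mem_insert_of_mem hj))]

theorem isOrdFun (hΦ : IsBridge N Φ) (q : Q N) :
    IsOrdFun Kbar (fun f : FF N => D.o (conjMer Φ q f)) where
  mul f g hf hg := by
    show D.o (conjMer Φ q (f * g)) = _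
    rw [map_mul]
    exact D.o_mul _ _ (D.mem q f) (D.mem q g) (conjMer_ne_zero q hf) (conjMer_ne_zero q hg)
  add f g hf hg hfg := by
    show _ ≤ D.o (conjMer Φ q (f + g))
    rw [map_add]
    refine D.o_add _ _ (D.mem q f) (D.mem q g) (conjMer_ne_zero q hf) (conjMer_ne_zero q hg) ?_
    rw [← map_add]
    exact conjMer_ne_zero q hfg
  const a ha := by
    show D.o (conjMer Φ q (algebraMap Kbar (FF N) a)) = 0
    rw [conjMer_of_mem hΦ q (IntermediateField.algebraMap_mem _ a)]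
    obtain ⟨c, hc⟩ := hΦ.const a
    rw [hc]
    refine D.o_const c ?_
    rintro rfl
    rw [map_zero, map_zero] at hc
    have : algebraMap Kbar (FF N) a ≠ 0 := (map_ne_zero _).mpr ha
    exact (map_ne_zero Φ).mpr this hc

/-- **The generic fibre model.** -/
def mkModel [NeZero N] (hΦ : IsBridge N Φ)
    (hinv : ∀ f : FF N, ∃ n ∈ Kbar⟮JJ N⟯, Φ n = ∏ q : Q N, conjMer Φ q f)
    (y : FF N) (hy : y ∈ Kbar⟮JJ N⟯) (hJy : JJ N ∈ Kbar⟮y⟯) (hy0 : y ≠ 0)
    (s : ℕ) (hs : 0 < s) (hsy : D.o (Φ y) = s)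
    (horb : ∀ c : Q N, Nat.card (MulAction.orbit (Subgroup.zpowers σ) c) ∣ s)
    (hdvd : ∀ (c : Q N) (f : FF N), f ≠ 0 →
      ((s / Nat.card (MulAction.orbit (Subgroup.zpowers σ) c) : ℕ) : ℤ) ∣ D.o (conjMer Φ c f)) :
    FibreModel Kbar y (Q N) (Subgroup.zpowers σ) where
  ν c f := D.o (conjMer Φ c f)
  isOrd c := D.isOrdFun hΦ c
  y_ne := hy0
  s := s
  s_pos := hs
  ν_y c := by
    show D.o (conjMer Φ c y) = s
    rw [conjMer_of_mem hΦ c hy]
    exact hsy
  ν_smul h c := by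
    funext f
    show D.o (conjMer Φ ((h : SL(2, ℤ)) • c) f) = D.o (conjMer Φ c f)
    rw [← hΦ.compMer_conjMer]
    exact D.o_inv _ (inv_mem h.2) _ (D.mem c f)
  orbit_dvd := horb
  dvd := hdvd
  norm f hf := by
    classical
    obtain ⟨n, hn, hprod⟩ := hinv f
    have hprod0 : ∏ q : Q N, conjMer Φ q f ≠ 0 :=
      Finset.prod_ne_zero_iff.mpr fun q _ => conjMer_ne_zero q hf
    have hn0 : n ≠ 0 := by
      rintro rfl
      rw [map_zero] at hprod
      exact hprod0 hprod.symm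
    have hle : Kbar⟮JJ N⟯ ≤ Kbar⟮y⟯ := by
      rw [adjoin_simple_le_iff]
      exact hJy
    refine ⟨n, hn0, hle hn, fun c0 => ?_, fun hfint => ?_⟩
    · show ∑ c, D.o (conjMer Φ c f) = D.o (conjMer Φ c0 n)
      rw [conjMer_of_mem hΦ c0 hn, hprod,
        D.o_prod _ _ (fun q _ => D.mem q f) (fun q _ => conjMer_ne_zero q hf)]
    · -- integrality of `n / f`
      set q1 : Q N := QuotientGroup.mk 1 with hq1
      have hfix : ∀ c : Q N, compMer c.out⁻¹ (Φ y) = Φ y := fun c => compMer_of_mem hΦ _ hy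
      have hfixK : ∀ (c : Q N) (k : Kbar), compMer c.out⁻¹ (Φ (algebraMap Kbar (FF N) k))
          = Φ (algebraMap Kbar (FF N) k) := fun c k => hΦ.compMer_const _ k
      have hconj : ∀ c : Q N,
          (Φ.comp (algebraMap (Algebra.adjoin Kbar {y}) (FF N))).IsIntegralElem
            (conjMer Φ c f) := fun c =>
        Exhaust.isIntegralElem_conj Φ (fun c : Q N => compMer c.out⁻¹) hfix hfixK hfint c
      have hdiv : Φ (n / f) = ∏ q ∈ Finset.univ.erase q1, conjMer Φ q f := by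
        rw [map_div₀, hprod, ← Finset.mul_prod_erase Finset.univ _ (Finset.mem_univ q1),
          conjMer_one hΦ, mul_div_cancel_left₀ _ ((map_ne_zero Φ).mpr hf)]
      apply Exhaust.isIntegral_of_isIntegralElem Φ
      rw [hdiv]
      letI : Algebra (Algebra.adjoin Kbar {y}) Mer :=
        (Φ.comp (algebraMap (Algebra.adjoin Kbar {y}) (FF N))).toAlgebra
      have : IsIntegral (Algebra.adjoin Kbar {y}) (∏ q ∈ Finset.univ.erase q1, conjMer Φ q f) :=
        IsIntegral.prod _ fun q _ => hconj q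
      exact this

end OrdData

/-! ### counting the places of a fibre -/

section count

variable [NeZero N]

theorem card_Q : Fintype.card (Q N) = ModularCurve.dedekindPsi N := by
  rw [← Nat.card_eq_fintype_card]
  exact card_quotient_Gamma0 N

theorem finrank_congr {K F : Type*} [Field K] [Field F] [Algebra K F]
    {E1 E2 : IntermediateField K F} (h : E1 = E2) :
    Module.finrank E1 F = Module.finrank E2 F := by
  subst h
  rfl

/-- **Number of zeros of `y`** (`y` a generator of `K(J)` over `K`, e.g. `J - a` or `J⁻¹`), from a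
fibre model. -/
theorem card_zeros {H : Type*} [Group H] [MulAction H (Q N)] {y : FF N}
    (M : FibreModel Kbar y (Q N) H) (hΦ : IsBridge N Φ)
    [FiniteDimensional Kbar⟮JJ N⟯ (FF N)]
    (hy : Transcendental Kbar y) (hyJ : Kbar⟮y⟯ = Kbar⟮JJ N⟯)
    (hfin : ∀ y : FF N, Transcendental Kbar y →
      {v : Place Kbar (FF N) | 0 < v.ord y}.Finite)
    (hsum : ∀ (y : FF N) (hy : Transcendental Kbar y),
      ∑ v ∈ (hfin y hy).toFinset, v.ord y = (Module.finrank Kbar⟮y⟯ (FF N) : ℤ))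
    (happrox : ∀ (y : FF N), Transcendental Kbar y → ∀ v : Place Kbar (FF N), 0 < v.ord y →
      ∀ S : Finset (Place Kbar (FF N)), (∀ w ∈ S, 0 < w.ord y) → v ∉ S →
      ∃ f : FF N, f ≠ 0 ∧ IsIntegral (Algebra.adjoin Kbar {y}) f ∧ 0 < v.ord f ∧
        ∀ w ∈ S, w.ord f = 0) :
    Nat.card {v : Place Kbar (FF N) | 0 < v.ord y}
        = Nat.card (MulAction.orbitRel.Quotient H (Q N)) ∧
      Module.finrank Kbar⟮JJ N⟯ (FF N) = ModularCurve.dedekindPsi N := by
  classical
  haveI : Nonempty (Q N) := ⟨QuotientGroup.mk 1⟩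
  set n := Module.finrank Kbar⟮JJ N⟯ (FF N) with hn
  have hcard : Fintype.card (Q N) ≤ n := by
    rw [card_Q]
    exact hΦ.psi_le_finrank
  set Z := (hfin y hy).toFinset with hZdef
  have hZ : ∀ v, v ∈ Z ↔ 0 < v.ord y := by
    intro v
    simp [hZdef]
  have hZsum : ∑ v ∈ Z, v.ord y = n := by
    rw [hsum y hy, finrank_congr hyJ]
  have h := M.main n hcard Z hZ hZsum
    (fun v hv S hS hvS => happrox y hy v ((hZ v).mp hv) S
      (fun w hw => (hZ w).mp (hS hw)) hvS)
    (fun f hf0 hfint v hv => by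
      have hyv : y ∈ v.toValuationSubring := FFDeriv.mem_of_ord_nonneg v ((hZ v).mp hv).le
      exact FFDeriv.ord_nonneg_of_mem v (Exhaust.mem_of_isIntegral v hyv hfint))
  obtain ⟨-, -, -, h4, h5⟩ := h
  refine ⟨?_, ?_⟩
  · rw [← h4, Nat.card_coe_set_eq, Set.ncard_eq_toFinset_card _ (hfin y hy)]
  · rw [h5, card_Q]

end count

/-! ### the order function at a point of `ℍ` -/

/-- the order function `ordAt z0` as an `OrdData`, for `σ` fixing `z0`. -/
def ordDataAt (Φ : FF N →+* Mer) (σ : SL(2, ℤ)) (z0 : ℍ) (hσ : σ • z0 = z0) :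
    OrdData N Φ σ where
  E := ⊤
  o := Mer.ordAt z0
  mem _ _ := Subfield.mem_top _
  o_mul x y _ _ hx hy := Mer.ordAt_mul z0 hx hy
  o_add x y _ _ hx hy hxy := Mer.ordAt_add z0 hx hy hxy
  o_const c hc := by
    have h : algebraMap ℂ Mer c = toMer (algebraMap ℂ Hol c) :=
      IsScalarTower.algebraMap_apply ℂ Hol Mer c
    rw [← h]
    exact Mer.ordAt_const z0 hc
  o_inv h hh x _ := by
    rw [compMer_eq_comp, Mer.ordAt_comp]
    have hle : Subgroup.zpowers σ ≤ MulAction.stabilizer SL(2, ℤ) z0 :=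
      Subgroup.zpowers_le.mpr (MulAction.mem_stabilizer_iff.mpr hσ)
    rw [MulAction.mem_stabilizer_iff.mp (hle hh)]

/-- the order of `Φ (J - a)` at `z0`, from the analytic order of `j - c`. -/
theorem ordAt_Phi_sub (hΦ : IsBridge N Φ) (a : Kbar) (c : ℂ)
    (hc : Φ (algebraMap Kbar (FF N) a) = toMer (algebraMap ℂ Hol c)) (z0 : ℍ) (k : ℕ)
    (hk : analyticOrderAt (fun w : ℂ => (jFun ∘ ofComplex) w - c) (z0 : ℂ) = k) :
    Mer.ordAt z0 (Φ (JJ N - algebraMap Kbar (FF N) a)) = k := by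
  obtain ⟨hJ, hh, hpt⟩ := hΦ.gen 1 inferInstance (one_dvd N)
  have e : ∀ z : ℍ, (hJ : ℍ → ℂ) z = jFun z := fun z => hpt z z (by simp)
  have h1 : Φ (JJ N - algebraMap Kbar (FF N) a) = toMer (hJ - algebraMap ℂ Hol c) := by
    rw [map_sub, map_sub, hh, hc]
  have h2 : Hol.ordAt z0 (hJ - algebraMap ℂ Hol c) = k := by
    rw [Hol.ordAt, ← hk]
    congr 1
    funext w
    simp [Function.comp, e]
  have h0 : hJ - algebraMap ℂ Hol c ≠ 0 := by
    intro h
    rw [h, (Hol.ordAt_eq_top_iff z0 0).mpr rfl] at h2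
    exact ENat.top_ne_coe k h2
  rw [h1, Mer.ordAt_toMer z0 h0, Hol.ordNat, h2]
  rfl

section finite

variable [NeZero N]

/-- **Fibre over a finite point**, general form. -/
theorem card_fibre_at (hΦ : IsBridge N Φ)
    (hinv : ∀ f : FF N, ∃ n ∈ Kbar⟮JJ N⟯, Φ n = ∏ q : Q N, conjMer Φ q f)
    [FiniteDimensional Kbar⟮JJ N⟯ (FF N)] (htr : Transcendental Kbar (JJ N))
    (hfin : ∀ y : FF N, Transcendental Kbar y →
      {v : Place Kbar (FF N) | 0 < v.ord y}.Finite)
    (hsum : ∀ (y : FF N) (hy : Transcendental Kbar y),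
      ∑ v ∈ (hfin y hy).toFinset, v.ord y = (Module.finrank Kbar⟮y⟯ (FF N) : ℤ))
    (happrox : ∀ (y : FF N), Transcendental Kbar y → ∀ v : Place Kbar (FF N), 0 < v.ord y →
      ∀ S : Finset (Place Kbar (FF N)), (∀ w ∈ S, 0 < w.ord y) → v ∉ S →
      ∃ f : FF N, f ≠ 0 ∧ IsIntegral (Algebra.adjoin Kbar {y}) f ∧ 0 < v.ord f ∧
        ∀ w ∈ S, w.ord f = 0)
    (a : Kbar) (σ : SL(2, ℤ)) (z0 : ℍ) (hσ : σ • z0 = z0) (s : ℕ) (hs : 0 < s)
    (hsy : Mer.ordAt z0 (Φ (JJ N - algebraMap Kbar (FF N) a)) = s)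
    (horb : ∀ c : Q N, Nat.card (MulAction.orbit (Subgroup.zpowers σ) c) ∣ s)
    (hdvd : ∀ (c : Q N) (f : FF N), f ≠ 0 →
      ((s / Nat.card (MulAction.orbit (Subgroup.zpowers σ) c) : ℕ) : ℤ) ∣
        Mer.ordAt z0 (conjMer Φ c f)) :
    Nat.card {v : Place Kbar (FF N) | 0 < v.ord (JJ N - algebraMap Kbar (FF N) a)}
        = Nat.card (MulAction.orbitRel.Quotient (Subgroup.zpowers σ) (Q N)) ∧
      Module.finrank Kbar⟮JJ N⟯ (FF N) = ModularCurve.dedekindPsi N := by
  have hy0 : JJ N - algebraMap Kbar (FF N) a ≠ 0 := by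
    intro h
    rw [h, map_zero, Mer.ordAt_zero] at hsy
    omega
  have hy : JJ N - algebraMap Kbar (FF N) a ∈ Kbar⟮JJ N⟯ :=
    sub_mem (mem_adjoin_simple_self Kbar _) (IntermediateField.algebraMap_mem _ a)
  have hyJ : Kbar⟮JJ N - algebraMap Kbar (FF N) a⟯ = Kbar⟮JJ N⟯ :=
    FFGlue.adjoin_sub_const_eq (JJ N) a
  have hJy : JJ N ∈ Kbar⟮JJ N - algebraMap Kbar (FF N) a⟯ := by
    rw [hyJ]
    exact mem_adjoin_simple_self Kbar _
  exact card_zeros ((ordDataAt Φ σ z0 hσ).mkModel hΦ hinv _ hy hJy hy0 s hs hsy horb hdvd) hΦ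
    (FFGlue.transcendental_sub_const htr a) hyJ hfin hsum happrox

end finite

/-! ### the trivial group -/

theorem orbit_one_eq (c : Q N) :
    MulAction.orbit (Subgroup.zpowers (1 : SL(2, ℤ))) c = {c} := by
  ext x
  constructor
  · rintro ⟨⟨h, hh⟩, rfl⟩
    rw [Subgroup.zpowers_one_eq_bot, Subgroup.mem_bot] at hh
    subst hh
    show (1 : SL(2, ℤ)) • c ∈ ({c} : Set (Q N))
    rw [one_smul]
    exact Set.mem_singleton c
  · intro hx
    rw [Set.mem_singleton_iff] at hx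
    subst hx
    exact MulAction.mem_orbit_self _

theorem card_orbit_one (c : Q N) :
    Nat.card (MulAction.orbit (Subgroup.zpowers (1 : SL(2, ℤ))) c) = 1 := by
  rw [orbit_one_eq]
  simp

theorem card_orbits_one :
    Nat.card (MulAction.orbitRel.Quotient (Subgroup.zpowers (1 : SL(2, ℤ))) (Q N))
      = Nat.card (Q N) := by
  symm
  refine Nat.card_eq_of_bijective
    (Quotient.mk'' : Q N → MulAction.orbitRel.Quotient (Subgroup.zpowers (1 : SL(2, ℤ))) (Q N))
    ⟨?_, Quotient.mk''_surjective⟩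
  intro x y hxy
  have h : x ∈ MulAction.orbit (Subgroup.zpowers (1 : SL(2, ℤ))) y :=
    MulAction.orbitRel_apply.mp (Quotient.exact' hxy)
  rw [orbit_one_eq] at h
  exact h

/-! ### invariance of conjugates attached to fixed cosets -/

theorem comp_conjMer_of_fixed (hΦ : IsBridge N Φ) (σ : SL(2, ℤ)) (c : Q N) (hc : σ • c = c)
    (f : FF N) : Mer.comp σ (conjMer Φ c f) = conjMer Φ c f := by
  have h := hΦ.compMer_conjMer σ⁻¹ c f
  rw [inv_inv, compMer_eq_comp] at h
  have hc' : σ⁻¹ • c = c := by rw [inv_smul_eq_iff, hc]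
  rw [h, hc']

section special

variable [NeZero N] (hΦ : IsBridge N Φ)
  (hinv : ∀ f : FF N, ∃ n ∈ Kbar⟮JJ N⟯, Φ n = ∏ q : Q N, conjMer Φ q f)
  [FiniteDimensional Kbar⟮JJ N⟯ (FF N)] (htr : Transcendental Kbar (JJ N))
  (hfin : ∀ y : FF N, Transcendental Kbar y →
    {v : Place Kbar (FF N) | 0 < v.ord y}.Finite)
  (hsum : ∀ (y : FF N) (hy : Transcendental Kbar y),
    ∑ v ∈ (hfin y hy).toFinset, v.ord y = (Module.finrank Kbar⟮y⟯ (FF N) : ℤ))
  (happrox : ∀ (y : FF N), Transcendental Kbar y → ∀ v : Place Kbar (FF N), 0 < v.ord y →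
    ∀ S : Finset (Place Kbar (FF N)), (∀ w ∈ S, 0 < w.ord y) → v ∉ S →
    ∃ f : FF N, f ≠ 0 ∧ IsIntegral (Algebra.adjoin Kbar {y}) f ∧ 0 < v.ord f ∧
      ∀ w ∈ S, w.ord f = 0)

include hΦ hinv htr hsum happrox

/-- **(T0) + generic fibres**: over `a ≠ 0, 1728` there are `[F : K(J)] = ψ(N)` places. -/
theorem card_fibre_generic (a : Kbar) (ha0 : a ≠ 0) (ha1 : a ≠ 1728) :
    Nat.card {v : Place Kbar (FF N) | 0 < v.ord (JJ N - algebraMap Kbar (FF N) a)}
        = Module.finrank Kbar⟮JJ N⟯ (FF N) ∧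
      Module.finrank Kbar⟮JJ N⟯ (FF N) = ModularCurve.dedekindPsi N := by
  obtain ⟨c, hc⟩ := hΦ.const a
  have hinj : Function.Injective (Φ.comp (algebraMap Kbar (FF N))) := RingHom.injective _
  have hc0 : c ≠ 0 := by
    rintro rfl
    rw [map_zero, map_zero] at hc
    exact ha0 (hinj (by rw [RingHom.comp_apply, hc, map_zero]))
  have hc1 : c ≠ 1728 := by
    rintro rfl
    apply ha1
    apply hinj
    rw [RingHom.comp_apply, hc, map_ofNat, map_ofNat, map_ofNat]
  obtain ⟨z0, hz0⟩ := jFun_surjective c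
  have hk : analyticOrderAt (fun w : ℂ => (jFun ∘ ofComplex) w - c) (z0 : ℂ) = ((1 : ℕ) : ℕ∞) := by
    have h := analyticOrderAt_jFun_sub_generic (z0 := z0) (by rw [hz0]; exact hc0)
      (by rw [hz0]; exact hc1)
    rw [hz0] at h
    rw [h]
    rfl
  have hsy := ordAt_Phi_sub hΦ a c hc z0 1 hk
  obtain ⟨h1, h2⟩ := card_fibre_at hΦ hinv htr hfin hsum happrox a 1 z0 (one_smul _ z0) 1
    one_pos hsy (fun c => by rw [card_orbit_one]) (fun c f _ => by
      rw [card_orbit_one]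
      exact one_dvd _)
  refine ⟨?_, h2⟩
  rw [h1, card_orbits_one, h2]
  exact card_quotient_Gamma0 N

open ModularGroup in
/-- **(T3)**: the fibre over `1728`. -/
theorem card_fibre_1728 :
    2 * Nat.card {v : Place Kbar (FF N) |
        0 < v.ord (JJ N - algebraMap Kbar (FF N) (1728 : Kbar))}
      = ModularCurve.dedekindPsi N + ModularCurve.nuTwo N := by
  have hc : Φ (algebraMap Kbar (FF N) (1728 : Kbar)) = toMer (algebraMap ℂ Hol (1728 : ℂ)) := by
    rw [map_ofNat, map_ofNat, map_ofNat, map_ofNat]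
  have hk : analyticOrderAt (fun w : ℂ => (jFun ∘ ofComplex) w - (1728 : ℂ))
      ((UpperHalfPlane.I : ℍ) : ℂ) = ((2 : ℕ) : ℕ∞) := by
    rw [analyticOrderAt_jFun_sub_1728 jFun_I]
    rfl
  have hsy := ordAt_Phi_sub hΦ (1728 : Kbar) 1728 hc UpperHalfPlane.I 2 hk
  obtain ⟨h1, -⟩ := card_fibre_at hΦ hinv htr hfin hsum happrox (1728 : Kbar) S
    UpperHalfPlane.I S_smul_I 2 two_pos hsy
    (fun c => by
      rcases card_orbit_S N c with h | h
      · rw [h.1]; exact one_dvd _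
      · rw [h.1])
    (fun c f hf => by
      rcases card_orbit_S N c with h | h
      · rw [h.1]
        have hev := Mer.even_ordAt_of_S (conjMer_ne_zero c hf) S_smul_I
          (comp_conjMer_of_fixed hΦ S c h.2 f)
        exact hev.two_dvd
      · rw [h.1]
        exact one_dvd _)
  rw [h1]
  exact two_mul_card_orbits_S N

open ModularGroup in
/-- **(T2)**: the fibre over `0`. -/
theorem card_fibre_zero :
    3 * Nat.card {v : Place Kbar (FF N) |
        0 < v.ord (JJ N - algebraMap Kbar (FF N) (0 : Kbar))}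
      = ModularCurve.dedekindPsi N + 2 * ModularCurve.nuThree N := by
  have hc : Φ (algebraMap Kbar (FF N) (0 : Kbar)) = toMer (algebraMap ℂ Hol (0 : ℂ)) := by
    rw [map_zero, map_zero, map_zero, map_zero]
  have hk : analyticOrderAt (fun w : ℂ => (jFun ∘ ofComplex) w - (0 : ℂ))
      ((rho : ℍ) : ℂ) = ((3 : ℕ) : ℕ∞) := by
    have h := analyticOrderAt_jFun_zero jFun_rho
    have e : (fun w : ℂ => (jFun ∘ ofComplex) w - (0 : ℂ)) = jFun ∘ ofComplex := by
      funext w
      rw [sub_zero]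
    rw [e, h]
    rfl
  have hsy := ordAt_Phi_sub hΦ (0 : Kbar) 0 hc rho 3 hk
  obtain ⟨h1, -⟩ := card_fibre_at hΦ hinv htr hfin hsum happrox (0 : Kbar) (S * T)
    rho ST_smul_rho 3 (by norm_num) hsy
    (fun c => by
      rcases card_orbit_ST N c with h | h
      · rw [h.1]; exact one_dvd _
      · rw [h.1])
    (fun c f hf => by
      rcases card_orbit_ST N c with h | h
      · rw [h.1]
        exact Mer.three_dvd_ordAt_of_ST rfl (conjMer_ne_zero c hf) ST_smul_rho
          (comp_conjMer_of_fixed hΦ (S * T) c h.2 f)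
      · rw [h.1]
        exact one_dvd _)
  rw [h1]
  exact three_mul_card_orbits_ST N

end special

/-! ### the fibre over `∞` -/

section cusp

variable [NeZero N]

open ModularGroup in
/-- **(T4)**: the poles of `J`, from an order function at the cusp `∞` (in the local parameter
`q^{1/N}`), invariant under `T`. -/
theorem card_poles (hΦ : IsBridge N Φ)
    (hinv : ∀ f : FF N, ∃ n ∈ Kbar⟮JJ N⟯, Φ n = ∏ q : Q N, conjMer Φ q f)
    [FiniteDimensional Kbar⟮JJ N⟯ (FF N)] (htr : Transcendental Kbar (JJ N))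
    (hfin : ∀ y : FF N, Transcendental Kbar y →
      {v : Place Kbar (FF N) | 0 < v.ord y}.Finite)
    (hsum : ∀ (y : FF N) (hy : Transcendental Kbar y),
      ∑ v ∈ (hfin y hy).toFinset, v.ord y = (Module.finrank Kbar⟮y⟯ (FF N) : ℤ))
    (happrox : ∀ (y : FF N), Transcendental Kbar y → ∀ v : Place Kbar (FF N), 0 < v.ord y →
      ∀ S : Finset (Place Kbar (FF N)), (∀ w ∈ S, 0 < w.ord y) → v ∉ S →
      ∃ f : FF N, f ≠ 0 ∧ IsIntegral (Algebra.adjoin Kbar {y}) f ∧ 0 < v.ord f ∧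
        ∀ w ∈ S, w.ord f = 0)
    (D : OrdData N Φ T) (hsy : D.o (Φ (JJ N)⁻¹) = N)
    (horb : ∀ c : Q N, Nat.card (MulAction.orbit (Subgroup.zpowers (T : SL(2, ℤ))) c) ∣ N)
    (hdvd : ∀ (c : Q N) (f : FF N), f ≠ 0 →
      ((N / Nat.card (MulAction.orbit (Subgroup.zpowers (T : SL(2, ℤ))) c) : ℕ) : ℤ) ∣
        D.o (conjMer Φ c f)) :
    Nat.card {v : Place Kbar (FF N) | v.ord (JJ N) < 0} = ModularCurve.cuspCount N := by
  have hJ0 : JJ N ≠ 0 := by
    rintro h
    apply htr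
    rw [h]
    exact isAlgebraic_zero
  have hy0 : (JJ N)⁻¹ ≠ 0 := inv_ne_zero hJ0
  have hy : (JJ N)⁻¹ ∈ Kbar⟮JJ N⟯ := inv_mem (mem_adjoin_simple_self Kbar _)
  have hyJ : Kbar⟮(JJ N)⁻¹⟯ = Kbar⟮JJ N⟯ := Exhaust.adjoin_inv_eq (JJ N)
  have hJy : JJ N ∈ Kbar⟮(JJ N)⁻¹⟯ := by
    rw [hyJ]
    exact mem_adjoin_simple_self Kbar _
  obtain ⟨h1, -⟩ := card_zeros
    (D.mkModel hΦ hinv _ hy hJy hy0 N (Nat.pos_of_ne_zero (NeZero.ne N)) hsy horb hdvd) hΦ
    (FFPrin.transcendental_inv htr) hyJ hfin hsum happrox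
  have hset : {v : Place Kbar (FF N) | v.ord (JJ N) < 0}
      = {v : Place Kbar (FF N) | 0 < v.ord (JJ N)⁻¹} := by
    ext v
    simp only [Set.mem_ofPred_eq, Place.ord_inv]
    omega
  rw [hset, h1]
  exact card_orbits_T N

end cusp

end

end Fermat.Agent.S24.Fibres
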