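import Mathlib
import Fermat.Agent.S24.Fibres
import Fermat.Agent.S24.CuspFibre
import Fermat.Agent.S24.FiniteFibres
import Fermat.Agent.S24.FFApproxSet

/-!
# S24 (T4): the number of poles of `J` is `cuspCount N`
-/

set_option autoImplicit false

open scoped MatrixGroups
open AlgebraicCurve IntermediateField ModularCurve UpperHalfPlane CongruenceSubgroup ModularGroup
open Fermat.Agent.S20 Fermat.Agent.S24.PsiLe Fermat.Agent.S24.BridgeInv

namespace Fermat.Agent.S24.CuspCount

/-- **(T4)** the fibre of `J` over `∞` has `cuspCount N` places. -/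
theorem T4 (N : ℕ) [NeZero N] :
    Nat.card {v : Place Kbar (FF N) | v.ord (PlaceAt.J N) < 0} = ModularCurve.cuspCount N := by
  have hΦ := BridgePhi.isBridge_PhiBar N
  have htr := FiniteFibres.transcendental_J N
  have hyJ : Kbar⟮(PlaceAt.J N)⁻¹⟯ = Kbar⟮Fibres.JJ N⟯ := Exhaust.adjoin_inv_eq (PlaceAt.J N)
  obtain ⟨h1, -⟩ := Fibres.card_zeros (CuspFibre.fibreModelInf hΦ) hΦ
    (FFPrin.transcendental_inv htr) hyJ
    (FFGenus.zeros_finite' (PlaceAt.J N) htr) (FFGenus.sum_ord_zeros' (PlaceAt.J N) htr)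
    (FFGenus.happrox (PlaceAt.J N) htr)
  have hset : {v : Place Kbar (FF N) | v.ord (PlaceAt.J N) < 0}
      = {v : Place Kbar (FF N) | 0 < v.ord (PlaceAt.J N)⁻¹} := by
    ext v
    simp only [Set.mem_ofPred_eq, Place.ord_inv]
    omega
  rw [hset, h1]
  exact card_orbits_T N

end Fermat.Agent.S24.CuspCount
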