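import Mathlib
import Fermat.Agent.S24.FiniteFibres
import Fermat.Agent.S24.FFGenus
import Fermat.Agent.S24.OrbitCount

/-!
# S24 M12: the genus formula from (T0)–(T3) (landed) and (T4) (the cusp count, hypothesis)
-/

set_option autoImplicit false

open AlgebraicCurve IntermediateField ModularCurve

namespace Fermat.Agent.S24.FinalGlue

open Fermat.Agent.S24.BridgeInv Fermat.Agent.S24.PlaceAt Fermat.Agent.S24.FiniteFibres

/-- the genus formula, given the number of poles of `J` (T4). -/
theorem genus_eq_of_T4 (N : ℕ) [NeZero N]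
    [AlgebraicCurve.HasCanonicalDivisor (K := AlgebraicClosure ℚ)
      (F := ↥(ModularCurve.modularFunctionFieldBar N))]
    (T4 : Nat.card {v : Place Kbar (FF N) | v.ord (J N) < 0} = ModularCurve.cuspCount N) :
    (AlgebraicCurve.genus (AlgebraicClosure ℚ) ↥(ModularCurve.modularFunctionFieldBar N) : ℚ)
      = ModularCurve.genusFormula N := by
  have h01 : (0 : Kbar) ≠ 1728 := by norm_num
  have hg := FFGenus.genus_eq_of_two_fibres (K := Kbar) (F := FF N) (J N) (transcendental_J N)
    (0 : Kbar) 1728 h01 (fun a h0 h1 => T1 N a h0 h1)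
  have hg' : AlgebraicCurve.genus (AlgebraicClosure ℚ) ↥(ModularCurve.modularFunctionFieldBar N)
      = AlgebraicCurve.genus Kbar (FF N) := rfl
  rw [hg', hg, T0 N]
  exact Fermat.Agent.S24.genus_of_degree N _ _ _ _ (T3 N) (T2 N) T4 rfl

end Fermat.Agent.S24.FinalGlue
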