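import Mathlib
import Fermat.Prelude.Def_ModularCurve_GenusNumerics
import Fermat.Agent.S24.Fibres

/-!
# S24 (M12): assembly — the genus of `X₀(N)` from the fibres of `J`

All inputs still in flight enter as hypotheses:
* the bridge `Φ` with `IsBridge N Φ` (JBridge), the invariance statement (Inv), transcendence of
  `J` and finiteness of `F / K(J)` (Inv.lean);
* the theory of places of `F` (FFPlaces): `HRes`, `HGen`, `deg = 1`, finiteness of zeros,
  `∑ ord = degree`, approximation;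
* the order function at the cusp (CuspFibre).
-/

set_option autoImplicit false

namespace Fermat.Agent.S24.Fibres

open scoped MatrixGroups
open IntermediateField UpperHalfPlane CongruenceSubgroup AlgebraicCurve ModularGroup
open Fermat.Agent.S20 Fermat.Agent.S24.PsiLe Fermat.Agent.S24.BridgeInv

theorem genus_eq_of_inputs (N : ℕ) [NeZero N]
    [HasCanonicalDivisor (K := Kbar) (F := FF N)]
    (Φ : FF N →+* Mer) (hΦ : IsBridge N Φ)
    (hinv : ∀ f : FF N, ∃ n ∈ Kbar⟮JJ N⟯, Φ n = ∏ q : Q N, conjMer Φ q f)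
    [FiniteDimensional Kbar⟮JJ N⟯ (FF N)] (htr : Transcendental Kbar (JJ N))
    (hres : ∀ v : Place Kbar (FF N), FFGlue.HRes v)
    (hgen : ∀ (v : Place Kbar (FF N)) (t : FF N), v.ord t = 1 → FFGlue.HGen v t)
    (hdeg : ∀ v : Place Kbar (FF N), v.deg = 1)
    (hfin : ∀ y : FF N, Transcendental Kbar y →
      {v : Place Kbar (FF N) | 0 < v.ord y}.Finite)
    (hsum : ∀ (y : FF N) (hy : Transcendental Kbar y),
      ∑ v ∈ (hfin y hy).toFinset, v.ord y = (Module.finrank Kbar⟮y⟯ (FF N) : ℤ))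
    (happrox : ∀ (y : FF N), Transcendental Kbar y → ∀ v : Place Kbar (FF N), 0 < v.ord y →
      ∀ S : Finset (Place Kbar (FF N)), (∀ w ∈ S, 0 < w.ord y) → v ∉ S →
      ∃ f : FF N, f ≠ 0 ∧ IsIntegral (Algebra.adjoin Kbar {y}) f ∧ 0 < v.ord f ∧
        ∀ w ∈ S, w.ord f = 0)
    (D : OrdData N Φ T) (hsy : D.o (Φ (JJ N)⁻¹) = N)
    (horb : ∀ c : Q N, Nat.card (MulAction.orbit (Subgroup.zpowers (T : SL(2, ℤ))) c) ∣ N)
    (hdvd : ∀ (c : Q N) (f : FF N), f ≠ 0 →
      ((N / Nat.card (MulAction.orbit (Subgroup.zpowers (T : SL(2, ℤ))) c) : ℕ) : ℤ) ∣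
        D.o (conjMer Φ c f)) :
    (AlgebraicCurve.genus Kbar (FF N) : ℚ) = ModularCurve.genusFormula N := by
  have hgen0 := card_fibre_generic hΦ hinv htr hfin hsum happrox
  have T0 : Module.finrank Kbar⟮JJ N⟯ (FF N) = ModularCurve.dedekindPsi N :=
    (hgen0 1 one_ne_zero (by norm_num)).2
  have h := FFGlue.genus_eq_of_two_fibres (JJ N) htr hres hgen hdeg hfin hsum 0 1728
    (by norm_num) (fun a h0 h1 => (hgen0 a h0 h1).1)
  rw [h]
  refine genus_of_degree N _ _ _ _
    (card_fibre_zero hΦ hinv htr hfin hsum happrox)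
    (card_fibre_1728 hΦ hinv htr hfin hsum happrox)
    (card_poles hΦ hinv htr hfin hsum happrox D hsy horb hdvd) ?_
  rw [T0]

end Fermat.Agent.S24.Fibres
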