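import Mathlib
import Fermat.Agent.S24.PlaceOfOrd
import Fermat.Agent.S24.OrbitCount

/-!
# S24, package M9: bounds for the order of a function at the place of an order function

Abstract part (pure algebra over `IsOrdFun`): if every value of `ν` is divisible by `t` then
`t * ord_v y ≤ ν y` for the place `v` of `ν`; equal order functions give equal places.
-/

set_option autoImplicit false

namespace Fermat.Agent.S24

open AlgebraicCurve

variable {K F : Type*} [Field K] [Field F] [Algebra K F]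

namespace IsOrdFun

variable {ν : F → ℤ} (h : IsOrdFun K ν) (hnt : ∃ f : F, f ≠ 0 ∧ ν f ≠ 0)

/-- if `t` divides all values of `ν` then `t` divides the generator of the value group. -/
theorem dvd_gen_of_forall_dvd {t : ℤ} (ht : ∀ f : F, f ≠ 0 → t ∣ ν f) : t ∣ (h.gen hnt : ℤ) := by
  have := ht _ (h.unif_ne_zero hnt)
  rwa [h.nu_unif hnt] at this

/-- sign of `ord` is the sign of `ν`. -/
theorem ord_nonneg_iff {y : F} (hy : y ≠ 0) : 0 ≤ (h.place hnt).ord y ↔ 0 ≤ ν y := by
  rw [h.eq_gen_mul_ord hnt hy]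
  have hg : (0 : ℤ) < h.gen hnt := by exact_mod_cast h.gen_pos hnt
  constructor
  · intro h0; positivity
  · intro h0
    by_contra hneg
    rw [not_le] at hneg
    nlinarith

theorem ord_pos_iff {y : F} (hy : y ≠ 0) : 0 < (h.place hnt).ord y ↔ 0 < ν y := by
  rw [h.eq_gen_mul_ord hnt hy]
  have hg : (0 : ℤ) < h.gen hnt := by exact_mod_cast h.gen_pos hnt
  constructor
  · intro h0; positivity
  · intro h0
    by_contra hneg
    rw [not_lt] at hneg
    nlinarith

/-- **The bound**: if `t ≥ 1` divides all values of `ν` and `0 ≤ ν y` then `t * ord y ≤ ν y`. -/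
theorem mul_ord_le {t : ℕ} (ht : ∀ f : F, f ≠ 0 → (t : ℤ) ∣ ν f) {y : F} (hy : y ≠ 0)
    (hpos : 0 ≤ ν y) : (t : ℤ) * (h.place hnt).ord y ≤ ν y := by
  obtain ⟨k, hk⟩ := h.dvd_gen_of_forall_dvd hnt ht
  have hg : (0 : ℤ) < h.gen hnt := by exact_mod_cast h.gen_pos hnt
  have hord : 0 ≤ (h.place hnt).ord y := (h.ord_nonneg_iff hnt hy).mpr hpos
  have ht0 : (0 : ℤ) ≤ t := by positivity
  have hk1 : 1 ≤ k := by
    by_contra hk0
    rw [not_le] at hk0
    have : (t : ℤ) * k ≤ 0 := mul_nonpos_of_nonneg_of_nonpos ht0 (by omega)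
    omega
  calc (t : ℤ) * (h.place hnt).ord y ≤ (t : ℤ) * k * (h.place hnt).ord y := by
        have : (t : ℤ) * (h.place hnt).ord y * 1 ≤ (t : ℤ) * (h.place hnt).ord y * k :=
          mul_le_mul_of_nonneg_left hk1 (mul_nonneg ht0 hord)
        linarith
    _ = ν y := by rw [h.eq_gen_mul_ord hnt hy, hk]

/-- the trivial bound `ord y ≤ ν y`. -/
theorem ord_le {y : F} (hy : y ≠ 0) (hpos : 0 ≤ ν y) : (h.place hnt).ord y ≤ ν y := by
  have := h.mul_ord_le hnt (t := 1) (fun f _ => by simp) hy hpos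
  simpa using this

/-- equal order functions define the same place. -/
theorem place_congr {ν' : F → ℤ} (h' : IsOrdFun K ν') (hnt' : ∃ f : F, f ≠ 0 ∧ ν' f ≠ 0)
    (heq : ∀ f : F, f ≠ 0 → ν f = ν' f) : h.place hnt = h'.place hnt' := by
  apply Place.ext
  rw [place_toValuationSubring, place_toValuationSubring]
  ext f
  rw [mem_valuationSubring, mem_valuationSubring]
  by_cases hf : f = 0
  · simp [hf]
  · rw [heq f hf]

/-- `ν y = 1` forces `ord y = 1`. -/
theorem ord_eq_one_of_nu_eq_one {y : F} (hy : y ≠ 0) (h1 : ν y = 1) : (h.place hnt).ord y = 1 := by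
  have hg := h.gen_eq_one hnt ⟨y, hy, h1⟩
  rw [h.ord_place_of_gen_eq_one hnt hg hy, h1]

end IsOrdFun

/-! ### orbit bounds (abstract) -/

section OrbitBounds

open MulAction Function

variable {G X : Type*} [Group G] [MulAction G X]

/-- **Elliptic bound.** `σ` acts on `X` with `σ ^ t = 1` (`t` prime), `ν y = t`, and all values of
`ν` are divisible by `t` as soon as `c` is `σ`-fixed. Then `ord y ≤ #(⟨σ⟩-orbit of c)`. -/
theorem ord_le_card_orbit_of_prime (σ : G) (t : ℕ) (ht : t.Prime) (c : X)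
    (hσt : σ ^ t • c = c) {ν : F → ℤ} (h : IsOrdFun K ν) (hnt : ∃ f : F, f ≠ 0 ∧ ν f ≠ 0)
    {y : F} (hy : y ≠ 0) (hνy : ν y = t)
    (hdiv : σ • c = c → ∀ f : F, f ≠ 0 → (t : ℤ) ∣ ν f) :
    (h.place hnt).ord y ≤ (Nat.card (orbit (Subgroup.zpowers σ) c) : ℤ) := by
  have htpos : (0 : ℤ) < t := by exact_mod_cast ht.pos
  rcases card_orbit_zpowers σ t ht c hσt with ⟨h1, hfix⟩ | ⟨h1, -⟩
  · rw [h1]
    have := h.mul_ord_le hnt (hdiv hfix) hy (by rw [hνy]; exact htpos.le)
    rw [hνy] at this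
    push_cast
    nlinarith
  · rw [h1]
    have := h.ord_le hnt hy (by rw [hνy]; exact htpos.le)
    rwa [hνy] at this

/-- **Generic bound.** `ν y = 1` gives `ord y = 1 ≤` any orbit size. -/
theorem ord_le_card_orbit_of_one (D : Subgroup G) (c : X) [Finite (orbit D c)]
    {ν : F → ℤ} (h : IsOrdFun K ν) (hnt : ∃ f : F, f ≠ 0 ∧ ν f ≠ 0)
    {y : F} (hy : y ≠ 0) (hνy : ν y = 1) :
    (h.place hnt).ord y ≤ (Nat.card (orbit D c) : ℤ) := by
  rw [h.ord_eq_one_of_nu_eq_one hnt hy hνy]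
  have : 0 < Nat.card (orbit D c) := by
    have : Nonempty (orbit D c) := ⟨⟨c, mem_orbit_self c⟩⟩
    exact Nat.card_pos
  exact_mod_cast this

/-- **Cusp bound.** `T ^ N` fixes `c`, `ν y = N`, and all values of `ν` are divisible by `N / w`
whenever `T ^ w` fixes `c` (`w ∣ N`). Then `ord y ≤ #(⟨T⟩-orbit of c)`. -/
theorem ord_le_card_orbit_cusp (T : G) (N : ℕ) (hN : 0 < N) (c : X) (hTN : T ^ N • c = c)
    {ν : F → ℤ} (h : IsOrdFun K ν) (hnt : ∃ f : F, f ≠ 0 ∧ ν f ≠ 0)
    {y : F} (hy : y ≠ 0) (hνy : ν y = N)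
    (hdiv : ∀ w : ℕ, 0 < w → w ∣ N → T ^ w • c = c → ∀ f : F, f ≠ 0 → ((N / w : ℕ) : ℤ) ∣ ν f) :
    (h.place hnt).ord y ≤ (Nat.card (orbit (Subgroup.zpowers T) c) : ℤ) := by
  have hcard : Nat.card (orbit (Subgroup.zpowers T) c) = minimalPeriod (T • ·) c := by
    rw [Nat.card_congr (orbitZPowersEquiv T c), Nat.card_zmod]
  have hper : IsPeriodicPt (T • ·) N c := isPeriodicPt_of_pow_smul T N c hTN
  set w := minimalPeriod (T • ·) c with hw
  have hwN : w ∣ N := hper.minimalPeriod_dvd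
  have hwpos : 0 < w := hper.minimalPeriod_pos hN
  have hTw : T ^ w • c = c := by
    have := isPeriodicPt_minimalPeriod (T • ·) c
    unfold IsPeriodicPt IsFixedPt at this
    rwa [smul_iterate] at this
  rw [hcard]
  obtain ⟨k, hk⟩ := hwN
  have hkpos : 0 < k := by
    rcases Nat.eq_zero_or_pos k with h0 | h0
    · rw [h0, mul_zero] at hk; omega
    · exact h0
  have hNw : N / w = k := by rw [hk]; exact Nat.mul_div_cancel_left k hwpos
  have hNpos : (0 : ℤ) ≤ N := by positivity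
  have := h.mul_ord_le hnt (t := N / w) (hdiv w hwpos ⟨k, hk⟩ hTw) hy (by rw [hνy]; exact hNpos)
  rw [hνy, hNw, hk] at this
  push_cast at this
  have hk' : (0 : ℤ) < k := by exact_mod_cast hkpos
  nlinarith

end OrbitBounds

end Fermat.Agent.S24
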