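import Mathlib

/-!
# An abstract counting lemma for fibres

`Z` is a finite set of "places", each `v ∈ Z` carries a positive multiplicity `ordy v`, and the
multiplicities sum to `n`.  If a family of candidates `w : I → Z` is exhaustive, the multiplicity
of `w i` is bounded by `b i`, and `∑ b i ≤ n`, then `w` is injective, `#Z = #I`, and all bounds
are equalities.
-/

set_option autoImplicit false

namespace Fermat.Agent.S24.Count

open Finset

variable {P I : Type*} [Fintype I]

/-- **Counting lemma.** -/
theorem card_eq_of_candidates (Z : Finset P) (ordy : P → ℤ) (hpos : ∀ v ∈ Z, 0 < ordy v)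
    (n : ℤ) (hsum : ∑ v ∈ Z, ordy v = n) (w : I → P) (hw : ∀ i, w i ∈ Z)
    (hex : ∀ v ∈ Z, ∃ i, w i = v) (b : I → ℤ) (hb : ∀ i, ordy (w i) ≤ b i)
    (hbsum : ∑ i, b i ≤ n) :
    Function.Injective w ∧ Z.card = Fintype.card I ∧ ∀ i, ordy (w i) = b i := by
  classical
  rcases isEmpty_or_nonempty I with hI | hI
  · refine ⟨fun i => (hI.false i).elim, ?_, fun i => (hI.false i).elim⟩
    have hZ : Z = ∅ := by
      apply Finset.eq_empty_of_forall_notMem
      intro v hv
      obtain ⟨i, -⟩ := hex v hv
      exact hI.false i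
    rw [hZ, Finset.card_empty, Fintype.card_eq_zero]
  -- a section of `w`
  choose! s hs using hex
  have hbpos : ∀ i, 0 < b i := fun i => lt_of_lt_of_le (hpos _ (hw i)) (hb i)
  have hsinj : Set.InjOn s Z := by
    intro v hv v' hv' h
    rw [← hs v hv, ← hs v' hv', h]
  -- the image of the section
  set T : Finset I := Z.image s with hT
  have h1 : ∑ v ∈ Z, ordy v ≤ ∑ v ∈ Z, b (s v) := by
    apply Finset.sum_le_sum
    intro v hv
    have := hb (s v)
    rwa [hs v hv] at this
  have h2 : ∑ v ∈ Z, b (s v) = ∑ i ∈ T, b i := by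
    rw [hT, Finset.sum_image hsinj]
  have h3 : ∑ i ∈ T, b i ≤ ∑ i, b i :=
    Finset.sum_le_sum_of_subset_of_nonneg (Finset.subset_univ _) fun i _ _ => (hbpos i).le
  -- hence `T = univ`
  have hTuniv : T = Finset.univ := by
    by_contra hne
    obtain ⟨i0, hi0⟩ : ∃ i0, i0 ∉ T := by
      by_contra hall
      push Not at hall
      exact hne (Finset.eq_univ_iff_forall.mpr hall)
    have hlt : ∑ i ∈ T, b i < ∑ i, b i := by
      have : ∑ i ∈ T, b i < ∑ i ∈ insert i0 T, b i := by
        rw [Finset.sum_insert hi0]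
        linarith [hbpos i0]
      exact lt_of_lt_of_le this
        (Finset.sum_le_sum_of_subset_of_nonneg (Finset.subset_univ _) fun i _ _ => (hbpos i).le)
    linarith
  have hsurj : ∀ i, ∃ v ∈ Z, s v = i := by
    intro i
    have : i ∈ T := hTuniv ▸ Finset.mem_univ i
    rw [hT, Finset.mem_image] at this
    exact this
  have hws : ∀ i, s (w i) = i := by
    intro i
    obtain ⟨v, hv, rfl⟩ := hsurj i
    rw [hs v hv]
  have hinj : Function.Injective w := by
    intro i i' h
    rw [← hws i, ← hws i', h]
  refine ⟨hinj, ?_, ?_⟩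
  · have : Z.card = T.card := (Finset.card_image_of_injOn hsinj).symm
    rw [this, hTuniv, Finset.card_univ]
  · -- equality of the bounds
    have hsumeq : ∑ i, ordy (w i) = ∑ i, b i := by
      have h4 : ∑ v ∈ Z, ordy v = ∑ i, ordy (w i) := by
        have : ∑ v ∈ Z, ordy v = ∑ v ∈ Z, ordy (w (s v)) := by
          apply Finset.sum_congr rfl
          intro v hv
          rw [hs v hv]
        rw [this, ← Finset.sum_image (f := fun i => ordy (w i)) hsinj, ← hT, hTuniv]
      have h5 : ∑ i, ordy (w i) ≤ ∑ i, b i := Finset.sum_le_sum fun i _ => hb i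
      linarith
    intro i
    by_contra hne
    have hlt : ordy (w i) < b i := lt_of_le_of_ne (hb i) hne
    have : ∑ i, ordy (w i) < ∑ i, b i :=
      Finset.sum_lt_sum (fun i _ => hb i) ⟨i, Finset.mem_univ i, hlt⟩
    linarith

/-- **Counting lemma, orbit version.**  The candidates `w c` are indexed by a finite `G`-set `C`,
constant on the orbits of a subgroup `H`, the multiplicity of `w c` is bounded by the size of the
`H`-orbit of `c`, and the multiplicities sum to `#C`. -/
theorem card_eq_card_orbits {G C : Type*} [Group G] [MulAction G C] [Fintype C]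
    (H : Subgroup G) (Z : Finset P) (ordy : P → ℤ) (hpos : ∀ v ∈ Z, 0 < ordy v)
    (hsum : ∑ v ∈ Z, ordy v = Fintype.card C) (w : C → P) (hw : ∀ c, w c ∈ Z)
    (hex : ∀ v ∈ Z, ∃ c, w c = v) (hconst : ∀ (h : H) (c : C), w (h • c) = w c)
    (hb : ∀ c, ordy (w c) ≤ Nat.card (MulAction.orbit H c)) :
    Z.card = Nat.card (MulAction.orbitRel.Quotient H C) ∧
      (∀ c c', w c = w c' → c ∈ MulAction.orbit H c') ∧
      ∀ c, ordy (w c) = Nat.card (MulAction.orbit H c) := by
  classical
  let Ω := MulAction.orbitRel.Quotient H C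
  let _ : Fintype Ω := Fintype.ofFinite _
  -- the candidates on the orbit space
  let w' : Ω → P := fun q => Quotient.liftOn' q w (by
    intro c c' hcc'
    obtain ⟨h, rfl⟩ := hcc'
    exact hconst h c')
  have hw'mk : ∀ c : C, w' (Quotient.mk'' c) = w c := fun c => rfl
  let b : Ω → ℤ := fun q => (Nat.card q.orbit : ℤ)
  have hbmk : ∀ c : C, b (Quotient.mk'' c) = Nat.card (MulAction.orbit H c) := fun c => rfl
  have hbsum : ∑ q, b q ≤ (Fintype.card C : ℤ) := by
    have h1 : Fintype.card C = ∑ q : Ω, Nat.card q.orbit := by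
      rw [Fintype.card_congr (MulAction.selfEquivSigmaOrbits' H C), Fintype.card_sigma]
      refine Finset.sum_congr rfl fun q _ => ?_
      rw [Nat.card_eq_fintype_card]
    rw [h1]
    push_cast
    exact le_rfl
  obtain ⟨hinj, hcard, heq⟩ := card_eq_of_candidates Z ordy hpos (Fintype.card C : ℤ) hsum w'
    (fun q => by
      induction q using Quotient.inductionOn' with
      | h c => exact hw c)
    (fun v hv => by
      obtain ⟨c, hc⟩ := hex v hv
      exact ⟨Quotient.mk'' c, hc⟩)
    b
    (fun q => by
      induction q using Quotient.inductionOn' with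
      | h c => exact hb c)
    hbsum
  refine ⟨?_, ?_, ?_⟩
  · rw [hcard, Nat.card_eq_fintype_card]
  · intro c c' hcc'
    have : (Quotient.mk'' c : Ω) = Quotient.mk'' c' := hinj (by rw [hw'mk, hw'mk, hcc'])
    exact Quotient.exact' this
  · intro c
    have := heq (Quotient.mk'' c)
    rw [hw'mk, hbmk] at this
    exact this

end Fermat.Agent.S24.Count
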