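import Mathlib
import Fermat.Agent.S24.CuspFibre
import Fermat.Agent.S24.FiniteFibres
import Fermat.Agent.S20.Cusps

set_option autoImplicit false
set_option linter.unusedSectionVars false
set_option linter.unusedVariables false

/-!
# S24 (T4): the poles of `J` on `X₀(N)` are the cusps

`Nat.card {v : Place K F | v.ord J < 0} = cuspCount N`, from the fibre model over `y = J⁻¹`
(`CuspFibre.fibreModelInf`), the abstract fibre theorem `FibreModel.main` and the count of
`⟨T⟩`-orbits on `SL(2,ℤ) ⧸ Γ₀(N)` (`S20.card_orbits_T`).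
-/

namespace Fermat.Agent.S24.CuspT4

open scoped MatrixGroups
open IntermediateField UpperHalfPlane CongruenceSubgroup ModularGroup AlgebraicCurve
open Fermat.Agent.S20 Fermat.Agent.S24.PsiLe Fermat.Agent.S24.BridgeInv Fermat.Agent.S24.PlaceAt

noncomputable section

variable {N : ℕ} [NeZero N] {Φ : FF N →+* Mer}

/-- the abstract fibre theorem applied to the fibre model over `J = ∞`. -/
theorem fibre_main_inf (hΦ : IsBridge N Φ) (hJ : Transcendental Kbar (J N))
    [FiniteDimensional Kbar⟮J N⟯ (FF N)] {H : Subgroup SL(2, ℤ)}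
    (M : FibreModel Kbar (J N)⁻¹ (Q N) H) :
    Nat.card {v : Place Kbar (FF N) | v.ord (J N) < 0}
        = Nat.card (MulAction.orbitRel.Quotient H (Q N)) ∧
      Module.finrank Kbar⟮J N⟯ (FF N) = Nat.card (Q N) := by
  classical
  set y := (J N)⁻¹ with hy_def
  have hy : Transcendental Kbar y := FFPrin.transcendental_inv hJ
  have hfin := FFGenus.zeros_finite' (J N) hJ y hy
  have hsum := FFGenus.sum_ord_zeros' (J N) hJ y hy
  have hZ : ∀ v, v ∈ hfin.toFinset ↔ 0 < v.ord y := fun v => by
    rw [Set.Finite.mem_toFinset]; rfl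
  have hn : Module.finrank Kbar⟮y⟯ (FF N) = Module.finrank Kbar⟮J N⟯ (FF N) := by
    rw [hy_def, Exhaust.adjoin_inv_eq]
  have hcard : Fintype.card (Q N) ≤ Module.finrank Kbar⟮y⟯ (FF N) := by
    rw [hn, ← Nat.card_eq_fintype_card]
    have h1 : Nat.card (Q N) = ModularCurve.dedekindPsi N := card_quotient_Gamma0 N
    rw [h1]
    exact hΦ.psi_le_finrank
  have : Nonempty (Q N) := ⟨QuotientGroup.mk 1⟩
  have hmain := M.main (Module.finrank Kbar⟮y⟯ (FF N)) hcard hfin.toFinset hZ hsum
    (fun v hv S hS hvS => FFGenus.happrox (J N) hJ y hy v ((hZ v).mp hv) S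
      (fun w hw => (hZ w).mp (hS hw)) hvS)
    (fun f hf hfint v hv => by
      have hyv : y ∈ v.toValuationSubring :=
        (mem_iff_ord_nonneg v M.y_ne).mpr ((hZ v).mp hv).le
      exact (mem_iff_ord_nonneg v hf).mp (Exhaust.mem_of_isIntegral v hyv hfint))
  obtain ⟨-, -, -, hcardZ, hdeg⟩ := hmain
  constructor
  · have hset : {v : Place Kbar (FF N) | v.ord (J N) < 0} = {v | 0 < v.ord y} := by
      ext v
      simp only [Set.mem_ofPred_eq, hy_def, v.ord_inv]
      omega
    rw [hset, ← hcardZ, Nat.card_coe_set_eq, Set.ncard_eq_toFinset_card _ hfin]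
  · rw [← hn, hdeg, Nat.card_eq_fintype_card]

/-- **(T4)**, for a bridge: the number of poles of `J` is the number of cusps. -/
theorem card_poles (hΦ : IsBridge N Φ) (hJ : Transcendental Kbar (J N))
    [FiniteDimensional Kbar⟮J N⟯ (FF N)] :
    Nat.card {v : Place Kbar (FF N) | v.ord (J N) < 0} = ModularCurve.cuspCount N := by
  rw [(fibre_main_inf hΦ hJ (CuspFibre.fibreModelInf hΦ)).1]
  exact card_orbits_T N

/-- **(T4)** the number of poles of `J` on `X₀(N)` is `cuspCount N`. -/
theorem T4 (N : ℕ) [NeZero N] :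
    Nat.card {v : Place Kbar (FF N) | v.ord (J N) < 0} = ModularCurve.cuspCount N :=
  card_poles (BridgePhi.isBridge_PhiBar N) (FiniteFibres.transcendental_J N)

end

end Fermat.Agent.S24.CuspT4
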