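import Mathlib
import Fermat.Agent.S24.FFApprox

/-!
# S24 package A1 (D5, cusp form): the approximation lemma at the poles of `y`

`exists_approx_pole` is `FFApprox.exists_approx'` applied to `y⁻¹`; it has exactly the shape of the
hypothesis `happrox` of `Exhaust.exists_eq_candidate_pole`.
-/

set_option autoImplicit false
set_option linter.unusedSectionVars false
set_option linter.style.haveILetI false

namespace Fermat.Agent.S24.FFApprox

open AlgebraicCurve
open scoped IntermediateField

variable {K F : Type*} [Field K] [Field F] [Algebra K F]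

theorem adjoin_inv_eq_h18 (y : F) : K⟮y⁻¹⟯ = K⟮y⟯ := by
  apply le_antisymm
  · rw [IntermediateField.adjoin_simple_le_iff]
    exact (K⟮y⟯).inv_mem (IntermediateField.mem_adjoin_simple_self K y)
  · rw [IntermediateField.adjoin_simple_le_iff]
    have := (K⟮y⁻¹⟯).inv_mem (IntermediateField.mem_adjoin_simple_self K y⁻¹)
    rwa [inv_inv] at this

theorem finiteDimensional_adjoin_inv (y : F) [h : FiniteDimensional K⟮y⟯ F] :
    FiniteDimensional K⟮y⁻¹⟯ F := by
  have key : ∀ E1 E2 : IntermediateField K F, E1 = E2 →
      FiniteDimensional E1 F → FiniteDimensional E2 F := by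
    rintro _ _ rfl h; exact h
  exact key _ _ (adjoin_inv_eq_h18 y).symm h

theorem transcendental_inv {y : F} (hy : Transcendental K y) : Transcendental K y⁻¹ := by
  intro h
  apply hy
  have := h.inv
  rwa [inv_inv] at this

/-- Approximation lemma at the poles of `y`: a pole `v` of `y` which differs from finitely many
poles `P c` of `y` is separated from them by a nonzero element integral over `K[y⁻¹]`. -/
theorem exists_approx_pole [CharZero K] (y : F) (hy : Transcendental K y)
    [FiniteDimensional K⟮y⟯ F] (v : Place K F) (hv : v.ord y < 0)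
    {ι : Type*} [Finite ι] (P : ι → Place K F)
    (hP : ∀ c, (P c).ord y < 0) (hne : ∀ c, v ≠ P c) :
    ∃ f : F, f ≠ 0 ∧ IsIntegral (Algebra.adjoin K {y⁻¹}) f ∧ 0 < v.ord f ∧
      ∀ c, (P c).ord f = 0 := by
  haveI := finiteDimensional_adjoin_inv (K := K) y
  refine exists_approx' y⁻¹ (transcendental_inv hy) v ?_ P ?_ hne
  · rw [v.ord_inv]; omega
  · intro c
    rw [(P c).ord_inv]
    have := hP c
    omega

end Fermat.Agent.S24.FFApprox
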