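import Mathlib
import Fermat.Agent.S24.FFApprox
import Fermat.Agent.S24.FFApproxPole
import Fermat.Agent.S24.FFKaehler

/-!
# S24: the approximation lemma, `Finset`-packaged (shape of the modular architect's `happrox`)

Thin adapters around `FFApprox.exists_approx'` / `FFApprox.exists_approx_pole`.
-/

set_option autoImplicit false

namespace Fermat.Agent.S24.FFApproxFin

open AlgebraicCurve IntermediateField

variable {K F : Type*} [Field K] [Field F] [Algebra K F]

/-- approximation lemma over the zeros of `y`, with `FiniteDimensional K⟮y⟯ F` as an instance. -/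
theorem happrox_zero [CharZero K] (y : F) (hy : Transcendental K y) [FiniteDimensional K⟮y⟯ F]
    (v : Place K F) (hv : 0 < v.ord y) (S : Finset (Place K F)) (hS : ∀ w ∈ S, 0 < w.ord y)
    (hvS : v ∉ S) :
    ∃ f : F, f ≠ 0 ∧ IsIntegral (Algebra.adjoin K {y}) f ∧ 0 < v.ord f ∧ ∀ w ∈ S, w.ord f = 0 := by
  obtain ⟨f, hf0, hint, hpos, hzero⟩ :=
    FFApprox.exists_approx' y hy v hv.le (fun w : S => (w : Place K F))
      (fun w => (hS w.1 w.2).le) (fun w hw => hvS (hw ▸ w.2))
  exact ⟨f, hf0, hint, hpos, fun w hw => hzero ⟨w, hw⟩⟩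

/-- approximation lemma over the poles of `y`. -/
theorem happrox_pole [CharZero K] (y : F) (hy : Transcendental K y) [FiniteDimensional K⟮y⟯ F]
    (v : Place K F) (hv : v.ord y < 0) (S : Finset (Place K F)) (hS : ∀ w ∈ S, w.ord y < 0)
    (hvS : v ∉ S) :
    ∃ f : F, f ≠ 0 ∧ IsIntegral (Algebra.adjoin K {y⁻¹}) f ∧ 0 < v.ord f ∧
      ∀ w ∈ S, w.ord f = 0 := by
  obtain ⟨f, hf0, hint, hpos, hzero⟩ :=
    FFApprox.exists_approx_pole y hy v hv (fun w : S => (w : Place K F))
      (fun w => hS w.1 w.2) (fun w hw => hvS (hw ▸ w.2))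
  exact ⟨f, hf0, hint, hpos, fun w hw => hzero ⟨w, hw⟩⟩

/-- **`happrox`** in exactly the shape consumed by the modular side (board #463): for a function
field `F / K` of one variable (`x` transcendental, `[F : K(x)] < ∞`). -/
theorem happrox [CharZero K] (x : F) (hx : Transcendental K x) [FiniteDimensional K⟮x⟯ F] :
    ∀ (y : F) (_hy : Transcendental K y) (v : Place K F), 0 < v.ord y →
      ∀ S : Finset (Place K F), (∀ w ∈ S, 0 < w.ord y) → v ∉ S →
        ∃ f : F, f ≠ 0 ∧ IsIntegral (Algebra.adjoin K {y}) f ∧ 0 < v.ord f ∧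
          ∀ w ∈ S, w.ord f = 0 := by
  intro y hy v hv S hS hvS
  have : FiniteDimensional K⟮y⟯ F := finiteDimensional_adjoin_simple x hx y hy
  exact happrox_zero y hy v hv S hS hvS

end Fermat.Agent.S24.FFApproxFin
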