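import Mathlib

/-!
# S24 package A (D1): exchange of transcendental generators

If `F` is finite over `K(x)` with `x` transcendental over `K`, and `y ∈ F` is transcendental
over `K`, then `F` is finite over `K(y)`.
-/

set_option autoImplicit false

namespace Fermat.Agent.S24

open IntermediateField

section FFTrdeg

variable {K F : Type*} [Field K] [Field F] [Algebra K F]

/-- exchange: `x` is algebraic over `K(y)` -/
theorem isAlgebraic_adjoin_of_transcendental (x y : F) (hx : Transcendental K x)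
    [FiniteDimensional K⟮x⟯ F] (hy : Transcendental K y) : IsAlgebraic K⟮y⟯ x := by
  have halg : Algebra.IsAlgebraic K⟮x⟯ F := Algebra.IsAlgebraic.of_finite K⟮x⟯ F
  have h1 : IsAlgebraic K⟮x⟯ y := Algebra.IsAlgebraic.isAlgebraic y
  have h2 : IsAlgebraic (Algebra.adjoin K {x}) y := isAlgebraic_adjoin_iff.mp h1
  have h3 := IsAlgebraic.adjoin_singleton (R := K) (A := F) (B := F) hx hy h2
  exact isAlgebraic_adjoin_iff.mpr h3

/-- `F` finite over `K(x)`, `x` and `y` transcendental over `K`: then `F` is finite over `K(y)` -/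
theorem finiteDimensional_adjoin_of_transcendental (x y : F) (hx : Transcendental K x)
    [FiniteDimensional K⟮x⟯ F] (hy : Transcendental K y) : FiniteDimensional K⟮y⟯ F :=
  let Fyx := restrictScalars K K⟮y⟯⟮x⟯
  let Fxy := restrictScalars K K⟮x⟯⟮y⟯
  let : Algebra K⟮y⟯ Fyx := K⟮y⟯⟮x⟯.algebra
  let : Module K⟮y⟯ Fyx := Algebra.toModule
  let : SMul K⟮y⟯ Fyx := Algebra.toSMul
  let : Algebra K⟮x⟯ Fxy := K⟮x⟯⟮y⟯.algebra
  let : Module K⟮x⟯ Fxy := Algebra.toModule
  let : SMul K⟮x⟯ Fxy := Algebra.toSMul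
  have : FiniteDimensional K⟮y⟯ Fyx :=
    adjoin.finiteDimensional
      (isAlgebraic_iff_isIntegral.mp (isAlgebraic_adjoin_of_transcendental x y hx hy))
  have : FiniteDimensional Fyx F := by
    unfold Fyx
    rw [adjoin_simple_comm]
    have : IsScalarTower K⟮x⟯ Fxy F := isScalarTower_mid' K⟮x⟯⟮y⟯
    exact .right K⟮x⟯ Fxy F
  have : IsScalarTower K⟮y⟯ Fyx F := isScalarTower_mid' K⟮y⟯⟮x⟯
  .trans K⟮y⟯ Fyx F

end FFTrdeg

end Fermat.Agent.S24
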