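import Mathlib

set_option autoImplicit false
set_option linter.style.haveILetI false

/-!
# S24: the counting squeeze for the places over a point

Abstract combinatorial core of the argument "all bounds are equalities": a finite set `Z`
(the places over `c`) with multiplicities `e ≥ 1` summing to `n`, covered by a family `pl : X → Z`
indexed by a finite `D`-set `X`, constant on `D`-orbits, with `e (pl i) ≤ |D • i|` and `|X| ≤ n`.
Then `n = |X|`, the fibres of `pl` are exactly the `D`-orbits, `|Z| = #orbits`, and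
`e (pl i) = |D • i|`.
-/

namespace Fermat.Agent.S24.FiberCount

open scoped BigOperators

variable {P X D : Type*} [Group D] [MulAction D X] [Fintype X]

/-- the `D`-orbits -/
abbrev Orb (D X : Type*) [Group D] [MulAction D X] : Type _ := MulAction.orbitRel.Quotient D X

theorem sum_card_orbit [DecidableEq X] [Fintype (Orb D X)] :
    ∑ ω : Orb D X, Nat.card ω.orbit = Fintype.card X := by
  classical
  have h := Fintype.card_congr (MulAction.selfEquivSigmaOrbits' D X)
  rw [h, Fintype.card_sigma]
  refine Finset.sum_congr rfl (fun ω _ => ?_)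
  rw [Nat.card_eq_fintype_card]

/-- **Counting squeeze.** -/
theorem squeeze (Z : Finset P) (e : P → ℕ) (n : ℕ)
    (he : ∀ v ∈ Z, 1 ≤ e v) (hsum : ∑ v ∈ Z, e v = n)
    (hn : Fintype.card X ≤ n)
    (pl : X → P) (hpl : ∀ i, pl i ∈ Z) (hexh : ∀ v ∈ Z, ∃ i, pl i = v)
    (hinv : ∀ (d : D) (i : X), pl (d • i) = pl i)
    (hbound : ∀ i, e (pl i) ≤ Nat.card (MulAction.orbit D i)) :
    n = Fintype.card X ∧
      (∀ i j, pl i = pl j → ∃ d : D, d • i = j) ∧
      Z.card = Nat.card (Orb D X) ∧
      ∀ i, e (pl i) = Nat.card (MulAction.orbit D i) := by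
  classical
  letI : Fintype (Orb D X) := Fintype.ofFinite _
  -- `pl` descends to orbits
  let plbar : Orb D X → P := fun ω => Quotient.liftOn' ω pl (by
    intro a b hab
    rw [MulAction.orbitRel_apply] at hab
    obtain ⟨d, rfl⟩ := hab
    exact hinv d b)
  have hplbar : ∀ i : X, plbar (Quotient.mk'' i) = pl i := fun i => rfl
  have hplbarZ : ∀ ω, plbar ω ∈ Z := by
    intro ω
    induction ω using Quotient.inductionOn' with
    | h i => exact hpl i
  have horb : ∀ i : X, MulAction.orbitRel.Quotient.orbit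
      (Quotient.mk'' i : MulAction.orbitRel.Quotient D X) = MulAction.orbit D i := fun i =>
    MulAction.orbitRel.Quotient.orbit_mk i
  have hb : ∀ ω : Orb D X, e (plbar ω) ≤ Nat.card ω.orbit := by
    intro ω
    induction ω using Quotient.inductionOn' with
    | h i =>
      rw [horb]
      exact hbound i
  -- the chain of inequalities
  have h1 : ∑ ω : Orb D X, e (plbar ω) ≤ Fintype.card X := by
    rw [← sum_card_orbit (D := D) (X := X)]
    exact Finset.sum_le_sum (fun ω _ => hb ω)
  have h2 : ∑ ω : Orb D X, e (plbar ω) =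
      ∑ v ∈ Z, e v * (Finset.univ.filter (fun ω : Orb D X => plbar ω = v)).card := by
    rw [← Finset.sum_fiberwise_of_maps_to (s := Finset.univ) (t := Z) (g := plbar)
      (fun ω _ => hplbarZ ω)]
    refine Finset.sum_congr rfl (fun v _ => ?_)
    rw [Finset.sum_congr rfl (fun ω hω => by rw [(Finset.mem_filter.mp hω).2] :
      ∀ ω ∈ Finset.univ.filter (fun ω : Orb D X => plbar ω = v), e (plbar ω) = e v)]
    rw [Finset.sum_const, smul_eq_mul, mul_comm]
  have hfib : ∀ v ∈ Z, 1 ≤ (Finset.univ.filter (fun ω : Orb D X => plbar ω = v)).card := by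
    intro v hv
    obtain ⟨i, hi⟩ := hexh v hv
    exact Finset.card_pos.mpr ⟨Quotient.mk'' i, Finset.mem_filter.mpr ⟨Finset.mem_univ _, hi⟩⟩
  have h3 : n ≤ ∑ ω : Orb D X, e (plbar ω) := by
    rw [h2, ← hsum]
    refine Finset.sum_le_sum (fun v hv => ?_)
    calc e v = e v * 1 := (mul_one _).symm
      _ ≤ _ := Nat.mul_le_mul_left _ (hfib v hv)
  have hnX : n = Fintype.card X := le_antisymm (h3.trans h1) hn
  have hsumeq : ∑ ω : Orb D X, e (plbar ω) = ∑ ω : Orb D X, Nat.card ω.orbit := by
    rw [sum_card_orbit (D := D) (X := X)]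
    exact le_antisymm h1 (hnX ▸ h3)
  -- termwise equality
  have heq : ∀ ω : Orb D X, e (plbar ω) = Nat.card ω.orbit := by
    intro ω
    have := (Finset.sum_eq_sum_iff_of_le (fun ω _ => hb ω)).mp hsumeq ω (Finset.mem_univ ω)
    exact this
  -- fibres are singletons
  have hsum2 : ∑ v ∈ Z, e v * (Finset.univ.filter (fun ω : Orb D X => plbar ω = v)).card =
      ∑ v ∈ Z, e v := by
    rw [← h2, hsum]
    exact le_antisymm (h1.trans hn) h3
  have hfib1 : ∀ v ∈ Z, (Finset.univ.filter (fun ω : Orb D X => plbar ω = v)).card = 1 := by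
    intro v hv
    have hle : ∀ v ∈ Z, e v ≤ e v * (Finset.univ.filter (fun ω : Orb D X => plbar ω = v)).card :=
      fun v hv => by
        calc e v = e v * 1 := (mul_one _).symm
          _ ≤ _ := Nat.mul_le_mul_left _ (hfib v hv)
    have := (Finset.sum_eq_sum_iff_of_le hle).mp hsum2.symm v hv
    have hev : 0 < e v := he v hv
    have h' : e v * 1 = e v * (Finset.univ.filter (fun ω : Orb D X => plbar ω = v)).card := by
      rw [mul_one]; exact this
    exact (Nat.eq_of_mul_eq_mul_left hev h').symm
  have hinj : Function.Injective plbar := by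
    intro ω ω' h
    have hc := hfib1 (plbar ω) (hplbarZ ω)
    rw [Finset.card_eq_one] at hc
    obtain ⟨a, ha⟩ := hc
    have m1 : ω ∈ Finset.univ.filter (fun ω'' : Orb D X => plbar ω'' = plbar ω) :=
      Finset.mem_filter.mpr ⟨Finset.mem_univ _, rfl⟩
    have m2 : ω' ∈ Finset.univ.filter (fun ω'' : Orb D X => plbar ω'' = plbar ω) :=
      Finset.mem_filter.mpr ⟨Finset.mem_univ _, h.symm⟩
    rw [ha, Finset.mem_singleton] at m1 m2
    rw [m1, m2]
  refine ⟨hnX, ?_, ?_, ?_⟩
  · intro i j hij
    have : (Quotient.mk'' i : Orb D X) = Quotient.mk'' j := hinj (by rw [hplbar, hplbar, hij])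
    have hrel := Quotient.exact' this
    rw [MulAction.orbitRel_apply] at hrel
    obtain ⟨d, hd⟩ := hrel
    exact ⟨d⁻¹, by rw [← hd, inv_smul_smul]⟩
  · rw [Nat.card_eq_fintype_card, ← Finset.card_univ]
    symm
    refine Finset.card_bij (fun ω _ => plbar ω) (fun ω _ => hplbarZ ω)
      (fun ω _ ω' _ h => hinj h) ?_
    intro v hv
    obtain ⟨i, hi⟩ := hexh v hv
    exact ⟨Quotient.mk'' i, Finset.mem_univ _, hi⟩
  · intro i
    have := heq (Quotient.mk'' i)
    rw [horb] at this
    exact this

end Fermat.Agent.S24.FiberCount
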