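import Mathlib
import Fermat.Prelude.Def_ModularCurve_ArithmeticGalois

/-!
# S24: the function field `F = ℚ̄(j(q^d) : d ∣ N)` is generated by `ℚ̄` and the `J_d`

Two ring homomorphisms out of `F := modularFunctionFieldBar N` which agree on the constants and on
the generators `J_d = coeffEmb (qExpand d jq)`, `d ∣ N`, are equal.  Consequence: a ring
endomorphism `g` of a field `M` which fixes `Φ (const)` and `Φ (J_d)` fixes all of `Φ F`
(`Γ₀(N)`-invariance of `Φ f`).
-/

set_option autoImplicit false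
set_option linter.unusedSectionVars false

noncomputable section

namespace Fermat.Agent.S24.GenF

open ModularCurve IntermediateField

local notation "Kbar" => AlgebraicClosure ℚ

variable (N : ℕ)

/-- the generator `J_d` of the function field -/
def Jd (d : ℕ) [NeZero d] (hd : d ∣ N) : ↥(modularFunctionFieldBar N) :=
  ⟨coeffEmb Kbar (qExpand ℚ d jq), coeffEmb_mem_laurentBaseChange Kbar (jqd_mem_full N hd)⟩

@[simp] lemma coe_Jd (d : ℕ) [NeZero d] (hd : d ∣ N) :
    ((Jd N d hd : ↥(modularFunctionFieldBar N)) : LaurentSeries Kbar)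
      = coeffEmb Kbar (qExpand ℚ d jq) := rfl

/-- the generator `J = J_1` -/
def J : ↥(modularFunctionFieldBar N) := Jd N 1 (one_dvd N)

lemma coe_J : ((J N : ↥(modularFunctionFieldBar N)) : LaurentSeries Kbar) = coeffEmb Kbar jq := by
  show coeffEmb Kbar (qExpand ℚ 1 jq) = coeffEmb Kbar jq
  rw [qExpand_one_apply]

lemma coeffEmb_algebraMap (r : ℚ) :
    coeffEmb Kbar (algebraMap ℚ (LaurentSeries ℚ) r)
      = algebraMap Kbar (LaurentSeries Kbar) (algebraMap ℚ Kbar r) := by
  rw [algebraMap_laurentSeries_eq_single, algebraMap_laurentSeries_eq_single, coeffEmb,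
    coeffMap_single]

/-- **Generation lemma**: ring homomorphisms out of `F` are determined by their values on the
constants and on the `J_d`. -/
theorem ringHom_ext {Ω : Type*} [Field Ω] (σ τ : ↥(modularFunctionFieldBar N) →+* Ω)
    (hK : ∀ k : Kbar, σ (algebraMap Kbar ↥(modularFunctionFieldBar N) k)
      = τ (algebraMap Kbar ↥(modularFunctionFieldBar N) k))
    (hJ : ∀ (d : ℕ) [NeZero d] (hd : d ∣ N), σ (Jd N d hd) = τ (Jd N d hd)) : σ = τ := by
  -- first: agreement on `coeffEmb y`, `y` in the rational function field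
  have h0 : ∀ (y : LaurentSeries ℚ) (hy : y ∈ modularFunctionFieldFull N),
      σ ⟨coeffEmb Kbar y, coeffEmb_mem_laurentBaseChange Kbar hy⟩
        = τ ⟨coeffEmb Kbar y, coeffEmb_mem_laurentBaseChange Kbar hy⟩ := by
    intro y hy
    refine IntermediateField.adjoin_induction (F := ℚ) (s := divisorExpansions N)
      (p := fun y hy => σ ⟨coeffEmb Kbar y, coeffEmb_mem_laurentBaseChange Kbar hy⟩
        = τ ⟨coeffEmb Kbar y, coeffEmb_mem_laurentBaseChange Kbar hy⟩) ?_ ?_ ?_ ?_ ?_ hy
    · rintro x ⟨d, hdne, hd, rfl⟩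
      have := hdne
      exact hJ d hd
    · intro r
      have : (⟨coeffEmb Kbar (algebraMap ℚ (LaurentSeries ℚ) r),
          coeffEmb_mem_laurentBaseChange Kbar
            ((modularFunctionFieldFull N).algebraMap_mem r)⟩ : ↥(modularFunctionFieldBar N))
          = algebraMap Kbar ↥(modularFunctionFieldBar N) (algebraMap ℚ Kbar r) := by
        apply Subtype.ext
        exact coeffEmb_algebraMap r
      rw [this]; exact hK _
    · intro x y hx hy h1 h2
      have : (⟨coeffEmb Kbar (x + y), coeffEmb_mem_laurentBaseChange Kbar (add_mem hx hy)⟩ :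
          ↥(modularFunctionFieldBar N))
          = ⟨coeffEmb Kbar x, coeffEmb_mem_laurentBaseChange Kbar hx⟩
            + ⟨coeffEmb Kbar y, coeffEmb_mem_laurentBaseChange Kbar hy⟩ := by
        apply Subtype.ext
        exact map_add (coeffEmb Kbar) x y
      rw [this, map_add, map_add, h1, h2]
    · intro x hx h1
      have : (⟨coeffEmb Kbar x⁻¹, coeffEmb_mem_laurentBaseChange Kbar (inv_mem hx)⟩ :
          ↥(modularFunctionFieldBar N))
          = (⟨coeffEmb Kbar x, coeffEmb_mem_laurentBaseChange Kbar hx⟩ :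
            ↥(modularFunctionFieldBar N))⁻¹ := by
        apply Subtype.ext
        exact map_inv₀ (coeffEmb Kbar) x
      rw [this, map_inv₀, map_inv₀, h1]
    · intro x y hx hy h1 h2
      have : (⟨coeffEmb Kbar (x * y), coeffEmb_mem_laurentBaseChange Kbar (mul_mem hx hy)⟩ :
          ↥(modularFunctionFieldBar N))
          = ⟨coeffEmb Kbar x, coeffEmb_mem_laurentBaseChange Kbar hx⟩
            * ⟨coeffEmb Kbar y, coeffEmb_mem_laurentBaseChange Kbar hy⟩ := by
        apply Subtype.ext
        exact map_mul (coeffEmb Kbar) x y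
      rw [this, map_mul, map_mul, h1, h2]
  -- second: all of `F`
  ext ⟨x, hx⟩
  refine IntermediateField.adjoin_induction (F := Kbar)
    (s := ⇑(coeffEmb Kbar) '' (modularFunctionFieldFull N : Set (LaurentSeries ℚ)))
    (p := fun x hx => σ ⟨x, hx⟩ = τ ⟨x, hx⟩) ?_ ?_ ?_ ?_ ?_ hx
  · rintro x ⟨y, hy, rfl⟩
    exact h0 y hy
  · intro k
    exact hK k
  · intro x y hx hy h1 h2
    have : (⟨x + y, add_mem hx hy⟩ : ↥(modularFunctionFieldBar N)) = ⟨x, hx⟩ + ⟨y, hy⟩ := rfl
    rw [this, map_add, map_add, h1, h2]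
  · intro x hx h1
    have : (⟨x⁻¹, inv_mem hx⟩ : ↥(modularFunctionFieldBar N))
        = (⟨x, hx⟩ : ↥(modularFunctionFieldBar N))⁻¹ := rfl
    rw [this, map_inv₀, map_inv₀, h1]
  · intro x y hx hy h1 h2
    have : (⟨x * y, mul_mem hx hy⟩ : ↥(modularFunctionFieldBar N)) = ⟨x, hx⟩ * ⟨y, hy⟩ := rfl
    rw [this, map_mul, map_mul, h1, h2]

/-- **Invariance**: a ring endomorphism of `M` fixing `Φ` of the constants and of the generators
fixes `Φ f` for every `f : F`. -/
theorem comp_eq_of_fix {M : Type*} [Field M] (Φ : ↥(modularFunctionFieldBar N) →+* M)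
    (g : M →+* M)
    (hK : ∀ k : Kbar, g (Φ (algebraMap Kbar ↥(modularFunctionFieldBar N) k))
      = Φ (algebraMap Kbar ↥(modularFunctionFieldBar N) k))
    (hJ : ∀ (d : ℕ) [NeZero d] (hd : d ∣ N), g (Φ (Jd N d hd)) = Φ (Jd N d hd))
    (f : ↥(modularFunctionFieldBar N)) : g (Φ f) = Φ f := by
  have := ringHom_ext N (g.comp Φ) Φ hK (fun d _ hd => hJ d hd)
  exact congrFun (congrArg DFunLike.coe this) f

end Fermat.Agent.S24.GenF
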