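import Mathlib
import Fermat.Agent.S24.Inv
import Fermat.Agent.S24.CuspExp
import Fermat.Agent.S24.JPoly

/-!
# S24 (M6b): the analytic input (H) of `Inv.lean`, unconditionally

For every bridge `Φ : FF N →+* Mer` the hypothesis `Inv.HInvFF N Φ` holds: take for `S` the subring
of `Hol` of functions with an `ι(K)`-rational `q_N`-expansion of finite pole order
(`CuspExp.IsRatExp`), where `ι = Inv.iota hΦ : Kbar →+* ℂ`.

* constants `ι a` are in `S` (`CuspExp.isRatExp_const_range`);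
* the conjugates `z ↦ j (d (g⁻¹ z))` are in `S` (`CuspExp.isRatExp_conjG_jFun`);
* the `SL(2,ℤ)`-invariant elements of `S` are polynomials in `j` over `ι(K)`
  (`JPoly.exists_poly_map_jFun_of_hasRatExp`).

Consequences (all unconditional in the bridge): (Inv), integrality of the `J_d` over `K[J]`,
finiteness of `F / K(J)`.
-/

set_option autoImplicit false

open UpperHalfPlane
open scoped MatrixGroups

namespace Fermat.Agent.S24.InvRat

open Fermat.Agent.S24.BridgeInv Fermat.Agent.S24.PsiLe Fermat.Agent.S20 ModularCurve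

noncomputable section

local notation "𝕢" => Function.Periodic.qParam

/-- the two rationality predicates agree: `CuspExp.IsRatExp` gives `JPoly.HasRatExp`. -/
theorem hasRatExp_of_isRatExp {A : Subring ℂ} {N : ℕ} (hN : 0 < N) {f : ℍ → ℂ}
    (hf : CuspExp.IsRatExp A N f) : JPoly.HasRatExp N A f := by
  obtain ⟨m, c, hc, hsum⟩ := hf.exists_hasSum hN
  refine ⟨m, PowerSeries.mk c, fun n => ?_, fun z => ?_⟩
  · rw [PowerSeries.coeff_mk]
    exact hc n
  · have := hsum z
    simpa only [JPoly.qq, PowerSeries.coeff_mk] using this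

/-- the `q`-expansion of `jFun * q` in the shape used by `JPoly`. -/
theorem exists_rep_jFun (A : Subring ℂ) :
    ∃ c : PowerSeries ℂ, JPoly.CoeffIn A c ∧ JPoly.Rep 1 c (fun z => jFun z * JPoly.qq 1 z) := by
  obtain ⟨P, G, hPA, hP, hG⟩ := CuspExp.jRat_jFun A
  refine ⟨P, hPA, fun z => ?_⟩
  have h1 : JPoly.qq 1 z = 𝕢 1 (z : ℂ) := JPoly.qq_one z
  show HasSum (fun n => PowerSeries.coeff n P * JPoly.qq 1 z ^ n) (jFun z * JPoly.qq 1 z)
  rw [h1, hG z]
  have h2 : ‖𝕢 (1 : ℝ) (z : ℂ)‖ < 1 := by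
    have := CuspExp.norm_qParam_lt_one (N := 1) one_pos z
    simpa using this
  exact hP _ h2

variable {N : ℕ} [NeZero N] {Φ : FF N →+* Mer}

/-- the subring of `Hol` of functions with an `A`-rational `q_N`-expansion of finite pole order -/
def ratHol (A : Subring ℂ) (N : ℕ) : Subring Hol :=
  (CuspExp.ratExpSubring A N).comap Hol.toSubring.subtype

theorem mem_ratHol {A : Subring ℂ} {N : ℕ} {h : Hol} :
    h ∈ ratHol A N ↔ CuspExp.IsRatExp A N (h : ℍ → ℂ) := Iff.rfl

/-- **the analytic input (H) holds for every bridge.** -/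
theorem hInvFF (hΦ : IsBridge N Φ) : Inv.HInvFF N Φ := by
  have hN : 0 < N := Nat.pos_of_ne_zero (NeZero.ne N)
  refine Inv.HInvFF_of_subring hΦ (ratHol (Inv.iota hΦ).range N) ?_ ?_ ?_
  · intro a
    rw [mem_ratHol]
    exact CuspExp.isRatExp_const_range (Inv.iota hΦ) N a
  · intro g d _ hd
    rw [mem_ratHol]
    exact CuspExp.isRatExp_conjG_jFun (Inv.iota hΦ) hN d hd g
  · intro h hh hinv
    obtain ⟨c, hc, hJ⟩ := exists_rep_jFun (Inv.iota hΦ).range
    exact JPoly.exists_poly_map_jFun_of_hasRatExp (Inv.iota hΦ) hc hJ h.2 hinv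
      (hasRatExp_of_isRatExp hN (mem_ratHol.1 hh))

/-- **(Inv)** for every bridge, in the shape of `hinv` of `Exhaust.exists_eq_candidate`. -/
theorem inv_FF (hΦ : IsBridge N Φ) (f : FF N) :
    ∃ n ∈ IntermediateField.adjoin Kbar {Inv.Jgen N}, Φ n = ∏ c : Q N, compMer c.out⁻¹ (Φ f) :=
  Inv.inv_FF hΦ (hInvFF hΦ) f

/-- (Inv) stated with `conjMer`. -/
theorem inv_FF' (hΦ : IsBridge N Φ) (f : FF N) :
    ∃ n ∈ IntermediateField.adjoin Kbar {Inv.Jgen N}, Φ n = ∏ c : Q N, conjMer Φ c f :=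
  Inv.inv_FF' hΦ (hInvFF hΦ) f

/-- every `J_d` is integral over `K[J]`. -/
theorem isIntegral_Jd (hΦ : IsBridge N Φ) (d : ℕ) [NeZero d] (hd : d ∣ N) :
    IsIntegral (Algebra.adjoin Kbar {Inv.Jgen N}) (Jd N d hd) :=
  Inv.isIntegral_Jd hΦ (hInvFF hΦ) d hd

/-- `F / K(J)` is finite. -/
theorem finiteDimensional_FF (hΦ : IsBridge N Φ) :
    FiniteDimensional (IntermediateField.adjoin Kbar {Inv.Jgen N}) (FF N) :=
  Inv.finiteDimensional_FF hΦ (hInvFF hΦ)

omit [NeZero N] in
/-- `J` is transcendental over `K` (re-export). -/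
theorem transcendental_Jgen (hΦ : IsBridge N Φ) : Transcendental Kbar (Inv.Jgen N) :=
  Inv.transcendental_Jgen hΦ

end

end Fermat.Agent.S24.InvRat
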