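import Mathlib
import Fermat.Agent.S24.JFun

set_option autoImplicit false

/-!
# S24: polynomials in `j`, ℂ-form

* `FinGrowth f`: `f · q^m` is bounded at `i∞` for some `m : ℕ` (closed under `+`, `*`, `neg`, constants).
* `eq_polynomial_jFun`: a holomorphic `SL(2,ℤ)`-invariant function of finite growth at `i∞` is a
  polynomial in `jFun` with complex coefficients.
-/

namespace Fermat.Agent.S24.JPolyC

open UpperHalfPlane Filter Topology CongruenceSubgroup Polynomial
open scoped MatrixGroups ModularForm Manifold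
open Fermat.Agent.S20 Fermat.Agent.S24

noncomputable section

/-- finite order pole at `i∞`. -/
def FinGrowth (f : ℍ → ℂ) : Prop :=
  ∃ m : ℕ, IsBoundedAtImInfty (fun z => f z * expFn (m : ℝ) z)

theorem finGrowth_of_le {f : ℍ → ℂ} {m m' : ℕ} (h : m ≤ m')
    (hf : IsBoundedAtImInfty (fun z => f z * expFn (m : ℝ) z)) :
    IsBoundedAtImInfty (fun z => f z * expFn (m' : ℝ) z) := by
  have h1 : IsBoundedAtImInfty (expFn ((m' - m : ℕ) : ℝ)) :=
    isBoundedAtImInfty_expFn (Nat.cast_nonneg _)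
  have h2 := hf.mul h1
  refine h2.congr' ?_ (Filter.EventuallyEq.refl _ _)
  filter_upwards with z
  have : ((m' : ℝ)) = (m : ℝ) + ((m' - m : ℕ) : ℝ) := by
    rw [Nat.cast_sub h]; ring
  simp only [Pi.mul_apply]
  rw [this, expFn_add]
  ring

theorem FinGrowth.const (c : ℂ) : FinGrowth (fun _ => c) := by
  refine ⟨0, ?_⟩
  have : (fun z : ℍ => c * expFn ((0 : ℕ) : ℝ) z) = fun _ => c := by
    funext z; simp [expFn_zero]
  rw [this]
  exact Filter.const_boundedAtFilter _ c

theorem FinGrowth.add {f g : ℍ → ℂ} (hf : FinGrowth f) (hg : FinGrowth g) :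
    FinGrowth (fun z => f z + g z) := by
  obtain ⟨m, hm⟩ := hf
  obtain ⟨n, hn⟩ := hg
  refine ⟨max m n, ?_⟩
  have h1 := finGrowth_of_le (le_max_left m n) hm
  have h2 := finGrowth_of_le (le_max_right m n) hn
  refine (h1.add h2).congr' ?_ (Filter.EventuallyEq.refl _ _)
  filter_upwards with z
  simp only [Pi.add_apply]
  ring

theorem FinGrowth.mul {f g : ℍ → ℂ} (hf : FinGrowth f) (hg : FinGrowth g) :
    FinGrowth (fun z => f z * g z) := by
  obtain ⟨m, hm⟩ := hf
  obtain ⟨n, hn⟩ := hg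
  refine ⟨m + n, ?_⟩
  refine (hm.mul hn).congr' ?_ (Filter.EventuallyEq.refl _ _)
  filter_upwards with z
  simp only [Pi.mul_apply]
  rw [Nat.cast_add, expFn_add]
  ring

theorem FinGrowth.neg {f : ℍ → ℂ} (hf : FinGrowth f) : FinGrowth (fun z => -f z) := by
  have := (FinGrowth.const (-1)).mul hf
  refine ⟨this.choose, ?_⟩
  have h := this.choose_spec
  refine h.congr' ?_ (Filter.EventuallyEq.refl _ _)
  filter_upwards with z
  ring

theorem finGrowth_jFun : FinGrowth jFun :=
  ⟨1, by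
    have := tendsto_jFun_mul_expFn_one.isBigO_one ℝ
    have h1 : ((1 : ℕ) : ℝ) = 1 := Nat.cast_one
    rw [h1]
    exact this⟩


/-! ### Polynomials in `j` -/

theorem periodic_of_inv {f : ℍ → ℂ} (hinv : ∀ (γ : SL(2, ℤ)) (z : ℍ), f (γ • z) = f z) (z : ℍ) :
    f ((1 : ℝ) +ᵥ z) = f z := by
  have := hinv ModularGroup.T z
  rwa [UpperHalfPlane.modular_T_smul] at this

theorem expFn_nat_vadd_one (m : ℕ) (z : ℍ) :
    expFn (m : ℝ) ((1 : ℝ) +ᵥ z) = expFn (m : ℝ) z := by
  rw [expFn_vadd_one]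
  have : Complex.exp (2 * (Real.pi : ℂ) * Complex.I * ((m : ℝ) : ℂ)) = 1 := by
    have := Complex.exp_nat_mul_two_pi_mul_I m
    rw [← this]
    congr 1
    push_cast
    ring
  rw [this, one_mul]

theorem twisted_limit_zero {φ : ℍ → ℂ} (hφ : MDiff φ) (hb : IsBoundedAtImInfty φ)
    (hper : ∀ z : ℍ, φ ((1 : ℝ) +ᵥ z) = φ z) :
    ∃ l : ℂ, Tendsto φ atImInfty (𝓝 l) ∧
      (l = 0 → IsBoundedAtImInfty (fun z : ℍ => φ z * expFn (-1) z)) := by
  have hper' : ∀ z : ℍ, φ ((1 : ℝ) +ᵥ z) =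
      Complex.exp (2 * (Real.pi : ℂ) * Complex.I * ((0 : ℝ) : ℂ)) * φ z := by
    intro z
    rw [hper z]
    simp
  obtain ⟨l, hl, hdec⟩ := twisted_limit hφ hb (lam := 0) (by norm_num) hper'
  refine ⟨l, ?_, fun h0 => ?_⟩
  · refine hl.congr fun z => ?_
    simp [expFn_zero]
  · have := hdec h0
    refine this.congr' ?_ (Filter.EventuallyEq.refl _ _)
    filter_upwards with z
    norm_num

theorem eq_polynomial_jFun_aux (m : ℕ) : ∀ f : ℍ → ℂ, MDiff f →
    (∀ (γ : SL(2, ℤ)) (z : ℍ), f (γ • z) = f z) →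
    IsBoundedAtImInfty (fun z => f z * expFn (m : ℝ) z) →
    ∃ P : Polynomial ℂ, ∀ z, f z = P.eval (jFun z) := by
  induction m with
  | zero =>
    intro f hf hinv hb
    have hb' : IsBoundedAtImInfty f := by
      refine hb.congr' ?_ (Filter.EventuallyEq.refl _ _)
      filter_upwards with z
      simp [expFn_zero]
    have hslash : ∀ γ : SL(2, ℤ), f ∣[(0 : ℤ)] γ = f := by
      intro γ
      funext z
      rw [ModularForm.SL_slash_apply, hinv]
      simp
    have hMF : IsMF 1 0 f := ⟨hf, fun γ _ => hslash γ, fun δ => by rw [hslash δ]; exact hb'⟩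
    obtain ⟨c, hc⟩ := hMF.eq_const_of_weight_zero
    exact ⟨C c, fun z => by rw [hc]; simp⟩
  | succ m ih =>
    intro f hf hinv hb
    set φ : ℍ → ℂ := fun z => f z * expFn ((m + 1 : ℕ) : ℝ) z with hφ
    have hφmd : MDiff φ := hf.mul (mdiff_expFn _)
    have hφper : ∀ z : ℍ, φ ((1 : ℝ) +ᵥ z) = φ z := by
      intro z
      simp only [hφ]
      rw [periodic_of_inv hinv, expFn_nat_vadd_one]
    obtain ⟨l, hl, -⟩ := twisted_limit_zero hφmd hb hφper
    set g : ℍ → ℂ := fun z => f z - l * jFun z ^ (m + 1) with hg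
    have hgmd : MDiff g := hf.sub (mdifferentiable_const.mul (mdiff_jFun.pow (m + 1)))
    have hginv : ∀ (γ : SL(2, ℤ)) (z : ℍ), g (γ • z) = g z := by
      intro γ z
      simp only [hg]
      rw [hinv, jFun_smul]
    set ψ : ℍ → ℂ := fun z => g z * expFn ((m + 1 : ℕ) : ℝ) z with hψ
    have hψmd : MDiff ψ := hgmd.mul (mdiff_expFn _)
    have hψper : ∀ z : ℍ, ψ ((1 : ℝ) +ᵥ z) = ψ z := by
      intro z
      simp only [hψ]
      rw [periodic_of_inv hginv, expFn_nat_vadd_one]
    have hpow : ∀ (n : ℕ) (z : ℍ), expFn ((n : ℕ) : ℝ) z = expFn 1 z ^ n := by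
      intro n z
      induction n with
      | zero => simp [expFn_zero]
      | succ n ihn => rw [Nat.cast_succ, expFn_add, ihn, pow_succ]
    have hψlim : Tendsto ψ atImInfty (𝓝 0) := by
      have h1 := (tendsto_jFun_mul_expFn_one.pow (m + 1)).const_mul l
      have h2 := hl.sub h1
      rw [one_pow, mul_one, sub_self] at h2
      refine h2.congr fun z => ?_
      simp only [hψ, hφ, hg]
      rw [hpow (m + 1) z]
      ring
    have hψb : IsBoundedAtImInfty ψ := hψlim.isBigO_one ℝ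
    obtain ⟨l', hl', hdec⟩ := twisted_limit_zero hψmd hψb hψper
    have hl'0 : l' = 0 := tendsto_nhds_unique hl' hψlim
    have hgb : IsBoundedAtImInfty (fun z => g z * expFn (m : ℝ) z) := by
      refine (hdec hl'0).congr' ?_ (Filter.EventuallyEq.refl _ _)
      filter_upwards with z
      simp only [hψ]
      rw [mul_assoc, ← expFn_add]
      congr 2
      push_cast
      ring
    obtain ⟨Q, hQ⟩ := ih g hgmd hginv hgb
    refine ⟨Q + C l * X ^ (m + 1), fun z => ?_⟩
    have := hQ z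
    simp only [hg] at this
    simp only [eval_add, eval_mul, eval_C, eval_pow, eval_X, ← this]
    ring

/-- **ℂ-form of the polynomial-in-`j` lemma.** -/
theorem eq_polynomial_jFun {f : ℍ → ℂ} (hf : MDiff f)
    (hinv : ∀ (γ : SL(2, ℤ)) (z : ℍ), f (γ • z) = f z) (hg : FinGrowth f) :
    ∃ P : Polynomial ℂ, ∀ z, f z = P.eval (jFun z) := by
  obtain ⟨m, hm⟩ := hg
  exact eq_polynomial_jFun_aux m f hf hinv hm

end

end Fermat.Agent.S24.JPolyC
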