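import Mathlib
import Fermat.Prelude.Def_ModularCurve_ArithmeticGalois
import Fermat.Agent.S24.Mer
import Fermat.Agent.S24.JFun
import Fermat.Agent.S24.JConj

/-!
# S24: every element of the modular function field is `Γ₀(N)`-invariant on the analytic side

`Φ : F →+* Mer` any ring hom from `F = modularFunctionFieldBar N` sending constants to constants
and the generators `J_d` (`d ∣ N`) to `z ↦ jFun (d z)`.  Then for `γ ∈ Γ₀(N)` and any ring
endomorphism `c` of `Mer` inducing `h ↦ h ∘ γ` on holomorphic functions, `c (Φ f) = Φ f`.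
More generally, two ring homs `F →+* M` agreeing on constants and on the `J_d` are equal.
-/

set_option autoImplicit false

namespace Fermat.Agent.S24

open UpperHalfPlane CongruenceSubgroup ModularCurve
open scoped MatrixGroups

noncomputable section

/-- Two ring homs out of a base-changed Laurent field which agree on the constants and on the
images of a generating set of `F₀` are equal. -/
theorem ringHom_ext_laurentBaseChange {L : Type*} [Field L] [Algebra ℚ L]
    (S : Set (LaurentSeries ℚ)) {M : Type*} [Field M]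
    (Ψ₁ Ψ₂ : ↥(laurentBaseChange L (IntermediateField.adjoin ℚ S)) →+* M)
    (hK : ∀ a : L, Ψ₁ (algebraMap L _ a) = Ψ₂ (algebraMap L _ a))
    (hS : ∀ y (hy : y ∈ S), Ψ₁ ⟨coeffEmb L y, coeffEmb_mem_laurentBaseChange L
        (IntermediateField.subset_adjoin ℚ S hy)⟩ =
      Ψ₂ ⟨coeffEmb L y, coeffEmb_mem_laurentBaseChange L
        (IntermediateField.subset_adjoin ℚ S hy)⟩) :
    Ψ₁ = Ψ₂ := by
  -- the equaliser
  let E : Subfield ↥(laurentBaseChange L (IntermediateField.adjoin ℚ S)) :=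
    RingHom.eqLocusField Ψ₁ Ψ₂
  have hE : ∀ x, x ∈ E ↔ Ψ₁ x = Ψ₂ x := fun x => Iff.rfl
  -- its image in the Laurent series
  let E₁ : Subfield (LaurentSeries L) :=
    E.map (laurentBaseChange L (IntermediateField.adjoin ℚ S)).val.toRingHom
  have hE₁ : ∀ x, x ∈ E₁ ↔ ∃ f ∈ E, ((f : ↥(laurentBaseChange L (IntermediateField.adjoin ℚ S))) :
      LaurentSeries L) = x := fun x => Iff.rfl
  have hconst : ∀ a : L, algebraMap L (LaurentSeries L) a ∈ E₁ := by
    intro a
    rw [hE₁]
    exact ⟨algebraMap L _ a, (hE _).mpr (hK a), rfl⟩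
  let E₁' : IntermediateField L (LaurentSeries L) := E₁.toIntermediateField hconst
  -- pull back to rational Laurent series
  let E₂ : Subfield (LaurentSeries ℚ) := E₁.comap (coeffEmb L)
  have hE₂ : ∀ y, y ∈ E₂ ↔ coeffEmb L y ∈ E₁ := fun y => Iff.rfl
  have hrat : ∀ a : ℚ, algebraMap ℚ (LaurentSeries ℚ) a ∈ E₂ := by
    intro a
    rw [hE₂]
    have : coeffEmb L (algebraMap ℚ (LaurentSeries ℚ) a)
        = algebraMap L (LaurentSeries L) (algebraMap ℚ L a) := by
      rw [algebraMap_apply_eq_single, algebraMap_laurentSeries_eq_single]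
      ext k
      simp only [coeffEmb_coeff, HahnSeries.coeff_single]
      split_ifs <;> simp
    rw [this]
    exact hconst _
  let E₂' : IntermediateField ℚ (LaurentSeries ℚ) := E₂.toIntermediateField hrat
  have hF₀le : IntermediateField.adjoin ℚ S ≤ E₂' := by
    rw [IntermediateField.adjoin_le_iff]
    intro y hy
    show y ∈ E₂
    rw [hE₂, hE₁]
    exact ⟨⟨coeffEmb L y, coeffEmb_mem_laurentBaseChange L
      (IntermediateField.subset_adjoin ℚ S hy)⟩, (hE _).mpr (hS y hy), rfl⟩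
  have hFFle : laurentBaseChange L (IntermediateField.adjoin ℚ S) ≤ E₁' := by
    rw [laurentBaseChange, IntermediateField.adjoin_le_iff]
    rintro x ⟨y, hy, rfl⟩
    exact hF₀le hy
  ext f
  have hf : (f : LaurentSeries L) ∈ E₁ := hFFle f.2
  rw [hE₁] at hf
  obtain ⟨f', hf', hff'⟩ := hf
  have : f' = f := Subtype.ext hff'
  rw [← this]
  exact (hE _).mp hf'

variable (N : ℕ) [NeZero N]

/-- The generator `J_d` as an element of the modular function field. -/
def Jd (d : ℕ) [NeZero d] (hd : d ∣ N) : ↥(modularFunctionFieldBar N) :=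
  ⟨coeffEmb (AlgebraicClosure ℚ) (qExpand ℚ d jq),
    coeffEmb_mem_laurentBaseChange (AlgebraicClosure ℚ) (jqd_mem_full N hd)⟩

omit [NeZero N] in
/-- **Extensionality for ring homs out of the modular function field.** -/
theorem ringHom_ext_modularFunctionFieldBar {M : Type*} [Field M]
    (Ψ₁ Ψ₂ : ↥(modularFunctionFieldBar N) →+* M)
    (hK : ∀ a : AlgebraicClosure ℚ, Ψ₁ (algebraMap _ _ a) = Ψ₂ (algebraMap _ _ a))
    (hJ : ∀ (d : ℕ) [NeZero d] (hd : d ∣ N), Ψ₁ (Jd N d hd) = Ψ₂ (Jd N d hd)) :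
    Ψ₁ = Ψ₂ := by
  apply ringHom_ext_laurentBaseChange (divisorExpansions N) Ψ₁ Ψ₂ hK
  rintro y ⟨d, hd0, hd, rfl⟩
  exact @hJ d hd0 hd

omit [NeZero N] in
/-- **`Γ₀(N)`-invariance of the analytic realisation.** -/
theorem phi_invariant (Φ : ↥(modularFunctionFieldBar N) →+* Mer)
    (hK : ∀ a : AlgebraicClosure ℚ, ∃ c : ℂ, Φ (algebraMap _ _ a) = toMer (algebraMap ℂ Hol c))
    (hJ : ∀ (d : ℕ) [NeZero d] (hd : d ∣ N), ∃ h : Hol, Φ (Jd N d hd) = toMer h ∧
      ∀ z : ℍ, (h : ℍ → ℂ) z = jFun (JConj.mulN d z))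
    (γ : SL(2, ℤ)) (hγ : γ ∈ Gamma0 N) (c : Mer →+* Mer)
    (hc : ∀ h h' : Hol, (∀ z : ℍ, (h' : ℍ → ℂ) z = (h : ℍ → ℂ) (γ • z)) → c (toMer h) = toMer h')
    (f : ↥(modularFunctionFieldBar N)) : c (Φ f) = Φ f := by
  have key : c.comp Φ = Φ := by
    apply ringHom_ext_modularFunctionFieldBar N
    · intro a
      obtain ⟨c0, hc0⟩ := hK a
      rw [RingHom.comp_apply, hc0]
      exact hc _ _ (fun z => rfl)
    · intro d _ hd
      obtain ⟨h, hh, hz⟩ := hJ d hd
      rw [RingHom.comp_apply, hh]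
      apply hc
      intro z
      rw [hz, hz]
      exact (JConj.comp_smul_eq_of_mem_Gamma0_of_dvd jFun_smul hd γ hγ z).symm
  exact congrFun (congrArg DFunLike.coe key) f

end

end Fermat.Agent.S24
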