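import Mathlib
import Fermat.Prelude.Def_AlgebraicCurve_DivisorClassGroup

/-!
# S24: a `Place` from a `ℤ`-valued valuation

`ZVal K F`: a function `w : F → ℤ` which is additive on products of nonzero elements, satisfies
the ultrametric inequality, vanishes on `K ∖ {0}` and is not identically zero on `F ∖ {0}`
(e.g. the order of vanishing at a point of the upper half plane of a field of meromorphic
functions).  We build the associated `AlgebraicCurve.Place K F`, whose normalised order function
is `w / index`, `index` the positive generator of the value group `w (Fˣ)`.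
-/

set_option autoImplicit false
set_option linter.unusedSectionVars false
set_option linter.unusedVariables false

noncomputable section

namespace Fermat.Agent.S24

open AlgebraicCurve

variable (K F : Type*) [Field K] [Field F] [Algebra K F]

/-- a `ℤ`-valued valuation on `F`, trivial on `K`, nontrivial on `F` -/
structure ZVal where
  /-- the order function -/
  w : F → ℤ
  w_zero : w 0 = 0
  w_mul : ∀ {x y : F}, x ≠ 0 → y ≠ 0 → w (x * y) = w x + w y
  w_add : ∀ {x y : F}, x ≠ 0 → y ≠ 0 → x + y ≠ 0 → min (w x) (w y) ≤ w (x + y)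
  w_alg : ∀ a : K, a ≠ 0 → w (algebraMap K F a) = 0
  nontrivial : ∃ x : F, x ≠ 0 ∧ w x ≠ 0

namespace ZVal

variable {K F}
variable (V : ZVal K F)

lemma w_one : V.w 1 = 0 := by
  have h := V.w_mul (one_ne_zero (α := F)) (one_ne_zero (α := F))
  rw [mul_one] at h
  linarith

lemma w_inv {x : F} (hx : x ≠ 0) : V.w x⁻¹ = -V.w x := by
  have h := V.w_mul hx (inv_ne_zero hx)
  rw [mul_inv_cancel₀ hx, V.w_one] at h
  linarith

lemma w_neg_one : V.w (-1) = 0 := by
  have h := V.w_mul (neg_ne_zero.mpr (one_ne_zero (α := F))) (neg_ne_zero.mpr (one_ne_zero (α := F)))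
  rw [neg_one_mul, neg_neg, V.w_one] at h
  linarith

lemma w_neg (x : F) : V.w (-x) = V.w x := by
  rcases eq_or_ne x 0 with rfl | hx
  · simp
  · have h := V.w_mul (neg_ne_zero.mpr (one_ne_zero (α := F))) hx
    rw [neg_one_mul, V.w_neg_one, zero_add] at h
    exact h

lemma w_div {x y : F} (hx : x ≠ 0) (hy : y ≠ 0) : V.w (x / y) = V.w x - V.w y := by
  rw [div_eq_mul_inv, V.w_mul hx (inv_ne_zero hy), V.w_inv hy]; ring

lemma w_pow {x : F} (hx : x ≠ 0) (n : ℕ) : V.w (x ^ n) = n * V.w x := by
  induction n with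
  | zero => simp [V.w_one]
  | succ n ih =>
    rw [pow_succ, V.w_mul (pow_ne_zero n hx) hx, ih]; push_cast; ring

lemma w_zpow {x : F} (hx : x ≠ 0) (n : ℤ) : V.w (x ^ n) = n * V.w x := by
  cases n with
  | ofNat n => simpa using V.w_pow hx n
  | negSucc n =>
    rw [zpow_negSucc, V.w_inv (pow_ne_zero _ hx), V.w_pow hx]
    push_cast [Int.negSucc_eq]; ring

/-- nonnegativity predicate -/
def NonNeg (x : F) : Prop := x = 0 ∨ 0 ≤ V.w x

lemma nonNeg_add {x y : F} (hx : V.NonNeg x) (hy : V.NonNeg y) : V.NonNeg (x + y) := by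
  rcases eq_or_ne x 0 with rfl | hx0
  · rwa [zero_add]
  rcases eq_or_ne y 0 with rfl | hy0
  · rwa [add_zero]
  rcases eq_or_ne (x + y) 0 with h | h
  · exact Or.inl h
  · right
    have hx' := hx.resolve_left hx0
    have hy' := hy.resolve_left hy0
    exact le_trans (le_min hx' hy') (V.w_add hx0 hy0 h)

lemma nonNeg_mul {x y : F} (hx : V.NonNeg x) (hy : V.NonNeg y) : V.NonNeg (x * y) := by
  rcases eq_or_ne x 0 with rfl | hx0
  · left; simp
  rcases eq_or_ne y 0 with rfl | hy0
  · left; simp
  right
  rw [V.w_mul hx0 hy0]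
  exact add_nonneg (hx.resolve_left hx0) (hy.resolve_left hy0)

lemma nonNeg_neg {x : F} (hx : V.NonNeg x) : V.NonNeg (-x) := by
  rcases hx with rfl | h
  · left; simp
  · right; rwa [V.w_neg]

/-- the valuation subring `{x | x = 0 ∨ 0 ≤ w x}` -/
def valuationSubring : ValuationSubring F where
  carrier := {x | V.NonNeg x}
  mul_mem' := fun hx hy => V.nonNeg_mul hx hy
  one_mem' := Or.inr V.w_one.ge
  add_mem' := fun hx hy => V.nonNeg_add hx hy
  zero_mem' := Or.inl rfl
  neg_mem' := fun hx => V.nonNeg_neg hx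
  mem_or_inv_mem' := fun x => by
    rcases eq_or_ne x 0 with rfl | hx
    · exact Or.inl (Or.inl rfl)
    · rcases le_total 0 (V.w x) with h | h
      · exact Or.inl (Or.inr h)
      · refine Or.inr (Or.inr ?_)
        rw [V.w_inv hx]; linarith

lemma mem_valuationSubring_iff {x : F} : x ∈ V.valuationSubring ↔ x = 0 ∨ 0 ≤ V.w x := Iff.rfl

lemma algebraMap_mem (a : K) : algebraMap K F a ∈ V.valuationSubring := by
  rcases eq_or_ne a 0 with rfl | ha
  · left; simp
  · right; rw [V.w_alg a ha]

lemma valuationSubring_ne_top : V.valuationSubring ≠ ⊤ := by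
  obtain ⟨x, hx0, hx⟩ := V.nontrivial
  intro htop
  have h1 : x ∈ V.valuationSubring := htop ▸ ValuationSubring.mem_top x
  have h2 : x⁻¹ ∈ V.valuationSubring := htop ▸ ValuationSubring.mem_top x⁻¹
  have h1' := h1.resolve_left hx0
  have h2' := h2.resolve_left (inv_ne_zero hx0)
  rw [V.w_inv hx0] at h2'
  exact hx (le_antisymm (by linarith) h1')

lemma isPrincipalIdealRing : IsPrincipalIdealRing V.valuationSubring := by
  classical
  refine ⟨fun I => ?_⟩
  by_cases hI : I = ⊥
  · exact hI ▸ bot_isPrincipal
  -- the set of values of nonzero elements of `I`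
  have hex : ∃ n : ℕ, ∃ a ∈ I, a ≠ 0 ∧ V.w (a : F) = n := by
    obtain ⟨a, haI, ha0⟩ := Submodule.exists_mem_ne_zero_of_ne_bot hI
    have haF : (a : F) ≠ 0 := fun h => ha0 (Subtype.ext h)
    have hnn : 0 ≤ V.w (a : F) := (a.2 : V.NonNeg a).resolve_left haF
    exact ⟨(V.w (a : F)).toNat, a, haI, ha0, (Int.toNat_of_nonneg hnn).symm⟩
  obtain ⟨a, haI, ha0, han⟩ := Nat.find_spec hex
  have hmin := fun m (hm : m < Nat.find hex) => Nat.find_min hex hm
  have haF : (a : F) ≠ 0 := fun h => ha0 (Subtype.ext h)
  refine ⟨⟨a, le_antisymm ?_ ?_⟩⟩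
  · intro x hxI
    rcases eq_or_ne x 0 with rfl | hx0
    · exact Submodule.zero_mem _
    have hxF : (x : F) ≠ 0 := fun h => hx0 (Subtype.ext h)
    have hxnn : 0 ≤ V.w (x : F) := (x.2 : V.NonNeg x).resolve_left hxF
    have hle : V.w (a : F) ≤ V.w (x : F) := by
      by_contra hlt
      rw [not_le] at hlt
      have hm : (V.w (x : F)).toNat < Nat.find hex := by
        have : ((V.w (x : F)).toNat : ℤ) < (Nat.find hex : ℤ) := by
          rw [Int.toNat_of_nonneg hxnn, ← han]; exact hlt
        exact_mod_cast this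
      exact hmin _ hm ⟨x, hxI, hx0, (Int.toNat_of_nonneg hxnn).symm⟩
    have hq : (x : F) / (a : F) ∈ V.valuationSubring := by
      right; rw [V.w_div hxF haF]; linarith
    rw [Submodule.mem_span_singleton]
    refine ⟨⟨_, hq⟩, Subtype.ext ?_⟩
    show (x : F) / (a : F) * (a : F) = x
    field_simp
  · rw [Submodule.span_singleton_le_iff_mem]; exact haI

/-- the place attached to a `ℤ`-valued valuation -/
def place : Place K F where
  toValuationSubring := V.valuationSubring
  algebraMap_mem' := V.algebraMap_mem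
  ne_top' := V.valuationSubring_ne_top
  isPrincipalIdealRing' := V.isPrincipalIdealRing

@[simp] lemma place_toValuationSubring : V.place.toValuationSubring = V.valuationSubring := rfl

lemma mem_place_iff {x : F} : x ∈ V.place.toValuationSubring ↔ x = 0 ∨ 0 ≤ V.w x := Iff.rfl

/-- units of the valuation ring have value `0` -/
lemma w_unit (u : V.valuationSubringˣ) : V.w ((u : V.valuationSubring) : F) = 0 := by
  have hu0 : ((u : V.valuationSubring) : F) ≠ 0 := by
    intro h
    exact u.ne_zero (Subtype.ext h)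
  have h1 : 0 ≤ V.w ((u : V.valuationSubring) : F) :=
    ((u : V.valuationSubring).2 : V.NonNeg _).resolve_left hu0
  have hinv : (((u⁻¹ : V.valuationSubringˣ) : V.valuationSubring) : F)
      = ((u : V.valuationSubring) : F)⁻¹ := by
    have : ((u : V.valuationSubring) : F) * (((u⁻¹ : V.valuationSubringˣ) : V.valuationSubring) : F)
        = 1 := by
      have h := congrArg (fun z : V.valuationSubring => (z : F)) (u.mul_inv)
      exact h
    exact eq_inv_of_mul_eq_one_right this
  have hinv0 : (((u⁻¹ : V.valuationSubringˣ) : V.valuationSubring) : F) ≠ 0 := by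
    rw [hinv]; exact inv_ne_zero hu0
  have h2 : 0 ≤ V.w (((u⁻¹ : V.valuationSubringˣ) : V.valuationSubring) : F) :=
    (((u⁻¹ : V.valuationSubringˣ) : V.valuationSubring).2 : V.NonNeg _).resolve_left hinv0
  rw [hinv, V.w_inv hu0] at h2
  linarith

/-- the set of positive values is nonempty -/
lemma exists_pos : ∃ n : ℕ, 0 < n ∧ ∃ x : F, x ≠ 0 ∧ V.w x = n := by
  obtain ⟨x, hx0, hx⟩ := V.nontrivial
  rcases lt_or_gt_of_ne hx with h | h
  · refine ⟨(-V.w x).toNat, ?_, x⁻¹, inv_ne_zero hx0, ?_⟩
    · have : 0 < -V.w x := by linarith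
      omega
    · rw [V.w_inv hx0, Int.toNat_of_nonneg (by linarith)]
  · refine ⟨(V.w x).toNat, by omega, x, hx0, ?_⟩
    rw [Int.toNat_of_nonneg h.le]

open Classical in
/-- the positive generator of the value group -/
def index : ℕ := Nat.find V.exists_pos

open Classical in
lemma index_pos : 0 < V.index := (Nat.find_spec V.exists_pos).1

open Classical in
lemma exists_w_eq_index : ∃ x : F, x ≠ 0 ∧ V.w x = V.index := (Nat.find_spec V.exists_pos).2

lemma index_le_of_pos {x : F} (hx0 : x ≠ 0) (hx : 0 < V.w x) : (V.index : ℤ) ≤ V.w x := by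
  classical
  have h : V.index ≤ (V.w x).toNat :=
    Nat.find_min' V.exists_pos ⟨by omega, x, hx0, (Int.toNat_of_nonneg hx.le).symm⟩
  have : ((V.index : ℕ) : ℤ) ≤ ((V.w x).toNat : ℤ) := by exact_mod_cast h
  rwa [Int.toNat_of_nonneg hx.le] at this

/-- every value is a multiple of the index -/
lemma index_dvd (x : F) : (V.index : ℤ) ∣ V.w x := by
  rcases eq_or_ne x 0 with rfl | hx0
  · rw [V.w_zero]; exact dvd_zero _
  obtain ⟨π, hπ0, hπ⟩ := V.exists_w_eq_index
  have hpos : (0 : ℤ) < V.index := by exact_mod_cast V.index_pos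
  -- divide with remainder
  set q := V.w x / V.index with hq
  set r := V.w x % V.index with hr
  have hr0 : 0 ≤ r := Int.emod_nonneg _ hpos.ne'
  have hr1 : r < V.index := Int.emod_lt_of_pos _ hpos
  have hy0 : x * (π ^ q)⁻¹ ≠ 0 := mul_ne_zero hx0 (inv_ne_zero (zpow_ne_zero _ hπ0))
  have hy : V.w (x * (π ^ q)⁻¹) = r := by
    rw [V.w_mul hx0 (inv_ne_zero (zpow_ne_zero _ hπ0)), V.w_inv (zpow_ne_zero _ hπ0),
      V.w_zpow hπ0, hπ]
    have := Int.emod_add_mul_ediv (V.w x) V.index
    rw [← hq, ← hr] at this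
    linarith
  rcases hr0.eq_or_lt with h | h
  · exact Int.dvd_of_emod_eq_zero h.symm
  · exfalso
    have := V.index_le_of_pos hy0 (by rw [hy]; exact h)
    rw [hy] at this
    linarith

/-- a common divisor of all values divides the index -/
lemma dvd_index {d : ℤ} (h : ∀ x : F, x ≠ 0 → d ∣ V.w x) : d ∣ (V.index : ℤ) := by
  obtain ⟨π, hπ0, hπ⟩ := V.exists_w_eq_index
  rw [← hπ]; exact h π hπ0

/-- irreducible elements of the valuation ring have value `index` -/
lemma w_irreducible {π : V.valuationSubring} (hπ : Irreducible π) :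
    V.w (π : F) = V.index := by
  have hπ0 : (π : F) ≠ 0 := fun h => hπ.ne_zero (Subtype.ext h)
  have hnn : 0 ≤ V.w (π : F) := (π.2 : V.NonNeg _).resolve_left hπ0
  -- `π` is not a unit, so `w π > 0`
  have hpos : 0 < V.w (π : F) := by
    rcases hnn.eq_or_lt with h | h
    · exfalso
      apply hπ.not_isUnit
      have hinv : (π : F)⁻¹ ∈ V.valuationSubring := by
        right; rw [V.w_inv hπ0, ← h]; simp
      exact ⟨⟨π, ⟨_, hinv⟩, Subtype.ext (mul_inv_cancel₀ hπ0),
        Subtype.ext (inv_mul_cancel₀ hπ0)⟩, rfl⟩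
    · exact h
  refine le_antisymm ?_ (V.index_le_of_pos hπ0 hpos)
  -- an element `x` of value `index` lies in the maximal ideal, hence is a multiple of `π`
  obtain ⟨x, hx0, hx⟩ := V.exists_w_eq_index
  have hidx : (0 : ℤ) < V.index := by exact_mod_cast V.index_pos
  by_contra hlt
  rw [not_le] at hlt
  -- `x / π` has negative value but `π / x`... use irreducibility: `π = x * (π / x)`
  have hq : (π : F) / x ∈ V.valuationSubring := by
    right; rw [V.w_div hπ0 hx0, hx]; linarith
  have hxmem : x ∈ V.valuationSubring := by right; rw [hx]; exact hidx.le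
  have hfac : π = ⟨x, hxmem⟩ * ⟨(π : F) / x, hq⟩ := by
    apply Subtype.ext
    show (π : F) = x * ((π : F) / x)
    field_simp
  rcases hπ.isUnit_or_isUnit hfac with hu | hu
  · obtain ⟨u, hu⟩ := hu
    have := V.w_unit u
    rw [hu] at this
    simp only at this
    rw [hx] at this
    linarith
  · obtain ⟨u, hu⟩ := hu
    have := V.w_unit u
    rw [hu] at this
    simp only at this
    rw [V.w_div hπ0 hx0, hx] at this
    linarith

/-- **the normalised order of the place is `w / index`** -/
theorem place_ord_mul_index (f : F) : V.place.ord f * V.index = V.w f := by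
  rcases eq_or_ne f 0 with rfl | hf
  · simp [V.w_zero]
  obtain ⟨π, hπ⟩ := IsDiscreteValuationRing.exists_irreducible V.place.toValuationSubring
  obtain ⟨u, hu⟩ := V.place.exists_unit_mul_zpow hf hπ
  have hπ0 : (π : F) ≠ 0 := fun h => hπ.ne_zero (Subtype.ext h)
  have hu0 : ((u : V.place.toValuationSubring) : F) ≠ 0 := fun h => u.ne_zero (Subtype.ext h)
  have h1 : V.w f = V.w ((u : V.place.toValuationSubring) : F) +
      V.place.ord f * V.w (π : F) := by
    conv_lhs => rw [hu]
    rw [V.w_mul hu0 (zpow_ne_zero _ hπ0), V.w_zpow hπ0]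
  have h2 : V.w ((u : V.place.toValuationSubring) : F) = 0 := V.w_unit u
  have h3 : V.w (π : F) = V.index := V.w_irreducible hπ
  rw [h1, h2, h3, zero_add]

theorem place_ord_eq (f : F) : V.place.ord f = V.w f / V.index := by
  have hidx : (V.index : ℤ) ≠ 0 := by exact_mod_cast V.index_pos.ne'
  rw [← V.place_ord_mul_index f, Int.mul_ediv_cancel _ hidx]

theorem place_ord_pos_iff {f : F} : 0 < V.place.ord f ↔ 0 < V.w f := by
  have hidx : (0 : ℤ) < V.index := by exact_mod_cast V.index_pos
  rw [← V.place_ord_mul_index f]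
  constructor
  · intro h; positivity
  · intro h
    by_contra hneg
    rw [not_lt] at hneg
    have : V.place.ord f * V.index ≤ 0 := mul_nonpos_of_nonpos_of_nonneg hneg hidx.le
    linarith

theorem place_ord_neg_iff {f : F} : V.place.ord f < 0 ↔ V.w f < 0 := by
  have hidx : (0 : ℤ) < V.index := by exact_mod_cast V.index_pos
  rw [← V.place_ord_mul_index f]
  constructor
  · intro h; exact mul_neg_of_neg_of_pos h hidx
  · intro h
    by_contra hneg
    rw [not_lt] at hneg
    have : 0 ≤ V.place.ord f * V.index := mul_nonneg hneg hidx.le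
    linarith

/-- two `ℤ`-valued valuations give the same place iff they have the same nonnegative elements -/
theorem place_eq_iff (V V' : ZVal K F) :
    V.place = V'.place ↔ ∀ x : F, x ≠ 0 → (0 ≤ V.w x ↔ 0 ≤ V'.w x) := by
  constructor
  · intro h x hx
    have h' : V.valuationSubring = V'.valuationSubring := congrArg Place.toValuationSubring h
    have := SetLike.ext_iff.mp h' x
    rw [mem_valuationSubring_iff, mem_valuationSubring_iff] at this
    constructor
    · intro hx'; exact (this.mp (Or.inr hx')).resolve_left hx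
    · intro hx'; exact (this.mpr (Or.inr hx')).resolve_left hx
  · intro h
    apply Place.ext
    apply SetLike.ext
    intro x
    show x ∈ V.valuationSubring ↔ x ∈ V'.valuationSubring
    rw [mem_valuationSubring_iff, mem_valuationSubring_iff]
    rcases eq_or_ne x 0 with rfl | hx
    · simp
    · constructor
      · intro hx'; exact Or.inr ((h x hx).mp (hx'.resolve_left hx))
      · intro hx'; exact Or.inr ((h x hx).mpr (hx'.resolve_left hx))

/-- equal order functions give equal places -/
theorem place_eq_of_w_eq {V V' : ZVal K F} (h : ∀ x : F, x ≠ 0 → V.w x = V'.w x) :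
    V.place = V'.place :=
  (place_eq_iff V V').mpr fun x hx => by rw [h x hx]

/-- if the places are equal then the normalised orders agree -/
theorem w_mul_index_eq_of_place_eq {V V' : ZVal K F} (h : V.place = V'.place) (x : F) :
    V.w x * V'.index = V'.w x * V.index := by
  rw [← V.place_ord_mul_index x, ← V'.place_ord_mul_index x, h]; ring

/-- distinct places are separated by an element: there is `x` with `0 ≤ w x` and `w' x < 0`
or the other way round -/
theorem exists_sep_of_place_ne {V V' : ZVal K F} (h : V.place ≠ V'.place) :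
    ∃ x : F, x ≠ 0 ∧ ((0 ≤ V.w x ∧ V'.w x < 0) ∨ (V.w x < 0 ∧ 0 ≤ V'.w x)) := by
  by_contra hno
  apply h
  rw [place_eq_iff]
  intro x hx
  constructor
  · intro h1
    by_contra h2
    exact hno ⟨x, hx, Or.inl ⟨h1, not_le.mp h2⟩⟩
  · intro h1
    by_contra h2
    exact hno ⟨x, hx, Or.inr ⟨not_le.mp h2, h1⟩⟩

end ZVal

/-! ### extension from a domain to its fraction field -/

/-- a `ℤ`-valued order function on a domain `A` (to be extended to `Frac A`) -/
structure PreZVal (K A : Type*) [Field K] [CommRing A] [Algebra K A] where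
  /-- the order function -/
  w0 : A → ℤ
  w0_mul : ∀ {a b : A}, a ≠ 0 → b ≠ 0 → w0 (a * b) = w0 a + w0 b
  w0_add : ∀ {a b : A}, a ≠ 0 → b ≠ 0 → a + b ≠ 0 → min (w0 a) (w0 b) ≤ w0 (a + b)
  w0_alg : ∀ c : K, c ≠ 0 → w0 (algebraMap K A c) = 0
  nontrivial : ∃ a : A, a ≠ 0 ∧ w0 a ≠ 0

namespace PreZVal

variable {K : Type*} [Field K] {A : Type*} [CommRing A] [IsDomain A] [Algebra K A]
variable (P : PreZVal K A)
variable (F : Type*) [Field F] [Algebra K F] [Algebra A F] [IsFractionRing A F]
  [IsScalarTower K A F]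

lemma algebraMap_ne_zero {a : A} (ha : a ≠ 0) : algebraMap A F a ≠ 0 :=
  (map_ne_zero_iff _ (IsFractionRing.injective A F)).mpr ha

/-- the value of a fraction does not depend on the representation -/
lemma w0_sub_eq {a b c d : A} (ha : a ≠ 0) (hb : b ≠ 0) (hc : c ≠ 0) (hd : d ≠ 0)
    (h : algebraMap A F a / algebraMap A F b = algebraMap A F c / algebraMap A F d) :
    P.w0 a - P.w0 b = P.w0 c - P.w0 d := by
  have hb' := algebraMap_ne_zero F hb
  have hd' := algebraMap_ne_zero F hd
  rw [div_eq_div_iff hb' hd', ← map_mul, ← map_mul] at h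
  have h' : a * d = c * b := IsFractionRing.injective A F h
  have h1 := P.w0_mul ha hd
  have h2 := P.w0_mul hc hb
  rw [h'] at h1
  linarith

open Classical in
/-- the extension of `w0` to the fraction field -/
def w (x : F) : ℤ :=
  if hx : x = 0 then 0 else
    P.w0 (IsFractionRing.div_surjective (A := A) x).choose -
      P.w0 (IsFractionRing.div_surjective (A := A) x).choose_spec.choose

lemma w_zero : P.w F 0 = 0 := by simp [w]

lemma w_div {a b : A} (ha : a ≠ 0) (hb : b ≠ 0) :
    P.w F (algebraMap A F a / algebraMap A F b) = P.w0 a - P.w0 b := by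
  classical
  have hx : algebraMap A F a / algebraMap A F b ≠ 0 :=
    div_ne_zero (algebraMap_ne_zero F ha) (algebraMap_ne_zero F hb)
  rw [w, dif_neg hx]
  set c := (IsFractionRing.div_surjective (A := A) (algebraMap A F a / algebraMap A F b)).choose
  set d := (IsFractionRing.div_surjective (A := A)
    (algebraMap A F a / algebraMap A F b)).choose_spec.choose
  have hcd : algebraMap A F c / algebraMap A F d = algebraMap A F a / algebraMap A F b :=
    (IsFractionRing.div_surjective (A := A)
      (algebraMap A F a / algebraMap A F b)).choose_spec.choose_spec.2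
  have hd0 : d ≠ 0 := nonZeroDivisors.ne_zero
    (IsFractionRing.div_surjective (A := A)
      (algebraMap A F a / algebraMap A F b)).choose_spec.choose_spec.1
  have hc0 : c ≠ 0 := by
    rintro h
    rw [h, map_zero, zero_div] at hcd
    exact hx hcd.symm
  exact P.w0_sub_eq F hc0 hd0 ha hb hcd

lemma w_algebraMap {a : A} (ha : a ≠ 0) : P.w F (algebraMap A F a) = P.w0 a := by
  have h1 : P.w0 (1 : A) = 0 := by
    have := P.w0_mul (one_ne_zero (α := A)) (one_ne_zero (α := A))
    rw [mul_one] at this; linarith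
  have := P.w_div F ha (one_ne_zero (α := A))
  rw [map_one, div_one, h1, sub_zero] at this
  exact this

lemma exists_rep {x : F} (hx : x ≠ 0) :
    ∃ a b : A, a ≠ 0 ∧ b ≠ 0 ∧ x = algebraMap A F a / algebraMap A F b := by
  obtain ⟨a, b, hb, hab⟩ := IsFractionRing.div_surjective (A := A) x
  have hb0 : b ≠ 0 := nonZeroDivisors.ne_zero hb
  refine ⟨a, b, ?_, hb0, hab.symm⟩
  rintro rfl
  rw [map_zero, zero_div] at hab
  exact hx hab.symm

/-- the `ℤ`-valued valuation on the fraction field -/
def toZVal : ZVal K F where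
  w := P.w F
  w_zero := P.w_zero F
  w_mul := by
    intro x y hx hy
    obtain ⟨a, b, ha, hb, rfl⟩ := exists_rep (A := A) F hx
    obtain ⟨c, d, hc, hd, rfl⟩ := exists_rep (A := A) F hy
    have : algebraMap A F a / algebraMap A F b * (algebraMap A F c / algebraMap A F d)
        = algebraMap A F (a * c) / algebraMap A F (b * d) := by
      rw [map_mul, map_mul, div_mul_div_comm]
    rw [this, P.w_div F (mul_ne_zero ha hc) (mul_ne_zero hb hd), P.w_div F ha hb,
      P.w_div F hc hd, P.w0_mul ha hc, P.w0_mul hb hd]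
    ring
  w_add := by
    intro x y hx hy hxy
    obtain ⟨a, b, ha, hb, rfl⟩ := exists_rep (A := A) F hx
    obtain ⟨c, d, hc, hd, rfl⟩ := exists_rep (A := A) F hy
    have hb' := algebraMap_ne_zero F hb
    have hd' := algebraMap_ne_zero F hd
    have hsum : algebraMap A F a / algebraMap A F b + algebraMap A F c / algebraMap A F d
        = algebraMap A F (a * d + c * b) / algebraMap A F (b * d) := by
      rw [map_add, map_mul, map_mul, map_mul, div_add_div _ _ hb' hd']
      ring
    have hnum : a * d + c * b ≠ 0 := by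
      intro h
      rw [hsum, h, map_zero, zero_div] at hxy
      exact hxy rfl
    rw [hsum, P.w_div F hnum (mul_ne_zero hb hd), P.w_div F ha hb, P.w_div F hc hd,
      P.w0_mul hb hd]
    have h1 := P.w0_add (mul_ne_zero ha hd) (mul_ne_zero hc hb) hnum
    rw [P.w0_mul ha hd, P.w0_mul hc hb] at h1
    have h2 : min (P.w0 a - P.w0 b) (P.w0 c - P.w0 d) + (P.w0 b + P.w0 d)
        = min (P.w0 a + P.w0 d) (P.w0 c + P.w0 b) := by
      rw [← min_add_add_right]; congr 1 <;> ring
    linarith
  w_alg := by
    intro c hc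
    have hc' : algebraMap K A c ≠ 0 := by
      intro h
      have : algebraMap K F c = 0 := by
        rw [IsScalarTower.algebraMap_apply K A F, h, map_zero]
      exact hc ((map_eq_zero _).mp this)
    rw [IsScalarTower.algebraMap_apply K A F, P.w_algebraMap F hc', P.w0_alg c hc]
  nontrivial := by
    obtain ⟨a, ha, hw⟩ := P.nontrivial
    exact ⟨algebraMap A F a, algebraMap_ne_zero F ha, by rw [P.w_algebraMap F ha]; exact hw⟩

@[simp] lemma toZVal_w_algebraMap {a : A} (ha : a ≠ 0) :
    (P.toZVal F).w (algebraMap A F a) = P.w0 a := P.w_algebraMap F ha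

lemma toZVal_w_div {a b : A} (ha : a ≠ 0) (hb : b ≠ 0) :
    (P.toZVal F).w (algebraMap A F a / algebraMap A F b) = P.w0 a - P.w0 b := P.w_div F ha hb

end PreZVal

end Fermat.Agent.S24
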